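import Fermat.Agent.TWCoh.Chars

/-!
# The action of the Hecke algebra of cusp forms on symbols with characters
-/

set_option autoImplicit false

noncomputable section

namespace Fermat.Agent.TWCoh

open Matrix CongruenceSubgroup Fermat.Agent.AnJac MvPolynomial
open scoped MatrixGroups OnePoint

/-- restriction of the index set -/
def inclPS {S S' : Set ℕ} (h : S ⊆ S') (l : PS S') : PS S := ⟨l.1, l.2.1, fun h' => l.2.2 (h h')⟩

section Formal

variable {Λ : Type} [CommRing Λ] (ψ : ∀ q : ℕ, DirichletCharacter Λ q) (s : Finset ℕ)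
  {S S' : Set ℕ} (hSS : S ⊆ S')

/-- the twisted operators as formal polynomials -/
def twp : HA Λ S' →ₐ[Λ] HA Λ S := aeval fun l : PS S' => C (ws ψ s l.1) * X (inclPS hSS l)

theorem twp_X (l : PS S') : twp ψ s hSS (X l) = C (ws ψ s l.1) * X (inclPS hSS l) := by
  rw [twp, aeval_X]

variable (Λ S') in
/-- noncommutative integral polynomials as commutative polynomials -/
def fp : FreeAlgebra ℤ (PS S') →ₐ[ℤ] HA Λ S' := FreeAlgebra.lift ℤ fun l : PS S' => (X l : HA Λ S')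

theorem fp_ι (l : PS S') : fp Λ S' (FreeAlgebra.ι ℤ l) = X l := FreeAlgebra.lift_ι_apply _ _

variable {c N : ℕ} {hc : c ∣ N} {ψ s hSS}

theorem ws_opr (hs : ∀ q ∈ s, q ∣ c) {l : ℕ} (hl : l.Prime) (hlN : ¬ l ∣ N)
    (φ : MS hc (dch ψ s c) Λ) : (ws ψ s l • opr hc (dch ψ s c) Λ hl φ).1 =
      tk (ws ψ s l) (ws' ψ s l) Λ l hl.ne_zero φ.1 := by
  show ws ψ s l • hk (dch ψ s c) Λ P1 N l hl.ne_zero φ.1 = _
  rw [hk_of_not_dvd _ hlN, tk_apply, smul_add, smul_smul, ws_mul_inv hs (char_q hl hlN hc)]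

theorem fp_smul (hs : ∀ q ∈ s, q ∣ c) (hN : ∀ l : PS S', ¬ l.1 ∣ N) (P : FreeAlgebra ℤ (PS S'))
    (φ : MS hc (dch ψ s c) Λ) : (twp ψ s hSS (fp Λ S' P) • φ).1 =
      opF Λ (fun l : PS S' => l.1) (fun l => l.2.1) (fun l => ws ψ s l.1)
        (fun l => ws' ψ s l.1) P φ.1 := by
  induction P using FreeAlgebra.induction generalizing φ with
  | grade0 n =>
    rw [AlgHom.commutes, AlgHom.commutes, eq_intCast, eq_intCast, map_intCast]
    have h1 : ((n : HA Λ S) • φ) = (n : ℤ) • φ := by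
      rw [← Int.cast_smul_eq_zsmul (HA Λ S)]
    rw [h1]
    rfl
  | grade1 l =>
    rw [fp_ι, twp_X, mul_smul, C_smul, X_smul, opF_ι]
    exact ws_opr hs l.2.1 (hN l) φ
  | mul P Q hP hQ =>
    rw [map_mul, map_mul, mul_smul, hP, hQ, map_mul]
    rfl
  | add P Q hP hQ =>
    rw [map_add, map_add, add_smul, map_add, LinearMap.add_apply, ← hP, ← hQ]
    rfl

theorem MS.cf (hs : ∀ q ∈ s, q ∣ c) (φ : MS hc (dch ψ s c) Λ) : CF (chs ψ s) N φ.1 where
  add := Sy.add' φ.2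
  equi γ hγ x y := by
    rw [Sy.equi φ.2 hγ, dch_apply hs (isUnit_00 hγ hc)]

end Formal

section Kill

variable {Λ : Type} [CommRing Λ] {ψ : ∀ q : ℕ, DirichletCharacter Λ q} {s : Finset ℕ}
  {S S' : Set ℕ} {hSS : S ⊆ S'} {c N : ℕ} {hc : c ∣ N}
  {K : Type*} [Field K] [CharZero K] {I : Type*} (κ : I → Λ →+* K)

/-- the conditions on the level, the characters and the set of primes -/
structure Dat (ψ : ∀ q : ℕ, DirichletCharacter Λ q) (s : Finset ℕ) (c N N' : ℕ) (S' : Set ℕ) :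
    Prop where
  pr : ∀ q ∈ s, q.Prime
  dvd_c : ∀ q ∈ s, q ∣ c
  exact' : ∀ q ∈ s, ∃ N1, N = q * N1 ∧ ¬ q ∣ N1
  odd : ∀ q ∈ s, ∃ n : ℕ, Odd n ∧ ψ q ^ n = 1
  level : N * ∏ q ∈ s, q ∣ N'
  avoid : ∀ l : PS S', ¬ l.1 ∣ N'

omit [CharZero K] in
theorem odd_char {q n : ℕ} (hn : Odd n) {χ : DirichletCharacter K q} (h : χ ^ n = 1) :
    χ = 1 ∨ χ ^ 2 ≠ 1 := by
  by_cases h2 : χ ^ 2 = 1
  · left
    obtain ⟨m, rfl⟩ := hn
    rwa [pow_succ, pow_mul, h2, one_pow, one_mul] at h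
  · exact Or.inr h2

variable {κ}

theorem rel_kill {N' : ℕ} [NeZero N'] (hd : Dat ψ s c N N' S') (hκ : ∀ x, (∀ i, κ i x = 0) → x = 0)
    {P : FreeAlgebra ℤ (PS S')}
    (hP : actS N' (reP (fun l : PS S' => l.1) (fun l => l.2.1) P) = 0)
    {m : Ideal (HA Λ S)} {l₀ : PS S} (hl₀ : (N' : ℤ) ∣ l₀.1 - 1)
    (hm : (X l₀ - C (1 + (l₀.1 : Λ)) : HA Λ S) ∉ m) {φ : MS hc (dch ψ s c) Λ}
    (hφ : φ ∈ loc m (MS hc (dch ψ s c) Λ)) : twp ψ s hSS (fp Λ S' P) • φ = 0 := by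
  have hNN' : N ∣ N' := (Dvd.intro _ rfl).trans hd.level
  have hN : ∀ l : PS S', ¬ l.1 ∣ N := fun l h => hd.avoid l (h.trans hNN')
  have key : ∀ φ' : MS hc (dch ψ s c) Λ, (X l₀ - C (1 + (l₀.1 : Λ)) : HA Λ S) •
      (twp ψ s hSS (fp Λ S' P) • φ') = 0 := by
    intro φ'
    set Y := twp ψ s hSS (fp Λ S' P) • φ' with hY
    have hlN : ¬ l₀.1 ∣ N := by
      intro h0
      have h2 : (l₀.1 : ℤ) ∣ l₀.1 - 1 := dvd_trans (by exact_mod_cast h0.trans hNN') hl₀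
      have h3 : (l₀.1 : ℤ) ∣ 1 := by
        have := dvd_sub (dvd_refl (l₀.1 : ℤ)) h2
        simpa using this
      exact l₀.2.1.one_lt.ne' (Nat.dvd_one.1 (by exact_mod_cast h3))
    have hc1 : ((l₀.1 : ℕ) : ZMod c) = 1 := by
      have := (ZMod.intCast_zmod_eq_zero_iff_dvd _ c).2
        ((Int.natCast_dvd_natCast.2 (hc.trans hNN')).trans hl₀)
      push_cast at this
      exact sub_eq_zero.1 this
    have h1 : tk (1 : Λ) 1 Λ l₀.1 l₀.2.1.ne_zero Y.1 = (1 + (l₀.1 : Λ)) • Y.1 := by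
      funext x y
      rw [← sub_eq_zero]
      apply hκ
      intro i
      rw [map_sub, sub_eq_zero]
      have h2 := relation (K := K) (A := K) (ht := fun l : PS S' => l.2.1) hd.avoid hP l₀.2.1 hl₀
        (cmp (κ i) ψ) s N (fun x y => κ i (φ'.1 x y)) hd.pr hd.exact' (fun q hq => by
          obtain ⟨n, hn, hψ⟩ := hd.odd q hq
          refine odd_char hn ?_
          rw [cmp, MulChar.ringHomComp_pow, hψ, MulChar.ringHomComp_one]) hd.level (by
          have := (MS.cf hd.dvd_c φ').comp (κ := κ i)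
          refine ⟨this.add, fun γ hγ x y => ?_⟩
          rw [this.equi γ hγ, chs_cmp])
      simp only [ws_cmp, ws'_cmp] at h2
      rw [opF_comp, ← fp_smul (hSS := hSS) hd.dvd_c hN P φ', ← hY] at h2
      have h3 := tk_comp (κ := κ i) 1 1 l₀.2.1.ne_zero Y.1
      rw [map_one] at h3
      rw [h3] at h2
      have h4 := congrFun (congrFun h2 x) y
      rw [h4]
      show (1 + (l₀.1 : K)) * κ i (Y.1 x y) = κ i ((1 + (l₀.1 : Λ)) * Y.1 x y)
      rw [map_mul, map_add, map_one, map_natCast]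
    rw [sub_smul, C_smul, X_smul, sub_eq_zero]
    apply Subtype.ext
    refine Eq.trans ?_ h1
    show hk (dch ψ s c) Λ P1 N l₀.1 l₀.2.1.ne_zero Y.1 = _
    rw [hk_of_not_dvd _ hlN, tk_apply, hc1, map_one, one_smul, one_smul]
  obtain ⟨φ', hφ'⟩ := mem_loc.1 hφ _ hm
  rw [← hφ', smul_comm, key]

end Kill

/-! ### Homomorphisms from the Hecke algebra -/

section Hom

variable {N' : ℕ} [NeZero N'] {S' : Set ℕ}

/-- the generators -/
def gT (hd : ∀ l : PS S', ¬ l.1 ∣ N') (l : PS S') : CuspForm.heckeAlgebra N' 2 S' :=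
  CuspForm.heckeAlgebra.T l.2.1 (hd l) l.2.2

theorem lift_gT (hd : ∀ l : PS S', ¬ l.1 ∣ N') (P : FreeAlgebra ℤ (PS S')) :
    ((FreeAlgebra.lift ℤ (gT hd) P : CuspForm.heckeAlgebra N' 2 S') :
      Module.End ℂ (CuspForm (Gamma0 N') 2)) =
      actS N' (reP (fun l : PS S' => l.1) (fun l => l.2.1) P) := by
  have h : (CuspForm.heckeAlgebra N' 2 S').val.comp (FreeAlgebra.lift ℤ (gT hd)) =
      (actS N').comp (reP (fun l : PS S' => l.1) (fun l => l.2.1)) := by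
    apply FreeAlgebra.hom_ext
    funext l
    simp only [Function.comp_apply, AlgHom.comp_apply, FreeAlgebra.lift_ι_apply, reP_ι]
    rw [actS_ι, DSLift.heckeOp_of_not_dvd _ (hd l)]
    rfl
  exact DFunLike.congr_fun h P

theorem lift_gT_surjective (hd : ∀ l : PS S', ¬ l.1 ∣ N') (hS : ∀ l : ℕ, l.Prime → l ∣ N' → l ∈ S') :
    Function.Surjective (FreeAlgebra.lift ℤ (gT hd)) := by
  intro x
  obtain ⟨x, hx⟩ := x
  suffices h : ∃ P : FreeAlgebra ℤ (PS S'), ((FreeAlgebra.lift ℤ (gT hd) P :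
      CuspForm.heckeAlgebra N' 2 S') : Module.End ℂ (CuspForm (Gamma0 N') 2)) = x by
    obtain ⟨P, hP⟩ := h
    exact ⟨P, Subtype.ext hP⟩
  induction hx using Algebra.adjoin_induction with
  | mem y hy =>
    rcases hy with ⟨l, hl, hlN, hlS, rfl⟩ | ⟨q, hqN, hq, hqS, rfl⟩
    · exact ⟨FreeAlgebra.ι ℤ ⟨l, hl, hlS⟩, by rw [FreeAlgebra.lift_ι_apply]; rfl⟩
    · exact absurd (hS q hq hqN) hqS
  | algebraMap r => exact ⟨algebraMap ℤ _ r, by rw [AlgHom.commutes]; rfl⟩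
  | add x y _ _ hx hy =>
    obtain ⟨P, rfl⟩ := hx
    obtain ⟨Q, rfl⟩ := hy
    exact ⟨P + Q, by rw [map_add]; rfl⟩
  | mul x y _ _ hx hy =>
    obtain ⟨P, rfl⟩ := hx
    obtain ⟨Q, rfl⟩ := hy
    exact ⟨P * Q, by rw [map_mul]; rfl⟩

theorem lift_eq_fp {Λ : Type} [CommRing Λ] {R : Type*} [Ring R] (q : HA Λ S' →+* R)
    (f : PS S' → R) (hf : ∀ l, f l = q (X l)) (P : FreeAlgebra ℤ (PS S')) :
    FreeAlgebra.lift ℤ f P = q (fp Λ S' P) := by
  induction P using FreeAlgebra.induction with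
  | grade0 n =>
    rw [AlgHom.commutes, AlgHom.commutes, eq_intCast, eq_intCast, map_intCast]
  | grade1 l => rw [FreeAlgebra.lift_ι_apply, fp_ι, hf]
  | mul P Q hP hQ => rw [map_mul, map_mul, hP, hQ, map_mul]
  | add P Q hP hQ => rw [map_add, map_add, hP, hQ, map_add]

/-- **Homomorphisms from the Hecke algebra.** -/
theorem exists_heckeHom (hd : ∀ l : PS S', ¬ l.1 ∣ N') (hS : ∀ l : ℕ, l.Prime → l ∣ N' → l ∈ S')
    {R : Type*} [Ring R] (f : PS S' → R)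
    (hf : ∀ P : FreeAlgebra ℤ (PS S'),
      actS N' (reP (fun l : PS S' => l.1) (fun l => l.2.1) P) = 0 → FreeAlgebra.lift ℤ f P = 0) :
    ∃ g : CuspForm.heckeAlgebra N' 2 S' →+* R, ∀ l : PS S', g (gT hd l) = f l := by
  set F : FreeAlgebra ℤ (PS S') →+* CuspForm.heckeAlgebra N' 2 S' :=
    (FreeAlgebra.lift ℤ (gT hd)).toRingHom with hF
  set G : FreeAlgebra ℤ (PS S') →+* R := (FreeAlgebra.lift ℤ f).toRingHom with hG
  have hsurj : Function.Surjective F := lift_gT_surjective hd hS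
  have hker : RingHom.ker F ≤ RingHom.ker G := by
    intro P hP
    rw [RingHom.mem_ker] at hP ⊢
    apply hf
    rw [← lift_gT hd]
    exact congrArg Subtype.val hP
  refine ⟨RingHom.liftOfRightInverse F (Function.surjInv hsurj)
    (Function.rightInverse_surjInv hsurj) ⟨G, hker⟩, fun l => ?_⟩
  have h1 := RingHom.liftOfRightInverse_comp_apply F (Function.surjInv hsurj)
    (Function.rightInverse_surjInv hsurj) ⟨G, hker⟩ (FreeAlgebra.ι ℤ l)
  have h2 : F (FreeAlgebra.ι ℤ l) = gT hd l := FreeAlgebra.lift_ι_apply _ _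
  rw [h2] at h1
  rw [h1]
  exact FreeAlgebra.lift_ι_apply _ _

end Hom

end Fermat.Agent.TWCoh
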