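import Fermat.Agent.TWCoh.GamH

/-!
# Classes on `Γ_H` from the points of the Hecke algebra
-/

set_option autoImplicit false

noncomputable section

namespace Fermat.Agent.TWCoh

open Matrix CongruenceSubgroup MvPolynomial Fermat.Agent.AnJac Fermat.Agent.AnJacH
open scoped MatrixGroups OnePoint

section Descent

variable {Γ : Type*} [Group Γ] {D K : Type*} [CommRing D] [IsDomain D] [Field K] [Algebra D K]

/-- a nonzero homomorphism to a field, finitely generated source: nonzero homomorphism to a domain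
obtained from a linear functional -/
theorem exists_descent [Group.FG Γ] (hinj : Function.Injective (algebraMap D K))
    (v : Additive Γ →+ K) (hv : v ≠ 0) :
    ∃ (f : K →ₗ[D] FractionRing D) (w : Additive Γ →+ D), w ≠ 0 ∧
      ∀ γ, algebraMap D (FractionRing D) (w γ) = f (v γ) := by
  classical
  let E := FractionRing D
  letI : Algebra E K := (IsFractionRing.lift hinj : E →+* K).toAlgebra
  haveI : IsScalarTower D E K := IsScalarTower.of_algebraMap_eq fun x =>
    (IsFractionRing.lift_algebraMap hinj x).symm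
  obtain ⟨γ₀, hγ₀⟩ : ∃ γ, v γ ≠ 0 := by
    by_contra h
    push Not at h
    exact hv (AddMonoidHom.ext h)
  obtain ⟨f₀, hf₀⟩ := Module.Projective.exists_dual_ne_zero E hγ₀
  -- denominators
  obtain ⟨S, hS⟩ := Group.FG.out (G := Γ)
  obtain ⟨b, hb⟩ := IsLocalization.exist_integer_multiples (nonZeroDivisors D) S
    (fun γ => f₀ (v (Additive.ofMul γ)))
  let f : K →ₗ[D] E := (b : D) • (f₀.restrictScalars D)
  have hf : ∀ x, f x = (b : D) • f₀ x := fun x => rfl
  have hrange : ∀ γ : Γ, f (v (Additive.ofMul γ)) ∈ (algebraMap D E).range := by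
    intro γ
    have hγ : γ ∈ Subgroup.closure (S : Set Γ) := by rw [hS]; trivial
    induction hγ using Subgroup.closure_induction with
    | mem x hx =>
      obtain ⟨y, hy⟩ := hb x hx
      exact ⟨y, hy⟩
    | one => rw [ofMul_one, map_zero, map_zero]; exact zero_mem _
    | mul x y _ _ hx hy => rw [ofMul_mul, map_add, map_add]; exact add_mem hx hy
    | inv x _ hx => rw [ofMul_inv, map_neg, map_neg]; exact neg_mem hx
  have hinjE : Function.Injective (algebraMap D E) := IsFractionRing.injective D E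
  choose w hw using hrange
  have hw' : ∀ γ : Additive Γ, algebraMap D E (w (Additive.toMul γ)) = f (v γ) := fun γ => hw _
  refine ⟨f, ⟨⟨fun γ => w (Additive.toMul γ), ?_⟩, ?_⟩, ?_, hw'⟩
  · apply hinjE
    rw [hw', map_zero, map_zero, map_zero]
  · intro γ δ
    apply hinjE
    rw [map_add]
    show algebraMap D E (w (Additive.toMul (γ + δ))) = algebraMap D E (w (Additive.toMul γ)) +
      algebraMap D E (w (Additive.toMul δ))
    rw [hw', hw', hw', map_add, map_add]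
  · intro h0
    have h1 : algebraMap D E (w (Additive.toMul γ₀)) = 0 := by
      have : w (Additive.toMul γ₀) = 0 := DFunLike.congr_fun h0 γ₀
      rw [this, map_zero]
    rw [hw', hf, Algebra.smul_def, mul_eq_zero] at h1
    rcases h1 with h1 | h1
    · rw [← map_zero (algebraMap D E)] at h1
      exact nonZeroDivisors.coe_ne_zero b (hinjE h1)
    · exact hf₀ h1

end Descent

section Group

variable {M c : ℕ} {hc : c ∣ M} {H₀ : Subgroup (ZMod c)ˣ}

theorem fg_GH [NeZero M] [NeZero c] : Group.FG (GH M c hc H₀) := by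
  have h1 : (H₀.comap (dM M c hc)).FiniteIndex := by
    constructor
    rw [Subgroup.index_comap]
    exact Subgroup.FiniteIndex.index_ne_zero
  have h2 : (GH M c hc H₀).subgroupOf (Gamma0 M) = H₀.comap (dM M c hc) := by
    ext γ
    rw [Subgroup.mem_subgroupOf, mem_GH', Subgroup.mem_comap]
  have h3 : (GH M c hc H₀).relIndex (Gamma0 M) ≠ 0 := by
    rw [Subgroup.relIndex, h2]
    exact h1.index_ne_zero
  have h4 : (Gamma0 M).index ≠ 0 := Subgroup.FiniteIndex.index_ne_zero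
  have h5 : (GH M c hc H₀).index ≠ 0 := by
    rw [← Subgroup.relIndex_mul_index (GH_le (H₀ := H₀))]
    exact mul_ne_zero h3 h4
  have : (GH M c hc H₀).FiniteIndex := ⟨h5⟩
  exact Subgroup.fg_of_index_ne_zero _

/-- admissibility -/
theorem adm_of_twelve [NeZero c] (hsq : Squarefree c) (hH : ∀ u : (ZMod c)ˣ, u ^ 12 = 1 → u ∈ H₀) :
    Adm M (GH M c hc H₀) := by
  refine adm_GH fun γ hγ => hH _ ?_
  set u := dM M c hc γ with hu
  set t : ℤ := (γ : SL(2, ℤ)) 0 0 + (γ : SL(2, ℤ)) 1 1 with ht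
  have h3 : (((γ : SL(2, ℤ)) 1 0 : ℤ) : ZMod c) = 0 := (ZMod.intCast_zmod_eq_zero_iff_dvd _ _).2
    (dvd_trans (by exact_mod_cast hc) (mem_Gamma0.1 γ.2))
  have h4 := congrArg (fun t : ℤ => (t : ZMod c)) (det_SL (γ : SL(2, ℤ)))
  push_cast at h4
  rw [h3, mul_zero, sub_zero] at h4
  have hd : (u : ZMod c) = ((γ : SL(2, ℤ)) 1 1 : ℤ) := coe_dM _ _ _ _
  have h5 : (u : ZMod c) ^ 2 - t * u + 1 = 0 := by
    rw [hd, ht]
    push_cast
    linear_combination -h4
  have htb : t = 0 ∨ t = 1 ∨ t = -1 ∨ t = 2 ∨ t = -2 := by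
    rw [abs_le] at hγ
    obtain ⟨h1, h2⟩ := hγ
    interval_cases t <;> simp
  have hred : ∀ x : ZMod c, x ^ 2 = 0 → x = 0 := by
    intro x hx
    have hcc : ((x.val : ℕ) : ZMod c) = x := ZMod.natCast_zmod_val x
    rw [← hcc, ← Nat.cast_pow, ZMod.natCast_eq_zero_iff] at hx
    have := (hsq.dvd_pow_iff_dvd (two_ne_zero)).1 hx
    rw [← hcc, ZMod.natCast_eq_zero_iff]
    exact this
  apply Units.ext
  rw [Units.val_pow_eq_pow_val, Units.val_one]
  rcases htb with h | h | h | h | h <;> rw [h] at h5 <;> push_cast at h5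
  · have e : (u : ZMod c) ^ 2 = -1 := by linear_combination h5
    calc (u : ZMod c) ^ 12 = ((u : ZMod c) ^ 2) ^ 6 := by ring
      _ = 1 := by rw [e]; ring
  · have e : (u : ZMod c) ^ 3 = -1 := by linear_combination ((u : ZMod c) + 1) * h5
    calc (u : ZMod c) ^ 12 = ((u : ZMod c) ^ 3) ^ 4 := by ring
      _ = 1 := by rw [e]; ring
  · have e : (u : ZMod c) ^ 3 = 1 := by linear_combination ((u : ZMod c) - 1) * h5
    calc (u : ZMod c) ^ 12 = ((u : ZMod c) ^ 3) ^ 4 := by ring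
      _ = 1 := by rw [e]; ring
  · have e : (u : ZMod c) = 1 := by
      have := hred ((u : ZMod c) - 1) (by linear_combination h5)
      linear_combination this
    rw [e, one_pow]
  · have e : (u : ZMod c) = -1 := by
      have := hred ((u : ZMod c) + 1) (by linear_combination h5)
      linear_combination this
    rw [e]
    ring

end Group

section Point

variable {O k Λ : Type} [CommRing O] [Field k] [Algebra O k] [CommRing Λ] [Algebra Λ k]
    {ε : Λ →+* O} {lam : Λ} {p N N'' : ℕ} {S : Set ℕ} {Q : Finset (PS S)} {I : Finset ℕ}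
    {τ α β : PS S → k} {ψ₁ ψ₂ : ∀ q : ℕ, DirichletCharacter Λ q}
    [NeZero N] [IsLocalRing Λ] [IsNoetherianRing Λ]
    [IsAdicComplete (IsLocalRing.maximalIdeal Λ) Λ]

omit [NeZero N] [IsLocalRing Λ] [IsNoetherianRing Λ]
    [IsAdicComplete (IsLocalRing.maximalIdeal Λ) Λ] in
theorem EPt.nontrivial {h : PCond ε lam p N N'' Q I τ α β ψ₁ ψ₂}
    {ψ : ∀ q : ℕ, DirichletCharacter Λ q} {K : Type} [Field K] {κ : Λ →+* K} (e : EPt h ψ K κ) :
    Nontrivial (MQ (N := N) (I := I) τ α h.cdr_dvd ψ) := by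
  by_contra hcon
  rw [not_nontrivial_iff_subsingleton] at hcon
  have h1 : (1 : FN h ψ) = 0 := by
    refine Ideal.Quotient.eq_zero_iff_mem.2 (Module.mem_annihilator.2 fun x => ?_)
    exact hcon.elim _ _
  have h2 := congrArg e.y h1
  rw [map_one, map_zero] at h2
  exact one_ne_zero h2

/-- the point is not Eisenstein -/
theorem EPt.ne_eis {h : PCond ε lam p N N'' Q I τ α β ψ₁ ψ₂}
    {ψ : ∀ q : ℕ, DirichletCharacter Λ q} {K : Type} [Field K] {κ : Λ →+* K} (e : EPt h ψ K κ)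
    {l₀ : PS S} (hl₀ : (N'' : ℤ) ∣ l₀.1 - 1) (hτ : τ l₀ ≠ 1 + (l₀.1 : k)) :
    e.y (FN.X h ψ l₀) ≠ 1 + (l₀.1 : K) := by
  have hnt := e.nontrivial
  have hloc := isLocalRing_FN h ψ
  have hl₀N : ¬ l₀.1 ∣ N'' := by
    intro h1
    have h2 : (l₀.1 : ℤ) ∣ l₀.1 - 1 := dvd_trans (by exact_mod_cast h1) hl₀
    have h3 : (l₀.1 : ℤ) ∣ 1 := by
      have := dvd_sub (dvd_refl (l₀.1 : ℤ)) h2
      simpa using this
    exact l₀.2.1.one_lt.ne' (Nat.dvd_one.1 (by exact_mod_cast h3))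
  have hl₀Q : l₀ ∉ Q := by
    intro h1
    apply hl₀N
    refine dvd_trans ?_ h.lvl_dvd
    exact (Finset.dvd_prod_of_mem (fun q : PS S => q.1) h1).trans (dvd_mul_left _ _)
  have h1 : resFN h ψ (FN.X h ψ l₀ - (1 + (l₀.1 : FN h ψ))) ≠ 0 := by
    rw [map_sub, resFN_X, map_add, map_one, map_natCast, modE, if_neg hl₀Q, sub_ne_zero]
    exact hτ
  have h2 : IsUnit (FN.X h ψ l₀ - (1 + (l₀.1 : FN h ψ))) := by
    by_contra hu
    have hmem : FN.X h ψ l₀ - (1 + (l₀.1 : FN h ψ)) ∈ IsLocalRing.maximalIdeal (FN h ψ) := hu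
    have hk : RingHom.ker (resFN h ψ) = IsLocalRing.maximalIdeal (FN h ψ) := by
      refine IsLocalRing.eq_maximalIdeal (RingHom.ker_isMaximal_of_surjective _ fun x => ?_)
      obtain ⟨r, rfl⟩ := h.hΛk x
      exact ⟨algebraMap Λ _ r, resFN_algebraMap h ψ r⟩
    rw [← hk] at hmem
    exact h1 hmem
  have h3 := h2.map e.y
  rw [map_sub, map_add, map_one, map_natCast] at h3
  exact sub_ne_zero.1 h3.ne_zero

/-- **Classes on `Γ_H`.** -/
theorem EPt.exists_class {h : PCond ε lam p N N'' Q I τ α β ψ₁ ψ₂}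
    {ψ : ∀ q : ℕ, DirichletCharacter Λ q} {K : Type} [Field K] [CharZero K] {κ : Λ →+* K}
    (e : EPt h ψ K κ) [NeZero (lvl N Q)] [NeZero (cdr Q I)]
    {H₀ : Subgroup (ZMod (cdr Q I))ˣ}
    (hH : ∀ u ∈ H₀, κ (dch ψ (allP Q I) (cdr Q I) (u : ZMod (cdr Q I))) = 1)
    {D : Type*} [CommRing D] [IsDomain D] [Algebra D K]
    (hinj : Function.Injective (algebraMap D K)) (yD : FN h ψ →+* D)
    (hyD : ∀ x, algebraMap D K (yD x) = e.y x) :
    ∃ v : Additive (GH (lvl N Q) (cdr Q I) h.cdr_dvd H₀) →+ D,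
      v ∈ NHA (GH (lvl N Q) (cdr Q I) h.cdr_dvd H₀) D ∧ v ≠ 0 ∧
      (∀ g ∈ Gamma0 (lvl N Q), ∀ γ γ' : GH (lvl N Q) (cdr Q I) h.cdr_dvd H₀,
        (γ' : SL(2, ℤ)) = g * γ * g⁻¹ → v (Additive.ofMul γ') =
          yD (algebraMap Λ _ (dch ψ (allP Q I) (cdr Q I) ((g 0 0 : ℤ) : ZMod (cdr Q I)))) *
            v (Additive.ofMul γ)) ∧
      (∀ (l : PS S) (hl : Fact l.1.Prime) (hlN : ¬ l.1 ∣ lvl N Q) (g : Gamma0 (lvl N Q))
        (hg : ((dM (lvl N Q) (cdr Q I) h.cdr_dvd g : (ZMod (cdr Q I))ˣ) : ZMod (cdr Q I)) = l.1),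
        (hfTG (lvl N Q) (cdr Q I) h.cdr_dvd H₀ l.1 hlN g hg).T v = yD (FN.X h ψ l) • v) ∧
      (∀ (q : PS S) (hq : NeZero q.1) (hqN : q.1 ∣ lvl N Q),
        (hfUG (lvl N Q) (cdr Q I) h.cdr_dvd H₀ q.1 hqN).T v = yD (FN.X h ψ q) • v) := by
  have hG : GS (GH (lvl N Q) (cdr Q I) h.cdr_dvd H₀) e.φ.1 := gs_of_sy hH e.φ.2
  have hFG : Group.FG (GH (lvl N Q) (cdr Q I) h.cdr_dvd H₀) := fg_GH
  have heig : ∀ (l : PS S), hk ((dch ψ (allP Q I) (cdr Q I)).ringHomComp κ) K P1 (lvl N Q) l.1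
      l.2.1.ne_zero e.φ.1 = e.y (FN.X h ψ l) • e.φ.1 := by
    intro l
    have h1 := congrArg Subtype.val (e.eigen l)
    rw [X_smul] at h1
    exact h1
  have hv0 : hmG hG ≠ 0 := by
    intro h0
    obtain ⟨l₀, hl₀, hτ⟩ := h.noneis
    have h1 := hk_of_hmG_zero e.φ.2 hG h0 l₀.2.1
      ((Int.natCast_dvd_natCast.2 h.lvl_dvd).trans hl₀)
    rw [heig l₀, ← sub_eq_zero, ← sub_smul, smul_eq_zero] at h1
    rcases h1 with h1 | h1
    · exact e.ne_eis hl₀ hτ (sub_eq_zero.1 h1)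
    · exact e.ne_zero (Subtype.ext h1)
  obtain ⟨f, w, hw0, hw⟩ := exists_descent hinj (hmG hG) hv0
  have hE : Function.Injective (algebraMap D (FractionRing D)) := IsFractionRing.injective D _
  have hf : ∀ (t : FN h ψ) (x : K), f (e.y t * x) = algebraMap D _ (yD t) * f x := by
    intro t x
    rw [← hyD, ← Algebra.smul_def, map_smul, Algebra.smul_def]
  refine ⟨w, ?_, hw0, ?_, ?_, ?_⟩
  · intro γ hγ
    apply hE
    rw [hw, hmG_mem_NHA hG γ hγ, map_zero, map_zero]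
  · intro g hg γ γ' e1
    apply hE
    rw [hw, hmG_conj e.φ.2 hG hg e1, map_mul, hw, ← hf, e.y_algebraMap]
    rfl
  · intro l hl hlN g hg
    refine AddMonoidHom.ext fun γ => ?_
    apply hE
    have h1 := T_hmG e.φ.2 hG l.1 hlN g hg (Additive.toMul γ)
    rw [heig l, HF.T_apply] at h1
    have h2 : (hfTG (lvl N Q) (cdr Q I) h.cdr_dvd H₀ l.1 hlN g hg).T w
        (Additive.ofMul (Additive.toMul γ)) = yD (FN.X h ψ l) * w γ := by
      apply hE
      rw [HF.T_apply, map_sum, map_mul, hw, ← hf]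
      simp only [hw]
      rw [← map_sum, h1]
      rfl
    exact congrArg _ h2
  · intro q hq hqN
    refine AddMonoidHom.ext fun γ => ?_
    have h1 := U_hmG (θ := (dch ψ (allP Q I) (cdr Q I)).ringHomComp κ) hG q.1 hqN
      (Additive.toMul γ)
    rw [heig q, HF.T_apply] at h1
    have h2 : (hfUG (lvl N Q) (cdr Q I) h.cdr_dvd H₀ q.1 hqN).T w
        (Additive.ofMul (Additive.toMul γ)) = yD (FN.X h ψ q) * w γ := by
      apply hE
      rw [HF.T_apply, map_sum, map_mul, hw, ← hf]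
      simp only [hw]
      rw [← map_sum, h1]
      rfl
    exact h2

end Point

end Fermat.Agent.TWCoh
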