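import Mathlib
import Fermat.Agent.TWPatch.Group

/-!
# Diamond characters
-/

set_option autoImplicit false

noncomputable section

namespace Fermat.Agent.TWCoh

open TWPatch

/-- discrete logarithms modulo `q` -/
theorem exists_dlog {q m : ℕ} (hq : q.Prime) (hm : m ≠ 0) (hqm : m ∣ q - 1) :
    ∃ f : (ZMod q)ˣ →* Multiplicative (ZMod m), Function.Surjective f := by
  haveI : Fact q.Prime := ⟨hq⟩
  haveI : NeZero m := ⟨hm⟩
  have hcyc : IsCyclic (ZMod q)ˣ := inferInstance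
  obtain ⟨g, hg⟩ := hcyc.exists_generator
  have hord : orderOf g = q - 1 := by
    rw [orderOf_eq_card_of_forall_mem_zpowers hg, Nat.card_eq_fintype_card, ZMod.card_units]
  have hk : ∀ x : (ZMod q)ˣ, ∃ k : ℤ, g ^ k = x := fun x => Subgroup.mem_zpowers_iff.1 (hg x)
  choose k hk' using hk
  have hwd : ∀ a b : ℤ, g ^ a = g ^ b → ((a : ℤ) : ZMod m) = b := by
    intro a b hab
    have h1 : g ^ (a - b) = 1 := by rw [zpow_sub, hab, mul_inv_cancel]
    have h2 : ((q - 1 : ℕ) : ℤ) ∣ a - b := by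
      rw [← hord]; exact orderOf_dvd_iff_zpow_eq_one.2 h1
    have h3 : ((m : ℕ) : ℤ) ∣ a - b := (Int.natCast_dvd_natCast.2 hqm).trans h2
    have h4 := (ZMod.intCast_zmod_eq_zero_iff_dvd (a - b) m).2 h3
    rw [Int.cast_sub] at h4
    exact sub_eq_zero.1 h4
  refine ⟨{ toFun := fun x => Multiplicative.ofAdd ((k x : ℤ) : ZMod m), map_one' := ?_,
            map_mul' := ?_ }, ?_⟩
  · have := hwd (k 1) 0 (by rw [hk', zpow_zero])
    rw [this, Int.cast_zero]; rfl
  · intro x y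
    have := hwd (k (x * y)) (k x + k y) (by rw [hk', zpow_add, hk', hk'])
    rw [this, Int.cast_add]; rfl
  · intro a
    refine ⟨g ^ ((Multiplicative.toAdd a).val : ℤ), ?_⟩
    show Multiplicative.ofAdd _ = a
    have := hwd (k (g ^ ((Multiplicative.toAdd a).val : ℤ))) ((Multiplicative.toAdd a).val : ℤ)
      (by rw [hk'])
    rw [this, Int.cast_natCast, ZMod.natCast_zmod_val, ofAdd_toAdd]

section Char

variable {O : Type} [CommRing O] {G : Type} [CommGroup G] {q : ℕ}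

/-- the character of a homomorphism to the group -/
def dchar (O : Type) [CommRing O] (δ : (ZMod q)ˣ →* G) : DirichletCharacter (MonoidAlgebra O G) q :=
  MulChar.ofUnitHom ((MonoidAlgebra.of O G).toHomUnits.comp δ)

theorem dchar_coe (δ : (ZMod q)ˣ →* G) (u : (ZMod q)ˣ) :
    dchar O δ u = MonoidAlgebra.of O G (δ u) := by
  rw [dchar, MulChar.ofUnitHom_coe]
  rfl

theorem dchar_pow (δ : (ZMod q)ˣ →* G) {m : ℕ} (hm : ∀ g : G, g ^ m = 1) :
    dchar O δ ^ m = 1 := by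
  apply MulChar.ext
  intro u
  rw [MulChar.pow_apply_coe, dchar_coe, ← map_pow, hm, map_one, MulChar.one_apply_coe]

theorem aug_dchar (δ : (ZMod q)ˣ →* G) (u : (ZMod q)ˣ) : aug O G (dchar O δ u) = 1 := by
  rw [dchar_coe, aug_of]

/-- constant characters -/
def cchar (G : Type) [CommGroup G] (χ : DirichletCharacter O q) :
    DirichletCharacter (MonoidAlgebra O G) q := χ.ringHomComp (algebraMap O (MonoidAlgebra O G))

theorem cchar_apply (χ : DirichletCharacter O q) (a : ZMod q) :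
    cchar G χ a = algebraMap O (MonoidAlgebra O G) (χ a) := rfl

theorem cchar_pow {χ : DirichletCharacter O q} {m : ℕ} (h : χ ^ m = 1) : cchar G χ ^ m = 1 := by
  rw [cchar, MulChar.ringHomComp_pow, h, MulChar.ringHomComp_one]

/-- characters with values in roots of unity -/
theorem exists_rchar (hq : q.Prime) {m : ℕ} (hm : m ≠ 0) (hqm : m ∣ q - 1) {ζ : O}
    (hζ : ζ ^ m = 1) : ∃ χ : DirichletCharacter O q, χ ^ m = 1 ∧
      (∀ u : (ZMod q)ˣ, ∃ n : ℕ, χ u = ζ ^ n) ∧ ∃ u : (ZMod q)ˣ, χ u = ζ := by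
  haveI : NeZero m := ⟨hm⟩
  obtain ⟨f, hf⟩ := exists_dlog hq hm hqm
  have hζu : IsUnit ζ := IsUnit.of_pow_eq_one hζ hm
  have hzu : hζu.unit ^ m = 1 := by
    apply Units.ext
    rw [Units.val_pow_eq_pow_val, Units.val_one]
    exact hζ
  let F : Multiplicative (ZMod m) →* Oˣ :=
    { toFun := fun a => hζu.unit ^ (Multiplicative.toAdd a).val
      map_one' := by rw [toAdd_one, ZMod.val_zero, pow_zero]
      map_mul' := fun a b => by rw [toAdd_mul, ZMod.val_add, ← pow_eq_pow_mod _ hzu, pow_add] }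
  have hF : ∀ u : (ZMod q)ˣ, (MulChar.ofUnitHom (F.comp f) : DirichletCharacter O q) u =
      ζ ^ (Multiplicative.toAdd (f u)).val := by
    intro u
    rw [MulChar.ofUnitHom_coe]
    rfl
  refine ⟨MulChar.ofUnitHom (F.comp f), ?_, fun u => ⟨_, hF u⟩, ?_⟩
  · apply MulChar.ext
    intro u
    rw [MulChar.pow_apply_coe, hF, ← pow_mul, mul_comm, pow_mul, hζ, one_pow,
      MulChar.one_apply_coe]
  · obtain ⟨u, hu⟩ := hf (Multiplicative.ofAdd 1)
    refine ⟨u, ?_⟩
    rw [hF, hu, toAdd_ofAdd, ZMod.val_one_eq_one_mod, ← pow_eq_pow_mod _ hζ, pow_one]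

end Char

section Fam

variable {O : Type} [CommRing O] {p : ℕ} [Fact p.Prime] {n r : ℕ}

/-- the embedding of the `j`-th factor -/
def sgl (j : Fin r) : Multiplicative (ZMod (p ^ n)) →* DG p n r :=
  MonoidHom.mulSingle (fun _ : Fin r => Multiplicative (ZMod (p ^ n))) j

/-- **The diamond characters** (square roots): `ψ (qs j)` has square `u ↦ d_j^{log u}`. -/
theorem exists_diamonds (hp2 : p ≠ 2) (qs : Fin r → ℕ) (hinj : Function.Injective qs)
    (hqs : ∀ j, (qs j).Prime) (hq1 : ∀ j, p ^ n ∣ qs j - 1) :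
    ∃ (ψ : ∀ q : ℕ, DirichletCharacter (DRing O p n r) q)
      (f : ∀ j, (ZMod (qs j))ˣ →* Multiplicative (ZMod (p ^ n))),
      (∀ j, Function.Surjective (f j)) ∧
      (∀ j (u : (ZMod (qs j))ˣ), ψ (qs j) u ^ 2 = MonoidAlgebra.of O _ (sgl j (f j u))) ∧
      (∀ j (u : (ZMod (qs j))ˣ), ∃ g, ψ (qs j) u = MonoidAlgebra.of O _ (sgl j g)) ∧
      (∀ q, (∀ j, qs j ≠ q) → ψ q = 1) ∧ (∀ q, ψ q ^ p ^ n = 1) ∧
      (∀ q (u : (ZMod q)ˣ), aug O _ (ψ q u) = 1) := by
  classical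
  have hpn : p ^ n ≠ 0 := pow_ne_zero _ (Fact.out : p.Prime).ne_zero
  choose f hf using fun j => exists_dlog (hqs j) hpn (hq1 j)
  have hodd : Odd (p ^ n) := ((Fact.out : p.Prime).odd_of_ne_two hp2).pow
  obtain ⟨m, hm⟩ := hodd
  -- the square root
  let δ : ∀ j, (ZMod (qs j))ˣ →* DG p n r := fun j =>
    (powMonoidHom (m + 1)).comp ((sgl j).comp (f j))
  have hδ2 : ∀ j (u : (ZMod (qs j))ˣ), δ j u ^ 2 = sgl j (f j u) := by
    intro j u
    show (sgl j (f j u) ^ (m + 1)) ^ 2 = _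
    rw [← pow_mul, show (m + 1) * 2 = p ^ n + 1 by rw [hm]; ring, pow_succ, DG_pow, one_mul]
  let ψ : ∀ q : ℕ, DirichletCharacter (DRing O p n r) q := fun q =>
    if h : ∃ j, qs j = q then h.choose_spec ▸ dchar O (δ h.choose) else 1
  have hψ : ∀ j, ψ (qs j) = dchar O (δ j) := by
    intro j
    have h : ∃ j', qs j' = qs j := ⟨j, rfl⟩
    have h1 : ψ (qs j) = h.choose_spec ▸ dchar O (δ h.choose) := dif_pos h
    rw [h1]
    have h2 : h.choose = j := hinj h.choose_spec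
    have key : ∀ (j' : Fin r) (e : qs j' = qs j) (_ : j' = j), (e ▸ dchar O (δ j') :
        DirichletCharacter (DRing O p n r) (qs j)) = dchar O (δ j) := by
      rintro j' e rfl
      rfl
    exact key _ _ h2
  have hψ' : ∀ q, (∀ j, qs j ≠ q) → ψ q = 1 := fun q hq =>
    dif_neg (fun ⟨j, hj⟩ => hq j hj)
  refine ⟨ψ, f, hf, ?_, ?_, hψ', ?_, ?_⟩
  · intro j u
    rw [hψ, dchar_coe, ← map_pow, hδ2]
  · intro j u
    refine ⟨f j u ^ (m + 1), ?_⟩
    rw [hψ, dchar_coe, map_pow]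
    rfl
  · intro q
    by_cases hq : ∃ j, qs j = q
    · obtain ⟨j, rfl⟩ := hq
      rw [hψ]
      exact dchar_pow _ (DG_pow p n r)
    · push Not at hq
      rw [hψ' q hq, one_pow]
  · intro q u
    by_cases hq : ∃ j, qs j = q
    · obtain ⟨j, rfl⟩ := hq
      rw [hψ, aug_dchar]
    · push Not at hq
      rw [hψ' q hq, MulChar.one_apply_coe, map_one]

end Fam

end Fermat.Agent.TWCoh
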