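import Fermat.Agent.TWCoh.NonZero

/-!
# The Hecke algebra acting at level zero
-/

set_option autoImplicit false

noncomputable section

namespace Fermat.Agent.TWCoh

open Matrix CongruenceSubgroup MvPolynomial Fermat.Agent.AnJac
open scoped MatrixGroups OnePoint

section

variable {O k : Type} [CommRing O] [Field k] [Algebra O k] {N : ℕ} {S S' : Set ℕ} {τ : PS S → k}

/-- inclusion of polynomial rings -/
def rnI (O : Type) [CommRing O] {S S' : Set ℕ} (hSS : S ⊆ S') : HA O S' →ₐ[O] HA O S :=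
  aeval fun l : PS S' => X (inclPS hSS l)

theorem rnI_X (hSS : S ⊆ S') (l : PS S') : rnI O hSS (X l) = X (inclPS hSS l) := by
  rw [rnI, aeval_X]

theorem rn_eq (Q : Finset (PS S)) : rn O Q = rnI O (sub_bad Q) := rfl

variable (O τ N) in
/-- the Hecke algebra at level zero generated by the operators outside `S'` -/
abbrev T0 (hSS : S ⊆ S') : Type :=
  HA O S' ⧸ (Module.annihilator (HA O S) (M0 O N τ)).comap (rnI O hSS)

/-- the operators -/
def T0.T (hSS : S ⊆ S') (l : PS S') : T0 O N τ hSS := Ideal.Quotient.mk _ (X l)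

/-- **The map from the Hecke algebra of level `N`.** -/
theorem exists_heckeHom_M0 [NeZero N] {K : Type*} [Field K] [CharZero K] (κ : O →+* K)
    (hκ : Function.Injective κ) (hSS : S ⊆ S') (hN : ∀ l : PS S', ¬ l.1 ∣ N)
    (hS : ∀ l : ℕ, l.Prime → l ∣ N → l ∈ S')
    (hl₀ : ∃ l₀ : PS S, (N : ℤ) ∣ l₀.1 - 1 ∧ τ l₀ ≠ 1 + (l₀.1 : k)) :
    ∃ g : CuspForm.heckeAlgebra N 2 S' →+* T0 O N τ hSS,
      ∀ l : PS S', g (gT hN l) = T0.T hSS l := by
  obtain ⟨l₀, hl, hτ⟩ := hl₀
  refine exists_heckeHom hN hS (T0.T hSS) fun P hP => ?_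
  refine (lift_eq_fp (Ideal.Quotient.mk _) (T0.T hSS) (fun l => rfl) P).trans ?_
  rw [Ideal.Quotient.eq_zero_iff_mem, Ideal.mem_comap, Module.mem_annihilator]
  intro x
  apply Subtype.ext
  have hd : Dat (fun q : ℕ => (1 : DirichletCharacter O q)) ∅ 1 N N S' :=
    { pr := fun q hq => absurd hq (Finset.notMem_empty q)
      dvd_c := fun q hq => absurd hq (Finset.notMem_empty q)
      exact' := fun q hq => absurd hq (Finset.notMem_empty q)
      odd := fun q hq => absurd hq (Finset.notMem_empty q)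
      level := by rw [Finset.prod_empty, mul_one]
      avoid := hN }
  have hm : (X l₀ - C (1 + (l₀.1 : O)) : HA O S) ∉ evI O τ := by
    rw [mem_evI, map_sub, aeval_X, aeval_C, map_add, map_one, map_natCast, sub_eq_zero]
    exact hτ
  have htw : twp (fun q : ℕ => (1 : DirichletCharacter O q)) ∅ hSS = rnI O hSS := by
    apply MvPolynomial.algHom_ext
    intro l
    rw [twp_X, rnI_X, ws, Finset.prod_empty, C_1, one_mul]
  have key : ∀ (θ : DirichletCharacter O 1), θ = dch (fun q : ℕ => (1 : DirichletCharacter O q)) ∅ 1 →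
      ∀ φ ∈ loc (evI O τ) (MS (one_dvd N) θ O), rnI O hSS (fp O S' P) • φ = 0 := by
    rintro θ rfl φ hφ
    rw [← htw]
    exact rel_kill (κ := fun _ : Unit => κ) hd (fun x hx => hκ (by rw [hx (), map_zero])) hP hl hm hφ
  exact key 1 (by rw [dch, Finset.prod_empty]) x.1 x.2

/-- residually, the operators are given by `τ` -/
theorem T0_local [IsLocalRing O] [IsNoetherianRing O]
    [IsAdicComplete (IsLocalRing.maximalIdeal O) O] [NeZero N]
    (hOk : Function.Surjective (algebraMap O k)) (hSS : S ⊆ S') [Nontrivial (M0 O N τ)] :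
    ∃ g : T0 O N τ hSS →+* k, (∀ r, g (algebraMap O _ r) = algebraMap O k r) ∧
      ∀ l : PS S', g (T0.T hSS l) = τ (inclPS hSS l) := by
  have hmax := evI_isMaximal hOk τ
  have h1 := ann_le_evI' (M := M0 O N τ) hOk (fun t ht x => loc_exists O _ ht x)
  refine ⟨Ideal.Quotient.lift _ ((aeval (R := O) τ : HA O S →+* k).comp
    (rnI O hSS : HA O S' →+* HA O S)) (fun a ha => h1 ha), fun r => ?_, fun l => ?_⟩
  · show aeval (R := O) τ (rnI O hSS (algebraMap O _ r)) = _
    rw [AlgHom.commutes, AlgHom.commutes]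
  · show aeval (R := O) τ (rnI O hSS (X l)) = _
    rw [rnI_X, aeval_X]

end

end Fermat.Agent.TWCoh
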