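import Fermat.Agent.TWCoh.Points

/-!
# Points of the combined Hecke algebra
-/

set_option autoImplicit false

noncomputable section

namespace Fermat.Agent.TWCoh

open Matrix CongruenceSubgroup MvPolynomial Fermat.Agent.AnJac
open scoped MatrixGroups OnePoint

section Full

variable {Λ : Type} [CommRing Λ] {k : Type} [Field k] [Algebra Λ k] {S : Set ℕ}
  {M : Type*} [AddCommGroup M] [Module (HA Λ S) M] [Module Λ M]
  [IsScalarTower Λ (HA Λ S) M] [Module.Finite Λ M]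

variable (Λ S M) in
/-- the full Hecke algebra of a module -/
abbrev FT : Type := HA Λ S ⧸ Module.annihilator (HA Λ S) M

theorem finite_FT [IsNoetherianRing Λ] : Module.Finite Λ (FT Λ S M) := by
  let g : FT Λ S M →ₐ[Λ] Module.End Λ M :=
    Ideal.Quotient.liftₐ (Module.annihilator (HA Λ S) M) (Algebra.lsmul Λ Λ M)
      (fun a ha => LinearMap.ext fun x => Module.mem_annihilator.1 ha x)
  have hg : Function.Injective g := by
    rw [injective_iff_map_eq_zero]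
    intro x hx
    obtain ⟨x, rfl⟩ := Ideal.Quotient.mk_surjective x
    rw [Ideal.Quotient.eq_zero_iff_mem, Module.mem_annihilator]
    exact fun m => LinearMap.congr_fun hx m
  exact Module.Finite.of_injective g.toLinearMap hg

theorem ann_maximal_eq (hk : Function.Surjective (algebraMap Λ k)) {τ : PS S → k}
    (hb : ∀ t : HA Λ S, t ∉ evI Λ τ → ∀ x : M, ∃ y, t • y = x) {n : Ideal (HA Λ S)}
    (hn : n.IsMaximal) (h : Module.annihilator (HA Λ S) M ≤ n) : n = evI Λ τ := by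
  have hmax := evI_isMaximal hk τ
  refine hn.eq_of_le hmax.ne_top fun t ht => ?_
  by_contra hte
  have hfin : Module.Finite (HA Λ S) M := Module.Finite.of_restrictScalars_finite Λ _ _
  have h1 : (⊤ : Submodule (HA Λ S) M) ≤ n • ⊤ := by
    intro x _
    obtain ⟨y, hy⟩ := hb _ hte x
    rw [← hy]
    exact Submodule.smul_mem_smul ht trivial
  obtain ⟨r, hr1, hr2⟩ := Submodule.exists_sub_one_mem_and_smul_eq_zero_of_fg_of_le_smul n ⊤
    (Module.Finite.fg_top) h1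
  have h2 : r ∈ Module.annihilator (HA Λ S) M := Module.mem_annihilator.2 fun x => hr2 x trivial
  apply hn.ne_top
  rw [Ideal.eq_top_iff_one]
  have := n.sub_mem (h h2) hr1
  rwa [sub_sub_cancel] at this

theorem ann_le_evI' (hk : Function.Surjective (algebraMap Λ k)) {τ : PS S → k}
    (hb : ∀ t : HA Λ S, t ∉ evI Λ τ → ∀ x : M, ∃ y, t • y = x) [Nontrivial M] :
    Module.annihilator (HA Λ S) M ≤ evI Λ τ := by
  have hne : Module.annihilator (HA Λ S) M ≠ ⊤ := by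
    intro h
    obtain ⟨y, hy⟩ := exists_ne (0 : M)
    have h1 : (1 : HA Λ S) ∈ Module.annihilator (HA Λ S) M := by rw [h]; trivial
    have h2 := Module.mem_annihilator.1 h1 y
    rw [one_smul] at h2
    exact hy h2
  obtain ⟨n, hn, hle⟩ := Ideal.exists_le_maximal _ hne
  rwa [← ann_maximal_eq hk hb hn hle]

/-- the residue map of the full Hecke algebra -/
def resF (hk : Function.Surjective (algebraMap Λ k)) {τ : PS S → k}
    (hb : ∀ t : HA Λ S, t ∉ evI Λ τ → ∀ x : M, ∃ y, t • y = x) [Nontrivial M] :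
    FT Λ S M →+* k :=
  Ideal.Quotient.lift _ (aeval (R := Λ) τ : HA Λ S →+* k) fun _ ht => ann_le_evI' hk hb ht

theorem resF_mk (hk : Function.Surjective (algebraMap Λ k)) {τ : PS S → k}
    (hb : ∀ t : HA Λ S, t ∉ evI Λ τ → ∀ x : M, ∃ y, t • y = x) [Nontrivial M] (t : HA Λ S) :
    resF hk hb (Ideal.Quotient.mk _ t) = aeval τ t := rfl

theorem resF_algebraMap (hk : Function.Surjective (algebraMap Λ k)) {τ : PS S → k}
    (hb : ∀ t : HA Λ S, t ∉ evI Λ τ → ∀ x : M, ∃ y, t • y = x) [Nontrivial M] (r : Λ) :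
    resF hk hb (algebraMap Λ _ r) = algebraMap Λ k r := by
  show aeval τ (C r) = _
  rw [aeval_C]

theorem isLocalRing_FT (hk : Function.Surjective (algebraMap Λ k)) {τ : PS S → k}
    (hb : ∀ t : HA Λ S, t ∉ evI Λ τ → ∀ x : M, ∃ y, t • y = x) [Nontrivial M] :
    IsLocalRing (FT Λ S M) := by
  have hmax : (RingHom.ker (resF hk hb)).IsMaximal :=
    RingHom.ker_isMaximal_of_surjective _ fun x => by
      obtain ⟨r, rfl⟩ := hk x
      exact ⟨algebraMap Λ _ r, resF_algebraMap hk hb r⟩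
  refine IsLocalRing.of_unique_max_ideal ⟨RingHom.ker (resF hk hb), hmax, fun n hn => ?_⟩
  have hn' : (n.comap (Ideal.Quotient.mk (Module.annihilator (HA Λ S) M))).IsMaximal :=
    Ideal.comap_isMaximal_of_surjective _ Ideal.Quotient.mk_surjective
  have h1 := ann_maximal_eq hk hb hn' (fun t ht => by
    rw [Ideal.mem_comap, Ideal.Quotient.eq_zero_iff_mem.2 ht]
    exact n.zero_mem)
  ext t
  obtain ⟨t, rfl⟩ := Ideal.Quotient.mk_surjective t
  rw [← Ideal.mem_comap, h1]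
  exact Iff.rfl

end Full

section Main

variable {O k Λ : Type} [CommRing O] [Field k] [Algebra O k] [CommRing Λ] [Algebra Λ k]
    {ε : Λ →+* O} {lam : Λ} {p N N'' : ℕ} {S : Set ℕ} {Q : Finset (PS S)} {I : Finset ℕ}
    {τ α β : PS S → k} {ψ₁ ψ₂ : ∀ q : ℕ, DirichletCharacter Λ q}

/-- the full Hecke algebra (all operators `X l`, `l ∉ S`) of the module of type `ψ` -/
abbrev FN (h : PCond ε lam p N N'' Q I τ α β ψ₁ ψ₂) (ψ : ∀ q : ℕ, DirichletCharacter Λ q) :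
    Type := FT Λ S (MQ (N := N) (I := I) τ α h.cdr_dvd ψ)

/-- the operators -/
def FN.X (h : PCond ε lam p N N'' Q I τ α β ψ₁ ψ₂) (ψ : ∀ q : ℕ, DirichletCharacter Λ q)
    (l : PS S) : FN h ψ := Ideal.Quotient.mk _ (MvPolynomial.X l)

/-- from the combined to the full Hecke algebra, first type -/
def toFN₁ (h : PCond ε lam p N N'' Q I τ α β ψ₁ ψ₂) : TN h →+* FN h ψ₁ :=
  Ideal.Quotient.lift _ ((Ideal.Quotient.mk _).comp
    (twp ψ₁ (allP Q I) (sub_bad Q) : HA Λ (bad Q) →+* HA Λ S)) fun _ ht =>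
      Ideal.Quotient.eq_zero_iff_mem.2 ht.1

/-- from the combined to the full Hecke algebra, second type -/
def toFN₂ (h : PCond ε lam p N N'' Q I τ α β ψ₁ ψ₂) : TN h →+* FN h ψ₂ :=
  Ideal.Quotient.lift _ ((Ideal.Quotient.mk _).comp
    (twp ψ₂ (allP Q I) (sub_bad Q) : HA Λ (bad Q) →+* HA Λ S)) fun _ ht =>
      Ideal.Quotient.eq_zero_iff_mem.2 ht.2

theorem toFN₁_T (h : PCond ε lam p N N'' Q I τ α β ψ₁ ψ₂) (l : PS (bad Q)) :
    toFN₁ h (TN.T h l) = algebraMap Λ _ (ws ψ₁ (allP Q I) l.1) *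
      FN.X h ψ₁ (inclPS (sub_bad Q) l) := by
  show Ideal.Quotient.mk _ (twp ψ₁ (allP Q I) (sub_bad Q) (MvPolynomial.X l)) = _
  rw [twp_X, map_mul]
  rfl

theorem toFN₂_T (h : PCond ε lam p N N'' Q I τ α β ψ₁ ψ₂) (l : PS (bad Q)) :
    toFN₂ h (TN.T h l) = algebraMap Λ _ (ws ψ₂ (allP Q I) l.1) *
      FN.X h ψ₂ (inclPS (sub_bad Q) l) := by
  show Ideal.Quotient.mk _ (twp ψ₂ (allP Q I) (sub_bad Q) (MvPolynomial.X l)) = _
  rw [twp_X, map_mul]
  rfl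

theorem toFN₁_algebraMap (h : PCond ε lam p N N'' Q I τ α β ψ₁ ψ₂) (r : Λ) :
    toFN₁ h (algebraMap Λ _ r) = algebraMap Λ _ r := by
  show Ideal.Quotient.mk _ (twp ψ₁ (allP Q I) (sub_bad Q) (algebraMap Λ _ r)) = _
  rw [AlgHom.commutes]
  rfl

theorem toFN₂_algebraMap (h : PCond ε lam p N N'' Q I τ α β ψ₁ ψ₂) (r : Λ) :
    toFN₂ h (algebraMap Λ _ r) = algebraMap Λ _ r := by
  show Ideal.Quotient.mk _ (twp ψ₂ (allP Q I) (sub_bad Q) (algebraMap Λ _ r)) = _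
  rw [AlgHom.commutes]
  rfl

theorem toFN₁_eq_zero (h : PCond ε lam p N N'' Q I τ α β ψ₁ ψ₂) {t : TN h} :
    toFN₁ h t = 0 ↔ aC₁ (sub_bad Q) ψ₁ ψ₂ (allP Q I) _ _ t = 0 := by
  obtain ⟨t, rfl⟩ := Ideal.Quotient.mk_surjective t
  constructor
  · intro h0
    exact LinearMap.ext fun x => Module.mem_annihilator.1 (Ideal.Quotient.eq_zero_iff_mem.1 h0) x
  · intro h0
    exact Ideal.Quotient.eq_zero_iff_mem.2 (Module.mem_annihilator.2 fun x =>
      LinearMap.congr_fun h0 x)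

theorem toFN₂_eq_zero (h : PCond ε lam p N N'' Q I τ α β ψ₁ ψ₂) {t : TN h} :
    toFN₂ h t = 0 ↔ aC₂ (sub_bad Q) ψ₁ ψ₂ (allP Q I) _ _ t = 0 := by
  obtain ⟨t, rfl⟩ := Ideal.Quotient.mk_surjective t
  constructor
  · intro h0
    exact LinearMap.ext fun x => Module.mem_annihilator.1 (Ideal.Quotient.eq_zero_iff_mem.1 h0) x
  · intro h0
    exact Ideal.Quotient.eq_zero_iff_mem.2 (Module.mem_annihilator.2 fun x =>
      LinearMap.congr_fun h0 x)

/-- an eigenvector (a point) of type `ψ` over `K` -/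
structure EPt (h : PCond ε lam p N N'' Q I τ α β ψ₁ ψ₂) (ψ : ∀ q : ℕ, DirichletCharacter Λ q)
    (K : Type) [Field K] (κ : Λ →+* K) where
  /-- the symbol -/
  φ : MS h.cdr_dvd ((dch ψ (allP Q I) (cdr Q I)).ringHomComp κ) K
  ne_zero : φ ≠ 0
  /-- the point -/
  y : FN h ψ →+* K
  y_algebraMap : ∀ r : Λ, y (algebraMap Λ _ r) = κ r
  eigen : ∀ l : PS S, (MvPolynomial.X l : HA K S) • φ = y (FN.X h ψ l) • φ

theorem exists_EPt_aux (h : PCond ε lam p N N'' Q I τ α β ψ₁ ψ₂)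
    {ψ : ∀ q : ℕ, DirichletCharacter Λ q}
    (hd : Dat ψ (allP Q I) (cdr Q I) (lvl N Q) N'' (bad Q))
    {K : Type} [Field K] [CharZero K] [IsAlgClosed K] {J : Type*}
    (κ : J → Λ →+* K) (hκ : ∀ x, (∀ i, κ i x = 0) → x = 0) [NeZero N''] [NeZero N]
    [IsLocalRing Λ] [IsNoetherianRing Λ] [IsAdicComplete (IsLocalRing.maximalIdeal Λ) Λ]
    {t : HA Λ (bad Q)}
    (ht : t ∉ annT (sub_bad Q) ψ (allP Q I) (MQ (N := N) (I := I) τ α h.cdr_dvd ψ)) :
    ∃ (j : J) (e : EPt h ψ K (κ j)),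
      e.y (Ideal.Quotient.mk _ (twp ψ (allP Q I) (sub_bad Q) t)) ≠ 0 := by
  obtain ⟨j, φ, lm, h1, h2, h3, h4⟩ := exists_eigen h hd κ hκ ht
  refine ⟨j, ⟨φ, h1, Ideal.Quotient.lift _ (eval₂Hom (κ j) lm) h3, fun r => ?_, fun l => ?_⟩, h4⟩
  · exact eval₂Hom_C (κ j) lm r
  · rw [h2]
    congr 1
    exact (eval₂Hom_X' (κ j) lm l).symm

/-- **Points, first type.** -/
theorem exists_EPt₁ (h : PCond ε lam p N N'' Q I τ α β ψ₁ ψ₂)
    {K : Type} [Field K] [CharZero K] [IsAlgClosed K] {J : Type*}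
    (κ : J → Λ →+* K) (hκ : ∀ x, (∀ i, κ i x = 0) → x = 0) [NeZero N''] [NeZero N]
    [IsLocalRing Λ] [IsNoetherianRing Λ] [IsAdicComplete (IsLocalRing.maximalIdeal Λ) Λ]
    {t : TN h} (ht : toFN₁ h t ≠ 0) : ∃ (j : J) (e : EPt h ψ₁ K (κ j)), e.y (toFN₁ h t) ≠ 0 := by
  obtain ⟨t, rfl⟩ := Ideal.Quotient.mk_surjective t
  exact exists_EPt_aux h h.dat₁ κ hκ fun ht' => ht (Ideal.Quotient.eq_zero_iff_mem.2 ht')

/-- **Points, second type.** -/
theorem exists_EPt₂ (h : PCond ε lam p N N'' Q I τ α β ψ₁ ψ₂)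
    {K : Type} [Field K] [CharZero K] [IsAlgClosed K] {J : Type*}
    (κ : J → Λ →+* K) (hκ : ∀ x, (∀ i, κ i x = 0) → x = 0) [NeZero N''] [NeZero N]
    [IsLocalRing Λ] [IsNoetherianRing Λ] [IsAdicComplete (IsLocalRing.maximalIdeal Λ) Λ]
    {t : TN h} (ht : toFN₂ h t ≠ 0) : ∃ (j : J) (e : EPt h ψ₂ K (κ j)), e.y (toFN₂ h t) ≠ 0 := by
  obtain ⟨t, rfl⟩ := Ideal.Quotient.mk_surjective t
  exact exists_EPt_aux h h.dat₂ κ hκ fun ht' => ht (Ideal.Quotient.eq_zero_iff_mem.2 ht')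

theorem TN_ext (h : PCond ε lam p N N'' Q I τ α β ψ₁ ψ₂) {t : TN h} (h1 : toFN₁ h t = 0)
    (h2 : toFN₂ h t = 0) : t = 0 :=
  aC_eq_zero ((toFN₁_eq_zero h).1 h1) ((toFN₂_eq_zero h).1 h2)

variable [NeZero N] [IsLocalRing Λ] [IsNoetherianRing Λ]
  [IsAdicComplete (IsLocalRing.maximalIdeal Λ) Λ]

instance finite_FN (h : PCond ε lam p N N'' Q I τ α β ψ₁ ψ₂)
    (ψ : ∀ q : ℕ, DirichletCharacter Λ q) : Module.Finite Λ (FN h ψ) := finite_FT

theorem surj_of_notMem (h : PCond ε lam p N N'' Q I τ α β ψ₁ ψ₂)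
    (ψ : ∀ q : ℕ, DirichletCharacter Λ q) (t : HA Λ S) (ht : t ∉ evI Λ (modE Q τ α))
    (x : MQ (N := N) (I := I) τ α h.cdr_dvd ψ) : ∃ y, t • y = x := by
  have := evI_isMaximal h.hΛk (modE Q τ α)
  exact loc_exists Λ _ ht x

theorem isLocalRing_FN (h : PCond ε lam p N N'' Q I τ α β ψ₁ ψ₂)
    (ψ : ∀ q : ℕ, DirichletCharacter Λ q)
    [Nontrivial (MQ (N := N) (I := I) τ α h.cdr_dvd ψ)] : IsLocalRing (FN h ψ) :=
  isLocalRing_FT h.hΛk (surj_of_notMem h ψ)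

/-- the residue map of the full Hecke algebra -/
def resFN (h : PCond ε lam p N N'' Q I τ α β ψ₁ ψ₂)
    (ψ : ∀ q : ℕ, DirichletCharacter Λ q)
    [Nontrivial (MQ (N := N) (I := I) τ α h.cdr_dvd ψ)] : FN h ψ →+* k :=
  resF h.hΛk (surj_of_notMem h ψ)

theorem resFN_X (h : PCond ε lam p N N'' Q I τ α β ψ₁ ψ₂)
    (ψ : ∀ q : ℕ, DirichletCharacter Λ q)
    [Nontrivial (MQ (N := N) (I := I) τ α h.cdr_dvd ψ)] (l : PS S) :
    resFN h ψ (FN.X h ψ l) = modE Q τ α l := by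
  show aeval (modE Q τ α) (MvPolynomial.X l) = _
  rw [aeval_X]

theorem resFN_algebraMap (h : PCond ε lam p N N'' Q I τ α β ψ₁ ψ₂)
    (ψ : ∀ q : ℕ, DirichletCharacter Λ q)
    [Nontrivial (MQ (N := N) (I := I) τ α h.cdr_dvd ψ)] (r : Λ) :
    resFN h ψ (algebraMap Λ _ r) = algebraMap Λ k r := resF_algebraMap _ _ r

theorem nontrivial_MQ₁ [IsLocalRing O] [IsNoetherianRing O]
    [IsAdicComplete (IsLocalRing.maximalIdeal O) O]
    (h : PCond ε lam p N N'' Q I τ α β ψ₁ ψ₂) [Nontrivial (M0 O N τ)] :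
    Nontrivial (MQ (N := N) (I := I) τ α h.cdr_dvd ψ₁) := by
  obtain ⟨π, hπ, -, -⟩ := exists_pi h
  obtain ⟨y, hy⟩ := exists_ne (0 : M0 O N τ)
  obtain ⟨x, rfl⟩ := hπ y
  exact ⟨⟨x, 0, fun h => hy (by rw [h, map_zero])⟩⟩

end Main

end Fermat.Agent.TWCoh
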