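import Mathlib
import Fermat.Prelude.Thm_Algebra_finite_maximalSpectrum_and_bijective_localization_of_module_finite

/-!
# The part of a finite module at a maximal ideal of an algebra of operators
-/

set_option autoImplicit false

noncomputable section

namespace Fermat.Agent.TWCoh

variable {R : Type} [CommRing R] (m : Ideal R)

/-- the `m`-part of a module -/
def loc (M : Type*) [AddCommGroup M] [Module R M] : Submodule R M :=
  ⨅ (s : R) (_ : s ∉ m), LinearMap.range (LinearMap.lsmul R M s)

variable {m}

theorem mem_loc {M : Type*} [AddCommGroup M] [Module R M] {x : M} :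
    x ∈ loc m M ↔ ∀ s : R, s ∉ m → ∃ y : M, s • y = x := by
  simp only [loc, Submodule.mem_iInf]
  rfl

/-- the hypothesis making everything work -/
structure LocData (m : Ideal R) (M : Type*) [AddCommGroup M] [Module R M] (e : R) : Prop where
  not_mem : e ∉ m
  idem : ∀ x : M, e • e • x = e • x
  unit : ∀ s : R, s ∉ m → ∃ u : R, ∀ x : M, u • s • x = e • x

theorem LocData.mem_iff {M : Type*} [AddCommGroup M] [Module R M] {e : R}
    (h : LocData m M e) {x : M} : x ∈ loc m M ↔ e • x = x := by
  rw [mem_loc]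
  constructor
  · intro hx
    obtain ⟨y, rfl⟩ := hx e h.not_mem
    exact h.idem y
  · intro hx s hs
    obtain ⟨u, hu⟩ := h.unit s hs
    exact ⟨u • x, by rw [smul_comm, hu, hx]⟩

theorem LocData.smul_mem {M : Type*} [AddCommGroup M] [Module R M] {e : R}
    (h : LocData m M e) (x : M) : e • x ∈ loc m M := h.mem_iff.2 (h.idem x)

theorem exists_locData {Λ : Type} [CommRing Λ] [IsLocalRing Λ] [IsNoetherianRing Λ]
    [IsAdicComplete (IsLocalRing.maximalIdeal Λ) Λ] [Algebra Λ R] (m : Ideal R) [hm : m.IsMaximal]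
    (M : Type*) [AddCommGroup M] [Module R M] [Module Λ M] [IsScalarTower Λ R M]
    [Module.Finite Λ M] : ∃ e : R, LocData m M e := by
  classical
  set J : Ideal R := Module.annihilator R M with hJ
  by_cases hJm : J ≤ m
  swap
  · obtain ⟨e, heJ, hem⟩ := Set.not_subset.1 hJm
    have h0 : ∀ x : M, e • x = 0 := Module.mem_annihilator.1 heJ
    exact ⟨e, hem, fun x => by rw [h0, h0], fun s _ => ⟨0, fun x => by
      rw [zero_smul, h0]⟩⟩
  have hfin : Module.Finite Λ (R ⧸ J) := by
    -- the image in the endomorphism ring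
    let f : R →ₗ[Λ] Module.End Λ M :=
      { toFun := fun r => (Algebra.lsmul Λ Λ M r : Module.End Λ M)
        map_add' := fun x y => by ext z; simp
        map_smul' := fun x y => by ext z; simp }
    have hker : LinearMap.ker f = J.restrictScalars Λ := by
      ext r
      rw [LinearMap.mem_ker, Submodule.restrictScalars_mem, hJ, Module.mem_annihilator]
      constructor
      · intro h x
        have := LinearMap.congr_fun h x
        simpa [f] using this
      · intro h
        ext x
        simpa [f] using h x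
    let g : (R ⧸ J) →ₗ[Λ] Module.End Λ M :=
      { toFun := fun r => Quotient.liftOn' r (fun r => f r) (by
          intro a b hab
          have h1 : a - b ∈ LinearMap.ker f := by
            rw [hker, Submodule.restrictScalars_mem]
            exact (Submodule.quotientRel_def J).1 hab
          rwa [LinearMap.mem_ker, map_sub, sub_eq_zero] at h1)
        map_add' := by
          intro x y
          obtain ⟨x, rfl⟩ := Ideal.Quotient.mk_surjective x
          obtain ⟨y, rfl⟩ := Ideal.Quotient.mk_surjective y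
          exact map_add f x y
        map_smul' := by
          intro r x
          obtain ⟨x, rfl⟩ := Ideal.Quotient.mk_surjective x
          exact map_smul f r x }
    refine Module.Finite.of_injective g ?_
    rw [injective_iff_map_eq_zero]
    intro x hx
    obtain ⟨x, rfl⟩ := Ideal.Quotient.mk_surjective x
    have h1 : x ∈ LinearMap.ker f := hx
    rw [hker, Submodule.restrictScalars_mem] at h1
    exact Ideal.Quotient.eq_zero_iff_mem.2 h1
  obtain ⟨-, hbij, -, -⟩ :=
    Algebra.finite_maximalSpectrum_and_bijective_localization_of_module_finite (𝒪 := Λ) (R ⧸ J)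
  have hmax : (m.map (Ideal.Quotient.mk J)).IsMaximal := by
    refine (Ideal.map_eq_top_or_isMaximal_of_surjective (Ideal.Quotient.mk J)
      Ideal.Quotient.mk_surjective hm).resolve_left fun h => ?_
    have h1 : (1 : R ⧸ J) ∈ m.map (Ideal.Quotient.mk J) := by rw [h]; trivial
    rw [Ideal.mem_map_iff_of_surjective _ Ideal.Quotient.mk_surjective] at h1
    obtain ⟨x, hx, hx1⟩ := h1
    rw [← map_one (Ideal.Quotient.mk J), Ideal.Quotient.eq] at hx1
    have := m.sub_mem hx (hJm hx1)
    rw [sub_sub_cancel] at this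
    exact (Ideal.ne_top_iff_one m).1 hm.ne_top this
  set I₀ : MaximalSpectrum (R ⧸ J) := ⟨_, hmax⟩ with hI₀
  have hcomap : ∀ r : R, Ideal.Quotient.mk J r ∈ I₀.asIdeal ↔ r ∈ m := by
    intro r
    show _ ∈ m.map (Ideal.Quotient.mk J) ↔ _
    rw [Ideal.mem_map_iff_of_surjective _ Ideal.Quotient.mk_surjective]
    constructor
    · rintro ⟨x, hx, hxr⟩
      rw [Ideal.Quotient.eq] at hxr
      have := m.sub_mem hx (hJm hxr)
      simpa using this
    · intro hr
      exact ⟨r, hr, rfl⟩
  obtain ⟨e', he'⟩ := hbij.2 (Pi.single I₀ 1)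
  obtain ⟨e, rfl⟩ := Ideal.Quotient.mk_surjective e'
  have heI : ∀ I : MaximalSpectrum (R ⧸ J), algebraMap (R ⧸ J) (Localization.AtPrime I.asIdeal)
      (Ideal.Quotient.mk J e) = (Pi.single I₀ 1 : ∀ I : MaximalSpectrum (R ⧸ J),
        Localization.AtPrime I.asIdeal) I := fun I => congrFun he' I
  have hlift : ∀ r r' : R, Ideal.Quotient.mk J r = Ideal.Quotient.mk J r' →
      ∀ x : M, r • x = r' • x := by
    intro r r' h x
    rw [Ideal.Quotient.eq] at h
    have h1 : (r - r') • x = 0 := Module.mem_annihilator.1 h x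
    rwa [sub_smul, sub_eq_zero] at h1
  refine ⟨e, ?_, ?_, ?_⟩
  · intro he
    have h1 := heI I₀
    rw [Pi.single_eq_same] at h1
    have h2 : algebraMap (R ⧸ J) (Localization.AtPrime I₀.asIdeal) (Ideal.Quotient.mk J e) ∈
        IsLocalRing.maximalIdeal _ := by
      rw [IsLocalization.AtPrime.to_map_mem_maximal_iff _ I₀.asIdeal]
      exact (hcomap e).2 he
    rw [h1] at h2
    exact (Ideal.ne_top_iff_one _).1 (IsLocalRing.maximalIdeal.isMaximal _).ne_top h2
  · intro x
    rw [smul_smul]
    refine hlift _ _ ?_ x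
    apply hbij.1
    rw [map_mul, map_mul, he']
    ext I
    by_cases h : I = I₀
    · subst h; simp
    · simp [Pi.single_eq_of_ne h]
  · intro s hs
    have hs' : IsUnit (algebraMap (R ⧸ J) (Localization.AtPrime I₀.asIdeal)
        (Ideal.Quotient.mk J s)) := by
      rw [IsLocalization.AtPrime.isUnit_to_map_iff _ I₀.asIdeal]
      exact fun h => hs ((hcomap s).1 h)
    obtain ⟨v, hv⟩ := hs'
    obtain ⟨u', hu'⟩ := hbij.2 (Pi.single I₀ (↑v⁻¹))
    obtain ⟨u, rfl⟩ := Ideal.Quotient.mk_surjective u'
    refine ⟨u, fun x => ?_⟩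
    rw [smul_smul]
    refine hlift _ _ ?_ x
    apply hbij.1
    rw [map_mul, map_mul, he', hu']
    ext I
    by_cases h : I = I₀
    · subst h
      rw [Pi.mul_apply, Pi.single_eq_same, Pi.single_eq_same]
      show ↑v⁻¹ * algebraMap (R ⧸ J) (Localization.AtPrime I₀.asIdeal) (Ideal.Quotient.mk J s) = 1
      rw [← hv, Units.inv_mul]
    · rw [Pi.mul_apply, Pi.single_eq_of_ne h, Pi.single_eq_of_ne h, zero_mul]

/-! ### Functoriality and exactness -/

section

variable {M M' : Type*} [AddCommGroup M] [Module R M] [AddCommGroup M'] [Module R M']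

theorem LocData.left {e : R} (h : LocData m (M × M') e) : LocData m M e :=
  ⟨h.not_mem, fun x => congrArg Prod.fst (h.idem (x, 0)), fun s hs => by
    obtain ⟨u, hu⟩ := h.unit s hs
    exact ⟨u, fun x => congrArg Prod.fst (hu (x, 0))⟩⟩

theorem LocData.right {e : R} (h : LocData m (M × M') e) : LocData m M' e :=
  ⟨h.not_mem, fun x => congrArg Prod.snd (h.idem (0, x)), fun s hs => by
    obtain ⟨u, hu⟩ := h.unit s hs
    exact ⟨u, fun x => congrArg Prod.snd (hu (0, x))⟩⟩

theorem loc_le_comap (f : M →ₗ[R] M') {x : M} (hx : x ∈ loc m M) : f x ∈ loc m M' := by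
  rw [mem_loc] at hx ⊢
  intro s hs
  obtain ⟨y, rfl⟩ := hx s hs
  exact ⟨f y, by rw [map_smul]⟩

/-- a lifting criterion -/
theorem exists_loc_preimage {e : R} (h : LocData m M e) (h' : LocData m M' e) (f : M →ₗ[R] M')
    {y : M'} (hy : y ∈ loc m M') {s : R} (hs : s ∉ m) (hsy : ∃ x, f x = s • y) :
    ∃ x ∈ loc m M, f x = y := by
  obtain ⟨x, hx⟩ := hsy
  obtain ⟨u, hu⟩ := h'.unit s hs
  refine ⟨e • u • x, h.smul_mem _, ?_⟩
  rw [map_smul, map_smul, hx, hu, h'.idem, h'.mem_iff.1 hy]

end

end Fermat.Agent.TWCoh
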