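import Fermat.Agent.TWCoh.Points2

/-!
# The module of level zero is nonzero
-/

set_option autoImplicit false

noncomputable section

namespace Fermat.Agent.TWCoh

open Matrix CongruenceSubgroup MvPolynomial Fermat.Agent.AnJac
open scoped MatrixGroups OnePoint

section Symbol

variable {A : Type*} [AddCommGroup A] {N : ℕ}

theorem pa_11 (g : SL(2, ℤ)) (w : ℤ) : (pa g w) 1 1 = 1 + g 0 0 * g 1 0 * w := by
  have hT : io (ModularGroup.T ^ w) = Tr w := io_T_zpow w
  have h1 := (((ent_io g).mul (ent_Tr w)).mul (ent_io_inv g))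
  have h2 : io (pa g w) = io g * Tr w * (io g)⁻¹ := by rw [pa, map_mul, map_mul, map_inv, hT]
  have hd := det_SLQ g
  obtain ⟨-, -, -, e4⟩ := (ent_io (pa g w)).inj (by rw [h2]; exact h1)
  have : (((pa g w) 1 1 : ℤ) : ℚ) = ((1 + g 0 0 * g 1 0 * w : ℤ) : ℚ) := by
    push_cast
    linear_combination e4 + hd
  exact_mod_cast this

/-- every parabolic homomorphism comes from a symbol -/
theorem exists_symbol {K : Type*} [CommRing K] [Module K A] {v : Additive (Gamma0 N) →+ A}
    (hv : v ∈ NHA (Gamma0 N) A) :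
    ∃ (φ : P1 → P1 → A) (h : CF (fun _ => (1 : K)) N φ), hm h = v := by
  classical
  -- the orbit relation
  let r : Setoid P1 :=
    { r := fun x y => ∃ γ : Gamma0 N, io (γ : SL(2, ℤ)) • x = y
      iseqv := ⟨fun x => ⟨1, by rw [Subgroup.coe_one, map_one, one_smul]⟩,
        fun {x y} ⟨γ, h⟩ => ⟨γ⁻¹, by rw [← h, Subgroup.coe_inv, map_inv, inv_smul_smul]⟩,
        fun {x y z} ⟨γ, h⟩ ⟨δ, h'⟩ => ⟨δ * γ, by rw [Subgroup.coe_mul, map_mul, mul_smul, h, h']⟩⟩ }
  have hout : ∀ x : P1, ∃ γ : Gamma0 N, io (γ : SL(2, ℤ)) • (Quotient.out (Quotient.mk r x)) = x :=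
    fun x => Quotient.exact (Quotient.out_eq (Quotient.mk r x))
  choose γ hγ using hout
  let g : P1 → A := fun x => v (Additive.ofMul (γ x))
  have hstab : ∀ (δ : Gamma0 N) (x : P1), io (δ : SL(2, ℤ)) • x = x → v (Additive.ofMul δ) = 0 := by
    intro δ x hx
    apply hv
    obtain ⟨g, w, h | h⟩ := stab_P1 hx
    · rw [h]
      have h1 := (pa_entries g w).1
      have h2 := pa_11 g w
      rw [h1, h2]
      have : (1 : ℤ) - g 0 0 * g 1 0 * w + (1 + g 0 0 * g 1 0 * w) = 2 := by ring
      rw [this]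
      norm_num
    · rw [h]
      have h1 := (pa_entries g w).1
      have h2 := pa_11 g w
      rw [neg_one_mul]
      rw [Matrix.SpecialLinearGroup.coe_neg, Matrix.neg_apply, Matrix.neg_apply, h1, h2]
      have : -((1 : ℤ) - g 0 0 * g 1 0 * w) + -(1 + g 0 0 * g 1 0 * w) = -2 := by ring
      rw [this]
      norm_num
  have hg : ∀ (δ : Gamma0 N) (x : P1), g (io (δ : SL(2, ℤ)) • x) = v (Additive.ofMul δ) + g x := by
    intro δ x
    have hq : Quotient.mk r (io (δ : SL(2, ℤ)) • x) = Quotient.mk r x :=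
      Quotient.sound ⟨δ⁻¹, by rw [Subgroup.coe_inv, map_inv, inv_smul_smul]⟩
    have h1 : io ((((δ * γ x)⁻¹ * γ (io (δ : SL(2, ℤ)) • x) : Gamma0 N)) : SL(2, ℤ)) •
        (Quotient.out (Quotient.mk r x)) = Quotient.out (Quotient.mk r x) := by
      have h2 := hγ (io (δ : SL(2, ℤ)) • x)
      rw [hq] at h2
      rw [Subgroup.coe_mul, map_mul, mul_smul, h2, Subgroup.coe_inv, map_inv, inv_smul_eq_iff,
        Subgroup.coe_mul, map_mul, mul_smul, hγ]
    have h3 := hstab _ _ h1
    have h4 : v (Additive.ofMul (γ (io (δ : SL(2, ℤ)) • x))) =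
        v (Additive.ofMul (δ * γ x)) +
          v (Additive.ofMul ((δ * γ x)⁻¹ * γ (io (δ : SL(2, ℤ)) • x))) := by
      rw [← map_add, ← ofMul_mul, mul_inv_cancel_left]
    show v (Additive.ofMul (γ (io (δ : SL(2, ℤ)) • x))) = v (Additive.ofMul δ) +
      v (Additive.ofMul (γ x))
    rw [h4, h3, add_zero, ofMul_mul, map_add]
  have hCF : CF (fun _ => (1 : K)) N (fun x y => g y - g x) :=
    ⟨fun x y z => by abel, fun δ hδ x y => by
      have h1 := hg ⟨δ, hδ⟩ x
      have h2 := hg ⟨δ, hδ⟩ y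
      rw [one_smul]
      show g (io δ • y) - g (io δ • x) = g y - g x
      rw [h1, h2]; abel⟩
  refine ⟨_, hCF, AddMonoidHom.ext fun δ => ?_⟩
  show g (io ((Additive.toMul δ : Gamma0 N) : SL(2, ℤ)) • ∞) - g ∞ = v δ
  rw [hg]
  simp

end Symbol

section Int

variable {N : ℕ} [NeZero N] {S : Set ℕ}

theorem one_dir_apply {R : Type*} [CommRing R] (a : ZMod 1) : (1 : DirichletCharacter R 1) a = 1 :=
  MulChar.one_apply (isUnit_of_subsingleton _)

theorem fp_smul_one (hN : ∀ l : PS S, ¬ l.1 ∣ N) (P : FreeAlgebra ℤ (PS S))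
    (φ : MS (one_dvd N) (1 : DirichletCharacter ℤ 1) ℤ) : (fp ℤ S P • φ).1 =
      opF ℤ (fun l : PS S => l.1) (fun l => l.2.1) (1 : PS S → ℤ) 1 P φ.1 := by
  induction P using FreeAlgebra.induction generalizing φ with
  | grade0 n =>
    rw [AlgHom.commutes, AlgHom.commutes, eq_intCast, eq_intCast]
    have h1 : ((n : HA ℤ S) • φ) = (n : ℤ) • φ := by
      rw [← Int.cast_smul_eq_zsmul (HA ℤ S)]
    rw [h1]
    rfl
  | grade1 l =>
    rw [fp_ι, X_smul, opF_ι]
    show hk (1 : DirichletCharacter ℤ 1) ℤ P1 N l.1 l.2.1.ne_zero φ.1 = tk 1 1 ℤ l.1 _ φ.1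
    rw [hk_of_not_dvd _ (hN l), tk_apply, inv_one, one_dir_apply, one_smul, one_smul]
  | mul P Q hP hQ =>
    rw [map_mul, mul_smul, hP, hQ, map_mul]
    rfl
  | add P Q hP hQ =>
    rw [map_add, add_smul, map_add, LinearMap.add_apply, ← hP, ← hQ]
    rfl

/-- operators killing the integral symbols kill the cusp forms -/
theorem actS_eq_zero_of_symbols (hN : ∀ l : PS S, ¬ l.1 ∣ N) {P : FreeAlgebra ℤ (PS S)}
    (hP : ∀ φ : MS (one_dvd N) (1 : DirichletCharacter ℤ 1) ℤ, fp ℤ S P • φ = 0) :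
    actS N (reP (fun l : PS S => l.1) (fun l => l.2.1) P) = 0 := by
  apply actS_eq_zero
  refine AddMonoidHom.ext fun v => Subtype.ext ((coe_actL _ v).trans ?_)
  change actM N ℤ _ v.1 = 0
  obtain ⟨φ, h, hφ⟩ := exists_symbol (K := ℤ) v.2
  have hC := CF.opF (ht := fun l : PS S => l.2.1) (w := (1 : PS S → ℤ)) (w' := 1) (chF_one N) hN
    (fun j => by simp) P h
  have h1 := hm_opF (ht := fun l : PS S => l.2.1) hN P h hC
  rw [← hφ, ← h1]
  have hSy : φ ∈ Sy (1 : DirichletCharacter ℤ 1) N ℤ P1 :=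
    ⟨h.add, fun γ hγ x y => by rw [h.equi γ hγ, one_dir_apply]⟩
  have h2 := hP ⟨φ, hSy⟩
  have h3 := fp_smul_one hN P ⟨φ, hSy⟩
  rw [h2] at h3
  refine AddMonoidHom.ext fun γ => ?_
  show opF ℤ (fun l : PS S => l.1) (fun l => l.2.1) (1 : PS S → ℤ) 1 P φ _ _ = 0
  rw [← h3]
  rfl

end Int

section Decomp

/-- decomposition of a polynomial over a torsion free ring into integral polynomials -/
theorem exists_decomp {ι O : Type*} [CommRing O] [IsAddTorsionFree O] (e : MvPolynomial ι O) :
    ∃ (n : ℕ) (b : Fin n → O) (f : Fin n → MvPolynomial ι ℤ), LinearIndependent ℤ b ∧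
      e = ∑ i, C (b i) * MvPolynomial.map (Int.castRingHom O) (f i) := by
  classical
  set M : Submodule ℤ O := Submodule.span ℤ ((e.support.image fun m => coeff m e : Finset O) :
    Set O) with hM
  have h1 : Module.Finite ℤ M := Module.Finite.span_finset _ _
  have h2 : IsAddTorsionFree M :=
    Function.Injective.isAddTorsionFree M.toAddSubgroup.subtype Subtype.val_injective
  have h3 : Module.Free ℤ M := inferInstance
  set b := Module.finBasis ℤ M with hb
  have hmem : ∀ m, coeff m e ∈ M := by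
    intro m
    by_cases hm : m ∈ e.support
    · exact Submodule.subset_span (Finset.mem_coe.2 (Finset.mem_image_of_mem _ hm))
    · rw [MvPolynomial.notMem_support_iff.1 hm]; exact M.zero_mem
  refine ⟨_, fun i => (b i : O), fun i => ∑ m ∈ e.support,
    monomial m (b.repr ⟨coeff m e, hmem m⟩ i), ?_, ?_⟩
  · exact b.linearIndependent.map' M.subtype (Submodule.ker_subtype M)
  · conv_lhs => rw [← MvPolynomial.support_sum_monomial_coeff e]
    simp only [map_sum, Finset.mul_sum, MvPolynomial.map_monomial, MvPolynomial.C_mul_monomial]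
    rw [Finset.sum_comm]
    refine Finset.sum_congr rfl fun m _ => ?_
    rw [← map_sum]
    congr 1
    have h5 := congrArg (fun y : M => (y : O)) (b.sum_repr ⟨coeff m e, hmem m⟩)
    simp only [Submodule.coe_sum, Submodule.coe_smul] at h5
    refine h5.symm.trans ?_
    refine Finset.sum_congr rfl fun i _ => ?_
    rw [zsmul_eq_mul, mul_comm]
    rfl

end Decomp

section Main

variable {O k : Type} [CommRing O] [Field k] [Algebra O k] [IsLocalRing O] [IsNoetherianRing O]
  [IsAdicComplete (IsLocalRing.maximalIdeal O) O] [IsAddTorsionFree O]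
  {N : ℕ} [NeZero N] {S : Set ℕ} {τ : PS S → k}

/-- **Nonvanishing of the module of level zero.** -/
theorem nontrivial_M0 (hOk : Function.Surjective (algebraMap O k))
    (hN : ∀ l : PS S, ¬ l.1 ∣ N)
    (f : CuspForm.heckeAlgebra N 2 S →+* k) (hf : ∀ l : PS S, f (gT hN l) = τ l) :
    Nontrivial (M0 O N τ) := by
  by_contra hcon
  rw [not_nontrivial_iff_subsingleton] at hcon
  have hmax := evI_isMaximal hOk τ
  obtain ⟨e, he⟩ := exists_locData (Λ := O) (evI O τ)
    (MS (one_dvd N) (1 : DirichletCharacter O 1) O)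
  have hkill : ∀ x : MS (one_dvd N) (1 : DirichletCharacter O 1) O, e • x = 0 := by
    intro x
    have h1 := hcon.elim (⟨e • x, he.smul_mem x⟩ : M0 O N τ) 0
    exact congrArg Subtype.val h1
  apply he.not_mem
  obtain ⟨n, b, g, hb, rfl⟩ := exists_decomp e
  have hcp : Compat (Int.castRingHom O) N (1 : DirichletCharacter ℤ 1)
      (1 : DirichletCharacter O 1) := fun a _ => by
    rw [one_dir_apply, one_dir_apply, map_one]
  -- the integral polynomials kill the integral symbols
  have hg : ∀ i (φ : MS (one_dvd N) (1 : DirichletCharacter ℤ 1) ℤ), g i • φ = 0 := by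
    intro i φ
    apply MS.ext'
    intro x y
    have h1 := hkill (redS (one_dvd N) (one_dvd N) hcp φ)
    rw [Finset.sum_smul] at h1
    have h2 : ∀ i, (C (b i) * MvPolynomial.map (Int.castRingHom O) (g i)) •
        (redS (one_dvd N) (one_dvd N) hcp φ) =
        b i • redS (one_dvd N) (one_dvd N) hcp (g i • φ) := by
      intro i
      rw [mul_smul, C_smul, redS_smul]
    simp only [h2] at h1
    have h3 := congrArg (fun z : MS (one_dvd N) (1 : DirichletCharacter O 1) O => z.1 x y) h1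
    have h4 : ∑ i, b i * (((g i • φ).1 x y : ℤ) : O) = 0 := by
      refine Eq.trans ?_ h3
      show _ = (∑ i, b i • redS (one_dvd N) (one_dvd N) hcp (g i • φ) :
        MS (one_dvd N) (1 : DirichletCharacter O 1) O).1 x y
      rw [coe_sum_apply]
      rfl
    have h5 := Fintype.linearIndependent_iff.1 hb (fun i => (g i • φ).1 x y) (by
      rw [← h4]
      exact Finset.sum_congr rfl fun i _ => by rw [zsmul_eq_mul, mul_comm]) i
    exact h5
  -- hence vanish at the point
  have hτ : ∀ P : FreeAlgebra ℤ (PS S), f (FreeAlgebra.lift ℤ (gT hN) P) =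
      eval₂ (Int.castRingHom k) τ (fp ℤ S P) := by
    intro P
    induction P using FreeAlgebra.induction with
    | grade0 n =>
      rw [AlgHom.commutes, AlgHom.commutes, eq_intCast, eq_intCast, map_intCast]
      rw [← eq_intCast C n, eval₂_C, eq_intCast]
    | grade1 l => rw [FreeAlgebra.lift_ι_apply, fp_ι, hf, eval₂_X]
    | mul P Q hP hQ => rw [map_mul, map_mul, hP, hQ, map_mul, eval₂_mul]
    | add P Q hP hQ => rw [map_add, map_add, hP, hQ, map_add, eval₂_add]
  have hfps : Function.Surjective (fp ℤ S) := by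
    intro u
    induction u using MvPolynomial.induction_on with
    | C r => exact ⟨algebraMap ℤ _ r, by rw [AlgHom.commutes]; rfl⟩
    | add p q hp hq =>
      obtain ⟨P, rfl⟩ := hp
      obtain ⟨Q, rfl⟩ := hq
      exact ⟨P + Q, map_add _ _ _⟩
    | mul_X p l hp =>
      obtain ⟨P, rfl⟩ := hp
      exact ⟨P * FreeAlgebra.ι ℤ l, by rw [map_mul, fp_ι]⟩
  have hzero : ∀ i, eval₂ (Int.castRingHom k) τ (g i) = 0 := by
    intro i
    obtain ⟨P, hP⟩ := hfps (g i)
    have h1 := actS_eq_zero_of_symbols hN (P := P) (fun φ => by rw [hP]; exact hg i φ)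
    rw [← hP, ← hτ]
    have h2 : FreeAlgebra.lift ℤ (gT hN) P = 0 := by
      apply Subtype.ext
      rw [lift_gT hN, h1]
      rfl
    rw [h2, map_zero]
  rw [mem_evI, map_sum]
  refine Finset.sum_eq_zero fun i _ => ?_
  rw [map_mul, aeval_def, aeval_def, eval₂_map]
  have h1 : (algebraMap O k).comp (Int.castRingHom O) = Int.castRingHom k := RingHom.ext_int _ _
  rw [h1, hzero, mul_zero]

end Main

end Fermat.Agent.TWCoh
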