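import Fermat.Agent.TWCoh.TWAlg

/-!
# Raising the level at a prime: degeneracy maps, Atkin-Lehner, trace
-/

set_option autoImplicit false

noncomputable section

namespace Fermat.Agent.TWCoh

open Matrix CongruenceSubgroup
open scoped MatrixGroups OnePoint

theorem scalar_smul {g : GQ} {n : ℚ} (hg : Ent g n 0 0 n) (x : P1) : g • x = x := by
  have hn : n ≠ 0 := by
    rintro rfl
    have h1 := g.isUnit
    rw [Matrix.isUnit_iff_isUnit_det] at h1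
    have h2 : (g : Matrix (Fin 2) (Fin 2) ℚ) = !![0, 0; 0, 0] := hg
    rw [h2, Matrix.det_fin_two_of] at h1
    simp at h1
  have e0 : g 0 0 = n := congrFun (congrFun hg 0) 0
  have e1 : g 0 1 = 0 := congrFun (congrFun hg 0) 1
  have e2 : g 1 0 = 0 := congrFun (congrFun hg 1) 0
  have e3 : g 1 1 = n := congrFun (congrFun hg 1) 1
  rcases x with _ | x
  · exact (OnePoint.smul_infty_eq_self_iff).2 e2
  · show g • ((x : ℚ) : OnePoint ℚ) = _
    rw [OnePoint.smul_some_eq_ite, e0, e1, e2, e3, zero_mul, zero_add, if_neg hn, add_zero,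
      mul_div_cancel_left₀ _ hn]
    rfl

variable {Λ : Type*} [CommRing Λ] {c N : ℕ} {θ : DirichletCharacter Λ c} {A : Type*}
  [AddCommGroup A] [Module Λ A]

/-- pull back -/
def pl (g : GQ) (φ : P1 → P1 → A) : P1 → P1 → A := fun x y => φ (g • x) (g • y)

omit [AddCommGroup A] in
theorem pl_pl (g h : GQ) (φ : P1 → P1 → A) : pl h (pl g φ) = pl (g * h) φ := by
  ext x y
  simp only [pl, mul_smul]

theorem pl_Di (n : ℕ) (hn : n ≠ 0) (φ : P1 → P1 → A) : pl (Di n hn) φ = Bop Λ A P1 n hn φ := rfl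

omit [AddCommGroup A] in
theorem pl_scalar {g : GQ} {n : ℚ} (hg : Ent g n 0 0 n) (φ : P1 → P1 → A) : pl g φ = φ := by
  ext x y
  simp only [pl, scalar_smul hg]

omit [AddCommGroup A] in
/-- matrices agreeing up to a scalar -/
theorem pl_congr_scalar {g h s : GQ} {n : ℚ} (hs : Ent s n 0 0 n) (hgh : g = s * h)
    (φ : P1 → P1 → A) : pl g φ = pl h φ := by
  rw [hgh, ← pl_pl, pl_scalar hs]

theorem Sy.pl_io {φ : P1 → P1 → A} (h : φ ∈ Sy θ N A P1) {γ : SL(2, ℤ)} (hγ : γ ∈ Gamma0 N) :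
    pl (io γ) φ = θ (γ 0 0 : ZMod c) • φ := by
  ext x y
  exact Sy.equi h hγ x y

/-! ### `U_q B_q = q` -/

theorem Uop_Bop_self {q : ℕ} (hq : q ≠ 0) {φ : P1 → P1 → A} (h : TrInv φ) :
    Uop Λ A P1 q hq (Bop Λ A P1 q hq φ) = (q : Λ) • φ := by
  ext x y
  rw [Uop_apply]
  simp only [Bop_apply, ← mul_smul, Di_mul_Up_self]
  simp only [mul_smul, scalar_smul (ent_mk (q : ℚ) 0 0 q (by simpa using hq))]
  have : ∀ j : ℕ, φ (Tr (((j : ℕ) : ℤ) : ℚ) • x) (Tr (((j : ℕ) : ℤ) : ℚ) • y) = φ x y :=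
    fun j => h j x y
  simp only [this, Finset.sum_const, Finset.card_range]
  rw [← Nat.cast_smul_eq_nsmul Λ]
  rfl

/-! ### The inclusion and `B_q` -/

theorem Gamma0_le {N M : ℕ} (h : N ∣ M) : Gamma0 M ≤ Gamma0 N := by
  intro γ hγ
  rw [mem_Gamma0] at hγ ⊢
  exact (Int.natCast_dvd_natCast.2 h).trans hγ

theorem Sy.level {M : ℕ} (hNM : N ∣ M) {φ : P1 → P1 → A} (h : φ ∈ Sy θ N A P1) :
    φ ∈ Sy θ M A P1 :=
  ⟨h.1, fun γ hγ => h.2 γ (Gamma0_le hNM hγ)⟩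

theorem Sy.bop {q : ℕ} (hq : q ≠ 0) {φ : P1 → P1 → A} (h : φ ∈ Sy θ N A P1) :
    Bop Λ A P1 q hq φ ∈ Sy θ (N * q) A P1 := by
  refine ⟨fun x y z => h.1 _ _ _, fun γ hγ x y => ?_⟩
  obtain ⟨e, he⟩ := mem_Gamma0.1 hγ
  have hdet := det_SL γ
  push_cast at he
  obtain ⟨δ, h1, h2, h3, h4⟩ := exists_SL (γ 0 0) (q * γ 0 1) (N * e) (γ 1 1) (by
    rw [he] at hdet; linear_combination hdet)
  have hδ : δ ∈ Gamma0 N := mem_Gamma0.2 (by rw [h3]; exact dvd_mul_right _ _)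
  have e1 : Di q hq * io γ = io δ * Di q hq := by
    refine (((ent_Di q hq).mul (ent_io γ)).congr ?_ ?_ ?_ ?_).ext ((ent_io δ).mul (ent_Di q hq))
    · rw [h1]; push_cast; ring
    · rw [h1, h2]; push_cast; ring
    · rw [h3, he]; push_cast; ring
    · rw [h3, h4]; push_cast; ring
  rw [Bop_apply, Bop_apply, ← mul_smul, ← mul_smul, e1, mul_smul, mul_smul, Sy.equi h hδ, h1]

/-! ### The Atkin-Lehner operator -/

/-- the data of an Atkin-Lehner matrix -/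
structure ALD (N q : ℕ) where
  mk' ::
  hq : q.Prime
  a : ℤ
  b : ℤ
  c : ℤ
  d : ℤ
  det : q * a * d - N * b * c = 1

theorem exists_ALD {N q : ℕ} (hq : q.Prime) (hqN : ¬ q ∣ N) : Nonempty (ALD N q) := by
  have h1 : IsCoprime (q : ℤ) (N : ℤ) := by
    rw [Nat.isCoprime_iff_coprime]
    exact (Nat.Prime.coprime_iff_not_dvd hq).2 hqN
  obtain ⟨u, v, huv⟩ := h1
  exact ⟨⟨hq, u, -1, v, 1, by linear_combination huv⟩⟩

namespace ALD

variable {q : ℕ} (w : ALD N q)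

theorem ne (w : ALD N q) : (q : ℚ) ≠ 0 := by exact_mod_cast w.hq.ne_zero

theorem detQ : (q : ℚ) * w.a * w.d - N * w.b * w.c = 1 := by exact_mod_cast w.det

/-- the Atkin-Lehner matrix -/
def W : GQ := mk (q * w.a) w.b (N * q * w.c) (q * w.d) (by
  have h1 := w.detQ
  have h2 : (q : ℚ) * w.a * (q * w.d) - w.b * (N * q * w.c) = q := by linear_combination (q : ℚ) * h1
  rw [h2]; exact w.ne)

theorem ent_W : Ent w.W (q * w.a) w.b (N * q * w.c) (q * w.d) := ent_mk _ _ _ _ _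

/-- the matrix of level `N` -/
def dl : SL(2, ℤ) := (exists_SL w.a w.b (N * w.c) (q * w.d) (by
  have := w.det
  linear_combination this)).choose

theorem dl_spec : w.dl 0 0 = w.a ∧ w.dl 0 1 = w.b ∧ w.dl 1 0 = N * w.c ∧ w.dl 1 1 = q * w.d :=
  (exists_SL w.a w.b (N * w.c) (q * w.d) (by
    have := w.det
    linear_combination this)).choose_spec

theorem dl_mem : w.dl ∈ Gamma0 N := mem_Gamma0.2 (by rw [w.dl_spec.2.2.1]; exact dvd_mul_right _ _)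

theorem W_eq : w.W = io w.dl * Di q w.hq.ne_zero := by
  obtain ⟨h1, h2, h3, h4⟩ := w.dl_spec
  refine w.ent_W.ext (((ent_io _).mul (ent_Di q w.hq.ne_zero)).congr ?_ ?_ ?_ ?_)
  · rw [h1]; ring
  · rw [h1, h2]; ring
  · rw [h3]; push_cast; ring
  · rw [h3, h4]; push_cast; ring

theorem pl_W {φ : P1 → P1 → A} (h : φ ∈ Sy θ N A P1) :
    pl w.W φ = θ ((w.a : ℤ) : ZMod c) • Bop Λ A P1 q w.hq.ne_zero φ := by
  rw [W_eq, ← pl_pl, Sy.pl_io h w.dl_mem, w.dl_spec.1]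
  rfl

theorem pl_W_bop {φ : P1 → P1 → A} (h : φ ∈ Sy θ N A P1) :
    pl w.W (Bop Λ A P1 q w.hq.ne_zero φ) = θ ((q * w.a : ℤ) : ZMod c) • φ := by
  rw [← pl_Di, pl_pl]
  obtain ⟨δ, h1, h2, h3, h4⟩ := exists_SL (q * w.a) w.b (N * w.c) w.d (by
    have := w.det
    linear_combination this)
  have hδ : δ ∈ Gamma0 N := mem_Gamma0.2 (by rw [h3]; exact dvd_mul_right _ _)
  have e1 : Di q w.hq.ne_zero * w.W = mk q 0 0 q (by simpa using w.hq.ne_zero) * io δ := by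
    refine (((ent_Di q w.hq.ne_zero).mul w.ent_W).congr ?_ ?_ ?_ ?_).ext
      ((ent_mk _ _ _ _ _).mul (ent_io δ))
    · rw [h1]; push_cast; ring
    · rw [h2]; ring
    · rw [h1, h3]; push_cast; ring
    · rw [h4]; ring
  rw [pl_congr_scalar (ent_mk _ _ _ _ _) e1, Sy.pl_io h hδ, h1]

theorem pl_W_mem (hc : c ∣ N) {φ : P1 → P1 → A} (h : φ ∈ Sy θ (N * q) A P1) :
    pl w.W φ ∈ Sy θ (N * q) A P1 := by
  refine ⟨fun x y z => h.1 _ _ _, fun γ hγ => ?_⟩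
  obtain ⟨e, he⟩ := mem_Gamma0.1 hγ
  have hdet := det_SL γ
  have hw := w.det
  push_cast at he
  have hwQ := w.detQ
  have heQ : ((γ 1 0 : ℤ) : ℚ) = N * q * e := by exact_mod_cast he
  -- `W γ W⁻¹`
  obtain ⟨δ, h1, h2, h3, h4⟩ := exists_SL
    ((q * w.a * γ 0 0 + w.b * (N * q * e)) * w.d - (q * w.a * γ 0 1 + w.b * γ 1 1) * (N * w.c))
    (-(w.a * γ 0 0 + w.b * (N * e)) * w.b + (q * w.a * γ 0 1 + w.b * γ 1 1) * w.a)
    (N * q * ((w.c * γ 0 0 + w.d * q * e) * w.d - (N * w.c * γ 0 1 + w.d * γ 1 1) * w.c))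
    (-(N * w.c * γ 0 0 + w.d * (N * q * e)) * w.b + (N * q * w.c * γ 0 1 + q * w.d * γ 1 1) * w.a) (by
      rw [he] at hdet
      linear_combination (q * w.a * w.d - N * w.b * w.c + 1) *
        (γ 0 0 * γ 1 1 - γ 0 1 * (N * q * e)) * hw + hdet)
  have hδ : δ ∈ Gamma0 (N * q) := mem_Gamma0.2 (by
    rw [h3]; push_cast; exact dvd_mul_right _ _)
  have e1 : w.W * io γ = io δ * w.W := by
    refine ((w.ent_W.mul (ent_io γ)).congr ?_ ?_ ?_ ?_).ext ((ent_io δ).mul w.ent_W)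
    · rw [h1, h2, heQ]; push_cast
      linear_combination (-(q * w.a * γ 0 0 + w.b * N * q * e : ℚ)) * hwQ
    · rw [h1, h2]; push_cast
      linear_combination (-(q * w.a * γ 0 1 + w.b * γ 1 1 : ℚ)) * hwQ
    · rw [h3, h4, heQ]; push_cast
      linear_combination (-(N * q * w.c * γ 0 0 + q * w.d * N * q * e : ℚ)) * hwQ
    · rw [h3, h4]; push_cast
      linear_combination (-(N * q * w.c * γ 0 1 + q * w.d * γ 1 1 : ℚ)) * hwQ
  intro x y
  have h5 : θ ((δ 0 0 : ℤ) : ZMod c) = θ ((γ 0 0 : ℤ) : ZMod c) := by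
    congr 1
    refine cast_congr hc ?_
    rw [h1]
    exact ⟨w.b * q * e * w.d - (q * w.a * γ 0 1 + w.b * γ 1 1) * w.c + w.b * w.c * γ 0 0, by
      linear_combination (γ 0 0) * hw⟩
  show φ (w.W • io γ • x) (w.W • io γ • y) = _
  rw [← mul_smul, ← mul_smul, e1, mul_smul, mul_smul, Sy.equi h hδ, h5]
  rfl

theorem pl_W_W (hc : c ∣ N) {φ : P1 → P1 → A} (h : φ ∈ Sy θ (N * q) A P1) :
    pl w.W (pl w.W φ) = θ ((q * w.a ^ 2 : ℤ) : ZMod c) • φ := by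
  rw [pl_pl]
  obtain ⟨δ, h1, h2, h3, h4⟩ := exists_SL (q * w.a ^ 2 + N * w.b * w.c) (w.b * (w.a + w.d))
    (N * q * w.c * (w.a + w.d)) (q * w.d ^ 2 + N * w.b * w.c) (by
    have := w.det
    linear_combination (q * w.a * w.d - N * w.b * w.c + 1) * this)
  have hδ : δ ∈ Gamma0 (N * q) := mem_Gamma0.2 (by
    rw [h3]; exact ⟨w.c * (w.a + w.d), by push_cast; ring⟩)
  have e1 : w.W * w.W = mk q 0 0 q (by simpa using w.hq.ne_zero) * io δ := by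
    refine ((w.ent_W.mul w.ent_W).congr ?_ ?_ ?_ ?_).ext
      ((ent_mk _ _ _ _ _).mul (ent_io δ))
    · rw [h1, h3]; push_cast; ring
    · rw [h2, h4]; push_cast; ring
    · rw [h1, h3]; push_cast; ring
    · rw [h2, h4]; push_cast; ring
  rw [pl_congr_scalar (ent_mk _ _ _ _ _) e1, Sy.pl_io h hδ, h1]
  congr 2
  refine cast_congr hc ⟨w.b * w.c, by ring⟩

/-! ### The trace -/

/-- representatives of `Γ₀(Nq) \ Γ₀(N)` -/
def rr : Option (Fin q) → SL(2, ℤ)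
  | none => 1
  | some j => w.dl * ModularGroup.T ^ ((j : ℕ) : ℤ)

theorem rr_some (j : Fin q) : w.rr (some j) 0 0 = w.a ∧ w.rr (some j) 0 1 = w.a * j + w.b ∧
    w.rr (some j) 1 0 = N * w.c ∧ w.rr (some j) 1 1 = N * w.c * j + q * w.d := by
  obtain ⟨h1, h2, h3, h4⟩ := w.dl_spec
  simp only [rr, Matrix.SpecialLinearGroup.coe_mul, ModularGroup.coe_T_zpow, Matrix.mul_apply,
    Fin.sum_univ_two, h1, h2, h3, h4]
  simp

theorem rr_mem (i : Option (Fin q)) : w.rr i ∈ Gamma0 N := by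
  rcases i with _ | j
  · exact one_mem _
  · rw [mem_Gamma0, (w.rr_some j).2.2.1]; exact dvd_mul_right _ _

theorem not_dvd_c : ¬ (q : ℤ) ∣ w.c := by
  rintro ⟨e, he⟩
  have h1 := w.det
  rw [he] at h1
  have : (q : ℤ) ∣ 1 := ⟨w.a * w.d - N * w.b * e, by linear_combination -h1⟩
  have h2 := Int.eq_one_of_dvd_one (by positivity) this
  exact w.hq.one_lt.ne' (by exact_mod_cast h2)

theorem mem_iff_of_dvd (w : ALD N q) {g : SL(2, ℤ)} (hqN : ¬ q ∣ N) (hg : g ∈ Gamma0 N) :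
    g ∈ Gamma0 (N * q) ↔ (q : ℤ) ∣ g 1 0 := by
  rw [mem_Gamma0]
  constructor
  · intro h
    exact (Dvd.intro_left (N : ℤ) (by push_cast; ring)).trans h
  · intro h
    push_cast
    refine IsCoprime.mul_dvd ?_ (mem_Gamma0.1 hg) h
    rw [Nat.isCoprime_iff_coprime]
    exact ((Nat.Prime.coprime_iff_not_dvd w.hq).2 hqN).symm

theorem _root_.Fermat.Agent.TWCoh.mul_inv_10 (g h : SL(2, ℤ)) :
    (g * h⁻¹) 1 0 = g 1 0 * h 1 1 - g 1 1 * h 1 0 := by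
  obtain ⟨h1, h2, h3, h4⟩ := inv_entries h
  rw [Matrix.SpecialLinearGroup.coe_mul, Matrix.mul_apply, Fin.sum_univ_two, h1, h3]
  ring

theorem exists_rr (hqN : ¬ q ∣ N) {g : SL(2, ℤ)} (hg : g ∈ Gamma0 N) :
    ∃ i, g * (w.rr i)⁻¹ ∈ Gamma0 (N * q) := by
  have hq := w.hq
  obtain ⟨e, he⟩ := mem_Gamma0.1 hg
  have hmem : ∀ i, g * (w.rr i)⁻¹ ∈ Gamma0 N := fun i => mul_mem hg (inv_mem (w.rr_mem i))
  by_cases h1 : (q : ℤ) ∣ g 1 0
  · refine ⟨none, ?_⟩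
    rw [w.mem_iff_of_dvd hqN (hmem _)]
    simpa [rr] using h1
  · have := Fact.mk hq
    have hg0 : ((g 1 0 : ℤ) : ZMod q) ≠ 0 := by
      rwa [Ne, ZMod.intCast_zmod_eq_zero_iff_dvd]
    have hN0 : ((N : ℤ) : ZMod q) ≠ 0 := by
      rw [Int.cast_natCast, Ne, ZMod.natCast_eq_zero_iff]; exact hqN
    refine ⟨some ⟨(((g 1 1 : ℤ) : ZMod q) / (g 1 0 : ℤ)).val, ZMod.val_lt _⟩, ?_⟩
    rw [w.mem_iff_of_dvd hqN (hmem _), mul_inv_10]
    obtain ⟨-, -, h3, h4⟩ := w.rr_some ⟨(((g 1 1 : ℤ) : ZMod q) / (g 1 0 : ℤ)).val, ZMod.val_lt _⟩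
    rw [h3, h4, ← ZMod.intCast_zmod_eq_zero_iff_dvd]
    push_cast
    rw [ZMod.natCast_zmod_val, ZMod.natCast_self]
    field_simp
    ring

theorem rr_inj (hqN : ¬ q ∣ N) {i j : Option (Fin q)}
    (h : w.rr i * (w.rr j)⁻¹ ∈ Gamma0 (N * q)) : i = j := by
  rw [w.mem_iff_of_dvd hqN (mul_mem (w.rr_mem i) (inv_mem (w.rr_mem j))), mul_inv_10] at h
  have hpr : Prime (q : ℤ) := Nat.prime_iff_prime_int.1 w.hq
  have hNc : ¬ (q : ℤ) ∣ N * w.c := by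
    intro h
    rcases hpr.dvd_or_dvd h with h | h
    · exact hqN (Int.natCast_dvd_natCast.1 h)
    · exact w.not_dvd_c h
  rcases i with _ | i <;> rcases j with _ | j
  · rfl
  · exfalso
    obtain ⟨-, -, h3, -⟩ := w.rr_some j
    rw [h3] at h
    simp [rr] at h
    exact hNc h
  · exfalso
    obtain ⟨-, -, h3, -⟩ := w.rr_some i
    rw [h3] at h
    simp [rr] at h
    exact hNc h
  · obtain ⟨-, -, h3, h4⟩ := w.rr_some j
    obtain ⟨-, -, h3', h4'⟩ := w.rr_some i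
    rw [h3, h4, h3', h4'] at h
    have h5 : (q : ℤ) ∣ (N * w.c) * ((N * w.c) * ((j : ℕ) - (i : ℕ) : ℤ)) := by
      convert h using 1; ring
    have h6 := (hpr.dvd_or_dvd ((hpr.dvd_or_dvd h5).resolve_left hNc)).resolve_left hNc
    have h7 : ((i : ℕ) : ℤ) ≡ ((j : ℕ) : ℤ) [ZMOD q] := Int.modEq_iff_dvd.2 h6
    have h8 := Nat.ModEq.eq_of_lt_of_lt (Int.natCast_modEq_iff.1 h7) i.2 j.2
    rw [Fin.ext h8]

variable (θ) in
/-- the trace -/
def tra (φ : P1 → P1 → A) : P1 → P1 → A :=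
  ∑ i : Option (Fin q), θ⁻¹ (((w.rr i) 0 0 : ℤ) : ZMod c) • pl (io (w.rr i)) φ

theorem tra_eq {φ : P1 → P1 → A} : w.tra θ φ = φ + θ⁻¹ ((w.a : ℤ) : ZMod c) •
    Uop Λ A P1 q w.hq.ne_zero (pl w.W φ) := by
  rw [tra, Fintype.sum_option]
  congr 1
  · show θ⁻¹ (((1 : SL(2, ℤ)) 0 0 : ℤ) : ZMod c) • pl (io 1) φ = φ
    rw [map_one]
    have h1 : pl 1 φ = φ := by
      ext x y
      simp only [pl, one_smul]
    rw [h1]
    simp
  · ext x y
    rw [Finset.sum_apply, Finset.sum_apply, Pi.smul_apply, Pi.smul_apply, Uop_apply,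
      Finset.smul_sum, Finset.sum_range]
    refine Finset.sum_congr rfl fun j _ => ?_
    obtain ⟨h1, h2, h3, h4⟩ := w.rr_some j
    rw [h1]
    rw [Pi.smul_apply, Pi.smul_apply]
    congr 1
    change pl (io (w.rr (some j))) φ x y = pl (Up q w.hq.ne_zero (j : ℕ)) (pl w.W φ) x y
    rw [pl_pl]
    have e1 : w.W * Up q w.hq.ne_zero (j : ℕ) = mk q 0 0 q (by simpa using w.hq.ne_zero) *
        io (w.rr (some j)) := by
      refine ((w.ent_W.mul (ent_Up q w.hq.ne_zero (j : ℕ))).congr ?_ ?_ ?_ ?_).ext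
        ((ent_mk _ _ _ _ _).mul (ent_io _))
      · rw [h1, h3]; push_cast; ring
      · rw [h2, h4]; push_cast; ring
      · rw [h1, h3]; push_cast; ring
      · rw [h2, h4]; push_cast; ring
    rw [pl_congr_scalar (ent_mk _ _ _ _ _) e1]

theorem _root_.Fermat.Agent.TWCoh.isUnit_00 {g : SL(2, ℤ)} (hg : g ∈ Gamma0 N) (hc : c ∣ N) :
    IsUnit ((g 0 0 : ℤ) : ZMod c) := by
  have h1 := mul_00_cast (c := c) hc (γ := g) (inv_mem hg)
  rw [mul_inv_cancel] at h1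
  refine IsUnit.of_mul_eq_one (((g⁻¹ 0 0 : ℤ)) : ZMod c) ?_
  rw [← h1]; simp

theorem tra_mem (hqN : ¬ q ∣ N) (hc : c ∣ N) {φ : P1 → P1 → A} (h : φ ∈ Sy θ (N * q) A P1) :
    w.tra θ φ ∈ Sy θ N A P1 := by
  refine ⟨fun x y z => ?_, fun γ hγ x y => ?_⟩
  · simp only [tra, Finset.sum_apply, Pi.smul_apply]
    rw [← Finset.sum_add_distrib]
    exact Finset.sum_congr rfl fun i _ => by
      rw [← smul_add]; congr 1; exact h.1 _ _ _
  · choose σ hσ using fun i => w.exists_rr hqN (mul_mem (w.rr_mem i) hγ)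
    have hinj : Function.Injective σ := by
      intro i j hij
      refine w.rr_inj hqN ?_
      have h1 := hσ i
      have h2 := hσ j
      rw [← hij] at h2
      have h3 := mul_mem h1 (inv_mem h2)
      convert h3 using 1
      group
    let σ' : Equiv.Perm (Option (Fin q)) :=
      Equiv.ofBijective σ ((Finite.injective_iff_bijective).1 hinj)
    simp only [tra, Finset.sum_apply, Pi.smul_apply]
    rw [Finset.smul_sum]
    conv_rhs => rw [← Equiv.sum_comp σ']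
    refine Finset.sum_congr rfl fun i _ => ?_
    show _ • φ (io (w.rr i) • io γ • x) (io (w.rr i) • io γ • y) =
      _ • θ⁻¹ (((w.rr (σ i)) 0 0 : ℤ) : ZMod c) • φ (io (w.rr (σ i)) • x) (io (w.rr (σ i)) • y)
    set g := w.rr i * γ * (w.rr (σ i))⁻¹ with hg
    have h1 : w.rr i * γ = g * w.rr (σ i) := by rw [hg]; group
    rw [← mul_smul, ← mul_smul, ← map_mul, h1, map_mul, mul_smul, mul_smul,
      Sy.equi h (hσ i), smul_smul, smul_smul]
    congr 1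
    -- characters
    have e1 : θ (((w.rr i) 0 0 : ℤ) : ZMod c) * θ ((γ 0 0 : ℤ) : ZMod c) =
        θ ((g 0 0 : ℤ) : ZMod c) * θ (((w.rr (σ i)) 0 0 : ℤ) : ZMod c) := by
      rw [← char_mul hc hγ, ← char_mul hc (w.rr_mem (σ i)), h1]
    have e2 := inv_mul_char θ (isUnit_00 (w.rr_mem i) hc)
    have e3 := mul_inv_char θ (isUnit_00 (w.rr_mem (σ i)) hc)
    calc θ⁻¹ (((w.rr i) 0 0 : ℤ) : ZMod c) * θ ((g 0 0 : ℤ) : ZMod c)
        = θ⁻¹ (((w.rr i) 0 0 : ℤ) : ZMod c) * (θ ((g 0 0 : ℤ) : ZMod c) *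
            θ (((w.rr (σ i)) 0 0 : ℤ) : ZMod c)) * θ⁻¹ (((w.rr (σ i)) 0 0 : ℤ) : ZMod c) := by
          rw [mul_assoc, mul_assoc, e3, mul_one]
      _ = (θ⁻¹ (((w.rr i) 0 0 : ℤ) : ZMod c) * θ (((w.rr i) 0 0 : ℤ) : ZMod c)) *
            (θ ((γ 0 0 : ℤ) : ZMod c) * θ⁻¹ (((w.rr (σ i)) 0 0 : ℤ) : ZMod c)) := by
          rw [← e1]; ring
      _ = _ := by rw [e2, one_mul]

/-- the cokernel identity -/
theorem tra_identity (hc : c ∣ N) {φ : P1 → P1 → A} (h : φ ∈ Sy θ (N * q) A P1) :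
    φ - θ ((q : ℤ) : ZMod c) • Uop Λ A P1 q w.hq.ne_zero (Uop Λ A P1 q w.hq.ne_zero φ) =
      w.tra θ φ - θ⁻¹ ((w.a : ℤ) : ZMod c) • Uop Λ A P1 q w.hq.ne_zero (w.tra θ (pl w.W φ)) := by
  rw [tra_eq, tra_eq, pl_W_W w hc h]
  have ha : IsUnit ((w.a : ℤ) : ZMod c) := by
    have := isUnit_00 w.dl_mem hc
    rwa [w.dl_spec.1] at this
  have e2 := inv_mul_char θ ha
  have e1 : θ ((q * w.a ^ 2 : ℤ) : ZMod c) = θ ((q : ℤ) : ZMod c) *
      (θ ((w.a : ℤ) : ZMod c) * θ ((w.a : ℤ) : ZMod c)) := by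
    rw [← map_mul, ← map_mul]; congr 1; push_cast; ring
  simp only [map_add, map_smul, smul_add, smul_smul, e1]
  have e3 : θ⁻¹ ((w.a : ℤ) : ZMod c) * (θ⁻¹ ((w.a : ℤ) : ZMod c) * (θ ((q : ℤ) : ZMod c) *
      (θ ((w.a : ℤ) : ZMod c) * θ ((w.a : ℤ) : ZMod c)))) = θ ((q : ℤ) : ZMod c) := by
    calc _ = (θ⁻¹ ((w.a : ℤ) : ZMod c) * θ ((w.a : ℤ) : ZMod c)) *
        (θ⁻¹ ((w.a : ℤ) : ZMod c) * θ ((w.a : ℤ) : ZMod c)) * θ ((q : ℤ) : ZMod c) := by ring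
      _ = _ := by rw [e2, one_mul, one_mul]
  rw [e3]
  abel

end ALD

/-! ### The comparison theorem -/

theorem hk_level {q l : ℕ} (hq : q.Prime) (hl : l.Prime) (hlq : l ≠ q) (φ : P1 → P1 → A) :
    hk θ A P1 (N * q) l hl.ne_zero φ = hk θ A P1 N l hl.ne_zero φ := by
  by_cases hlN : l ∣ N
  · rw [hk_of_dvd _ hlN, hk_of_dvd _ (hlN.mul_right q)]
  · have h1 : ¬ l ∣ N * q := by
      intro h
      rcases (Nat.Prime.dvd_mul hl).1 h with h | h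
      · exact hlN h
      · exact hlq ((Nat.prime_dvd_prime_iff_eq hl hq).1 h)
    rw [hk_of_not_dvd _ hlN, hk_of_not_dvd _ h1]

theorem hk_bop {q l : ℕ} (hq : q.Prime) (hl : l.Prime) (hlq : l ≠ q) {φ : P1 → P1 → A}
    (h : TrInv φ) : hk θ A P1 N l hl.ne_zero (Bop Λ A P1 q hq.ne_zero φ) =
      Bop Λ A P1 q hq.ne_zero (hk θ A P1 N l hl.ne_zero φ) := by
  simp only [hk, LinearMap.add_apply, LinearMap.smul_apply, map_add, map_smul]
  rw [h.uop_bop hl.ne_zero hq.ne_zero ((Nat.coprime_primes hl hq).2 hlq),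
    Bop_comm hl.ne_zero hq.ne_zero]

theorem char_q {q : ℕ} (hq : q.Prime) (hqN : ¬ q ∣ N) (hc : c ∣ N) :
    IsUnit ((q : ℕ) : ZMod c) := by
  rw [ZMod.isUnit_iff_coprime]
  exact (Nat.Prime.coprime_iff_not_dvd hq).2 fun h => hqN (h.trans hc)

/-- elements of the kernel of the degeneracy map -/
theorem ker_rel {q : ℕ} (hq : q.Prime) (hqN : ¬ q ∣ N) (hc : c ∣ N) {φ ψ : P1 → P1 → A}
    (hφ : φ ∈ Sy θ N A P1) (hψ : ψ ∈ Sy θ N A P1) (h : φ + Bop Λ A P1 q hq.ne_zero ψ = 0) :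
    hk θ A P1 N q hq.ne_zero φ = -((q + 1 : Λ) • ψ) ∧
    hk θ A P1 N q hq.ne_zero ψ = -((θ⁻¹ (q : ZMod c) * (q + 1 : Λ)) • φ) := by
  obtain ⟨w⟩ := exists_ALD hq hqN
  have hu := char_q hq hqN hc
  have ha : IsUnit ((w.a : ℤ) : ZMod c) := by
    have := isUnit_00 w.dl_mem hc
    rwa [w.dl_spec.1] at this
  have h1 : φ = -Bop Λ A P1 q hq.ne_zero ψ := eq_neg_of_add_eq_zero_left h
  have h2 : θ ((w.a : ℤ) : ZMod c) • (Bop Λ A P1 q hq.ne_zero φ + θ (q : ZMod c) • ψ) = 0 := by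
    have h3 : pl w.W (φ + Bop Λ A P1 q hq.ne_zero ψ) = 0 := by rw [h]; rfl
    have h4 : pl w.W (φ + Bop Λ A P1 q hq.ne_zero ψ) =
        pl w.W φ + pl w.W (Bop Λ A P1 q hq.ne_zero ψ) := rfl
    rw [h4, w.pl_W hφ, w.pl_W_bop hψ] at h3
    rw [smul_add, ← h3, smul_smul]
    congr 2
    rw [← map_mul]; congr 1; push_cast; ring
  have h5 : Bop Λ A P1 q hq.ne_zero φ = -(θ (q : ZMod c) • ψ) := by
    have h6 := congrArg (fun z => θ⁻¹ ((w.a : ℤ) : ZMod c) • z) h2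
    simp only [smul_smul, inv_mul_char θ ha, one_smul, smul_zero] at h6
    exact eq_neg_of_add_eq_zero_left h6
  have e1 := inv_mul_char θ hu
  have hU : Uop Λ A P1 q hq.ne_zero φ = -((q : Λ) • ψ) := by
    rw [h1, map_neg, Uop_Bop_self hq.ne_zero (Sy.trInv hψ)]
  have hψ' : ψ = -(θ⁻¹ (q : ZMod c) • Bop Λ A P1 q hq.ne_zero φ) := by
    rw [h5, smul_neg, neg_neg, smul_smul, e1, one_smul]
  constructor
  · rw [hk_of_not_dvd _ hqN, hU, h5, smul_neg, smul_smul, e1, one_smul, add_smul, one_smul]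
    abel
  · have hB : Bop Λ A P1 q hq.ne_zero ψ = -φ := by rw [h1, neg_neg]
    have hUψ : Uop Λ A P1 q hq.ne_zero ψ = -((θ⁻¹ (q : ZMod c) * q) • φ) := by
      rw [hψ', map_neg, map_smul, Uop_Bop_self hq.ne_zero (Sy.trInv hφ), smul_smul]
    rw [hk_of_not_dvd _ hqN, hUψ, hB, smul_neg, mul_add, add_smul, mul_one]
    abel

end Fermat.Agent.TWCoh

namespace Fermat.Agent.TWCoh

open Matrix CongruenceSubgroup MvPolynomial
open scoped MatrixGroups OnePoint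

variable {Λ : Type} [CommRing Λ] {c N : ℕ} {θ : DirichletCharacter Λ c} {A : Type*}
  [AddCommGroup A] [Module Λ A] {S : Set ℕ}

/-- inclusion of levels -/
def MS.incl (hc : c ∣ N) {M : ℕ} (hc' : c ∣ M) (hNM : N ∣ M) : MS hc θ A →ₗ[Λ] MS hc' θ A where
  toFun φ := ⟨φ.1, Sy.level hNM φ.2⟩
  map_add' _ _ := rfl
  map_smul' _ _ := rfl

/-- the second degeneracy map -/
def MS.bop (hc : c ∣ N) {q : ℕ} (hq : q ≠ 0) (hc' : c ∣ N * q) : MS hc θ A →ₗ[Λ] MS hc' θ A where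
  toFun φ := ⟨Bop Λ A P1 q hq φ.1, Sy.bop hq φ.2⟩
  map_add' _ _ := rfl
  map_smul' _ _ := rfl

variable [NeZero N] [IsLocalRing Λ] [IsNoetherianRing Λ]
  [IsAdicComplete (IsLocalRing.maximalIdeal Λ) Λ] [Module.Finite Λ A]
  {k : Type} [Field k] [Algebra Λ k]

theorem isUnit_of_image_ne_zero (hk : Function.Surjective (algebraMap Λ k)) {x : Λ}
    (h : algebraMap Λ k x ≠ 0) : IsUnit x := by
  have h1 : (RingHom.ker (algebraMap Λ k)).IsMaximal := RingHom.ker_isMaximal_of_surjective _ hk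
  have h2 := IsLocalRing.eq_maximalIdeal h1
  by_contra h3
  have h4 : x ∈ IsLocalRing.maximalIdeal Λ := h3
  rw [← h2] at h4
  exact h h4

/-- **Level raising at a Taylor-Wiles prime.** -/
theorem level_iso (hc : c ∣ N) (q : PS S) (hc' : c ∣ N * q.1) (hqN : ¬ q.1 ∣ N)
    (hk' : Function.Surjective (algebraMap Λ k)) {τ τ' : PS S → k} {α β : k}
    (h : TwoEig q ((q.1 : ℕ) : Λ) (θ⁻¹ ((q.1 : ℕ) : ZMod c)) τ τ' α β) (hq1 : ((q.1 : ℕ) : k) = 1) :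
    ∃ e : loc (evI Λ τ) (MS hc θ A) ≃ₗ[Λ] loc (evI Λ τ') (MS hc' θ A), ∀ i, i ≠ q → ∀ x,
      e ((X i : HA Λ S) • x) = (X i : HA Λ S) • e x := by
  have hq := q.2.1
  have : NeZero (N * q.1) := ⟨mul_ne_zero (NeZero.ne N) hq.ne_zero⟩
  have hu := char_q hq hqN hc
  have e1 := inv_mul_char θ hu
  have e1' : algebraMap Λ k (θ⁻¹ ((q.1 : ℕ) : ZMod c)) * algebraMap Λ k (θ ((q.1 : ℕ) : ZMod c)) = 1 := by
    rw [← map_mul, e1, map_one]
  have hprod : α * β = algebraMap Λ k (θ⁻¹ ((q.1 : ℕ) : ZMod c)) := by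
    rw [h.prod, map_mul, map_natCast, hq1, one_mul]
  obtain ⟨w⟩ := exists_ALD hq hqN
  have hlq : ∀ i : PS S, i ≠ q → i.1 ≠ q.1 := fun i hi h => hi (Subtype.ext h)
  refine tw_compare (q := q) (a := ((q.1 : ℕ) : Λ)) (v := θ⁻¹ ((q.1 : ℕ) : ZMod c)) hk' ?_ h
    (MS.incl hc hc' (Dvd.intro _ rfl)) (MS.bop hc hq.ne_zero hc') ?_ ?_ ?_ ?_ ?_ ?_
  · exact isUnit_of_image_ne_zero hk' (by rw [map_natCast, hq1]; exact one_ne_zero)
  · intro i hi φ
    rw [X_smul, X_smul]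
    apply Subtype.ext
    exact hk_level hq i.2.1 (hlq i hi) _
  · intro i hi φ
    rw [X_smul, X_smul]
    apply Subtype.ext
    show hk θ A P1 (N * q.1) i.1 i.2.1.ne_zero (Bop Λ A P1 q.1 hq.ne_zero φ.1) =
      Bop Λ A P1 q.1 hq.ne_zero (hk θ A P1 N i.1 i.2.1.ne_zero φ.1)
    rw [hk_level hq i.2.1 (hlq i hi), hk_bop hq i.2.1 (hlq i hi) (Sy.trInv φ.2)]
  · intro φ
    rw [X_smul, X_smul]
    apply Subtype.ext
    show hk θ A P1 (N * q.1) q.1 hq.ne_zero φ.1 = hk θ A P1 N q.1 hq.ne_zero φ.1 -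
      θ⁻¹ ((q.1 : ℕ) : ZMod c) • Bop Λ A P1 q.1 hq.ne_zero φ.1
    rw [hk_of_dvd _ (Dvd.intro_left _ rfl), hk_of_not_dvd _ hqN, add_sub_cancel_right]
  · intro φ
    rw [X_smul]
    apply Subtype.ext
    show hk θ A P1 (N * q.1) q.1 hq.ne_zero (Bop Λ A P1 q.1 hq.ne_zero φ.1) = (q.1 : Λ) • φ.1
    rw [hk_of_dvd _ (Dvd.intro_left _ rfl), Uop_Bop_self hq.ne_zero (Sy.trInv φ.2)]
  · refine ⟨1 - C (θ ((q.1 : ℕ) : ZMod c)) * X q ^ 2, ?_, fun y => ?_⟩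
    · rw [mem_evI, map_sub, map_one, map_mul, map_pow, aeval_C, aeval_X, h.eq']
      intro h0
      have h3 : algebraMap Λ k (θ ((q.1 : ℕ) : ZMod c)) * (α * (α - β)) = 0 := by
        have : algebraMap Λ k (θ ((q.1 : ℕ) : ZMod c)) * (α * β) = 1 := by rw [hprod, mul_comm, e1']
        linear_combination -h0 - this
      rcases mul_eq_zero.1 h3 with h4 | h4
      · rw [h4, mul_zero] at e1'; exact one_ne_zero e1'.symm
      · rcases mul_eq_zero.1 h4 with h5 | h5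
        · exact h.alpha h5
        · exact h.distinct (sub_eq_zero.1 h5)
    · have hy := y.2
      set t1 : MS hc θ A := ⟨w.tra θ y.1, w.tra_mem hqN hc y.2⟩ with ht1
      set t2 : MS hc θ A := ⟨w.tra θ (pl w.W y.1), w.tra_mem hqN hc (w.pl_W_mem hc y.2)⟩ with ht2
      refine ⟨t1 - θ⁻¹ ((w.a : ℤ) : ZMod c) • opr hc θ A hq t2,
        (θ⁻¹ ((w.a : ℤ) : ZMod c) * θ⁻¹ ((q.1 : ℕ) : ZMod c)) • t2, ?_⟩
      have hd : (1 - C (θ ((q.1 : ℕ) : ZMod c)) * X q ^ 2 : HA Λ S) • y =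
          y - θ ((q.1 : ℕ) : ZMod c) • opr hc' θ A hq (opr hc' θ A hq y) := by
        rw [sub_smul, one_smul, mul_smul, C_smul, pow_two, mul_smul, X_smul, X_smul]
      rw [hd]
      apply Subtype.ext
      show (w.tra θ y.1 - θ⁻¹ ((w.a : ℤ) : ZMod c) • hk θ A P1 N q.1 hq.ne_zero
        (w.tra θ (pl w.W y.1))) + (θ⁻¹ ((w.a : ℤ) : ZMod c) * θ⁻¹ ((q.1 : ℕ) : ZMod c)) •
          Bop Λ A P1 q.1 hq.ne_zero (w.tra θ (pl w.W y.1)) =
        y.1 - θ ((q.1 : ℕ) : ZMod c) • hk θ A P1 (N * q.1) q.1 hq.ne_zero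
          (hk θ A P1 (N * q.1) q.1 hq.ne_zero y.1)
      have hid := w.tra_identity hc y.2
      rw [Int.cast_natCast] at hid
      rw [hk_of_dvd _ (Dvd.intro_left _ rfl), hk_of_dvd _ (Dvd.intro_left _ rfl), hid,
        hk_of_not_dvd _ hqN, smul_add, mul_smul]
      abel
  · refine ⟨X q ^ 2 - C (θ⁻¹ ((q.1 : ℕ) : ZMod c) * ((q.1 : ℕ) + 1 : Λ) ^ 2), ?_, ?_⟩
    · rw [mem_evI, map_sub, map_pow, aeval_C, aeval_X, h.sum, map_mul (algebraMap Λ k),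
        map_pow (algebraMap Λ k), map_add (algebraMap Λ k), map_natCast (algebraMap Λ k), hq1,
        map_one (algebraMap Λ k), ← hprod]
      intro h0
      have h3 : (α - β) ^ 2 = 0 := by linear_combination h0
      exact h.distinct (sub_eq_zero.1 (pow_eq_zero_iff (two_ne_zero) |>.1 h3))
    · intro φ ψ hφψ
      obtain ⟨h3, h4⟩ := ker_rel hq hqN hc φ.2 ψ.2 (congrArg Subtype.val hφψ)
      have h3' : opr hc θ A hq φ = -(((q.1 : ℕ) + 1 : Λ) • ψ) := Subtype.ext h3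
      have h4' : opr hc θ A hq ψ = -((θ⁻¹ ((q.1 : ℕ) : ZMod c) * ((q.1 : ℕ) + 1 : Λ)) • φ) :=
        Subtype.ext h4
      constructor
      · rw [sub_smul, C_smul, pow_two, mul_smul, X_smul, X_smul, h3', map_neg, map_smul, h4',
          smul_neg, neg_neg, smul_smul, sub_eq_zero]
        congr 1; ring
      · rw [sub_smul, C_smul, pow_two, mul_smul, X_smul, X_smul, h4', map_neg, map_smul, h3',
          smul_neg, neg_neg, smul_smul, sub_eq_zero]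
        congr 1; ring

end Fermat.Agent.TWCoh
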