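import Fermat.Agent.TWCoh.Package

/-!
# The modules of level `n` in the Taylor-Wiles method, II
-/

set_option autoImplicit false

noncomputable section

namespace Fermat.Agent.TWCoh

open Matrix CongruenceSubgroup MvPolynomial Fermat.Agent.AnJac
open scoped MatrixGroups OnePoint

section Modules

variable {O k Λ : Type} [CommRing O] [Field k] [Algebra O k] [CommRing Λ] [Algebra Λ k]
    {ε : Λ →+* O} {lam : Λ} {p N N'' : ℕ} {S : Set ℕ} {Q : Finset (PS S)} {I : Finset ℕ}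
    {τ α β : PS S → k} {ψ₁ ψ₂ : ∀ q : ℕ, DirichletCharacter Λ q}

variable (τ α) in
/-- the module of level `n` -/
abbrev MQ (hc : cdr Q I ∣ lvl N Q) (ψ : ∀ q : ℕ, DirichletCharacter Λ q) : Type :=
  loc (evI Λ (modE Q τ α)) (MS hc (dch ψ (allP Q I) (cdr Q I)) Λ)

variable (O τ N) in
/-- the module of level zero -/
abbrev M0 : Type := loc (evI O τ) (MS (one_dvd N) (1 : DirichletCharacter O 1) O)

/-- inclusion of polynomial rings -/
def rn (O : Type) [CommRing O] (Q : Finset (PS S)) : HA O (bad Q) →ₐ[O] HA O S :=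
  aeval fun l : PS (bad Q) => X (inclPS (sub_bad Q) l)

theorem rn_X (l : PS (bad Q)) : rn O Q (X l) = X (inclPS (sub_bad Q) l) := by
  rw [rn, aeval_X]

theorem map_twp (h : PCond ε lam p N N'' Q I τ α β ψ₁ ψ₂) (t : HA Λ (bad Q)) :
    MvPolynomial.map ε (twp ψ₁ (allP Q I) (sub_bad Q) t) = rn O Q (MvPolynomial.map ε t) := by
  induction t using MvPolynomial.induction_on with
  | C r =>
    rw [map_C, ← MvPolynomial.algebraMap_eq, ← MvPolynomial.algebraMap_eq, AlgHom.commutes,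
      AlgHom.commutes, MvPolynomial.algebraMap_eq, MvPolynomial.algebraMap_eq, map_C]
  | add p q hp hq => rw [map_add, map_add, map_add, map_add, hp, hq]
  | mul_X p l hp =>
    rw [map_mul, map_mul, map_mul, map_mul, hp, twp_X, map_mul, map_C, map_X, map_X, rn_X]
    have h1 : ε (ws ψ₁ (allP Q I) l.1) = 1 := by
      rw [ws, map_prod]
      refine Finset.prod_eq_one fun q hq => ?_
      obtain ⟨u, hu⟩ := h.unit_of l.2.1 (h.not_dvd l) hq
      rw [← hu, h.aug q hq u]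
    rw [h1, C_1, one_mul]

instance [NeZero N] : NeZero (lvl N Q) :=
  ⟨mul_ne_zero (NeZero.ne N) (Finset.prod_ne_zero_iff.2 fun r _ => r.2.1.ne_zero)⟩

theorem inclPS_notMem (l : PS (bad Q)) : inclPS (sub_bad Q) l ∉ Q := fun h =>
  l.2.2 (Or.inr ⟨_, h, rfl⟩)

theorem modE_incl (l : PS (bad Q)) : modE Q τ α (inclPS (sub_bad Q) l) =
    τ (inclPS (sub_bad Q) l) := modE_of_notMem (inclPS_notMem l)

theorem PCond.nonEis (h : PCond ε lam p N N'' Q I τ α β ψ₁ ψ₂) :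
    ∃ l₀ : PS S, (N'' : ℤ) ∣ l₀.1 - 1 ∧ (X l₀ - C (1 + (l₀.1 : Λ)) : HA Λ S) ∉
      evI Λ (modE Q τ α) := by
  obtain ⟨l₀, h1, h2⟩ := h.noneis
  refine ⟨l₀, h1, ?_⟩
  have hq : l₀ ∉ Q := by
    intro hq
    have h3 : l₀.1 ∣ N'' := by
      refine (Dvd.dvd.mul_left ?_ N : l₀.1 ∣ N * ∏ q ∈ Q, q.1).trans h.lvl_dvd
      exact Finset.dvd_prod_of_mem _ hq
    have h4 : (l₀.1 : ℤ) ∣ l₀.1 - 1 := dvd_trans (by exact_mod_cast h3) h1
    have h5 : (l₀.1 : ℤ) ∣ 1 := by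
      have := dvd_sub (dvd_refl (l₀.1 : ℤ)) h4
      simpa using this
    exact l₀.2.1.one_lt.ne' (Nat.dvd_one.1 (by exact_mod_cast h5))
  rw [mem_evI, map_sub, aeval_X, aeval_C, modE_of_notMem hq, map_add, map_one, map_natCast,
    sub_eq_zero]
  exact h2

variable [NeZero N] [IsLocalRing Λ] [IsNoetherianRing Λ]
  [IsAdicComplete (IsLocalRing.maximalIdeal Λ) Λ] [IsLocalRing O] [IsNoetherianRing O]
  [IsAdicComplete (IsLocalRing.maximalIdeal O) O]

theorem PCond.isUnit₂ (h : PCond ε lam p N N'' Q I τ α β ψ₁ ψ₂) : IsUnit (2 : Λ) :=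
  isUnit_of_image_ne_zero h.hΛk (by rw [map_ofNat]; exact h.ne_zero₂)

theorem noV_of_dvd {M : ℕ} (hNM : N ∣ M) (h : NoV N) : NoV M := fun g hg =>
  h g (Gamma0_le hNM hg)

theorem PCond.V3 (h : PCond ε lam p N N'' Q I τ α β ψ₁ ψ₂) : V3 Λ (lvl N Q) := by
  rcases h.v3 with h3 | h3
  · exact Or.inl (isUnit_of_image_ne_zero h.hΛk (by rw [map_ofNat]; exact h3))
  · exact Or.inr (noV_of_dvd (Dvd.intro _ rfl) h3)

theorem PCond.NonEis (h : PCond ε lam p N N'' Q I τ α β ψ₁ ψ₂) :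
    NonEis (evI Λ (modE Q τ α)) (lvl N Q) := by
  obtain ⟨l₀, h1, h2⟩ := h.nonEis
  exact ⟨l₀, (Int.natCast_dvd_natCast.2 h.lvl_dvd).trans h1, h2⟩

theorem PCond.tame (h : PCond ε lam p N N'' Q I τ α β ψ₁ ψ₂)
    (ψ : ∀ q : ℕ, DirichletCharacter Λ q) : Tame (dch ψ (allP Q I) (cdr Q I)) :=
  tame_dch h.squarefree

theorem free_MQ (h : PCond ε lam p N N'' Q I τ α β ψ₁ ψ₂)
    (ψ : ∀ q : ℕ, DirichletCharacter Λ q) : Module.Free Λ (MQ (N := N) (I := I) τ α h.cdr_dvd ψ) := by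
  have := evI_isMaximal h.hΛk (modE Q τ α)
  exact free_loc h.NonEis (h.tame ψ) h.isUnit₂ h.V3

theorem isUnit_of_coprime_lvl (h : PCond ε lam p N N'' Q I τ α β ψ₁ ψ₂) {a : ℤ}
    (ha : IsCoprime a (lvl N Q : ℤ)) {q : ℕ} (hq : q ∈ allP Q I) : IsUnit (a : ZMod q) :=
  isUnit_of_isCoprime (ha.of_isCoprime_of_dvd_right
    (by exact_mod_cast (dvd_cdr hq).trans h.cdr_dvd))

theorem compat_eps (h : PCond ε lam p N N'' Q I τ α β ψ₁ ψ₂) :
    Compat ε (lvl N Q) (dch ψ₁ (allP Q I) (cdr Q I)) (1 : DirichletCharacter O 1) := by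
  intro a ha
  rw [MulChar.one_apply (isUnit_of_subsingleton _), dch_apply (fun q hq => dvd_cdr hq)
    (isUnit_of_isCoprime (ha.of_isCoprime_of_dvd_right (by exact_mod_cast h.cdr_dvd))),
    chs, map_prod]
  refine Finset.prod_eq_one fun q hq => ?_
  obtain ⟨u, hu⟩ := isUnit_of_coprime_lvl h ha hq
  rw [map_pow, ← hu, h.aug q hq u, one_pow]

/-- **Reduction to level zero.** -/
theorem exists_pi (h : PCond ε lam p N N'' Q I τ α β ψ₁ ψ₂) :
    ∃ π : MQ (N := N) (I := I) τ α h.cdr_dvd ψ₁ →ₛₗ[ε] M0 O N τ, Function.Surjective π ∧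
      (∀ x, π x = 0 → x ∈ RingHom.ker ε •
        (⊤ : Submodule Λ (MQ (N := N) (I := I) τ α h.cdr_dvd ψ₁))) ∧
      ∀ (t : HA Λ (bad Q)) x, π (twp ψ₁ (allP Q I) (sub_bad Q) t • x) =
        rn O Q (MvPolynomial.map ε t) • π x := by
  have := evI_isMaximal h.hΛk (modE Q τ α)
  obtain ⟨e, he⟩ := iter_iso (A := O) h.hOk (one_dvd N) h.tw (lvl N Q) rfl (one_dvd _)
  have he' : ∀ (t : HA O (bad Q)) x, e (rn O Q t • x) = rn O Q t • e x := by
    intro t
    induction t using MvPolynomial.induction_on with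
    | C r =>
      intro x
      have h1 : rn O Q (C r) = r • (1 : HA O S) := by
        rw [← MvPolynomial.algebraMap_eq, AlgHom.commutes, Algebra.algebraMap_eq_smul_one]
      rw [h1, smul_assoc, one_smul, smul_assoc, one_smul, map_smul]
    | add p q hp hq =>
      intro x
      rw [map_add, add_smul, map_add, hp, hq, add_smul]
    | mul_X p l hp =>
      intro x
      rw [map_mul, mul_smul, hp, rn_X, he _ (inclPS_notMem l), mul_smul]
  have hm : ∀ t : MvPolynomial (PS S) Λ, MvPolynomial.map ε t ∈ evI O (modE Q τ α) ↔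
      t ∈ evI Λ (modE Q τ α) := map_mem_evI h.hεk _
  have hcp := compat_eps h
  let π : MQ (N := N) (I := I) τ α h.cdr_dvd ψ₁ →ₛₗ[ε] M0 O N τ :=
    (e.symm : _ →ₗ[O] _).comp (red hm h.hε h.cdr_dvd (one_dvd _) hcp)
  have hπ : ∀ x, π x = e.symm (red hm h.hε h.cdr_dvd (one_dvd _) hcp x) := fun x => rfl
  refine ⟨π, ?_, ?_, ?_⟩
  · intro y
    obtain ⟨x, hx⟩ := red_surjective hm h.hε hcp h.NonEis (h.tame ψ₁) h.isUnit₂ h.V3 (e y)
    exact ⟨x, by rw [hπ, hx, LinearEquiv.symm_apply_apply]⟩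
  · intro x hx
    rw [hπ, LinearEquiv.map_eq_zero_iff] at hx
    exact mem_smul_of_red_eq_zero hm h.hε hcp h.NonEis (h.tame ψ₁) h.isUnit₂ h.V3 x hx
  · intro t x
    rw [hπ, hπ, red_smul, map_twp h]
    apply e.injective
    rw [he', LinearEquiv.apply_symm_apply, LinearEquiv.apply_symm_apply]

end Modules

end Fermat.Agent.TWCoh
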