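import Fermat.Agent.TWCoh.Eis

/-!
# Finite generation of modular symbols, lifting for the element of order three
-/

set_option autoImplicit false

noncomputable section

namespace Fermat.Agent.TWCoh

open Matrix CongruenceSubgroup ModularGroup OnePoint
open scoped MatrixGroups

variable {Λ : Type*} [CommRing Λ] {c : ℕ} {θ : DirichletCharacter Λ c} {N : ℕ}
  {A X : Type*} [AddCommGroup A] [Module Λ A] [MulAction GQ X]
  {A' : Type*} [AddCommGroup A'] [Module Λ A']

theorem io_T_infty : io T • (∞ : P1) = ∞ := by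
  rw [OnePoint.smul_infty_eq_self_iff]
  have := ent_io T
  rw [Ent] at this
  rw [this]
  simp [ModularGroup.T]

/-- modular symbols are determined by their values on unimodular pairs -/
theorem Sy.eq_zero_of_unimodular {φ : P1 → P1 → A} (h : φ ∈ Sy θ N A P1)
    (h0 : ∀ g : SL(2, ℤ), φ (io g • ∞) (io (g * S) • ∞) = 0) : φ = 0 := by
  have key : ∀ k : SL(2, ℤ), ∀ g : SL(2, ℤ), φ (io g • ∞) (io (g * k) • ∞) = 0 := by
    intro k
    have hk : k ∈ Subgroup.closure ({S, T} : Set SL(2, ℤ)) := by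
      rw [SpecialLinearGroup.SL2Z_generators]; trivial
    induction hk using Subgroup.closure_induction with
    | mem k hk =>
      rcases hk with rfl | rfl
      · exact h0
      · intro g
        rw [map_mul, mul_smul, io_T_infty, Sy.self h]
    | one => intro g; rw [mul_one, Sy.self h]
    | mul k k' _ _ hk hk' =>
      intro g
      rw [← Sy.add' h _ (io (g * k) • ∞), hk, zero_add, ← mul_assoc, hk']
    | inv k _ hk =>
      intro g
      have := hk (g * k⁻¹)
      rw [inv_mul_cancel_right] at this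
      rw [Sy.swap h, this, neg_zero]
  have h1 : ∀ x : P1, φ ∞ x = 0 := by
    intro x
    obtain ⟨g, hg⟩ := OnePoint.exists_mem_SL2 ℤ x
    have := key g 1
    rw [one_mul, map_one, one_smul] at this
    rw [← hg]
    exact this
  ext x y
  have h2 := Sy.add' h ∞ x y
  rw [h1, h1, zero_add] at h2
  exact h2

variable (θ N A) in
/-- evaluation at coset representatives -/
def evC : Sy θ N A P1 →ₗ[Λ] (Quotient (QuotientGroup.rightRel (Gamma0 N)) → A) where
  toFun φ q := φ.1 (io (Quotient.out q) • ∞) (io (Quotient.out q * S) • ∞)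
  map_add' _ _ := rfl
  map_smul' _ _ := rfl

theorem evC_injective : Function.Injective (evC θ N A) := by
  rw [injective_iff_map_eq_zero]
  rintro ⟨φ, h⟩ h0
  refine Subtype.ext (Sy.eq_zero_of_unimodular h fun g => ?_)
  set r : Setoid SL(2, ℤ) := QuotientGroup.rightRel (Gamma0 N) with hr
  have h1 : g * (Quotient.out (Quotient.mk r g))⁻¹ ∈ Gamma0 N := by
    have h1 : (Quotient.out (Quotient.mk r g)) ≈ g := Quotient.mk_out g
    rw [← QuotientGroup.rightRel_apply]
    exact h1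
  have h2 := congrFun h0 (Quotient.mk r g)
  have h3 : φ (io (Quotient.out (Quotient.mk r g)) • ∞)
      (io (Quotient.out (Quotient.mk r g) * S) • ∞) = 0 := h2
  have h4 : ∀ o : SL(2, ℤ), g * o⁻¹ ∈ Gamma0 N → φ (io o • ∞) (io (o * S) • ∞) = 0 →
      φ (io g • ∞) (io (g * S) • ∞) = 0 := by
    intro o ho h3
    have h5 : φ (io (g * o⁻¹ * o) • ∞) (io (g * o⁻¹ * (o * S)) • ∞) = 0 := by
      rw [map_mul, map_mul io (g * o⁻¹) (o * S), mul_smul, mul_smul, Sy.equi h ho, h3, smul_zero]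
    have e1 : g * o⁻¹ * o = g := by group
    have e2 : g * o⁻¹ * (o * S) = g * S := by group
    rwa [e1, e2] at h5
  exact h4 _ h1 h3

instance finite_rightRel [NeZero N] :
    Finite (Quotient (QuotientGroup.rightRel (Gamma0 N))) :=
  Finite.of_equiv _ (QuotientGroup.quotientRightRelEquivQuotientLeftRel (Gamma0 N)).symm

instance isNoetherian_Sy [NeZero N] [IsNoetherian Λ A] : IsNoetherian Λ (Sy θ N A P1) :=
  isNoetherian_of_injective (evC θ N A) evC_injective

instance finite_Sy [NeZero N] [IsNoetherianRing Λ] [Module.Finite Λ A] :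
    Module.Finite Λ (Sy θ N A P1) := by
  have : IsNoetherian Λ A := isNoetherian_of_isNoetherianRing_of_finite Λ A
  infer_instance

/-! ### No elements of order three -/

/-- `Γ₀(N)` contains no conjugate of the element of order three -/
def NoV (N : ℕ) : Prop := ∀ g : SL(2, ℤ), g * (S * T) * g⁻¹ ∉ Gamma0 N

theorem noV_of_prime {N r : ℕ} (hr : r.Prime) (hr3 : r % 3 = 2) (hrN : r ∣ N) : NoV N := by
  intro g hg
  set γ := g * (S * T) * g⁻¹ with hγ
  have htr : γ 0 0 + γ 1 1 = 1 := by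
    have h1 : ((γ : SL(2, ℤ)) : Matrix (Fin 2) (Fin 2) ℤ).trace = 1 := by
      rw [hγ, Matrix.SpecialLinearGroup.coe_mul, Matrix.trace_mul_comm,
        ← Matrix.SpecialLinearGroup.coe_mul]
      have : g⁻¹ * (g * (S * T)) = S * T := by group
      rw [this]
      decide
    rwa [Matrix.trace_fin_two] at h1
  have hdet := det_SL γ
  obtain ⟨k, hk⟩ := mem_Gamma0.1 hg
  obtain ⟨N', rfl⟩ := hrN
  have := Fact.mk hr
  have h2 : ((γ 0 0 : ℤ) : ZMod r) ^ 2 - (γ 0 0 : ℤ) + 1 = 0 := by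
    have h3 := congrArg (fun x : ℤ => (x : ZMod r)) hdet
    have h4 := congrArg (fun x : ℤ => (x : ZMod r)) htr
    rw [hk] at h3
    push_cast at h3 h4
    rw [ZMod.natCast_self] at h3
    linear_combination (γ 0 0 : ZMod r) * h4 - h3
  set a : ZMod r := ((γ 0 0 : ℤ) : ZMod r) with ha
  have h3 : a ^ 3 = -1 := by linear_combination (a + 1) * h2
  -- the order argument
  have ha0 : a ≠ 0 := by
    intro h0
    rw [h0] at h2
    norm_num at h2
  have h6 : a ^ (r - 1) = 1 := ZMod.pow_card_sub_one_eq_one ha0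
  obtain ⟨q, hq⟩ : ∃ q, r = 3 * q + 2 := ⟨r / 3, by omega⟩
  have h7 : a ^ (3 * q + 1) = 1 := by
    have : r - 1 = 3 * q + 1 := by omega
    rw [this] at h6; exact h6
  have h8 : a ^ 2 = 1 := by
    have h9 : (a ^ (3 * q + 1)) ^ 2 = a ^ 2 := by
      rw [← pow_mul]
      have : (3 * q + 1) * 2 = 3 * (2 * q) + 2 := by ring
      rw [this, pow_add, pow_mul, h3, pow_mul]
      norm_num
    rw [← h9, h7, one_pow]
  have h10 : a = 2 := by linear_combination h8 - h2
  rw [h10] at h8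
  have h11 : ((3 : ℕ) : ZMod r) = 0 := by
    push_cast
    linear_combination h8
  rw [ZMod.natCast_eq_zero_iff] at h11
  have h12 : r = 3 := (Nat.prime_dvd_prime_iff_eq hr Nat.prime_three).1 h11
  omega

theorem exists_section (hN : NoV N) : ∃ χ : SL(2, ℤ) → ℤ,
    (∀ γ ∈ Gamma0 N, ∀ g, χ (γ * g) = χ g) ∧
    ∀ g, χ g + χ (g * (S * T)) + χ (g * (S * T) ^ 2) = 1 := by
  classical
  -- orbits under `Γ₀(N)` on the left and `V` on the right
  let R : SL(2, ℤ) → SL(2, ℤ) → Prop := fun g h => ∃ k : ℕ, ∃ γ ∈ Gamma0 N, h = γ * g * (S * T) ^ k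
  have hV6 : (S * T : SL(2, ℤ)) ^ 6 = 1 := by
    rw [show 6 = 3 * 2 by norm_num, pow_mul, SL2Pres.V_cube']; simp
  let r : Setoid SL(2, ℤ) :=
    { r := R
      iseqv := ⟨fun g => ⟨0, 1, one_mem _, by simp⟩, fun {g h} hgh => by
          obtain ⟨k, γ, hγ, rfl⟩ := hgh
          refine ⟨5 * k, γ⁻¹, inv_mem hγ, ?_⟩
          have h1 : (S * T : SL(2, ℤ)) ^ k * (S * T) ^ (5 * k) = 1 := by
            rw [← pow_add, show k + 5 * k = 6 * k by ring, pow_mul, hV6, one_pow]
          rw [show γ⁻¹ * (γ * g * (S * T) ^ k) * (S * T) ^ (5 * k) =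
            γ⁻¹ * γ * g * ((S * T) ^ k * (S * T) ^ (5 * k)) by group, h1]
          group,
        fun {g h k} hgh hhk => by
          obtain ⟨a, γ, hγ, rfl⟩ := hgh
          obtain ⟨b, δ, hδ, rfl⟩ := hhk
          exact ⟨a + b, δ * γ, mul_mem hδ hγ, by rw [pow_add]; group⟩⟩ }
  let o : SL(2, ℤ) → SL(2, ℤ) := fun g => Quotient.out (Quotient.mk r g)
  have ho : ∀ g, R (o g) g := fun g => (Quotient.mk_out g : _ ≈ g)
  have ho' : ∀ g h, R g h → o g = o h := fun g h hgh =>
    congrArg Quotient.out (Quotient.sound (s := r) hgh)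
  let χ : SL(2, ℤ) → ℤ := fun g => if g * (o g)⁻¹ ∈ Gamma0 N then 1 else 0
  have hinv : ∀ γ ∈ Gamma0 N, ∀ g, χ (γ * g) = χ g := by
    intro γ hγ g
    have h1 : o (γ * g) = o g := (ho' g (γ * g) ⟨0, γ, hγ, by simp⟩).symm
    show (if γ * g * (o (γ * g))⁻¹ ∈ Gamma0 N then (1 : ℤ) else 0) =
      if g * (o g)⁻¹ ∈ Gamma0 N then 1 else 0
    rw [h1, mul_assoc, Subgroup.mul_mem_cancel_left _ hγ]
  refine ⟨χ, hinv, fun g => ?_⟩
  -- reduce to the case `o g = g` up to powers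
  have hVm : ∀ g : SL(2, ℤ), g * (S * T) ^ 3 = -1 * g := by
    intro g
    rw [SL2Pres.V_cube', mul_neg, mul_one, neg_mul, one_mul]
  have hper : ∀ g, χ (g * (S * T) ^ 3) = χ g := fun g => by
    rw [hVm, hinv _ (neg_one_mem_Gamma0 N)]
  have hcyc : ∀ g, χ (g * (S * T)) + χ (g * (S * T) * (S * T)) + χ (g * (S * T) * (S * T) ^ 2) =
      χ g + χ (g * (S * T)) + χ (g * (S * T) ^ 2) := by
    intro g
    have e1 : g * (S * T) * (S * T) = g * (S * T) ^ 2 := by rw [sq]; group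
    have e2 : g * (S * T) * (S * T) ^ 2 = g * (S * T) ^ 3 := by
      rw [mul_assoc, ← pow_succ']
    rw [e1, e2, hper]; ring
  have hbase : ∀ g, χ (o g) + χ (o g * (S * T)) + χ (o g * (S * T) ^ 2) = 1 := by
    intro g
    have hoo : ∀ k : ℕ, o (o g * (S * T) ^ k) = o g := by
      intro k
      have h1 : o (o g) = o g := ho' _ _ (ho g)
      rw [← ho' (o g) (o g * (S * T) ^ k) ⟨k, 1, one_mem _, by simp⟩, h1]
    have c0 : χ (o g) = 1 := by
      have h1 := hoo 0
      rw [pow_zero, mul_one] at h1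
      show (if o g * (o (o g))⁻¹ ∈ Gamma0 N then (1 : ℤ) else 0) = 1
      rw [h1, mul_inv_cancel, if_pos (one_mem _)]
    have c1 : χ (o g * (S * T)) = 0 := by
      have h1 := hoo 1
      rw [pow_one] at h1
      show (if o g * (S * T) * (o (o g * (S * T)))⁻¹ ∈ Gamma0 N then (1 : ℤ) else 0) = 0
      rw [h1, if_neg (hN _)]
    have c2 : χ (o g * (S * T) ^ 2) = 0 := by
      have h1 := hoo 2
      show (if o g * (S * T) ^ 2 * (o (o g * (S * T) ^ 2))⁻¹ ∈ Gamma0 N then (1 : ℤ) else 0) = 0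
      rw [h1, if_neg]
      intro h2
      apply hN (o g)
      have h3 := inv_mem h2
      have h4 : (o g * (S * T) ^ 2 * (o g)⁻¹)⁻¹ = -1 * (o g * (S * T) * (o g)⁻¹) := by
        have h5 : ((S * T : SL(2, ℤ)) ^ 2)⁻¹ = -1 * (S * T) := by
          rw [inv_eq_iff_mul_eq_one, neg_one_mul, mul_neg, ← pow_succ, SL2Pres.V_cube', neg_neg]
        have h6 : (o g * (S * T) ^ 2 * (o g)⁻¹)⁻¹ = o g * ((S * T) ^ 2)⁻¹ * (o g)⁻¹ := by group
        rw [h6, h5, neg_one_mul, neg_one_mul, mul_neg, neg_mul]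
      rw [h4, Subgroup.mul_mem_cancel_left _ (neg_one_mem_Gamma0 N)] at h3
      exact h3
    rw [c0, c1, c2]; norm_num
  -- the general case
  have hpow : ∀ (k : ℕ) (g : SL(2, ℤ)), χ g + χ (g * (S * T)) + χ (g * (S * T) ^ 2) = 1 →
      χ (g * (S * T) ^ k) + χ (g * (S * T) ^ k * (S * T)) + χ (g * (S * T) ^ k * (S * T) ^ 2) = 1 := by
    intro k
    induction k with
    | zero => intro g h; simpa using h
    | succ k ih =>
      intro g h
      have h1 := ih g h
      rw [← hcyc] at h1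
      have e1 : g * (S * T) ^ (k + 1) = g * (S * T) ^ k * (S * T) := by rw [pow_succ]; group
      rw [e1]
      exact h1
  obtain ⟨k, γ, hγ, hg⟩ := ho g
  have h1 := hpow k (o g) (hbase g)
  rw [hg, mul_assoc, mul_assoc γ, mul_assoc γ, hinv γ hγ, hinv γ hγ, hinv γ hγ]
  exact h1

theorem liftV_of_noV (hc : c ∣ N) (hθ : θ (-1) = 1) {p : A →ₗ[Λ] A'}
    (hp : Function.Surjective p) (hN : NoV N) : LiftV θ N p := by
  intro v hv
  obtain ⟨w, hw⟩ := Ind.map_surjective hc (θ := θ) hp v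
  obtain ⟨χ, hχ, hχ1⟩ := exists_section hN
  set n : Ind θ N A := w + (S * T : SL(2, ℤ)) • w + ((S * T) ^ 2 : SL(2, ℤ)) • w with hn
  have hpn : Ind.map θ N p n = 0 := by
    rw [hn, map_add, map_add, Ind.map_smul_SL, Ind.map_smul_SL, hw, hv]
  have hV3 : ((S * T) ^ 2 : SL(2, ℤ)) • (S * T : SL(2, ℤ)) • w = w := by
    rw [← mul_smul, ← pow_succ, SL2Pres.V_cube', Ind.neg_one_smul hθ]
  have hV3' : (S * T : SL(2, ℤ)) • ((S * T) ^ 2 : SL(2, ℤ)) • w = w := by
    rw [← mul_smul, ← pow_succ', SL2Pres.V_cube', Ind.neg_one_smul hθ]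
  have hV2 : (S * T : SL(2, ℤ)) • (S * T : SL(2, ℤ)) • w = ((S * T) ^ 2 : SL(2, ℤ)) • w := by
    rw [← mul_smul, ← sq]
  have hnV : (S * T : SL(2, ℤ)) • n = n := by
    rw [hn, smul_add, smul_add, hV2, hV3']; abel
  have hnV2 : ((S * T) ^ 2 : SL(2, ℤ)) • n = n := by
    rw [sq, mul_smul, hnV, hnV]
  let w₁ : Ind θ N A := ⟨fun g => χ g • n.1 g, fun γ hγ g => by
    show χ (γ * g) • n.1 (γ * g) = θ (γ 0 0 : ZMod c) • χ g • n.1 g
    rw [hχ γ hγ, n.2 γ hγ, smul_comm]⟩
  have hw₁ : w₁ + (S * T : SL(2, ℤ)) • w₁ + ((S * T) ^ 2 : SL(2, ℤ)) • w₁ = n := by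
    apply Subtype.ext
    funext g
    show χ g • n.1 g + χ (g * (S * T)) • n.1 (g * (S * T)) +
      χ (g * (S * T) ^ 2) • n.1 (g * (S * T) ^ 2) = n.1 g
    have e1 : n.1 (g * (S * T)) = n.1 g := congrFun (congrArg Subtype.val hnV) g
    have e2 : n.1 (g * (S * T) ^ 2) = n.1 g := congrFun (congrArg Subtype.val hnV2) g
    rw [e1, e2, ← add_smul, ← add_smul, hχ1, one_smul]
  refine ⟨w - w₁, ?_, ?_⟩
  · rw [map_sub, hw, sub_eq_self]
    apply Subtype.ext
    funext g
    show p (χ g • n.1 g) = 0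
    rw [map_zsmul]
    have : p (n.1 g) = 0 := congrFun (congrArg Subtype.val hpn) g
    rw [this, smul_zero]
  · have : w - w₁ + (S * T : SL(2, ℤ)) • (w - w₁) + ((S * T) ^ 2 : SL(2, ℤ)) • (w - w₁) =
        n - (w₁ + (S * T : SL(2, ℤ)) • w₁ + ((S * T) ^ 2 : SL(2, ℤ)) • w₁) := by
      rw [hn, smul_sub, smul_sub]; abel
    rw [this, hw₁, sub_self]

variable (Λ N) in
/-- the condition at elements of order three -/
def V3 : Prop := IsUnit (3 : Λ) ∨ NoV N

theorem liftV (hc : c ∣ N) (hθ : θ (-1) = 1) {p : A →ₗ[Λ] A'}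
    (hp : Function.Surjective p) (h3 : V3 Λ N) : LiftV θ N p := by
  rcases h3 with h3 | h3
  · exact liftV_of_isUnit hc hθ hp h3
  · exact liftV_of_noV hc hθ hp h3

end Fermat.Agent.TWCoh
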