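import Fermat.Agent.TWCoh.HeckeHom

/-!
# Change of coefficient rings
-/

set_option autoImplicit false

noncomputable section

namespace Fermat.Agent.TWCoh

open Matrix CongruenceSubgroup MvPolynomial
open scoped MatrixGroups OnePoint

section Coef

variable {Λ Λ' : Type} [CommRing Λ] [CommRing Λ'] {f : Λ →+* Λ'} {c c' N : ℕ}
  {θ : DirichletCharacter Λ c} {θ' : DirichletCharacter Λ' c'} {S : Set ℕ}

/-- compatibility of characters -/
def Compat (f : Λ →+* Λ') (N : ℕ) (θ : DirichletCharacter Λ c) (θ' : DirichletCharacter Λ' c') :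
    Prop := ∀ a : ℤ, IsCoprime a (N : ℤ) → f (θ (a : ZMod c)) = θ' (a : ZMod c')

theorem isCoprime_00 {γ : SL(2, ℤ)} (hγ : γ ∈ Gamma0 N) : IsCoprime (γ 0 0 : ℤ) (N : ℤ) := by
  obtain ⟨e, he⟩ := mem_Gamma0.1 hγ
  have h := det_SL γ
  exact ⟨γ 1 1, -(γ 0 1 * e), by rw [he] at h; linear_combination h⟩

theorem Compat.inv (h : Compat f N θ θ') (hc : c ∣ N) (hc' : c' ∣ N) {a : ℤ}
    (ha : IsCoprime a (N : ℤ)) : f (θ⁻¹ (a : ZMod c)) = θ'⁻¹ (a : ZMod c') := by
  have u1 : IsUnit (a : ZMod c) := isUnit_of_isCoprime (ha.of_isCoprime_of_dvd_right (by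
    exact_mod_cast hc))
  have u2 : IsUnit (a : ZMod c') := isUnit_of_isCoprime (ha.of_isCoprime_of_dvd_right (by
    exact_mod_cast hc'))
  have e1 := congrArg f (inv_mul_char θ u1)
  rw [map_mul, map_one, h a ha] at e1
  have e2 := mul_inv_char θ' u2
  calc f (θ⁻¹ (a : ZMod c)) = f (θ⁻¹ (a : ZMod c)) * (θ' (a : ZMod c') * θ'⁻¹ (a : ZMod c')) := by
        rw [e2, mul_one]
    _ = _ := by rw [← mul_assoc, e1, one_mul]

theorem sy_comp (h : Compat f N θ θ') {φ : P1 → P1 → Λ} (hφ : φ ∈ Sy θ N Λ P1) :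
    (fun x y => f (φ x y)) ∈ Sy θ' N Λ' P1 := by
  constructor
  · intro x y z
    rw [← map_add, Sy.add' hφ]
  · intro γ hγ x y
    show f (φ _ _) = _ * f (φ x y)
    rw [Sy.equi hφ hγ, smul_eq_mul, map_mul, h _ (isCoprime_00 hγ)]

theorem hk_comp' (h : Compat f N θ θ') (hc : c ∣ N) (hc' : c' ∣ N) {l : ℕ} (hl : l.Prime)
    (φ : P1 → P1 → Λ) : hk θ' Λ' P1 N l hl.ne_zero (fun x y => f (φ x y)) =
      fun x y => f (hk θ Λ P1 N l hl.ne_zero φ x y) := by
  funext x y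
  by_cases hlN : l ∣ N
  · rw [hk_of_dvd _ hlN, hk_of_dvd _ hlN, Uop_apply, Uop_apply, map_sum]
  · rw [hk_of_not_dvd _ hlN, hk_of_not_dvd _ hlN]
    simp only [Pi.add_apply, Pi.smul_apply, Uop_apply, Bop_apply, map_add, map_sum, smul_eq_mul,
      map_mul]
    have h1 := h.inv hc hc' (a := (l : ℤ)) (by
      rw [Nat.isCoprime_iff_coprime]; exact (Nat.Prime.coprime_iff_not_dvd hl).2 hlN)
    rw [Int.cast_natCast, Int.cast_natCast] at h1
    rw [h1]

/-- the reduction map -/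
def redS (hc : c ∣ N) (hc' : c' ∣ N) (h : Compat f N θ θ') : MS hc θ Λ →ₛₗ[f] MS hc' θ' Λ' where
  toFun φ := ⟨fun x y => f (φ.1 x y), sy_comp h φ.2⟩
  map_add' _ _ := Subtype.ext (funext fun _ => funext fun _ => map_add f _ _)
  map_smul' _ _ := Subtype.ext (funext fun _ => funext fun _ => map_mul f _ _)

theorem redS_apply (hc : c ∣ N) (hc' : c' ∣ N) (h : Compat f N θ θ') (φ : MS hc θ Λ) (x y : P1) :
    (redS hc hc' h φ).1 x y = f (φ.1 x y) := rfl

theorem redS_smul (hc : c ∣ N) (hc' : c' ∣ N) (h : Compat f N θ θ') (t : HA Λ S)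
    (φ : MS hc θ Λ) : redS hc hc' h (t • φ) = (MvPolynomial.map f t) • redS hc hc' h φ := by
  induction t using MvPolynomial.induction_on generalizing φ with
  | C r => rw [C_smul, map_C, C_smul, LinearMap.map_smulₛₗ]
  | add p q hp hq => rw [add_smul, map_add, hp, hq, map_add, add_smul]
  | mul_X p l hp =>
    rw [mul_smul, hp, map_mul, mul_smul, map_X]
    congr 1
    rw [X_smul, X_smul]
    apply Subtype.ext
    exact (hk_comp' h hc hc' l.2.1 φ.1).symm

/-- reduction of the localized modules -/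
theorem redS_mem_loc {m : Ideal (HA Λ S)} {m' : Ideal (HA Λ' S)}
    (hm : ∀ t, MvPolynomial.map f t ∈ m' ↔ t ∈ m) (hf : Function.Surjective f) (hc : c ∣ N)
    (hc' : c' ∣ N) (h : Compat f N θ θ') {φ : MS hc θ Λ} (hφ : φ ∈ loc m (MS hc θ Λ)) :
    redS hc hc' h φ ∈ loc m' (MS hc' θ' Λ') := by
  rw [mem_loc] at hφ ⊢
  intro t ht
  obtain ⟨t, rfl⟩ := MvPolynomial.map_surjective f hf t
  obtain ⟨y, hy⟩ := hφ t (fun h => ht ((hm t).2 h))
  exact ⟨redS hc hc' h y, by rw [← redS_smul, hy]⟩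

/-- the reduction map on localized modules -/
def red {m : Ideal (HA Λ S)} {m' : Ideal (HA Λ' S)}
    (hm : ∀ t, MvPolynomial.map f t ∈ m' ↔ t ∈ m) (hf : Function.Surjective f) (hc : c ∣ N)
    (hc' : c' ∣ N) (h : Compat f N θ θ') :
    loc m (MS hc θ Λ) →ₛₗ[f] loc m' (MS hc' θ' Λ') where
  toFun φ := ⟨redS hc hc' h φ.1, redS_mem_loc hm hf hc hc' h φ.2⟩
  map_add' φ ψ := Subtype.ext (map_add (redS hc hc' h) φ.1 ψ.1)
  map_smul' r φ := Subtype.ext (LinearMap.map_smulₛₗ (redS hc hc' h) r φ.1)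

variable {m : Ideal (HA Λ S)} {m' : Ideal (HA Λ' S)}
  (hm : ∀ t, MvPolynomial.map f t ∈ m' ↔ t ∈ m) (hf : Function.Surjective f) {hc : c ∣ N}
  {hc' : c' ∣ N} (h : Compat f N θ θ')

theorem red_smul (t : HA Λ S) (x : loc m (MS hc θ Λ)) :
    red hm hf hc hc' h (t • x) = (MvPolynomial.map f t) • red hm hf hc hc' h x :=
  Subtype.ext (redS_smul hc hc' h t x.1)

theorem red_X (l : PS S) (x : loc m (MS hc θ Λ)) :
    red hm hf hc hc' h ((X l : HA Λ S) • x) = (X l : HA Λ' S) • red hm hf hc hc' h x := by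
  rw [red_smul, map_X]

variable [NeZero N] [IsLocalRing Λ] [IsNoetherianRing Λ]
  [IsAdicComplete (IsLocalRing.maximalIdeal Λ) Λ]

theorem red_surjective [m.IsMaximal] (hne : NonEis m N) (ht : Tame θ) (h2 : IsUnit (2 : Λ))
    (h3 : V3 Λ N) : Function.Surjective (red hm hf hc hc' h) := by
  letI : Module Λ Λ' := Module.compHom Λ' f
  have hsm : ∀ (r : Λ) (a : Λ'), r • a = f r * a := fun r a => rfl
  let p : Λ →ₗ[Λ] Λ' :=
    { toFun := f
      map_add' := map_add f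
      map_smul' := fun r x => map_mul f r x }
  have hp : Function.Surjective p := hf
  haveI : Module.Finite Λ Λ' := Module.Finite.of_surjective p hp
  intro y
  -- the element as a symbol over `Λ`
  have hy' : (y.1.1 : P1 → P1 → Λ') ∈ Sy θ N Λ' P1 := by
    constructor
    · exact Sy.add' y.1.2
    · intro γ hγ a b
      rw [Sy.equi y.1.2 hγ, hsm, h _ (isCoprime_00 hγ)]
      rfl
  -- the comparison for operators
  have hX : ∀ (t : HA Λ S) (z : MS hc θ Λ') (z' : MS hc' θ' Λ'), z.1 = z'.1 →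
      (t • z).1 = (MvPolynomial.map f t • z').1 := by
    intro t
    induction t using MvPolynomial.induction_on with
    | C r =>
      intro z z' hz
      rw [C_smul, map_C, C_smul]
      funext a b
      show r • z.1 a b = f r * z'.1 a b
      rw [hsm, hz]
    | add p q hp hq =>
      intro z z' hz
      rw [add_smul, map_add, add_smul]
      show (p • z).1 + (q • z).1 = (MvPolynomial.map f p • z').1 + (MvPolynomial.map f q • z').1
      rw [hp _ _ hz, hq _ _ hz]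
    | mul_X p l hp =>
      intro z z' hz
      rw [mul_smul, map_mul, mul_smul, map_X]
      apply hp
      rw [X_smul, X_smul]
      show hk θ Λ' P1 N l.1 l.2.1.ne_zero z.1 = hk θ' Λ' P1 N l.1 l.2.1.ne_zero z'.1
      rw [hz]
      by_cases hlN : l.1 ∣ N
      · rw [hk_of_dvd _ hlN, hk_of_dvd _ hlN]
        rfl
      · rw [hk_of_not_dvd _ hlN, hk_of_not_dvd _ hlN]
        have h1 := h.inv hc hc' (a := (l.1 : ℤ)) (by
          rw [Nat.isCoprime_iff_coprime]; exact (Nat.Prime.coprime_iff_not_dvd l.2.1).2 hlN)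
        rw [Int.cast_natCast, Int.cast_natCast] at h1
        funext a b
        show Uop Λ Λ' P1 l.1 l.2.1.ne_zero z'.1 a b + θ⁻¹ ((l.1 : ℕ) : ZMod c) •
          Bop Λ Λ' P1 l.1 l.2.1.ne_zero z'.1 a b = Uop Λ' Λ' P1 l.1 l.2.1.ne_zero z'.1 a b +
          θ'⁻¹ ((l.1 : ℕ) : ZMod c') * Bop Λ' Λ' P1 l.1 l.2.1.ne_zero z'.1 a b
        rw [hsm, h1]
        rfl
  set Y : MS hc θ Λ' := ⟨y.1.1, hy'⟩ with hYdef
  have hyl : Y ∈ loc m (MS hc θ Λ') := by
    refine mem_loc.2 fun t ht => ?_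
    obtain ⟨z, hz⟩ := mem_loc.1 y.2 (MvPolynomial.map f t) (fun h => ht ((hm t).1 h))
    have hz' : (z.1 : P1 → P1 → Λ') ∈ Sy θ N Λ' P1 := by
      constructor
      · exact Sy.add' z.2
      · intro γ hγ a b
        rw [Sy.equi z.2 hγ, hsm, h _ (isCoprime_00 hγ)]
        rfl
    refine ⟨⟨z.1, hz'⟩, Subtype.ext ?_⟩
    rw [hX t ⟨z.1, hz'⟩ z rfl, hz]
  obtain ⟨x, hx, hxy⟩ := MS.loc_surjective hne ht h2 h3 hp hyl
  have h9 := congrArg (fun z : MS hc θ Λ' => z.1) hxy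
  exact ⟨⟨x, hx⟩, Subtype.ext (Subtype.ext h9)⟩

theorem mem_smul_of_red_eq_zero [m.IsMaximal] (hne : NonEis m N) (ht : Tame θ)
    (h2 : IsUnit (2 : Λ)) (h3 : V3 Λ N) (x : loc m (MS hc θ Λ))
    (hx : red hm hf hc hc' h x = 0) :
    x ∈ RingHom.ker f • (⊤ : Submodule Λ (loc m (MS hc θ Λ))) := by
  refine mem_smul_of_map_eq_zero hne ht h2 h3 _ x fun a b => ?_
  have h1 := congrArg (fun z : loc m' (MS hc' θ' Λ') => z.1.1 a b) hx
  exact h1

end Coef

section Ev

variable {Λ Λ' : Type} [CommRing Λ] [CommRing Λ'] {f : Λ →+* Λ'} {k : Type} [Field k]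
  [Algebra Λ k] [Algebra Λ' k] {ι : Type}

theorem map_mem_evI (hfk : ∀ r, algebraMap Λ' k (f r) = algebraMap Λ k r) (τ : ι → k)
    (t : MvPolynomial ι Λ) : MvPolynomial.map f t ∈ evI Λ' τ ↔ t ∈ evI Λ τ := by
  rw [mem_evI, mem_evI]
  have : aeval (R := Λ') τ (MvPolynomial.map f t) = aeval (R := Λ) τ t := by
    rw [aeval_def, aeval_def, eval₂_map]
    congr 1
    ext r
    exact hfk r
  rw [this]

end Ev

end Fermat.Agent.TWCoh
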