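import Fermat.Agent.TWCoh.Mod

/-!
# Freeness and base change for the non-Eisenstein part of modular symbols
-/

set_option autoImplicit false

noncomputable section

namespace Fermat.Agent.TWCoh

open Matrix CongruenceSubgroup ModularGroup
open scoped MatrixGroups

variable {Λ : Type} [CommRing Λ] {c N : ℕ} {hc : c ∣ N} {θ : DirichletCharacter Λ c} {S : Set ℕ}
  {A : Type*} [AddCommGroup A] [Module Λ A]

/-- components -/
theorem MS.comp_mem_loc {m : Ideal (HA Λ S)} {k : ℕ} {z : MS hc θ (Fin k → Λ)}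
    (hz : z ∈ loc m (MS hc θ (Fin k → Λ))) (j : Fin k) :
    MS.map hc θ S (LinearMap.proj j : (Fin k → Λ) →ₗ[Λ] Λ) z ∈ loc m (MS hc θ Λ) :=
  loc_le_comap _ hz

theorem coe_sum_apply {ι : Type*} (s : Finset ι) (f : ι → MS hc θ A) (a b : P1) :
    (∑ i ∈ s, f i : MS hc θ A).1 a b = ∑ i ∈ s, (f i).1 a b := by
  classical
  induction s using Finset.induction_on with
  | empty => rfl
  | insert i s hi ih =>
    rw [Finset.sum_insert hi, Finset.sum_insert hi, ← ih]; rfl

theorem coe_smul_apply (r : Λ) (f : MS hc θ A) (a b : P1) : (r • f).1 a b = r • f.1 a b := rfl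

theorem MS.ext' {f g : MS hc θ A} (h : ∀ a b, f.1 a b = g.1 a b) : f = g :=
  Subtype.ext (funext fun a => funext fun b => h a b)

theorem coe_loc_smul {M : Type*} [AddCommGroup M] [Module Λ M] [Module (HA Λ S) M]
    [IsScalarTower Λ (HA Λ S) M] (P : Submodule (HA Λ S) M) (r : Λ) (x : P) :
    ((r • x : P) : M) = r • (x : M) := rfl

variable [NeZero N] [IsLocalRing Λ] [IsNoetherianRing Λ]
  [IsAdicComplete (IsLocalRing.maximalIdeal Λ) Λ] [Module.Finite Λ A]

theorem exists_lift_of_values {m : Ideal (HA Λ S)} [m.IsMaximal] (hm : NonEis m N) (ht : Tame θ)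
    (h2 : IsUnit (2 : Λ)) (h3 : V3 Λ N) {k : ℕ} (i : (Fin k → Λ) →ₗ[Λ] A)
    {y : MS hc θ A} (hy : y ∈ loc m (MS hc θ A)) (hv : ∀ a b, ∃ r, i r = y.1 a b) :
    ∃ z ∈ loc m (MS hc θ (Fin k → Λ)), MS.map hc θ S i z = y := by
  -- lift to the range
  have hfin : Module.Finite Λ (LinearMap.range i) := Module.Finite.range i
  obtain ⟨ψ, hψ⟩ : ∃ ψ : MS hc θ (LinearMap.range i),
      MS.map hc θ S (LinearMap.range i).subtype ψ = y := by
    refine ⟨⟨fun a b => ⟨y.1 a b, hv a b⟩, fun a b c => Subtype.ext (Sy.add' y.2 a b c),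
      fun γ hγ a b => Subtype.ext (Sy.equi y.2 hγ a b)⟩, rfl⟩
  obtain ⟨e, he⟩ := exists_locData (Λ := Λ) m (MS hc θ (LinearMap.range i) × MS hc θ A)
  have hψl : ψ ∈ loc m (MS hc θ (LinearMap.range i)) := by
    rw [he.left.mem_iff]
    apply MS.map_injective (S := S) (Submodule.injective_subtype (LinearMap.range i))
    rw [map_smul, hψ, he.right.mem_iff.1 hy]
  obtain ⟨z, hz, hz'⟩ := MS.loc_surjective hm ht h2 h3
    (p := i.rangeRestrict) (LinearMap.surjective_rangeRestrict i) hψl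
  refine ⟨z, hz, ?_⟩
  rw [← hψ, ← hz']
  rfl

/-- **Flatness.** -/
theorem flat_loc {m : Ideal (HA Λ S)} [m.IsMaximal] (hm : NonEis m N) (ht : Tame θ)
    (h2 : IsUnit (2 : Λ)) (h3 : V3 Λ N) : Module.Flat Λ (loc m (MS hc θ Λ)) := by
  refine Module.Flat.of_forall_isTrivialRelation fun {n} {f} {x} hfx => ?_
  -- the relation module
  let F : (Fin n → Λ) →ₗ[Λ] Λ := Fintype.linearCombination Λ f
  have hF : ∀ a, F a = ∑ i, a i * f i := fun a => by
    simp [F, Fintype.linearCombination_apply]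
  obtain ⟨k, π, hπ⟩ := Module.Finite.exists_fin' Λ (LinearMap.ker F)
  let i : (Fin k → Λ) →ₗ[Λ] (Fin n → Λ) := (LinearMap.ker F).subtype.comp π
  let X : MS hc θ (Fin n → Λ) := ∑ j, MS.map hc θ S (LinearMap.single Λ (fun _ => Λ) j) (x j).1
  have hXv : ∀ a b j, X.1 a b j = (x j).1.1 a b := by
    intro a b j
    rw [coe_sum_apply, Finset.sum_apply]
    rw [Finset.sum_eq_single j]
    · show (Pi.single j ((x j).1.1 a b) : Fin n → Λ) j = _
      rw [Pi.single_eq_same]
    · intro j' _ hj'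
      show (Pi.single j' ((x j').1.1 a b) : Fin n → Λ) j = 0
      rw [Pi.single_eq_of_ne hj'.symm]
    · exact fun h => absurd (Finset.mem_univ j) h
  have hX : X ∈ loc m (MS hc θ (Fin n → Λ)) :=
    Submodule.sum_mem _ fun j _ => loc_le_comap _ (x j).2
  have hFX : ∀ a b, F (X.1 a b) = 0 := by
    intro a b
    rw [hF]
    have h1 : ((∑ i, f i • x i : loc m (MS hc θ Λ)).1 : MS hc θ Λ).1 a b = 0 := by
      rw [hfx]; rfl
    rw [Submodule.coe_sum, coe_sum_apply] at h1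
    rw [← h1]
    refine Finset.sum_congr rfl fun j _ => ?_
    rw [hXv, mul_comm]
    rfl
  obtain ⟨z, hz, hz'⟩ := exists_lift_of_values hm ht h2 h3 i hX (fun a b => by
    obtain ⟨r, hr⟩ := hπ ⟨X.1 a b, hFX a b⟩
    exact ⟨r, by show ((π r : LinearMap.ker F) : Fin n → Λ) = _; rw [hr]⟩)
  refine ⟨k, fun j l => i (Pi.single l 1) j, fun l => ⟨_, MS.comp_mem_loc hz l⟩, fun j => ?_,
    fun l => ?_⟩
  · apply Subtype.ext
    apply MS.ext'
    intro a b
    rw [Submodule.coe_sum, coe_sum_apply, ← hXv, ← hz']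
    show i (z.1 a b) j = _
    have e1 : z.1 a b = ∑ l, (z.1 a b l) • (Pi.single l (1 : Λ) : Fin k → Λ) :=
      pi_eq_sum_univ' (z.1 a b)
    rw [e1, map_sum, Finset.sum_apply]
    refine Finset.sum_congr rfl fun l _ => ?_
    rw [map_smul]
    show (z.1 a b l) * i (Pi.single l 1) j = i (Pi.single l 1) j * z.1 a b l
    rw [mul_comm]
  · have h1 := (π (Pi.single l 1)).2
    rw [LinearMap.mem_ker, hF] at h1
    rw [← h1]
    exact Finset.sum_congr rfl fun j _ => mul_comm _ _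

instance finite_loc {m : Ideal (HA Λ S)} : Module.Finite Λ (loc m (MS hc θ A)) := by
  have h1 : IsNoetherian Λ (MS hc θ A) := isNoetherian_of_isNoetherianRing_of_finite Λ _
  have h2 : Module.Finite Λ ((loc m (MS hc θ A)).restrictScalars Λ) := inferInstance
  exact h2

/-- **Freeness.** -/
theorem free_loc {m : Ideal (HA Λ S)} [m.IsMaximal] (hm : NonEis m N) (ht : Tame θ)
    (h2 : IsUnit (2 : Λ)) (h3 : V3 Λ N) : Module.Free Λ (loc m (MS hc θ Λ)) := by
  have := flat_loc (hc := hc) hm ht h2 h3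
  exact Module.free_of_flat_of_isLocalRing

/-- **Base change**: the kernel of reduction modulo an ideal. -/
theorem mem_smul_of_map_eq_zero {m : Ideal (HA Λ S)} [m.IsMaximal] (hm : NonEis m N) (ht : Tame θ)
    (h2 : IsUnit (2 : Λ)) (h3 : V3 Λ N) (I : Ideal Λ) (y : loc m (MS hc θ Λ))
    (hy : ∀ a b, y.1.1 a b ∈ I) : y ∈ I • (⊤ : Submodule Λ (loc m (MS hc θ Λ))) := by
  obtain ⟨k, π, hπ⟩ := Module.Finite.exists_fin' Λ I
  let i : (Fin k → Λ) →ₗ[Λ] Λ := I.subtype.comp π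
  obtain ⟨z, hz, hz'⟩ := exists_lift_of_values hm ht h2 h3 i y.2 (fun a b => by
    obtain ⟨r, hr⟩ := hπ ⟨y.1.1 a b, hy a b⟩
    exact ⟨r, by show ((π r : I) : Λ) = _; rw [hr]⟩)
  have h4 : y = ∑ l, (i (Pi.single l 1)) • (⟨_, MS.comp_mem_loc hz l⟩ : loc m (MS hc θ Λ)) := by
    apply Subtype.ext
    apply MS.ext'
    intro a b
    rw [Submodule.coe_sum, coe_sum_apply, ← hz']
    show i (z.1 a b) = _
    have e1 : z.1 a b = ∑ l, (z.1 a b l) • (Pi.single l (1 : Λ) : Fin k → Λ) :=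
      pi_eq_sum_univ' (z.1 a b)
    rw [e1, map_sum]
    refine Finset.sum_congr rfl fun l _ => ?_
    rw [map_smul]
    show (z.1 a b l) * i (Pi.single l 1) = i (Pi.single l 1) * z.1 a b l
    rw [mul_comm]
  rw [h4]
  exact Submodule.sum_mem _ fun l _ => Submodule.smul_mem_smul (π (Pi.single l 1)).2 trivial

end Fermat.Agent.TWCoh
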