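import Fermat.Agent.TWCoh.Relation
import Fermat.Agent.TWCoh.Free

/-!
# Products of squares of characters as Dirichlet characters, change of coefficients
-/

set_option autoImplicit false

noncomputable section

namespace Fermat.Agent.TWCoh

open Matrix CongruenceSubgroup Fermat.Agent.AnJac MvPolynomial
open scoped MatrixGroups OnePoint

section Def

variable {Λ : Type*} [CommRing Λ] (ψ : ∀ q : ℕ, DirichletCharacter Λ q) (s : Finset ℕ) (c : ℕ)

/-- the product of the squares of the characters `ψ q`, `q ∈ s` -/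
def dch : DirichletCharacter Λ c :=
  ∏ q ∈ s, if h : q ∣ c then (DirichletCharacter.changeLevel h (ψ q)) ^ 2 else 1

variable {ψ s c}

theorem prod_mulChar_apply {R : Type*} [CommMonoid R] {ι : Type*} (s : Finset ι)
    (f : ι → MulChar R Λ) {a : R} (ha : IsUnit a) : (∏ i ∈ s, f i) a = ∏ i ∈ s, f i a := by
  classical
  obtain ⟨u, rfl⟩ := ha
  induction s using Finset.induction_on with
  | empty => simp [MulChar.one_apply_coe]
  | insert i s hi ih => rw [Finset.prod_insert hi, Finset.prod_insert hi, MulChar.mul_apply, ih]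

theorem dch_apply (hs : ∀ q ∈ s, q ∣ c) {a : ℤ} (ha : IsUnit (a : ZMod c)) :
    dch ψ s c (a : ZMod c) = chs ψ s a := by
  rw [dch, prod_mulChar_apply _ _ ha, chs]
  refine Finset.prod_congr rfl fun q hq => ?_
  rw [dif_pos (hs q hq)]
  obtain ⟨u, hu⟩ := ha
  rw [← hu, MulChar.pow_apply_coe, DirichletCharacter.changeLevel_eq_cast_of_dvd _ (hs q hq)]
  congr 2
  have h2 := congrArg (ZMod.castHom (hs q hq) (ZMod q)) hu
  rw [map_intCast] at h2
  rw [← h2]
  rfl

theorem tame_dch (hc : Squarefree c) : Tame (dch ψ s c) where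
  neg_one := by
    rw [dch, prod_mulChar_apply _ _ isUnit_one.neg]
    refine Finset.prod_eq_one fun q _ => ?_
    split_ifs with h
    · have h1 : (-1 : ZMod c) = ((-1 : (ZMod c)ˣ) : ZMod c) := by simp
      rw [h1, MulChar.pow_apply_coe, ← map_pow, ← Units.val_pow_eq_pow_val, neg_one_sq,
        Units.val_one, map_one]
    · rw [MulChar.one_apply isUnit_one.neg]
  unip a ha := by
    have := isReduced_zmod.2 (Or.inl hc : Squarefree c ∨ c = 0)
    have h1 : a - 1 = 0 := by
      exact pow_eq_zero_iff (two_ne_zero) |>.1 ha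
    rw [sub_eq_zero.1 h1, map_one]

end Def

section Wt

variable {Λ : Type*} [CommRing Λ] {ψ : ∀ q : ℕ, DirichletCharacter Λ q} {s : Finset ℕ} {c : ℕ}

theorem ws_mul_inv (hs : ∀ q ∈ s, q ∣ c) {l : ℕ} (hl : IsUnit (l : ZMod c)) :
    ws ψ s l * (dch ψ s c)⁻¹ (l : ZMod c) = ws' ψ s l := by
  have h1 : ∀ q ∈ s, IsUnit (l : ZMod q) := by
    intro q hq
    have := hl.map (ZMod.castHom (hs q hq) (ZMod q))
    rwa [map_natCast] at this
  have h2 := dch_apply (ψ := ψ) hs (a := (l : ℤ)) (by rwa [Int.cast_natCast])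
  rw [Int.cast_natCast] at h2
  have h3 := mul_inv_char (dch ψ s c) hl
  rw [ws_eq h1, mul_assoc, ← h2, h3, mul_one]

/-- composition with a ring homomorphism -/
def cmp {K : Type*} [CommRing K] (κ : Λ →+* K) (ψ : ∀ q : ℕ, DirichletCharacter Λ q) (q : ℕ) :
    DirichletCharacter K q := (ψ q).ringHomComp κ

variable {K : Type*} [CommRing K] (κ : Λ →+* K)

theorem chs_cmp (a : ℤ) : chs (cmp κ ψ) s a = κ (chs ψ s a) := by
  rw [chs, chs, map_prod]
  exact Finset.prod_congr rfl fun q _ => by rw [map_pow]; rfl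

theorem ws_cmp (n : ℕ) : ws (cmp κ ψ) s n = κ (ws ψ s n) := by
  rw [ws, ws, map_prod]
  exact Finset.prod_congr rfl fun q _ => rfl

theorem ws'_cmp (n : ℕ) : ws' (cmp κ ψ) s n = κ (ws' ψ s n) := by
  rw [ws', ws', map_prod]
  refine Finset.prod_congr rfl fun q _ => ?_
  rw [cmp, MulChar.inv_apply, MulChar.inv_apply]
  rfl

variable {κ} {N : ℕ} {φ : P1 → P1 → Λ}

theorem CF.comp {χ : ℤ → Λ} (h : CF χ N φ) : CF (fun a => κ (χ a)) N (fun x y => κ (φ x y)) where
  add x y z := by rw [← map_add, h.add]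
  equi γ hγ x y := by
    show κ _ = κ _ * κ _
    rw [h.equi γ hγ, smul_eq_mul, map_mul]

theorem tk_comp (w w' : Λ) {l : ℕ} (hl : l ≠ 0) (φ : P1 → P1 → Λ) :
    tk (κ w) (κ w') K l hl (fun x y => κ (φ x y)) = fun x y => κ (tk w w' Λ l hl φ x y) := by
  funext x y
  rw [tk_eq_sum, tk_eq_sum, map_sum]
  refine Finset.sum_congr rfl fun i _ => ?_
  rw [smul_eq_mul, smul_eq_mul, map_mul]
  rcases i with _ | i <;> rfl

theorem opF_comp {J : Type*} {t : J → ℕ} {ht : ∀ j, (t j).Prime} (w w' : J → Λ)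
    (P : FreeAlgebra ℤ J) (φ : P1 → P1 → Λ) :
    opF K t ht (fun j => κ (w j)) (fun j => κ (w' j)) P (fun x y => κ (φ x y)) =
      fun x y => κ (opF Λ t ht w w' P φ x y) := by
  induction P using FreeAlgebra.induction generalizing φ with
  | grade0 c =>
    rw [AlgHom.commutes, AlgHom.commutes, eq_intCast, eq_intCast]
    funext x y
    show (c : ℤ) • κ (φ x y) = κ ((c : ℤ) • φ x y)
    rw [map_zsmul]
  | grade1 j =>
    rw [opF_ι, opF_ι]
    exact tk_comp _ _ _ _
  | mul P Q hP hQ =>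
    rw [map_mul, map_mul, Module.End.mul_apply, Module.End.mul_apply, hQ, hP]
  | add P Q hP hQ =>
    rw [map_add, map_add, LinearMap.add_apply, LinearMap.add_apply, hP, hQ]
    funext x y
    exact (map_add κ _ _).symm

end Wt

end Fermat.Agent.TWCoh
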