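import Fermat.Agent.TWCoh.Symb
import Fermat.Agent.SL2Pres.Basic

/-!
# Lifting cocycles on `Γ₀(N)`
-/

set_option autoImplicit false

noncomputable section

namespace Fermat.Agent.TWCoh

open Matrix CongruenceSubgroup ModularGroup
open scoped MatrixGroups

/-! ### Cocycles on `SL₂(ℤ)` -/

theorem exists_coc {C : Type*} [AddCommGroup C] [DistribMulAction SL(2, ℤ) C]
    (h1 : ∀ f : C, (-1 : SL(2, ℤ)) • f = f) (u v : C) (hu : u + (S : SL(2, ℤ)) • u = 0)
    (hv : v + (S * T : SL(2, ℤ)) • v + ((S * T) ^ 2 : SL(2, ℤ)) • v = 0) :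
    ∃ δ : SL(2, ℤ) → C, (∀ g h, δ (g * h) = δ g + g • δ h) ∧ δ S = u ∧ δ (S * T) = v := by
  let af : (g : SL(2, ℤ)) → C → Equiv.Perm C := fun g w =>
    { toFun := fun f => g • f + w
      invFun := fun f => g⁻¹ • (f - w)
      left_inv := fun f => by simp
      right_inv := fun f => by simp }
  have hmul : ∀ g h w w', af g w * af h w' = af (g * h) (w + g • w') := by
    intro g h w w'
    ext f
    show g • (h • f + w') + w = (g * h) • f + (w + g • w')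
    rw [smul_add, mul_smul]; abel
  have hone : ∀ g w, (∀ f : C, g • f = f) → w = 0 → af g w = 1 := by
    rintro g _ hg rfl
    ext f
    show g • f + 0 = f
    rw [hg, add_zero]
  have ha : (af S u) ^ 2 = 1 := by
    rw [sq, hmul]
    refine hone _ _ (fun f => ?_) hu
    rw [← sq, SL2Pres.S_sq', h1]
  have hb : (af (S * T) v) ^ 3 = 1 := by
    rw [pow_succ, sq, hmul, hmul]
    refine hone _ _ (fun f => ?_) ?_
    · have : (S * T * (S * T) * (S * T) : SL(2, ℤ)) = -1 := by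
        rw [← SL2Pres.V_cube', pow_succ, sq]
      rw [this, h1]
    · rw [← sq, ← hv]
  obtain ⟨Ψ, hS, hV⟩ := SL2Pres.exists_hom ha hb
  have key : ∀ g : SL(2, ℤ), ∃ w, Ψ g = af g w := by
    intro g
    have hg : g ∈ Subgroup.closure ({S, S * T} : Set SL(2, ℤ)) := by
      rw [SL2Pres.closure_S_V]; trivial
    induction hg using Subgroup.closure_induction with
    | mem g hg =>
      rcases hg with rfl | rfl
      · exact ⟨u, hS⟩
      · exact ⟨v, hV⟩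
    | one => exact ⟨0, by rw [map_one, hone _ _ (fun f => one_smul _ f) rfl]⟩
    | mul g h _ _ hg hh =>
      obtain ⟨w, hw⟩ := hg
      obtain ⟨w', hw'⟩ := hh
      exact ⟨w + g • w', by rw [map_mul, hw, hw', hmul]⟩
    | inv g _ hg =>
      obtain ⟨w, hw⟩ := hg
      refine ⟨- (g⁻¹ • w), ?_⟩
      rw [map_inv, hw, inv_eq_iff_mul_eq_one, hmul, hone]
      · intro f; simp
      · simp
  choose δ hδ using key
  have hval : ∀ g, δ g = Ψ g 0 := fun g => by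
    rw [hδ]
    show δ g = g • 0 + δ g
    rw [smul_zero, zero_add]
  refine ⟨δ, fun g h => ?_, ?_, ?_⟩
  · rw [hval (g * h), map_mul, Equiv.Perm.mul_apply, ← hval h, hδ g]
    show g • δ h + δ g = _
    rw [add_comm]
  · rw [hval, hS]
    show S • 0 + u = u
    rw [smul_zero, zero_add]
  · rw [hval, hV]
    show (S * T : SL(2, ℤ)) • 0 + v = v
    rw [smul_zero, zero_add]

theorem coc_ext {C : Type*} [AddCommGroup C] [DistribMulAction SL(2, ℤ) C]
    {δ δ' : SL(2, ℤ) → C} (h : ∀ g h, δ (g * h) = δ g + g • δ h)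
    (h' : ∀ g h, δ' (g * h) = δ' g + g • δ' h) (hS : δ S = δ' S) (hV : δ (S * T) = δ' (S * T))
    (g : SL(2, ℤ)) : δ g = δ' g := by
  have h1 : δ 1 = 0 := by simpa using h 1 1
  have h1' : δ' 1 = 0 := by simpa using h' 1 1
  have hg : g ∈ Subgroup.closure ({S, S * T} : Set SL(2, ℤ)) := by
    rw [SL2Pres.closure_S_V]; trivial
  induction hg using Subgroup.closure_induction with
  | mem g hg =>
    rcases hg with rfl | rfl
    · exact hS
    · exact hV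
  | one => rw [h1, h1']
  | mul g k _ _ hg hk => rw [h, h', hg, hk]
  | inv g _ hg =>
    have e1 := h g⁻¹ g
    have e2 := h' g⁻¹ g
    rw [inv_mul_cancel, h1] at e1
    rw [inv_mul_cancel, h1'] at e2
    rw [hg] at e1
    have := e1.symm.trans e2
    exact add_right_cancel this

/-! ### Induced modules -/

variable {Λ : Type*} [CommRing Λ] {c : ℕ}
variable (θ : DirichletCharacter Λ c) (N : ℕ) (A : Type*) [AddCommGroup A] [Module Λ A]

/-- functions on `SL₂(ℤ)` that are `(Γ₀(N), θ)`-equivariant -/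
def Ind : Submodule Λ (SL(2, ℤ) → A) where
  carrier := {f | ∀ γ ∈ Gamma0 N, ∀ g, f (γ * g) = θ (γ 0 0 : ZMod c) • f g}
  add_mem' := by
    intro f g hf hg γ hγ h
    simp only [Pi.add_apply]
    rw [hf γ hγ, hg γ hγ, smul_add]
  zero_mem' := fun γ hγ h => by simp
  smul_mem' := by
    intro r f hf γ hγ h
    simp only [Pi.smul_apply]
    rw [hf γ hγ, smul_comm]

variable {θ N A}

instance : DistribMulAction SL(2, ℤ) (Ind θ N A) where
  smul g f := ⟨fun h => f.1 (h * g), fun γ hγ h => by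
    show f.1 (γ * h * g) = _
    rw [mul_assoc, f.2 γ hγ]⟩
  one_smul f := Subtype.ext (funext fun h => congrArg f.1 (mul_one h))
  mul_smul g g' f := Subtype.ext (funext fun h => congrArg f.1 (mul_assoc h g g').symm)
  smul_zero _ := rfl
  smul_add _ _ _ := rfl

theorem Ind.smul_apply' (g : SL(2, ℤ)) (f : Ind θ N A) (h : SL(2, ℤ)) :
    (g • f : Ind θ N A).1 h = f.1 (h * g) := rfl

instance : SMulCommClass SL(2, ℤ) Λ (Ind θ N A) where
  smul_comm _ _ _ := rfl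

theorem neg_one_mem_Gamma0 (N : ℕ) : (-1 : SL(2, ℤ)) ∈ Gamma0 N := by
  rw [mem_Gamma0]; simp

theorem Ind.neg_one_smul (hθ : θ (-1) = 1) (f : Ind θ N A) : (-1 : SL(2, ℤ)) • f = f := by
  apply Subtype.ext
  funext h
  rw [Ind.smul_apply']
  have h1 : h * (-1 : SL(2, ℤ)) = -1 * h := by
    rw [mul_neg, mul_one, neg_mul, one_mul]
  rw [h1, f.2 _ (neg_one_mem_Gamma0 N)]
  have h2 : (((-1 : SL(2, ℤ)) 0 0 : ℤ) : ZMod c) = -1 := by simp
  rw [h2, hθ, one_smul]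

theorem mul_00_cast {N : ℕ} (hc : c ∣ N) {γ δ : SL(2, ℤ)} (hδ : δ ∈ Gamma0 N) :
    (((γ * δ) 0 0 : ℤ) : ZMod c) = (γ 0 0 : ℤ) * (δ 0 0 : ℤ) := by
  rw [mul_00]
  have h3 : ((δ 1 0 : ℤ) : ZMod c) = 0 := (ZMod.intCast_zmod_eq_zero_iff_dvd _ _).2
    (dvd_trans (by exact_mod_cast hc) (mem_Gamma0.1 hδ))
  push_cast
  rw [h3]; ring

/-- multiplicativity of the character -/
theorem char_mul (hc : c ∣ N) {γ δ : SL(2, ℤ)} (hδ : δ ∈ Gamma0 N) :
    θ (((γ * δ) 0 0 : ℤ) : ZMod c) = θ ((γ 0 0 : ℤ) : ZMod c) * θ ((δ 0 0 : ℤ) : ZMod c) := by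
  rw [mul_00_cast hc hδ, map_mul]

theorem char_one : θ (((1 : SL(2, ℤ)) 0 0 : ℤ) : ZMod c) = 1 := by simp

theorem char_inv_mul (hc : c ∣ N) {γ : SL(2, ℤ)} (hγ : γ ∈ Gamma0 N) :
    θ (((γ⁻¹) 0 0 : ℤ) : ZMod c) * θ ((γ 0 0 : ℤ) : ZMod c) = 1 := by
  rw [← char_mul hc hγ, inv_mul_cancel, char_one]

variable {A' : Type*} [AddCommGroup A'] [Module Λ A']

variable (θ N) in
/-- functoriality -/
def Ind.map (p : A →ₗ[Λ] A') : Ind θ N A →ₗ[Λ] Ind θ N A' where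
  toFun f := ⟨fun g => p (f.1 g), fun γ hγ g => by
    show p (f.1 (γ * g)) = θ (γ 0 0 : ZMod c) • p (f.1 g)
    rw [f.2 γ hγ, map_smul]⟩
  map_add' f g := Subtype.ext (funext fun h => map_add p _ _)
  map_smul' r g := Subtype.ext (funext fun h => map_smul p _ _)

theorem Ind.map_apply (p : A →ₗ[Λ] A') (f : Ind θ N A) (g : SL(2, ℤ)) :
    (Ind.map θ N p f).1 g = p (f.1 g) := rfl

theorem Ind.map_surjective (hc : c ∣ N) {p : A →ₗ[Λ] A'} (hp : Function.Surjective p) :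
    Function.Surjective (Ind.map θ N p) := by
  intro f
  let r : Setoid SL(2, ℤ) := QuotientGroup.rightRel (Gamma0 N)
  have hr : ∀ g : SL(2, ℤ), g * (Quotient.out (Quotient.mk r g))⁻¹ ∈ Gamma0 N := by
    intro g
    have h1 : (Quotient.out (Quotient.mk r g)) ≈ g := Quotient.mk_out g
    rw [← QuotientGroup.rightRel_apply]
    exact h1
  have hr' : ∀ γ ∈ Gamma0 N, ∀ g, Quotient.mk r (γ * g) = Quotient.mk r g := by
    intro γ hγ g
    apply Quotient.sound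
    show QuotientGroup.rightRel (Gamma0 N) _ _
    rw [QuotientGroup.rightRel_apply, _root_.mul_inv_rev, ← mul_assoc, mul_inv_cancel, one_mul]
    exact inv_mem hγ
  let s := Function.surjInv hp
  refine ⟨⟨fun g => θ (((g * (Quotient.out (Quotient.mk r g))⁻¹ : SL(2, ℤ)) 0 0 : ℤ) : ZMod c) •
    s (f.1 (Quotient.out (Quotient.mk r g))), fun γ hγ g => ?_⟩, ?_⟩
  · show θ (((γ * g * (Quotient.out (Quotient.mk r (γ * g)))⁻¹ : SL(2, ℤ)) 0 0 : ℤ) : ZMod c) •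
      s (f.1 (Quotient.out (Quotient.mk r (γ * g)))) = _
    rw [hr' γ hγ g, mul_assoc, char_mul hc (hr g), mul_smul]
  · apply Subtype.ext
    funext g
    rw [Ind.map_apply]
    show p (θ _ • s (f.1 _)) = _
    rw [map_smul, Function.surjInv_eq hp, ← f.2 _ (hr g), inv_mul_cancel_right]

/-! ### Lifting -/

/-- the lifting property for the element of order three -/
def LiftV (θ : DirichletCharacter Λ c) (N : ℕ) (p : A →ₗ[Λ] A') : Prop :=
  ∀ v : Ind θ N A', v + (S * T : SL(2, ℤ)) • v + ((S * T) ^ 2 : SL(2, ℤ)) • v = 0 →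
    ∃ w : Ind θ N A, Ind.map θ N p w = v ∧
      w + (S * T : SL(2, ℤ)) • w + ((S * T) ^ 2 : SL(2, ℤ)) • w = 0

theorem Ind.map_smul_SL (p : A →ₗ[Λ] A') (g : SL(2, ℤ)) (f : Ind θ N A) :
    Ind.map θ N p (g • f) = g • Ind.map θ N p f := rfl

theorem liftV_of_isUnit (hc : c ∣ N) (hθ : θ (-1) = 1) {p : A →ₗ[Λ] A'}
    (hp : Function.Surjective p) (h3 : IsUnit (3 : Λ)) : LiftV θ N p := by
  intro v hv
  obtain ⟨f, hf⟩ := Ind.map_surjective hc (θ := θ) hp v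
  obtain ⟨u, hu⟩ := h3
  have hV3 : ∀ g : Ind θ N A, ((S * T) ^ 2 : SL(2, ℤ)) • (S * T : SL(2, ℤ)) • g = g := by
    intro g
    rw [← mul_smul, ← pow_succ, SL2Pres.V_cube', Ind.neg_one_smul hθ]
  have hV3' : ∀ g : Ind θ N A, (S * T : SL(2, ℤ)) • ((S * T) ^ 2 : SL(2, ℤ)) • g = g := by
    intro g
    rw [← mul_smul, ← pow_succ', SL2Pres.V_cube', Ind.neg_one_smul hθ]
  have hV2 : ∀ g : Ind θ N A, (S * T : SL(2, ℤ)) • (S * T : SL(2, ℤ)) • g =
      ((S * T) ^ 2 : SL(2, ℤ)) • g := fun g => by rw [← mul_smul, ← sq]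
  have hV4 : ∀ g : Ind θ N A, ((S * T) ^ 2 : SL(2, ℤ)) • ((S * T) ^ 2 : SL(2, ℤ)) • g =
      (S * T : SL(2, ℤ)) • g := fun g => by rw [← hV2 g, hV3]
  refine ⟨(↑u⁻¹ : Λ) • ((2 : Λ) • f - (S * T : SL(2, ℤ)) • f - ((S * T) ^ 2 : SL(2, ℤ)) • f), ?_, ?_⟩
  · rw [map_smul, map_sub, map_sub, map_smul, Ind.map_smul_SL, Ind.map_smul_SL, hf]
    have h4 : (2 : Λ) • v - (S * T : SL(2, ℤ)) • v - ((S * T) ^ 2 : SL(2, ℤ)) • v =
        (3 : Λ) • v := by
      have h5 : (3 : Λ) • v = (2 : Λ) • v + v := by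
        rw [show (3 : Λ) = 2 + 1 by norm_num, add_smul, one_smul]
      rw [h5, sub_sub, sub_eq_iff_eq_add, add_assoc, ← add_assoc v, hv, add_zero]
    rw [h4, ← hu, smul_smul, Units.inv_mul, one_smul]
  · rw [smul_comm (S * T : SL(2, ℤ)) (↑u⁻¹ : Λ), smul_comm ((S * T) ^ 2 : SL(2, ℤ)) (↑u⁻¹ : Λ),
      ← smul_add, ← smul_add]
    have : (2 : Λ) • f - (S * T : SL(2, ℤ)) • f - ((S * T) ^ 2 : SL(2, ℤ)) • f +
        (S * T : SL(2, ℤ)) • ((2 : Λ) • f - (S * T : SL(2, ℤ)) • f -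
          ((S * T) ^ 2 : SL(2, ℤ)) • f) +
        ((S * T) ^ 2 : SL(2, ℤ)) • ((2 : Λ) • f - (S * T : SL(2, ℤ)) • f -
          ((S * T) ^ 2 : SL(2, ℤ)) • f) = 0 := by
      simp only [smul_sub, hV3, hV3', hV2, hV4]
      rw [smul_comm (S * T : SL(2, ℤ)) (2 : Λ), smul_comm ((S * T) ^ 2 : SL(2, ℤ)) (2 : Λ)]
      simp only [two_smul]
      abel
    rw [this, smul_zero]

/-- functions on `SL₂(ℤ)` equivariant up to constants. -/
def QE (θ : DirichletCharacter Λ c) (N : ℕ) (F : SL(2, ℤ) → A) : Prop :=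
  ∀ γ ∈ Gamma0 N, ∀ g h, F (γ * g) - F (γ * h) = θ (γ 0 0 : ZMod c) • (F g - F h)

theorem QE.lift (hc : c ∣ N) (hθ : θ (-1) = 1) (h2 : IsUnit (2 : Λ)) {p : A →ₗ[Λ] A'}
    (hp : Function.Surjective p) (hV : LiftV θ N p) {F : SL(2, ℤ) → A'} (hF : QE θ N F) :
    ∃ G : SL(2, ℤ) → A, QE θ N G ∧ ∀ g, p (G g) = F g := by
  obtain ⟨u2, hu2⟩ := h2
  -- the cocycle
  let D : SL(2, ℤ) → Ind θ N A' := fun g => ⟨fun h => F (h * g) - F h, fun γ hγ h => by
    show F (γ * h * g) - F (γ * h) = θ (γ 0 0 : ZMod c) • (F (h * g) - F h)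
    rw [mul_assoc, hF γ hγ]⟩
  have hD : ∀ g h, D (g * h) = D g + g • D h := by
    intro g h
    apply Subtype.ext
    funext k
    show F (k * (g * h)) - F k = (F (k * g) - F k) + (F (k * g * h) - F (k * g))
    rw [mul_assoc]; abel
  have hm1 : D (-1) = 0 := by
    have h1 : D 1 = 0 := Subtype.ext (funext fun k => by
      show F (k * 1) - F k = 0
      rw [mul_one, sub_self])
    have h2 := hD (-1) (-1)
    rw [neg_mul_neg, one_mul, h1, Ind.neg_one_smul hθ, ← two_smul Λ, ← hu2] at h2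
    have h3 := congrArg (fun f => (↑u2⁻¹ : Λ) • f) h2
    simp only [smul_zero, smul_smul, Units.inv_mul, one_smul] at h3
    exact h3.symm
  have hDS : D S + (S : SL(2, ℤ)) • D S = 0 := by rw [← hD, ← sq, SL2Pres.S_sq', hm1]
  have hDV : D (S * T) + (S * T : SL(2, ℤ)) • D (S * T) + ((S * T) ^ 2 : SL(2, ℤ)) • D (S * T) =
      0 := by
    rw [← hD, ← sq, ← hD, ← pow_succ, SL2Pres.V_cube', hm1]
  obtain ⟨f, hf⟩ := Ind.map_surjective hc (θ := θ) hp (D S)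
  obtain ⟨v, hv, hv'⟩ := hV (D (S * T)) hDV
  set u : Ind θ N A := (↑u2⁻¹ : Λ) • (f - (S : SL(2, ℤ)) • f) with hu
  have hSS : ∀ g : Ind θ N A, (S : SL(2, ℤ)) • (S : SL(2, ℤ)) • g = g := fun g => by
    rw [← mul_smul, ← sq, SL2Pres.S_sq', Ind.neg_one_smul hθ]
  have hu' : u + (S : SL(2, ℤ)) • u = 0 := by
    rw [hu, smul_comm (S : SL(2, ℤ)) (↑u2⁻¹ : Λ), ← smul_add, smul_sub, hSS,
      sub_add_sub_cancel, sub_self, smul_zero]
  have hpu : Ind.map θ N p u = D S := by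
    rw [hu, map_smul, map_sub, Ind.map_smul_SL, hf]
    have h4 : D S - (S : SL(2, ℤ)) • D S = (2 : Λ) • D S := by
      rw [two_smul, sub_eq_iff_eq_add, add_assoc, hDS, add_zero]
    rw [h4, ← hu2, smul_smul, Units.inv_mul, one_smul]
  obtain ⟨δ, hδ, hδS, hδV⟩ := exists_coc (C := Ind θ N A) (Ind.neg_one_smul hθ) u v hu' hv'
  have hpδ : ∀ g, Ind.map θ N p (δ g) = D g := by
    intro g
    refine coc_ext (δ := fun g => Ind.map θ N p (δ g)) (fun g h => ?_) hD ?_ ?_ g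
    · show Ind.map θ N p (δ (g * h)) = _
      rw [hδ, map_add]; rfl
    · show Ind.map θ N p (δ S) = _
      rw [hδS, hpu]
    · show Ind.map θ N p (δ (S * T)) = _
      rw [hδV, hv]
  obtain ⟨a, ha⟩ := hp (F 1)
  refine ⟨fun g => (δ g).1 1 + a, fun γ hγ g h => ?_, fun g => ?_⟩
  · show ((δ (γ * g)).1 1 + a) - ((δ (γ * h)).1 1 + a) =
      θ (γ 0 0 : ZMod c) • (((δ g).1 1 + a) - ((δ h).1 1 + a))
    rw [hδ, hδ]
    have e1 : ∀ k, (δ γ + γ • δ k : Ind θ N A).1 1 = (δ γ).1 1 + θ (γ 0 0 : ZMod c) • (δ k).1 1 := by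
      intro k
      show (δ γ).1 1 + (δ k).1 (1 * γ) = _
      rw [one_mul, ← mul_one γ, (δ k).2 γ hγ, mul_one]
    rw [e1, e1, add_sub_add_right_eq_sub, add_sub_add_right_eq_sub, smul_sub]
    abel
  · show p ((δ g).1 1 + a) = F g
    rw [map_add, ha, ← Ind.map_apply (θ := θ) (N := N), hpδ]
    show (F (1 * g) - F 1) + F 1 = F g
    rw [one_mul, sub_add_cancel]

end Fermat.Agent.TWCoh
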