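import Fermat.Agent.TWCoh.Iter

/-!
# The combined Hecke algebra
-/

set_option autoImplicit false

noncomputable section

namespace Fermat.Agent.TWCoh

open Matrix CongruenceSubgroup MvPolynomial Fermat.Agent.AnJac
open scoped MatrixGroups OnePoint

section Ann

variable {Λ : Type} [CommRing Λ] {S S' : Set ℕ} (hSS : S ⊆ S')
  (ψ : ∀ q : ℕ, DirichletCharacter Λ q) (s : Finset ℕ)
  (M : Type*) [AddCommGroup M] [Module (HA Λ S) M]

/-- the annihilator of the twisted action -/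
def annT : Ideal (HA Λ S') :=
  (Module.annihilator (HA Λ S) M).comap (twp ψ s hSS)

variable {hSS ψ s M}

theorem mem_annT {t : HA Λ S'} : t ∈ annT hSS ψ s M ↔ ∀ x : M, twp ψ s hSS t • x = 0 := by
  rw [annT, Ideal.mem_comap, Module.mem_annihilator]

variable [Module Λ M] [IsScalarTower Λ (HA Λ S) M]

variable (hSS ψ s M) in
/-- the twisted action -/
def actP : HA Λ S' →ₐ[Λ] Module.End Λ M := (Algebra.lsmul Λ Λ M).comp (twp ψ s hSS)

theorem actP_apply (t : HA Λ S') (x : M) : actP hSS ψ s M t x = twp ψ s hSS t • x := rfl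

theorem actP_eq_zero {t : HA Λ S'} (ht : t ∈ annT hSS ψ s M) : actP hSS ψ s M t = 0 :=
  LinearMap.ext fun x => mem_annT.1 ht x

end Ann

section Combined

variable {Λ : Type} [CommRing Λ] {S S' : Set ℕ} (hSS : S ⊆ S')
  (ψ₁ ψ₂ : ∀ q : ℕ, DirichletCharacter Λ q) (s : Finset ℕ)
  (M₁ M₂ : Type*) [AddCommGroup M₁] [Module (HA Λ S) M₁] [AddCommGroup M₂] [Module (HA Λ S) M₂]

/-- the combined Hecke algebra -/
abbrev TC : Type := HA Λ S' ⧸ (annT hSS ψ₁ s M₁ ⊓ annT hSS ψ₂ s M₂)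

variable [Module Λ M₁] [IsScalarTower Λ (HA Λ S) M₁]
  [Module Λ M₂] [IsScalarTower Λ (HA Λ S) M₂]

/-- the action on the first module -/
def aC₁ : TC hSS ψ₁ ψ₂ s M₁ M₂ →+* Module.End Λ M₁ :=
  Ideal.Quotient.lift _ (actP hSS ψ₁ s M₁ : HA Λ S' →+* Module.End Λ M₁)
    fun _ ht => actP_eq_zero ht.1

/-- the action on the second module -/
def aC₂ : TC hSS ψ₁ ψ₂ s M₁ M₂ →+* Module.End Λ M₂ :=
  Ideal.Quotient.lift _ (actP hSS ψ₂ s M₂ : HA Λ S' →+* Module.End Λ M₂)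
    fun _ ht => actP_eq_zero ht.2

variable {hSS ψ₁ ψ₂ s M₁ M₂}

theorem aC₁_mk (t : HA Λ S') (x : M₁) :
    aC₁ hSS ψ₁ ψ₂ s M₁ M₂ (Ideal.Quotient.mk _ t) x = twp ψ₁ s hSS t • x := rfl

theorem aC₂_mk (t : HA Λ S') (x : M₂) :
    aC₂ hSS ψ₁ ψ₂ s M₁ M₂ (Ideal.Quotient.mk _ t) x = twp ψ₂ s hSS t • x := rfl

theorem aC_eq_zero {t : TC hSS ψ₁ ψ₂ s M₁ M₂} (h1 : aC₁ hSS ψ₁ ψ₂ s M₁ M₂ t = 0)
    (h2 : aC₂ hSS ψ₁ ψ₂ s M₁ M₂ t = 0) : t = 0 := by
  obtain ⟨t, rfl⟩ := Ideal.Quotient.mk_surjective t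
  rw [Ideal.Quotient.eq_zero_iff_mem]
  exact ⟨mem_annT.2 fun x => LinearMap.congr_fun h1 x, mem_annT.2 fun x => LinearMap.congr_fun h2 x⟩

theorem finite_TC [IsNoetherianRing Λ] [Module.Finite Λ M₁] [Module.Finite Λ M₂] :
    Module.Finite Λ (TC hSS ψ₁ ψ₂ s M₁ M₂) := by
  let g : TC hSS ψ₁ ψ₂ s M₁ M₂ →ₗ[Λ] Module.End Λ M₁ × Module.End Λ M₂ :=
    { toFun := fun t => (aC₁ hSS ψ₁ ψ₂ s M₁ M₂ t, aC₂ hSS ψ₁ ψ₂ s M₁ M₂ t)
      map_add' := fun x y => by rw [map_add, map_add]; rfl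
      map_smul' := fun r x => by
        obtain ⟨x, rfl⟩ := Ideal.Quotient.mk_surjective x
        have h1 : r • (Ideal.Quotient.mk (annT hSS ψ₁ s M₁ ⊓ annT hSS ψ₂ s M₂) x) =
            Ideal.Quotient.mk (annT hSS ψ₁ s M₁ ⊓ annT hSS ψ₂ s M₂) (r • x) := rfl
        rw [h1]
        refine Prod.ext ?_ ?_
        · exact map_smul (actP hSS ψ₁ s M₁) r x
        · exact map_smul (actP hSS ψ₂ s M₂) r x }
  refine Module.Finite.of_injective g ?_
  rw [injective_iff_map_eq_zero]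
  intro x hx
  exact aC_eq_zero (congrArg Prod.fst hx) (congrArg Prod.snd hx)

end Combined

section Local

variable {Λ : Type} [CommRing Λ] {k : Type} [Field k] [Algebra Λ k] {S S' : Set ℕ} {hSS : S ⊆ S'}
  {ψ₁ ψ₂ : ∀ q : ℕ, DirichletCharacter Λ q} {s : Finset ℕ}

/-- the contraction of the maximal ideal -/
theorem twp_mem_evI {ψ : ∀ q : ℕ, DirichletCharacter Λ q} {τ : PS S → k}
    (hw : ∀ l : PS S', algebraMap Λ k (ws ψ s l.1) = 1) (t : HA Λ S') :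
    twp ψ s hSS t ∈ evI Λ τ ↔ t ∈ evI Λ (fun l : PS S' => τ (inclPS hSS l)) := by
  rw [mem_evI, mem_evI]
  have : (aeval (R := Λ) τ).comp (twp ψ s hSS) = aeval (fun l : PS S' => τ (inclPS hSS l)) := by
    apply MvPolynomial.algHom_ext
    intro l
    rw [AlgHom.comp_apply, twp_X, map_mul, aeval_C, aeval_X, aeval_X, hw, one_mul]
  rw [← this]
  rfl

variable {M : Type*} [AddCommGroup M] [Module (HA Λ S) M] [Module Λ M]
  [IsScalarTower Λ (HA Λ S) M] [Module.Finite Λ M]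

/-- a maximal ideal containing the annihilator -/
theorem le_evI_of_annT_le {ψ : ∀ q : ℕ, DirichletCharacter Λ q} {τ : PS S → k}
    (hw : ∀ l : PS S', algebraMap Λ k (ws ψ s l.1) = 1)
    (hb : ∀ t : HA Λ S, t ∉ evI Λ τ → ∀ x : M, ∃ y, t • y = x)
    {n : Ideal (HA Λ S')} (hn : n ≠ ⊤) (h : annT hSS ψ s M ≤ n) :
    n ≤ evI Λ (fun l : PS S' => τ (inclPS hSS l)) := by
  intro t ht
  by_contra hte
  rw [← twp_mem_evI (ψ := ψ) (s := s) hw] at hte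
  letI : Module (HA Λ S') M := Module.compHom M (twp ψ s hSS).toRingHom
  have hsm : ∀ (r : HA Λ S') (x : M), r • x = twp ψ s hSS r • x := fun r x => rfl
  haveI : IsScalarTower Λ (HA Λ S') M := ⟨fun r t x => by
    rw [hsm, hsm, map_smul, smul_assoc]⟩
  haveI : Module.Finite (HA Λ S') M := Module.Finite.of_restrictScalars_finite Λ _ _
  have h1 : (⊤ : Submodule (HA Λ S') M) ≤ n • ⊤ := by
    intro x _
    obtain ⟨y, hy⟩ := hb _ hte x
    rw [← hy, ← hsm]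
    exact Submodule.smul_mem_smul ht trivial
  obtain ⟨r, hr1, hr2⟩ := Submodule.exists_sub_one_mem_and_smul_eq_zero_of_fg_of_le_smul n ⊤
    (Module.Finite.fg_top) h1
  have h2 : r ∈ annT hSS ψ s M := mem_annT.2 fun x => by rw [← hsm]; exact hr2 x trivial
  apply hn
  rw [Ideal.eq_top_iff_one]
  have := n.sub_mem (h h2) hr1
  rwa [sub_sub_cancel] at this

variable {M₁ M₂ : Type*} [AddCommGroup M₁] [Module (HA Λ S) M₁] [AddCommGroup M₂]
  [Module (HA Λ S) M₂] [Module Λ M₁] [IsScalarTower Λ (HA Λ S) M₁]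
  [Module Λ M₂] [IsScalarTower Λ (HA Λ S) M₂] [Module.Finite Λ M₁] [Module.Finite Λ M₂]

/-- conditions for locality -/
structure LocCond (hSS : S ⊆ S') (ψ₁ ψ₂ : ∀ q : ℕ, DirichletCharacter Λ q) (s : Finset ℕ)
    (τ : PS S → k) (M₁ M₂ : Type*) [AddCommGroup M₁] [Module (HA Λ S) M₁] [AddCommGroup M₂]
    [Module (HA Λ S) M₂] : Prop where
  w₁ : ∀ l : PS S', algebraMap Λ k (ws ψ₁ s l.1) = 1
  w₂ : ∀ l : PS S', algebraMap Λ k (ws ψ₂ s l.1) = 1
  b₁ : ∀ t : HA Λ S, t ∉ evI Λ τ → ∀ x : M₁, ∃ y, t • y = x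
  b₂ : ∀ t : HA Λ S, t ∉ evI Λ τ → ∀ x : M₂, ∃ y, t • y = x
  ne : annT hSS ψ₁ s M₁ ⊓ annT hSS ψ₂ s M₂ ≠ ⊤

theorem maximal_eq (hk : Function.Surjective (algebraMap Λ k)) {τ : PS S → k}
    (h : LocCond hSS ψ₁ ψ₂ s τ M₁ M₂) {n : Ideal (HA Λ S')} (hn : n.IsMaximal)
    (hle : annT hSS ψ₁ s M₁ ⊓ annT hSS ψ₂ s M₂ ≤ n) :
    n = evI Λ (fun l : PS S' => τ (inclPS hSS l)) := by
  have := evI_isMaximal hk (fun l : PS S' => τ (inclPS hSS l))
  rcases hn.isPrime.inf_le.1 hle with h1 | h1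
  · exact hn.eq_of_le this.ne_top (le_evI_of_annT_le h.w₁ h.b₁ hn.ne_top h1)
  · exact hn.eq_of_le this.ne_top (le_evI_of_annT_le h.w₂ h.b₂ hn.ne_top h1)

theorem ann_le_evI (hk : Function.Surjective (algebraMap Λ k)) {τ : PS S → k}
    (h : LocCond hSS ψ₁ ψ₂ s τ M₁ M₂) :
    annT hSS ψ₁ s M₁ ⊓ annT hSS ψ₂ s M₂ ≤ evI Λ (fun l : PS S' => τ (inclPS hSS l)) := by
  obtain ⟨n, hn, hle⟩ := Ideal.exists_le_maximal _ h.ne
  rwa [← maximal_eq hk h hn hle]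

/-- the residue map of the combined Hecke algebra -/
def resC (hk : Function.Surjective (algebraMap Λ k)) {τ : PS S → k}
    (h : LocCond hSS ψ₁ ψ₂ s τ M₁ M₂) : TC hSS ψ₁ ψ₂ s M₁ M₂ →+* k :=
  Ideal.Quotient.lift _ (aeval (R := Λ) (fun l : PS S' => τ (inclPS hSS l)) : HA Λ S' →+* k)
    fun _ ht => ann_le_evI hk h ht

theorem resC_X (hk : Function.Surjective (algebraMap Λ k)) {τ : PS S → k}
    (h : LocCond hSS ψ₁ ψ₂ s τ M₁ M₂) (l : PS S') :
    resC hk h (Ideal.Quotient.mk _ (X l)) = τ (inclPS hSS l) := by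
  show aeval (R := Λ) (fun l : PS S' => τ (inclPS hSS l)) (X l) = _
  rw [aeval_X]

theorem resC_C (hk : Function.Surjective (algebraMap Λ k)) {τ : PS S → k}
    (h : LocCond hSS ψ₁ ψ₂ s τ M₁ M₂) (r : Λ) :
    resC hk h (algebraMap Λ _ r) = algebraMap Λ k r := by
  show aeval (R := Λ) (fun l : PS S' => τ (inclPS hSS l)) (C r) = _
  rw [aeval_C]

theorem isLocalRing_TC (hk : Function.Surjective (algebraMap Λ k)) {τ : PS S → k}
    (h : LocCond hSS ψ₁ ψ₂ s τ M₁ M₂) : IsLocalRing (TC hSS ψ₁ ψ₂ s M₁ M₂) := by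
  have hmax : (RingHom.ker (resC hk h)).IsMaximal :=
    RingHom.ker_isMaximal_of_surjective _ fun x => by
      obtain ⟨r, rfl⟩ := hk x
      exact ⟨algebraMap Λ _ r, resC_C hk h r⟩
  refine IsLocalRing.of_unique_max_ideal ⟨RingHom.ker (resC hk h), hmax, fun n hn => ?_⟩
  have hn' : (n.comap (Ideal.Quotient.mk (annT hSS ψ₁ s M₁ ⊓ annT hSS ψ₂ s M₂))).IsMaximal :=
    Ideal.comap_isMaximal_of_surjective _ Ideal.Quotient.mk_surjective
  have h1 := maximal_eq hk h hn' (fun t ht => by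
    rw [Ideal.mem_comap, Ideal.Quotient.eq_zero_iff_mem.2 ht]
    exact n.zero_mem)
  ext t
  obtain ⟨t, rfl⟩ := Ideal.Quotient.mk_surjective t
  rw [← Ideal.mem_comap, h1]
  exact Iff.rfl

end Local

/-! ### The operators are invertible on the localized modules -/

section Loc

theorem loc_exists (Λ : Type) [CommRing Λ] [IsLocalRing Λ] [IsNoetherianRing Λ]
    [IsAdicComplete (IsLocalRing.maximalIdeal Λ) Λ] {R : Type} [CommRing R] [Algebra Λ R]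
    (m : Ideal R) [m.IsMaximal] {M : Type*} [AddCommGroup M] [Module R M] [Module Λ M]
    [IsScalarTower Λ R M] [Module.Finite Λ M] {t : R} (ht : t ∉ m) (x : loc m M) :
    ∃ y : loc m M, t • y = x := by
  obtain ⟨e, he⟩ := exists_locData (Λ := Λ) m M
  obtain ⟨u, hu⟩ := he.unit t ht
  refine ⟨u • x, Subtype.ext ?_⟩
  show t • u • x.1 = x.1
  rw [smul_comm, hu, he.mem_iff.1 x.2]

end Loc

end Fermat.Agent.TWCoh
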