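import Fermat.Agent.TWCoh.Trace
import Fermat.Agent.Newform.SqLevel

/-!
# From symbols with vanishing trace to cusp forms with vanishing trace
-/

set_option autoImplicit false

noncomputable section

namespace Fermat.Agent.TWCoh

open Matrix CongruenceSubgroup Fermat.Agent.AnJac UpperHalfPlane
open ModularCurve ModularCurve.Period Fermat.Agent.EichlerShimura
open scoped MatrixGroups OnePoint ModularForm

section Perm

/-- permutation of the cosets of `Γ₀(N * q)` in `Γ₀(N)`, `q ∣ N`. -/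
theorem perm_lo {N q : ℕ} [hq : Fact q.Prime] (hqN : q ∣ N) {γ : SL(2, ℤ)}
    (hγ : γ ∈ Gamma0 (N * q)) : ∃ (σ : Equiv.Perm (ZMod q)) (γ' : ZMod q → SL(2, ℤ)),
      (∀ i, γ' i ∈ Gamma0 (N * q)) ∧
      ∀ i : ZMod q, lo ((N : ℤ) * (i.val : ℤ)) * γ = γ' i * lo ((N : ℤ) * ((σ i).val : ℤ)) := by
  have hdet := det_SL γ
  obtain ⟨c', hc'⟩ := mem_Gamma0.1 hγ
  have hN0 : ((N : ℕ) : ZMod q) = 0 := (ZMod.natCast_eq_zero_iff _ _).2 hqN
  have hq0 : ((q : ℕ) : ZMod q) = 0 := ZMod.natCast_self q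
  have had : ((γ 0 0 : ℤ) : ZMod q) * (γ 1 1 : ℤ) = 1 := by
    have h1 := congrArg (fun t : ℤ => (t : ZMod q)) hdet
    rw [hc'] at h1
    push_cast at h1
    rw [hN0] at h1
    linear_combination h1
  let a : (ZMod q)ˣ := ⟨(γ 0 0 : ℤ), (γ 1 1 : ℤ), had, by rw [mul_comm]; exact had⟩
  refine ⟨Units.mulLeft (a ^ 2), fun i => lo ((N : ℤ) * (i.val : ℤ)) * γ *
    (lo ((N : ℤ) * ((Units.mulLeft (a ^ 2) i).val : ℤ)))⁻¹, fun i => ?_, fun i => by group⟩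
  set j : ZMod q := Units.mulLeft (a ^ 2) i with hj
  have hj' : j = ((γ 0 0 : ℤ) : ZMod q) ^ 2 * i := rfl
  rw [mem_Gamma0, mul_inv_10]
  have e1 : (lo ((N : ℤ) * (i.val : ℤ)) * γ) 1 0 = N * i.val * γ 0 0 + γ 1 0 := by
    rw [Matrix.SpecialLinearGroup.coe_mul, Matrix.mul_apply, Fin.sum_univ_two, lo_10, lo_11]
    ring
  have e2 : (lo ((N : ℤ) * (i.val : ℤ)) * γ) 1 1 = N * i.val * γ 0 1 + γ 1 1 := by
    rw [Matrix.SpecialLinearGroup.coe_mul, Matrix.mul_apply, Fin.sum_univ_two, lo_10, lo_11]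
    ring
  rw [e1, e2, lo_10, lo_11, hc']
  have hdiv : (q : ℤ) ∣ i.val * γ 0 0 - (N * i.val * γ 0 1 + γ 1 1) * j.val := by
    rw [← ZMod.intCast_zmod_eq_zero_iff_dvd]
    push_cast
    rw [ZMod.natCast_zmod_val, ZMod.natCast_zmod_val, hj', hN0]
    linear_combination (-i * ((γ 0 0 : ℤ) : ZMod q)) * had
  obtain ⟨m, hm⟩ := hdiv
  refine ⟨m + c', ?_⟩
  push_cast
  linear_combination (N : ℤ) * hm

/-- symbols -/
theorem sum_symbol {N q : ℕ} [hq : Fact q.Prime] {K A : Type*} [CommRing K] [AddCommGroup A]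
    [Module K A] {φ : P1 → P1 → A} (h : CF (fun _ => (1 : K)) (N * q) φ) (hL : Ls N q φ = 0)
    {γ : SL(2, ℤ)} {σ : Equiv.Perm (ZMod q)} {γ' : ZMod q → SL(2, ℤ)}
    (h1 : ∀ i, γ' i ∈ Gamma0 (N * q))
    (h2 : ∀ i : ZMod q, lo ((N : ℤ) * (i.val : ℤ)) * γ = γ' i * lo ((N : ℤ) * ((σ i).val : ℤ))) :
    ∑ i, φ ∞ (io (γ' i) • ∞) = 0 := by
  have h3 : ∑ i : ZMod q, φ (io (lo ((N : ℤ) * (i.val : ℤ))) • ∞)
      (io (lo ((N : ℤ) * (i.val : ℤ))) • io γ • ∞) = 0 := by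
    rw [← Ls_apply, hL]; rfl
  have h4 : ∀ i : ZMod q, φ (io (lo ((N : ℤ) * (i.val : ℤ))) • ∞)
      (io (lo ((N : ℤ) * (i.val : ℤ))) • io γ • ∞) =
      φ ∞ (io (γ' i) • ∞) + (φ ∞ (io (lo ((N : ℤ) * ((σ i).val : ℤ))) • ∞) -
        φ ∞ (io (lo ((N : ℤ) * (i.val : ℤ))) • ∞)) := by
    intro i
    rw [← mul_smul, ← map_mul, h2, map_mul, mul_smul, ← h.add _ ∞, ← h.add ∞ (io (γ' i) • ∞),
      h.equi _ (h1 i), one_smul, h.swap (io (lo ((N : ℤ) * (i.val : ℤ))) • ∞) ∞]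
    abel
  rw [Finset.sum_congr rfl fun i _ => h4 i, Finset.sum_add_distrib, Finset.sum_sub_distrib,
    Equiv.sum_comp σ (fun i => φ ∞ (io (lo ((N : ℤ) * (i.val : ℤ))) • ∞)), sub_self, add_zero] at h3
  exact h3

end Perm

section Forms

variable {N q : ℕ} [hq : Fact q.Prime] [NeZero (N * q)]

/-- the trace as a function -/
def trF (N q : ℕ) [NeZero q] (f : ℍ → ℂ) : ℍ → ℂ :=
  ∑ i : ZMod q, f ∣[(2 : ℤ)] (lo ((N : ℤ) * (i.val : ℤ)))

omit [NeZero (N * q)] in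
theorem slash_of_isCF {M : ℕ} {f : ℍ → ℂ} (hf : Newform.IsCF M f) {γ : SL(2, ℤ)}
    (hγ : γ ∈ Gamma0 M) : f ∣[(2 : ℤ)] γ = f :=
  hf.inv _ ⟨γ, hγ, rfl⟩

omit [NeZero (N * q)] in
theorem isCF_trF (hqN : q ∣ N) {f : ℍ → ℂ} (hf : Newform.IsCF (N * q) f) :
    Newform.IsCF (N * q) (trF N q f) := by
  constructor
  · refine Newform.V2.sum _ fun i _ => hf.v.slash ?_
    refine Newform.isRat_of_ent (a := 1) (b := 0) (c := (N : ℚ) * (i.val : ℚ)) (d := 1) ?_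
    refine (Newform.ent_mapGL (lo ((N : ℤ) * (i.val : ℤ)))).congr ?_ ?_ ?_ ?_
    · rw [lo_00]; simp
    · rw [lo_01]; simp
    · rw [lo_10]; push_cast; rfl
    · rw [lo_11]; simp
  · rintro _ ⟨γ, hγ, rfl⟩
    obtain ⟨σ, γ', h1, h2⟩ := perm_lo hqN hγ
    show (trF N q f) ∣[(2 : ℤ)] γ = trF N q f
    rw [trF, SlashAction.sum_slash]
    conv_rhs => rw [← Equiv.sum_comp σ]
    refine Finset.sum_congr rfl fun i _ => ?_
    rw [← SlashAction.slash_mul, h2, SlashAction.slash_mul, slash_of_isCF hf (h1 i)]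

/-- the trace as a cusp form of the old level -/
def trCF (hqN : q ∣ N) (f : CuspForm (Gamma0 (N * q)) 2) : CuspForm (Gamma0 (N * q)) 2 :=
  Newform.mkCF (N * q) (trF N q f) (isCF_trF hqN (Newform.isCF f))

theorem coe_trCF (hqN : q ∣ N) (f : CuspForm (Gamma0 (N * q)) 2) :
    ⇑(trCF hqN f) = trF N q f := rfl

theorem symb_sum_lo (f : CuspForm (Gamma0 (N * q)) 2) {r : ZMod q → SL(2, ℤ)}
    {γ : SL(2, ℤ)} {σ : Equiv.Perm (ZMod q)} {γ' : ZMod q → SL(2, ℤ)}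
    (h1 : ∀ i, γ' i ∈ Gamma0 (N * q)) (h2 : ∀ i, r i * γ = γ' i * r (σ i)) :
    symb γ (∑ i, ⇑f ∣[(2 : ℤ)] (r i)) = ∑ i, symb (γ' i) ⇑f := by
  have hf := good_cusp f
  rw [(good_sum_symb Finset.univ _ (fun i _ => hf.slash (r i)) γ).2]
  have h3 : ∀ i, symb γ (⇑f ∣[(2 : ℤ)] (r i)) = symb (γ' i) ⇑f + (symb (r (σ i)) ⇑f -
      symb (r i) ⇑f) := by
    intro i
    have e1 := symb_mul hf (r i) γ
    have e2 := symb_mul hf (γ' i) (r (σ i))
    rw [slash_of_isCF (Newform.isCF f) (h1 i)] at e2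
    rw [h2, e2] at e1
    linear_combination -e1
  rw [Finset.sum_congr rfl fun i _ => h3 i, Finset.sum_add_distrib, Finset.sum_sub_distrib,
    Equiv.sum_comp σ (fun i => symb (r i) ⇑f), sub_self, add_zero]

theorem jConj_lo (c : ℤ) : jConjSL (lo c) = lo (-c) := by
  apply Subtype.ext
  rw [jConjSL_coe]
  ext i j
  fin_cases i <;> fin_cases j <;> simp [jConjMat, lo]

theorem lo_mul (a b : ℤ) : lo a * lo b = lo (a + b) := by
  apply Subtype.ext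
  rw [Matrix.SpecialLinearGroup.coe_mul]
  ext i j
  fin_cases i <;> fin_cases j <;> simp [lo]

theorem trF_conj (f : CuspForm (Gamma0 (N * q)) 2) :
    ∑ i : ZMod q, ⇑f ∣[(2 : ℤ)] (jConjSL (lo ((N : ℤ) * (i.val : ℤ)))) = trF N q f := by
  rw [trF]
  conv_rhs => rw [← Equiv.sum_comp (Equiv.neg (ZMod q))]
  refine Finset.sum_congr rfl fun i _ => ?_
  show _ = ⇑f ∣[(2 : ℤ)] lo ((N : ℤ) * ((-i).val : ℤ))
  have h1 : (q : ℤ) ∣ (i.val : ℤ) + ((-i).val : ℤ) := by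
    rw [← ZMod.intCast_zmod_eq_zero_iff_dvd]
    push_cast
    rw [ZMod.natCast_zmod_val, ZMod.natCast_zmod_val, add_neg_cancel]
  obtain ⟨m, hm⟩ := h1
  have h2 : jConjSL (lo ((N : ℤ) * (i.val : ℤ))) =
      lo (((N * q : ℕ) : ℤ) * (-m)) * lo ((N : ℤ) * ((-i).val : ℤ)) := by
    rw [jConj_lo, lo_mul]
    congr 1
    push_cast
    linear_combination (-(N : ℤ)) * hm
  rw [h2, SlashAction.slash_mul, slash_of_isCF (Newform.isCF f) (lo_mem (dvd_mul_right _ _))]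

theorem periodLin_trCF (hqN : q ∣ N) (f : CuspForm (Gamma0 (N * q)) 2)
    {γ : SL(2, ℤ)} (hγ : γ ∈ Gamma0 (N * q)) {σ : Equiv.Perm (ZMod q)} {γ' : ZMod q → SL(2, ℤ)}
    (h1 : ∀ i, γ' i ∈ Gamma0 (N * q))
    (h2 : ∀ i : ZMod q, lo ((N : ℤ) * (i.val : ℤ)) * γ = γ' i * lo ((N : ℤ) * ((σ i).val : ℤ))) :
    periodLin (N * q) (trCF hqN f) (Additive.ofMul ⟨γ, hγ⟩) =
      ∑ i, periodLin (N * q) f (Additive.ofMul ⟨γ' i, h1 i⟩) := by
  rw [periodLin_apply, coe_trCF]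
  simp only [periodLin_apply]
  exact symb_sum_lo f h1 h2

theorem conj_periodLin_trCF (hqN : q ∣ N) (f : CuspForm (Gamma0 (N * q)) 2)
    {γ : SL(2, ℤ)} (hγ : γ ∈ Gamma0 (N * q)) {σ : Equiv.Perm (ZMod q)} {γ' : ZMod q → SL(2, ℤ)}
    (h1 : ∀ i, γ' i ∈ Gamma0 (N * q))
    (h2 : ∀ i : ZMod q, lo ((N : ℤ) * (i.val : ℤ)) * γ = γ' i * lo ((N : ℤ) * ((σ i).val : ℤ))) :
    charInvolution (N * q) ℂ ℂ (periodLin (N * q) (trCF hqN f)) (Additive.ofMul ⟨γ, hγ⟩) =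
      ∑ i, charInvolution (N * q) ℂ ℂ (periodLin (N * q) f) (Additive.ofMul ⟨γ' i, h1 i⟩) := by
  simp only [charInvolution_apply, periodLin_apply]
  rw [coe_trCF, ← trF_conj]
  exact symb_sum_lo f (r := fun i => jConjSL (lo ((N : ℤ) * (i.val : ℤ))))
    (γ' := fun i => jConjSL (γ' i)) (σ := σ) (fun i => jConjSL_mem_Gamma0 (h1 i))
    (fun i => by
      show jConjSL _ * jConjSL γ = _
      rw [← map_mul, h2, map_mul])

/-- **Transfer of the vanishing of the trace.** -/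
theorem trCF_eq_zero (hqN : q ∣ N) {φ : P1 → P1 → ℂ} (h : CF (fun _ => (1 : ℂ)) (N * q) φ)
    (hL : Ls N q φ = 0) {f g : CuspForm (Gamma0 (N * q)) 2}
    (hfg : periodHomPair (N * q) (f, g) = hm h) : trCF hqN f = 0 ∧ trCF hqN g = 0 := by
  have key : periodHomPair (N * q) (trCF hqN f, trCF hqN g) = 0 := by
    refine AddMonoidHom.ext fun γ => ?_
    change periodHomPair (N * q) (trCF hqN f, trCF hqN g)
      (Additive.ofMul (⟨((Additive.toMul γ : Gamma0 (N * q)) : SL(2, ℤ)), (Additive.toMul γ).2⟩ :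
        Gamma0 (N * q))) = 0
    obtain ⟨σ, γ', h1, h2⟩ := perm_lo hqN (Additive.toMul γ).2
    rw [periodHomPair_apply]
    simp only [AddMonoidHom.add_apply, AddMonoidHom.sub_apply]
    rw [periodLin_trCF hqN f _ h1 h2, periodLin_trCF hqN g _ h1 h2,
      conj_periodLin_trCF hqN f _ h1 h2, conj_periodLin_trCF hqN g _ h1 h2,
      ← Finset.sum_add_distrib, ← Finset.sum_sub_distrib, ← Finset.sum_add_distrib]
    rw [← sum_symbol h hL h1 h2]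
    refine Finset.sum_congr rfl fun i _ => ?_
    have h3 := DFunLike.congr_fun hfg (Additive.ofMul (⟨γ' i, h1 i⟩ : Gamma0 (N * q)))
    rw [periodHomPair_apply] at h3
    simp only [AddMonoidHom.add_apply, AddMonoidHom.sub_apply] at h3
    rw [h3, hm_apply]
  have h4 := periodHomPair_injective (key.trans (map_zero _).symm)
  exact ⟨congrArg Prod.fst h4, congrArg Prod.snd h4⟩

end Forms

end Fermat.Agent.TWCoh
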