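import Fermat.Agent.TWCoh.Twist
import Fermat.Agent.AnJac.Link

/-!
# Modular symbols with trivial character and cusp forms
-/

set_option autoImplicit false

noncomputable section

namespace Fermat.Agent.TWCoh

open Matrix CongruenceSubgroup Fermat.Agent.AnJac
open P2MW.S_ModularForm_heckeT_slash_eq_self_of_mem_Gamma0.ModularForm.HeckeSlashInvariance
open ModularForm
open scoped MatrixGroups OnePoint

/-! ### Comparison of matrices -/

/-- rational matrices inside real matrices -/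
def toR : GQ →* GL (Fin 2) ℝ := Matrix.GeneralLinearGroup.map (algebraMap ℚ ℝ)

theorem toR_injective : Function.Injective toR := by
  intro g h hgh
  apply Units.ext
  ext i j
  have h1 := congrArg (fun A : GL (Fin 2) ℝ => (A : Matrix (Fin 2) (Fin 2) ℝ) i j) hgh
  have h2 : ((g i j : ℚ) : ℝ) = ((h i j : ℚ) : ℝ) := h1
  exact_mod_cast h2

theorem toR_io (γ : SL(2, ℤ)) : toR (io γ) = gl γ := by
  apply Units.ext
  ext i j
  show ((((io γ : GQ) : Matrix (Fin 2) (Fin 2) ℚ) i j : ℚ) : ℝ) = _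
  simp [io, gl]

/-- the representatives as rational matrices -/
def RR (l : ℕ) (hl : l ≠ 0) (x : OnePoint (ZMod l)) : GQ :=
  x.elim (Di l hl) (fun j => Up l hl (j.val : ℤ))

theorem toR_RR (l : ℕ) (hl : l ≠ 0) (x : OnePoint (ZMod l)) :
    toR (RR l hl x) = heckeRep l x := by
  have hn : NeZero l := ⟨hl⟩
  induction x using OnePoint.rec with
  | infty =>
    apply Units.ext
    have h1 : ((Di l hl : GQ) : Matrix (Fin 2) (Fin 2) ℚ) = !![(l : ℚ), 0; 0, 1] := ent_Di l hl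
    have h2 : ((heckeRep l ∞ : GL (Fin 2) ℝ) : Matrix (Fin 2) (Fin 2) ℝ) = !![(l : ℝ), 0; 0, 1] := by
      rw [heckeRep_infty, val_heckeDiagMatrix hl]
    rw [h2]
    show ((Di l hl : GQ) : Matrix (Fin 2) (Fin 2) ℚ).map (algebraMap ℚ ℝ) = _
    rw [h1]
    ext i j
    fin_cases i <;> fin_cases j <;> simp
  | coe j =>
    apply Units.ext
    have h1 : ((Up l hl (j.val : ℤ) : GQ) : Matrix (Fin 2) (Fin 2) ℚ) =
      !![1, ((j.val : ℤ) : ℚ); 0, (l : ℚ)] := ent_Up l hl _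
    have h2 : ((heckeRep l (j : OnePoint (ZMod l)) : GL (Fin 2) ℝ) : Matrix (Fin 2) (Fin 2) ℝ) =
        !![(1 : ℝ), (j.val : ℝ); 0, (l : ℝ)] := by
      rw [heckeRep_coe, val_heckeMatrix hl]
    rw [h2]
    show ((Up l hl (j.val : ℤ) : GQ) : Matrix (Fin 2) (Fin 2) ℚ).map (algebraMap ℚ ℝ) = _
    rw [h1]
    ext i j
    fin_cases i <;> fin_cases j <;> simp [-ZMod.natCast_val]

section

variable {K : Type*} [CommRing K] {A : Type*} [AddCommGroup A] [Module K A] {N : ℕ}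
  {φ : P1 → P1 → A}

theorem tk_one_eq (l : ℕ) (hl : l ≠ 0) (φ : P1 → P1 → A) (x y : P1) :
    haveI : NeZero l := ⟨hl⟩
    tk (1 : K) 1 A l hl φ x y = ∑ i : OnePoint (ZMod l), φ (RR l hl i • x) (RR l hl i • y) := by
  have : NeZero l := ⟨hl⟩
  have h1 : ∑ i : OnePoint (ZMod l), φ (RR l hl i • x) (RR l hl i • y) =
      φ (Di l hl • x) (Di l hl • y) + ∑ j : ZMod l, φ (Up l hl (j.val : ℤ) • x)
        (Up l hl (j.val : ℤ) • y) :=
    Fintype.sum_option (fun i : OnePoint (ZMod l) => φ (RR l hl i • x) (RR l hl i • y))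
  rw [h1, tk_apply, one_smul, one_smul, add_comm]
  show Bop K A P1 l hl φ x y + Uop K A P1 l hl φ x y = _
  rw [Uop_apply, Bop_apply, Finset.sum_range]
  congr 1
  rw [← Equiv.sum_comp (ZMod.finEquiv l).toEquiv]
  refine Finset.sum_congr rfl fun j _ => ?_
  have h2 : ((ZMod.finEquiv l).toEquiv j).val = (j : ℕ) := by
    obtain ⟨n, rfl⟩ := Nat.exists_eq_succ_of_ne_zero hl
    rfl
  rw [h2]

/-- the homomorphism attached to a symbol -/
def hm (h : CF (fun _ => (1 : K)) N φ) : Additive (Gamma0 N) →+ A where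
  toFun γ := φ ∞ (io ((Additive.toMul γ : Gamma0 N) : SL(2, ℤ)) • ∞)
  map_zero' := by
    show φ ∞ (io ((1 : Gamma0 N) : SL(2, ℤ)) • ∞) = 0
    rw [Subgroup.coe_one, map_one, one_smul]
    have := h.add ∞ ∞ ∞
    simpa using this
  map_add' γ δ := by
    show φ ∞ (io ((Additive.toMul γ * Additive.toMul δ : Gamma0 N) : SL(2, ℤ)) • ∞) = _
    rw [Subgroup.coe_mul, map_mul, mul_smul, ← h.add ∞ (io ((Additive.toMul γ : Gamma0 N) : SL(2, ℤ)) • ∞),
      h.equi _ (Additive.toMul γ).2, one_smul]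

theorem hm_apply (h : CF (fun _ => (1 : K)) N φ) (γ : Gamma0 N) :
    hm h (Additive.ofMul γ) = φ ∞ (io (γ : SL(2, ℤ)) • ∞) := rfl

theorem CF.self {χ : ℤ → K} (h : CF χ N φ) (x : P1) : φ x x = 0 := by
  have := h.add x x x
  simpa using this

theorem CF.swap {χ : ℤ → K} (h : CF χ N φ) (x y : P1) : φ x y = - φ y x := by
  rw [eq_neg_iff_add_eq_zero, h.add, h.self]

/-- Hecke operators -/
theorem hm_tk [NeZero N] {l : ℕ} (hl : l.Prime) (hlN : ¬ l ∣ N) (h : CF (fun _ => (1 : K)) N φ)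
    (h' : CF (fun _ => (1 : K)) N (tk (1 : K) 1 A l hl.ne_zero φ)) :
    hm h' = MT N A l (hm h) := by
  have : NeZero l := ⟨hl.ne_zero⟩
  have hF : Fact l.Prime := ⟨hl⟩
  refine AddMonoidHom.ext fun γ' => ?_
  change hm h' (Additive.ofMul (Additive.toMul γ')) = MT N A l (hm h) (Additive.ofMul
    (Additive.toMul γ'))
  generalize Additive.toMul γ' = γ
  rw [MT_of_not_dvd N A l hlN, HF.T_apply, hm_apply, tk_one_eq]
  set F := hfT N l hlN with hFd
  have key : ∀ i : OnePoint (ZMod l), RR l hl.ne_zero i * io (γ : SL(2, ℤ)) =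
      io ((F.g γ i : Gamma0 N) : SL(2, ℤ)) * RR l hl.ne_zero (F.s γ i) := by
    intro i
    apply toR_injective
    rw [map_mul, map_mul, toR_RR, toR_RR, toR_io, toR_io]
    exact F.spec γ i
  have h1 : ∀ i : OnePoint (ZMod l), φ (RR l hl.ne_zero i • ∞)
      (RR l hl.ne_zero i • io (γ : SL(2, ℤ)) • ∞) =
      hm h (Additive.ofMul (F.g γ i)) + (φ ∞ (RR l hl.ne_zero (F.s γ i) • ∞) -
        φ ∞ (RR l hl.ne_zero i • ∞)) := by
    intro i
    rw [← mul_smul, key, mul_smul, ← h.add _ ∞, ← h.add ∞ (io ((F.g γ i : Gamma0 N) : SL(2, ℤ)) • ∞),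
      h.equi _ (F.g γ i).2, one_smul, hm_apply, h.swap (RR l hl.ne_zero i • ∞) ∞]
    abel
  rw [Finset.sum_congr rfl fun i _ => h1 i, Finset.sum_add_distrib, Finset.sum_sub_distrib]
  have h2 : ∑ i : OnePoint (ZMod l), φ ∞ (RR l hl.ne_zero (F.s γ i) • ∞) =
      ∑ i : OnePoint (ZMod l), φ ∞ (RR l hl.ne_zero i • ∞) :=
    Equiv.sum_comp (F.sE γ) (fun i => φ ∞ (RR l hl.ne_zero i • ∞))
  rw [h2, sub_self, add_zero]

/-- a fixed cusp -/
theorem exists_fixed {γ : SL(2, ℤ)}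
    (h : (γ : Matrix (Fin 2) (Fin 2) ℤ).trace ^ 2 = 4) : ∃ x : P1, io γ • x = x := by
  have hdet := det_SL γ
  rw [Matrix.trace_fin_two] at h
  have e := ent_io γ
  have e0 : (io γ) 0 0 = (γ 0 0 : ℤ) := congrFun (congrFun e 0) 0
  have e1 : (io γ) 0 1 = (γ 0 1 : ℤ) := congrFun (congrFun e 0) 1
  have e2 : (io γ) 1 0 = (γ 1 0 : ℤ) := congrFun (congrFun e 1) 0
  have e3 : (io γ) 1 1 = (γ 1 1 : ℤ) := congrFun (congrFun e 1) 1
  by_cases hc : γ 1 0 = 0
  · refine ⟨∞, (OnePoint.smul_infty_eq_self_iff).2 ?_⟩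
    rw [e2, hc, Int.cast_zero]
  · have hcQ : ((γ 1 0 : ℤ) : ℚ) ≠ 0 := by exact_mod_cast hc
    have hQ : (((γ 0 0 : ℤ) : ℚ) + (γ 1 1 : ℤ)) ^ 2 = 4 := by exact_mod_cast h
    have hdQ : ((γ 0 0 : ℤ) : ℚ) * (γ 1 1 : ℤ) - (γ 0 1 : ℤ) * (γ 1 0 : ℤ) = 1 := by
      exact_mod_cast hdet
    refine ⟨(((((γ 0 0 : ℤ) : ℚ) - (γ 1 1 : ℤ)) / (2 * (γ 1 0 : ℤ)) : ℚ) : OnePoint ℚ), ?_⟩
    rw [OnePoint.smul_some_eq_ite, e0, e1, e2, e3]
    have h2 : ((γ 1 0 : ℤ) : ℚ) * ((((γ 0 0 : ℤ) : ℚ) - (γ 1 1 : ℤ)) / (2 * (γ 1 0 : ℤ))) +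
        (γ 1 1 : ℤ) = (((γ 0 0 : ℤ) : ℚ) + (γ 1 1 : ℤ)) / 2 := by
      field_simp; ring
    have h3 : (((γ 0 0 : ℤ) : ℚ) + (γ 1 1 : ℤ)) ≠ 0 := by
      intro h0; rw [h0] at hQ; norm_num at hQ
    rw [h2, if_neg (by positivity)]
    congr 1
    field_simp
    linear_combination hQ - 4 * hdQ

theorem hm_mem_NHA [IsAddTorsionFree A] [NeZero N] (h : CF (fun _ => (1 : K)) N φ) :
    hm h ∈ NHA (Gamma0 N) A := by
  intro γ hγ
  refine SL2Pres.eq_zero_of_trace_le (fun γ hγ => ?_) γ ((trace_sq_le_iff _).mpr hγ)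
  obtain ⟨x, hx⟩ := exists_fixed hγ
  rw [hm_apply, ← h.add ∞ x]
  have h1 := h.equi _ γ.2 x ∞
  rw [hx, one_smul] at h1
  rw [h1, h.add, h.self]

end

/-! ### Character functions -/

/-- a character function -/
structure ChF {K : Type*} [CommRing K] (χ : ℤ → K) (N : ℕ) : Prop where
  map_one : χ 1 = 1
  map_mul : ∀ a b, χ (a * b) = χ a * χ b
  per : ∀ a b : ℤ, (N : ℤ) ∣ a - b → χ a = χ b
  unit : ∀ a : ℤ, IsCoprime a (N : ℤ) → IsUnit (χ a)

theorem chF_one {K : Type*} [CommRing K] (N : ℕ) : ChF (fun _ => (1 : K)) N :=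
  ⟨rfl, fun _ _ => (one_mul 1).symm, fun _ _ _ => rfl, fun _ _ => isUnit_one⟩

section Closure

variable {K : Type*} [CommRing K] {A : Type*} [AddCommGroup A] [Module K A] {N : ℕ}
  {φ : P1 → P1 → A} {χ : ℤ → K}

theorem isCoprime_re {l : ℕ} (hl : l.Prime) (hlN : ¬ l ∣ N) (i : Ix l) :
    IsCoprime (re l i) (N : ℤ) := by
  rcases i with _ | i
  · show IsCoprime (l : ℤ) (N : ℤ)
    rw [Nat.isCoprime_iff_coprime]
    exact (Nat.Prime.coprime_iff_not_dvd hl).2 hlN
  · exact isCoprime_one_left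

/-- the weights -/
def wt (w w' : K) {l : ℕ} : Ix l → K
  | none => w'
  | some _ => w

theorem tk_eq_sum (w w' : K) {l : ℕ} (hl : l ≠ 0) (φ : P1 → P1 → A) (x y : P1) :
    tk w w' A l hl φ x y = ∑ i : Ix l, wt w w' i • φ (rp l hl i • x) (rp l hl i • y) := by
  rw [tk_apply, Fintype.sum_option]
  show w • Uop K A P1 l hl φ x y + w' • Bop K A P1 l hl φ x y = w' • φ (Di l hl • x) (Di l hl • y) +
    ∑ j : Fin l, w • φ (Up l hl (j : ℕ) • x) (Up l hl (j : ℕ) • y)
  rw [Uop_apply, Bop_apply, Finset.sum_range, Finset.smul_sum, add_comm]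

theorem CF.tk (hχ : ChF χ N) (h : CF χ N φ) {l : ℕ} (hl : l.Prime) (hlN : ¬ l ∣ N) {w w' : K}
    (hw : w = w' * χ l) : CF χ N (tk w w' A l hl.ne_zero φ) := by
  have hW : ∀ i : Ix l, wt w w' i * χ (re l i) = w := by
    rintro (_ | i)
    · exact hw.symm
    · show w * χ 1 = w
      rw [hχ.map_one, mul_one]
  constructor
  · intro x y z
    simp only [tk_eq_sum]
    rw [← Finset.sum_add_distrib]
    exact Finset.sum_congr rfl fun j _ => by rw [← smul_add, h.add]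
  · intro γ hγ x y
    obtain ⟨σ, δ, hδ, h1, h2⟩ := exists_perm hl hlN hγ
    simp only [tk_eq_sum]
    rw [Finset.smul_sum]
    conv_rhs => rw [← Equiv.sum_comp σ]
    refine Finset.sum_congr rfl fun i _ => ?_
    have h3 : χ (re l i) * χ (γ 0 0) = χ (δ i 0 0) * χ (re l (σ i)) := by
      rw [← hχ.map_mul, ← hχ.map_mul]
      apply hχ.per
      rw [← ZMod.intCast_zmod_eq_zero_iff_dvd, Int.cast_sub, h2 i, sub_self]
    have u1 := hχ.unit _ (isCoprime_re hl hlN i)
    have u2 := hχ.unit _ (isCoprime_re hl hlN (σ i))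
    have h6 : wt w w' i * χ (δ i 0 0) = χ (γ 0 0) * wt w w' (σ i) := by
      apply (u1.mul u2).mul_left_cancel
      calc χ (re l i) * χ (re l (σ i)) * (wt w w' i * χ (δ i 0 0))
          = (wt w w' i * χ (re l i)) * (χ (δ i 0 0) * χ (re l (σ i))) := by ring
        _ = (wt w w' (σ i) * χ (re l (σ i))) * (χ (re l i) * χ (γ 0 0)) := by rw [hW, hW, h3]
        _ = _ := by ring
    rw [← mul_smul, ← mul_smul, h1 i, mul_smul, mul_smul, h.equi _ (hδ i), smul_smul, smul_smul,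
      h6]

theorem CF.add' {ψ : P1 → P1 → A} (h : CF χ N φ) (h' : CF χ N ψ) : CF χ N (φ + ψ) := by
  constructor
  · intro x y z
    simp only [Pi.add_apply]
    rw [← h.add x y z, ← h'.add x y z]; abel
  · intro γ hγ x y
    simp only [Pi.add_apply]
    rw [h.equi _ hγ, h'.equi _ hγ, smul_add]

theorem CF.smul (h : CF χ N φ) (r : K) : CF χ N (r • φ) := by
  constructor
  · intro x y z
    simp only [Pi.smul_apply]
    rw [← h.add x y z, smul_add]
  · intro γ hγ x y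
    simp only [Pi.smul_apply]
    rw [h.equi _ hγ, smul_comm]

/-- operators from noncommutative polynomials -/
def opF (A : Type*) [AddCommGroup A] [Module K A] {J : Type*} (t : J → ℕ) (ht : ∀ j, (t j).Prime)
    (w w' : J → K) : FreeAlgebra ℤ J →ₐ[ℤ] Module.End K (P1 → P1 → A) :=
  FreeAlgebra.lift ℤ (fun j => tk (w j) (w' j) A (t j) (ht j).ne_zero)

variable {J : Type*} {t : J → ℕ} {ht : ∀ j, (t j).Prime} {w w' : J → K}

theorem opF_ι (j : J) : opF A t ht w w' (FreeAlgebra.ι ℤ j) =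
    tk (w j) (w' j) A (t j) (ht j).ne_zero := FreeAlgebra.lift_ι_apply _ _

theorem CF.opF (hχ : ChF χ N) (hN : ∀ j, ¬ t j ∣ N) (hw : ∀ j, w j = w' j * χ (t j))
    (P : FreeAlgebra ℤ J) (h : CF χ N φ) : CF χ N (opF A t ht w w' P φ) := by
  induction P using FreeAlgebra.induction generalizing φ with
  | grade0 c =>
    rw [AlgHom.commutes, eq_intCast]
    have : ((c : Module.End K (P1 → P1 → A)) φ) = (c : K) • φ := by
      rw [Int.cast_smul_eq_zsmul]; rfl
    rw [this]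
    exact h.smul _
  | grade1 j =>
    rw [opF_ι]
    exact h.tk hχ (ht j) (hN j) (hw j)
  | mul P Q hP hQ =>
    rw [map_mul]
    exact hP (hQ h)
  | add P Q hP hQ =>
    rw [map_add]
    exact (hP h).add' (hQ h)

end Closure

/-! ### The base case -/

section Base

variable {K : Type*} [CommRing K] {A : Type*} [AddCommGroup A] [Module K A] {N : ℕ} [NeZero N]
  {φ : P1 → P1 → A} {J : Type*} {t : J → ℕ} {ht : ∀ j, (t j).Prime}

/-- change of index -/
def reP (t : J → ℕ) (ht : ∀ j, (t j).Prime) : FreeAlgebra ℤ J →ₐ[ℤ] FreeAlgebra ℤ PrimeT :=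
  FreeAlgebra.lift ℤ (fun j => FreeAlgebra.ι ℤ ⟨t j, ht j⟩)

theorem reP_ι (j : J) : reP t ht (FreeAlgebra.ι ℤ j) = FreeAlgebra.ι ℤ ⟨t j, ht j⟩ :=
  FreeAlgebra.lift_ι_apply _ _

theorem hm_opF (hN : ∀ j, ¬ t j ∣ N) (P : FreeAlgebra ℤ J) (h : CF (fun _ => (1 : K)) N φ)
    (h' : CF (fun _ => (1 : K)) N (opF A t ht (1 : J → K) 1 P φ)) :
    hm h' = actM N A (reP t ht P) (hm h) := by
  induction P using FreeAlgebra.induction generalizing φ with
  | grade0 c =>
    refine AddMonoidHom.ext fun γ => ?_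
    have e1 : (opF A t ht (1 : J → K) 1 (algebraMap ℤ _ c)) φ = (c : ℤ) • φ := by
      rw [AlgHom.commutes, eq_intCast]; rfl
    have e2 : actM N A (reP t ht (algebraMap ℤ _ c)) = (c : AddMonoid.End _) := by
      rw [AlgHom.commutes, AlgHom.commutes, eq_intCast]
    rw [e2, AddMonoid.End.intCast_apply]
    show (opF A t ht (1 : J → K) 1 (algebraMap ℤ _ c)) φ _ _ = c • hm h γ
    rw [e1]; rfl
  | grade1 j =>
    have e1 : opF A t ht (1 : J → K) 1 (FreeAlgebra.ι ℤ j) = tk (1 : K) 1 A (t j) (ht j).ne_zero :=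
      opF_ι j
    rw [reP_ι, actM_ι]
    have h'' : CF (fun _ => (1 : K)) N (tk (1 : K) 1 A (t j) (ht j).ne_zero φ) := by
      rw [← e1]; exact h'
    rw [← hm_tk (ht j) (hN j) h h'']
    refine AddMonoidHom.ext fun γ => ?_
    show (opF A t ht (1 : J → K) 1 (FreeAlgebra.ι ℤ j)) φ _ _ = _
    rw [e1]; rfl
  | mul P Q hP hQ =>
    have hQ' : CF (fun _ => (1 : K)) N (opF A t ht (1 : J → K) 1 Q φ) :=
      CF.opF (chF_one N) hN (fun j => by simp) Q h
    have hP' : CF (fun _ => (1 : K)) N (opF A t ht (1 : J → K) 1 P (opF A t ht (1 : J → K) 1 Q φ)) :=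
      CF.opF (chF_one N) hN (fun j => by simp) P hQ'
    have h1 := hQ h hQ'
    have h2 := hP hQ' hP'
    have e2 : actM N A (reP t ht (P * Q)) = actM N A (reP t ht P) * actM N A (reP t ht Q) := by
      rw [map_mul, map_mul]
    rw [e2]
    have h3 : hm h' = hm hP' := by
      refine AddMonoidHom.ext fun γ => ?_
      show (opF A t ht (1 : J → K) 1 (P * Q)) φ _ _ = _
      rw [map_mul]; rfl
    rw [h3, h2, h1]
    rfl
  | add P Q hP hQ =>
    have hQ' : CF (fun _ => (1 : K)) N (opF A t ht (1 : J → K) 1 Q φ) :=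
      CF.opF (chF_one N) hN (fun j => by simp) Q h
    have hP' : CF (fun _ => (1 : K)) N (opF A t ht (1 : J → K) 1 P φ) :=
      CF.opF (chF_one N) hN (fun j => by simp) P h
    have h1 := hQ h hQ'
    have h2 := hP h hP'
    have e2 : actM N A (reP t ht (P + Q)) = actM N A (reP t ht P) + actM N A (reP t ht Q) := by
      rw [map_add, map_add]
    rw [e2]
    have h3 : hm h' = hm hP' + hm hQ' := by
      refine AddMonoidHom.ext fun γ => ?_
      show (opF A t ht (1 : J → K) 1 (P + Q)) φ _ _ = _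
      rw [map_add]; rfl
    rw [h3, h2, h1]
    rfl

/-! #### integral decomposition -/

theorem exists_int_decompA {Γ : Subgroup SL(2,ℤ)} [Group.FG Γ] {B : Type*} [AddCommGroup B]
    [IsAddTorsionFree B] {h : Additive Γ →+ B}
    (hh : h ∈ NHA Γ B) : ∃ (s : ℕ) (a : Fin s → B) (ψ : Fin s → NHA Γ ℤ),
      h = ∑ i, (zmultiplesHom B (a i)).comp (ψ i : Additive Γ →+ ℤ) := by
  have h1 : Module.Finite ℤ h.range := by
    rw [Module.Finite.iff_addGroup_fg]
    have : AddGroup.FG (Additive Γ) := inferInstance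
    exact AddGroup.fg_range h
  have h2 : IsAddTorsionFree h.range :=
    Function.Injective.isAddTorsionFree h.range.subtype Subtype.val_injective
  have h3 : Module.Free ℤ h.range := inferInstance
  set b := Module.finBasis ℤ h.range with hb
  refine ⟨_, fun i => (b i : B), fun i => ⟨
    { toFun := fun x => b.repr (h.rangeRestrict x) i
      map_zero' := by simp
      map_add' := fun x y => by simp }, ?_⟩, ?_⟩
  · intro γ hγ
    change b.repr (h.rangeRestrict (Additive.ofMul γ)) i = 0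
    have h4 : h.rangeRestrict (Additive.ofMul γ) = 0 := Subtype.ext (hh γ hγ)
    rw [h4, map_zero]
    rfl
  · refine AddMonoidHom.ext fun x => ?_
    have h5 := congrArg (fun y : h.range => (y : B)) (b.sum_repr (h.rangeRestrict x))
    simp only [AddSubgroup.val_finsetSum, AddSubgroup.coe_zsmul] at h5
    rw [AddMonoidHom.finsetSum_apply]
    refine Eq.trans h5.symm ?_
    exact Finset.sum_congr rfl fun i _ => rfl

theorem actM_eq_zero {B : Type*} [AddCommGroup B] [IsAddTorsionFree B]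
    {P : FreeAlgebra ℤ PrimeT} (hP : actS N P = 0) {h : Additive (Gamma0 N) →+ B}
    (hh : h ∈ NHA (Gamma0 N) B) : actM N B P h = 0 := by
  obtain ⟨s, a, ψ, rfl⟩ := exists_int_decompA hh
  rw [map_sum]
  refine Finset.sum_eq_zero fun i _ => ?_
  rw [actM_comp, ← coe_actL, actL_eq_zero hP]
  ext x
  exact map_zero (zmultiplesHom B (a i))

/-! #### Eisenstein symbols -/

theorem exists_smul_infty (x : P1) : ∃ g : SL(2, ℤ), io g • (∞ : P1) = x := by
  obtain ⟨g, hg⟩ := OnePoint.exists_mem_SL2 ℤ x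
  exact ⟨g, hg⟩

omit [NeZero N] in
theorem orbit_rep {l : ℕ} (hl : l.Prime) (hl1 : (N : ℤ) ∣ l - 1) (i : Ix l) (x : P1) :
    ∃ γ ∈ Gamma0 N, rp l hl.ne_zero i • x = io γ • x := by
  obtain ⟨g, rfl⟩ := exists_smul_infty x
  have hl0 : (l : ℤ) ≠ 0 := by exact_mod_cast hl.ne_zero
  have hdg := det_SL g
  have hlN : ((l : ℤ) : ZMod N) = 1 := by
    have := (ZMod.intCast_zmod_eq_zero_iff_dvd _ _).2 hl1
    push_cast at this ⊢
    exact sub_eq_zero.1 this
  have hre : ((re l i : ℤ) : ZMod N) = 1 := by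
    rcases i with _ | i
    · exact hlN
    · simp [re]
  have hrd : ((rd l i : ℤ) : ZMod N) = 1 := by
    rcases i with _ | i
    · simp [rd]
    · exact hlN
  set u : ℤ := re l i * g 0 0 + rb l i * g 1 0 with hu
  set v : ℤ := rd l i * g 1 0 with hv
  have hdet : u * (rd l i * g 1 1) - v * (re l i * g 0 1 + rb l i * g 1 1) = l := by
    rw [hu, hv, ← re_mul_rd l i]
    linear_combination (re l i * rd l i) * hdg
  -- divide by the gcd
  obtain ⟨e, u', v', he0, hue, hve, hcop⟩ : ∃ e u' v' : ℤ, 0 < e ∧ u = e * u' ∧ v = e * v' ∧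
      IsCoprime u' v' := by
    have hne : u ≠ 0 ∨ v ≠ 0 := by
      by_contra h
      push Not at h
      rw [h.1, h.2, zero_mul, zero_mul, sub_zero] at hdet
      exact hl0 hdet.symm
    have hg0 : (Int.gcd u v : ℤ) ≠ 0 := by
      rw [Ne, Int.natCast_eq_zero, Int.gcd_eq_zero_iff]
      rintro ⟨h1, h2⟩
      rcases hne with h | h
      · exact h h1
      · exact h h2
    obtain ⟨u', hu'⟩ := Int.gcd_dvd_left (a := u) (b := v)
    obtain ⟨v', hv'⟩ := Int.gcd_dvd_right (a := u) (b := v)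
    refine ⟨Int.gcd u v, u', v', lt_of_le_of_ne (Int.natCast_nonneg _) hg0.symm, hu', hv', ?_⟩
    have hb := Int.gcd_eq_gcd_ab u v
    refine ⟨Int.gcdA u v, Int.gcdB u v, ?_⟩
    apply mul_left_cancel₀ hg0
    linear_combination -hb - Int.gcdA u v * hu' - Int.gcdB u v * hv'
  have hel : e ∣ l := by
    rw [← hdet, hue, hve]
    exact dvd_sub ((dvd_mul_right e u').mul_right _) ((dvd_mul_right e v').mul_right _)
  have heN : (e : ZMod N) = 1 := by
    obtain ⟨n, rfl⟩ := Int.eq_ofNat_of_zero_le he0.le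
    rcases (Nat.dvd_prime hl).1 (Int.natCast_dvd_natCast.1 hel) with h | h
    · rw [h]; simp
    · rw [h]; exact hlN
  obtain ⟨z, w, hzw⟩ := hcop
  obtain ⟨g', p1, p2, p3, p4⟩ := exists_SL u' (-w) v' z (by linear_combination hzw)
  -- `g'⁻¹ A g` fixes infinity
  have hfix : rp l hl.ne_zero i • io g • (∞ : P1) = io g' • (∞ : P1) := by
    have h1 : ((io g')⁻¹ * (rp l hl.ne_zero i * io g)) • (∞ : P1) = ∞ := by
      rw [OnePoint.smul_infty_eq_self_iff]
      have e1 := (ent_io_inv g').mul ((ent_rp l hl.ne_zero i).mul (ent_io g))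
      have e2 := congrFun (congrFun e1 1) 0
      refine e2.trans ?_
      show (-(g' 1 0 : ℤ) : ℚ) * ((re l i : ℤ) * (g 0 0 : ℤ) + (rb l i : ℤ) * (g 1 0 : ℤ)) +
        (g' 0 0 : ℤ) * (0 * (g 0 0 : ℤ) + (rd l i : ℤ) * (g 1 0 : ℤ)) = 0
      rw [p1, p3]
      have hu1 : ((re l i : ℤ) : ℚ) * (g 0 0 : ℤ) + (rb l i : ℤ) * (g 1 0 : ℤ) = e * u' := by
        exact_mod_cast hu.symm.trans hue
      have hv1 : ((rd l i : ℤ) : ℚ) * (g 1 0 : ℤ) = e * v' := by
        exact_mod_cast hv.symm.trans hve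
      rw [hu1, zero_mul, zero_add, hv1]
      ring
    rw [← mul_smul]
    rw [mul_smul, inv_smul_eq_iff] at h1
    exact h1
  refine ⟨g' * ModularGroup.T ^ (g 1 1 * (rb l i * z + w + g 0 1) + g 0 1 * (z - g 1 1)) * g⁻¹,
    ?_, ?_⟩
  · rw [mem_Gamma0, mul_inv_10, ← ZMod.intCast_zmod_eq_zero_iff_dvd]
    set k : ℤ := g 1 1 * (rb l i * z + w + g 0 1) + g 0 1 * (z - g 1 1) with hk
    have q3 : (g' * ModularGroup.T ^ k) 1 0 = v' := by
      rw [Matrix.SpecialLinearGroup.coe_mul, Matrix.mul_apply, Fin.sum_univ_two,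
        ModularGroup.coe_T_zpow, p3]
      simp
    have q4 : (g' * ModularGroup.T ^ k) 1 1 = v' * k + z := by
      rw [Matrix.SpecialLinearGroup.coe_mul, Matrix.mul_apply, Fin.sum_univ_two,
        ModularGroup.coe_T_zpow, p3, p4]
      simp
    rw [q3, q4, hk]
    have e1 : (u' : ZMod N) = (g 0 0 : ℤ) + (rb l i : ℤ) * (g 1 0 : ℤ) := by
      have := congrArg (fun t : ℤ => (t : ZMod N)) (hu.symm.trans hue)
      push_cast at this
      rw [hre, heN] at this
      linear_combination -this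
    have e2 : (v' : ZMod N) = (g 1 0 : ℤ) := by
      have := congrArg (fun t : ℤ => (t : ZMod N)) (hv.symm.trans hve)
      push_cast at this
      rw [hrd, heN] at this
      linear_combination -this
    have e3 : (z : ZMod N) * u' + w * v' = 1 := by
      have := congrArg (fun t : ℤ => (t : ZMod N)) hzw
      push_cast at this
      exact this
    have e4 : ((g 0 0 : ℤ) : ZMod N) * (g 1 1 : ℤ) - (g 0 1 : ℤ) * (g 1 0 : ℤ) = 1 := by
      have := congrArg (fun t : ℤ => (t : ZMod N)) hdg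
      push_cast at this
      exact this
    push_cast
    rw [e1, e2] at e3
    rw [e2]
    linear_combination (-(g 1 0 : ℤ) * (g 1 1 : ℤ) : ZMod N) * e3 +
      ((g 1 0 : ℤ) * z : ZMod N) * e4
  · rw [hfix, map_mul, map_mul, io_T_zpow, map_inv, mul_smul, inv_smul_smul, mul_smul]
    congr 1
    exact ((OnePoint.smul_infty_eq_self_iff).2 rfl).symm

omit [NeZero N] in
/-- symbols with trivial periods are Eisenstein -/
theorem tk_one_of_trivial {l : ℕ} (hl : l.Prime) (hl1 : (N : ℤ) ∣ l - 1)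
    (h : CF (fun _ => (1 : K)) N φ) (h0 : ∀ γ ∈ Gamma0 N, ∀ x, φ x (io γ • x) = 0) :
    tk (1 : K) 1 A l hl.ne_zero φ = (1 + l : K) • φ := by
  ext x y
  rw [tk_eq_sum]
  have h1 : ∀ i : Ix l, wt (1 : K) 1 i • φ (rp l hl.ne_zero i • x) (rp l hl.ne_zero i • y) =
      φ x y := by
    intro i
    have hw : wt (1 : K) 1 i = 1 := by rcases i with _ | i <;> rfl
    obtain ⟨γ, hγ, e1⟩ := orbit_rep hl hl1 i x
    obtain ⟨δ, hδ, e2⟩ := orbit_rep hl hl1 i y
    rw [hw, one_smul, e1, e2, ← h.add _ x, ← h.add x y, h0 δ hδ y, h.swap, h0 γ hγ x, neg_zero,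
      zero_add, add_zero]
  rw [Finset.sum_congr rfl fun i _ => h1 i, Finset.sum_const, Finset.card_univ,
    Fintype.card_option, Fintype.card_fin, ← Nat.cast_smul_eq_nsmul K]
  push_cast
  rw [add_comm]
  rfl

/-- **The base case**: relations between Hecke operators on cusp forms hold on symbols, up to
Eisenstein symbols. -/
theorem base_relation [IsAddTorsionFree A] (hN : ∀ j, ¬ t j ∣ N) {P : FreeAlgebra ℤ J}
    (hP : actS N (reP t ht P) = 0) (h : CF (fun _ => (1 : K)) N φ) {l : ℕ} (hl : l.Prime)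
    (hl1 : (N : ℤ) ∣ l - 1) :
    tk (1 : K) 1 A l hl.ne_zero (opF A t ht (1 : J → K) 1 P φ) =
      (1 + l : K) • opF A t ht (1 : J → K) 1 P φ := by
  have h' : CF (fun _ => (1 : K)) N (opF A t ht (1 : J → K) 1 P φ) :=
    CF.opF (chF_one N) hN (fun j => by simp) P h
  have h1 : hm h' = 0 := by
    rw [hm_opF hN P h h']
    exact actM_eq_zero hP (hm_mem_NHA h)
  refine tk_one_of_trivial hl hl1 h' fun γ hγ x => ?_
  have h2 : opF A t ht (1 : J → K) 1 P φ ∞ (io γ • ∞) = 0 :=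
    DFunLike.congr_fun h1 (Additive.ofMul (⟨γ, hγ⟩ : Gamma0 N))
  have h3 := h'.equi γ hγ ∞ x
  rw [one_smul] at h3
  rw [← h'.add x ∞, ← h'.add ∞ (io γ • ∞), h2, h3, zero_add, h'.add, h'.self]

end Base

end Fermat.Agent.TWCoh
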