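import Fermat.Agent.TWCoh.Coc

/-!
# Lifting modular symbols up to Eisenstein operators
-/

set_option autoImplicit false

noncomputable section

namespace Fermat.Agent.TWCoh

open Matrix CongruenceSubgroup ModularGroup
open scoped MatrixGroups

variable {Λ : Type*} [CommRing Λ] {c : ℕ} {θ : DirichletCharacter Λ c} {N : ℕ}
  {A X : Type*} [AddCommGroup A] [Module Λ A] [MulAction GQ X]
  {A' : Type*} [AddCommGroup A'] [Module Λ A']

/-! ### Integration of cocycles -/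

theorem integrate (hc : c ∣ N) {p : A →ₗ[Λ] A'} (hp : Function.Surjective p)
    (cc : SL(2, ℤ) → A) (hcc : ∀ γ ∈ Gamma0 N, ∀ δ ∈ Gamma0 N,
      cc (γ * δ) = cc γ + θ (γ 0 0 : ZMod c) • cc δ)
    (hst : ∀ x : X, ∀ γ ∈ Gamma0 N, io γ • x = x → θ (γ 0 0 : ZMod c) = 1 ∧ cc γ = 0)
    (f : X → A') (hf : ∀ γ ∈ Gamma0 N, ∀ x, f (io γ • x) = θ (γ 0 0 : ZMod c) • f x + p (cc γ)) :
    ∃ g : X → A, (∀ γ ∈ Gamma0 N, ∀ x, g (io γ • x) = θ (γ 0 0 : ZMod c) • g x + cc γ) ∧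
      ∀ x, p (g x) = f x := by
  let r : Setoid X :=
    { r := fun x y => ∃ γ ∈ Gamma0 N, io γ • x = y
      iseqv := ⟨fun x => ⟨1, one_mem _, by rw [map_one, one_smul]⟩,
        fun {x y} h => by
          obtain ⟨γ, hγ, rfl⟩ := h
          exact ⟨γ⁻¹, inv_mem hγ, by rw [map_inv, inv_smul_smul]⟩,
        fun {x y z} h h' => by
          obtain ⟨γ, hγ, rfl⟩ := h
          obtain ⟨δ, hδ, rfl⟩ := h'
          exact ⟨δ * γ, mul_mem hδ hγ, by rw [map_mul, mul_smul]⟩⟩ }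
  let o : X → X := fun x => Quotient.out (Quotient.mk r x)
  have ho : ∀ x, ∃ γ ∈ Gamma0 N, io γ • o x = x := fun x =>
    (Quotient.mk_out x : (Quotient.out (Quotient.mk r x)) ≈ x)
  have ho' : ∀ x, ∀ γ ∈ Gamma0 N, o (io γ • x) = o x := fun x γ hγ =>
    congrArg Quotient.out (Quotient.sound (s := r) (r.symm ⟨γ, hγ, rfl⟩))
  choose γ hγ hγ' using ho
  let s := Function.surjInv hp
  refine ⟨fun x => θ ((γ x 0 0 : ℤ) : ZMod c) • s (f (o x)) + cc (γ x), fun δ hδ x => ?_,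
    fun x => ?_⟩
  · simp only [ho' x δ hδ]
    set η := (δ * γ x)⁻¹ * γ (io δ • x) with hη
    have hηm : η ∈ Gamma0 N := mul_mem (inv_mem (mul_mem hδ (hγ x))) (hγ _)
    have h1 : io η • o x = o x := by
      rw [hη, map_mul, map_inv, map_mul, mul_smul]
      have h2 := hγ' (io δ • x)
      rw [ho' x δ hδ] at h2
      rw [h2, inv_smul_eq_iff, mul_smul, hγ']
    obtain ⟨h2, h3⟩ := hst _ η hηm h1
    have h4 : γ (io δ • x) = δ * γ x * η := by rw [hη, mul_inv_cancel_left]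
    rw [h4, char_mul hc hηm, h2, mul_one, hcc _ (mul_mem hδ (hγ x)) _ hηm, h3, smul_zero,
      add_zero, char_mul hc (hγ x), hcc δ hδ _ (hγ x), mul_smul, smul_add]
    abel
  · show p (θ _ • s _ + cc (γ x)) = f x
    rw [map_add, map_smul, Function.surjInv_eq hp, ← hf _ (hγ x), hγ']

/-! ### Evaluation at parabolic elements -/

theorem Sy.ev_mul {φ : X → X → A} (h : φ ∈ Sy θ N A X) {π π' : SL(2, ℤ)} (hπ : π ∈ Gamma0 N)
    (hθπ : θ (π 0 0 : ZMod c) = 1) (x : X) :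
    φ x (io (π * π') • x) = φ x (io π • x) + φ x (io π' • x) := by
  rw [← Sy.add' h x (io π • x), map_mul, mul_smul, Sy.equi h hπ, hθπ, one_smul]

theorem Sy.ev_indep {φ : X → X → A} (h : φ ∈ Sy θ N A X) {π : SL(2, ℤ)} (hπ : π ∈ Gamma0 N)
    (hθπ : θ (π 0 0 : ZMod c) = 1) (x y : X) : φ x (io π • x) = φ y (io π • y) := by
  have h1 := Sy.add' h x y (io π • y)
  have h2 := Sy.add' h x (io π • x) (io π • y)
  rw [Sy.equi h hπ, hθπ, one_smul] at h2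
  have h3 : φ x y + φ y (io π • y) = φ x (io π • x) + φ x y := h1.trans h2.symm
  rw [add_comm] at h3
  exact (add_right_cancel h3).symm

/-- the parabolic elements -/
def pa (g : SL(2, ℤ)) (w : ℤ) : SL(2, ℤ) := g * T ^ w * g⁻¹

theorem pa_add (g : SL(2, ℤ)) (w w' : ℤ) : pa g (w + w') = pa g w * pa g w' := by
  rw [pa, pa, pa, _root_.zpow_add]; group

theorem inv_entries (g : SL(2, ℤ)) : g⁻¹ 0 0 = g 1 1 ∧ g⁻¹ 0 1 = - g 0 1 ∧ g⁻¹ 1 0 = - g 1 0 ∧
    g⁻¹ 1 1 = g 0 0 := by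
  rw [Matrix.SpecialLinearGroup.SL2_inv_expl]
  exact ⟨rfl, rfl, rfl, rfl⟩

theorem ent_io_inv (g : SL(2, ℤ)) : Ent (io g)⁻¹ (g 1 1) (-g 0 1) (-g 1 0) (g 0 0) := by
  rw [← map_inv]
  obtain ⟨h1, h2, h3, h4⟩ := inv_entries g
  refine (ent_io _).congr ?_ ?_ ?_ ?_
  · rw [h1]
  · rw [h2]; push_cast; rfl
  · rw [h3]; push_cast; rfl
  · rw [h4]

theorem det_SLQ (γ : SL(2, ℤ)) : ((γ 0 0 : ℤ) : ℚ) * (γ 1 1 : ℤ) - (γ 0 1 : ℤ) * (γ 1 0 : ℤ) = 1 := by
  exact_mod_cast det_SL γ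

theorem pa_entries (g : SL(2, ℤ)) (w : ℤ) : (pa g w) 0 0 = 1 - g 0 0 * g 1 0 * w ∧
    (pa g w) 1 0 = - g 1 0 ^ 2 * w := by
  have hT : io (T ^ w) = Tr w := io_T_zpow w
  have h1 := (((ent_io g).mul (ent_Tr w)).mul (ent_io_inv g))
  have h2 : io (pa g w) = io g * Tr w * (io g)⁻¹ := by rw [pa, map_mul, map_mul, map_inv, hT]
  have hd := det_SLQ g
  obtain ⟨e1, -, e3, -⟩ := (ent_io (pa g w)).inj (by rw [h2]; exact h1)
  constructor
  · have : (((pa g w) 0 0 : ℤ) : ℚ) = ((1 - g 0 0 * g 1 0 * w : ℤ) : ℚ) := by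
      push_cast
      rw [e1]
      linear_combination hd
    exact_mod_cast this
  · have : (((pa g w) 1 0 : ℤ) : ℚ) = ((- g 1 0 ^ 2 * w : ℤ) : ℚ) := by
      push_cast
      rw [e3]
      ring
    exact_mod_cast this

theorem pa_mem {g : SL(2, ℤ)} {w : ℤ} : pa g w ∈ Gamma0 N ↔ (N : ℤ) ∣ g 1 0 ^ 2 * w := by
  rw [mem_Gamma0, (pa_entries g w).2, neg_mul, dvd_neg]

theorem char_pa (hc : c ∣ N) (hθ1 : ∀ a : ZMod c, (a - 1) ^ 2 = 0 → θ a = 1) {g : SL(2, ℤ)}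
    {w : ℤ} (hw : (N : ℤ) ∣ g 1 0 ^ 2 * w) : θ ((1 - g 0 0 * g 1 0 * w : ℤ) : ZMod c) = 1 := by
  apply hθ1
  have h1 : (((g 0 0 * g 1 0 * w) ^ 2 : ℤ) : ZMod c) = 0 := by
    rw [ZMod.intCast_zmod_eq_zero_iff_dvd]
    refine dvd_trans (by exact_mod_cast hc) (hw.trans ⟨g 0 0 ^ 2 * w, by ring⟩)
  push_cast at h1 ⊢
  rw [← h1]; ring

theorem rep_inj' {l : ℕ} (hl : l.Prime) (f : Fin l → ℤ)
    (hf : ∀ i j, f i ≡ f j [ZMOD l] → i = j) (R : Ix l → GQ)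
    (hR0 : Ent (R none) l 0 0 1) (hR1 : ∀ j, Ent (R (some j)) 1 (f j) 0 l)
    (i j : Ix l) (γ : SL(2, ℤ)) (h : io γ * R j = R i) : i = j := by
  have hl0 : (l : ℚ) ≠ 0 := by exact_mod_cast hl.ne_zero
  have hl1 : ¬ IsUnit (l : ℤ) := by
    rw [Int.isUnit_iff_natAbs_eq, Int.natAbs_natCast]; exact hl.one_lt.ne'
  rcases i with _ | i <;> rcases j with _ | j
  · rfl
  · exfalso
    obtain ⟨h3, h4, h5, h6⟩ := ((ent_io γ).mul (hR1 j)).inj (by rw [h]; exact hR0)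
    have e1 : ((γ 0 0 : ℤ) : ℚ) = l := by linarith
    have e3 : ((γ 1 0 : ℤ) : ℚ) = 0 := by linarith
    rw [e3, zero_mul, zero_add] at h6
    have h7 : (γ 1 1 : ℤ) * l = 1 := by exact_mod_cast h6
    exact hl1 (IsUnit.of_mul_eq_one _ (by rw [mul_comm]; exact h7))
  · exfalso
    obtain ⟨h3, h4, h5, h6⟩ := ((ent_io γ).mul hR0).inj (by rw [h]; exact hR1 i)
    have h7 : (γ 0 0 : ℤ) * l = 1 := by
      have : ((γ 0 0 : ℤ) : ℚ) * l = 1 := by linarith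
      exact_mod_cast this
    exact hl1 (IsUnit.of_mul_eq_one _ (by rw [mul_comm]; exact h7))
  · obtain ⟨h3, h4, h5, h6⟩ := ((ent_io γ).mul (hR1 j)).inj (by rw [h]; exact hR1 i)
    have e1 : ((γ 0 0 : ℤ) : ℚ) = 1 := by linarith
    rw [e1, one_mul] at h4
    have e2 : f j + (γ 0 1 : ℤ) * l = f i := by exact_mod_cast h4
    have h10 : f i ≡ f j [ZMOD l] := by
      rw [← e2]; exact (Int.modEq_iff_dvd.2 ⟨-γ 0 1, by ring⟩)
    rw [hf i j h10]

theorem cast_congr (hc : c ∣ N) {a b : ℤ} (h : (N : ℤ) ∣ a - b) : (a : ZMod c) = (b : ZMod c) := by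
  rw [← sub_eq_zero, ← Int.cast_sub, ZMod.intCast_zmod_eq_zero_iff_dvd]
  exact dvd_trans (by exact_mod_cast hc) h

/-- upper triangular representatives -/
def ur (w : ℤ) (l : ℕ) (hl : l ≠ 0) : Ix l → GQ
  | none => Di l hl
  | some j => Up l hl (w * (j : ℕ))

/-- the adapted representatives -/
def br (g : SL(2, ℤ)) (w : ℤ) (l : ℕ) (hl : l ≠ 0) (i : Ix l) : GQ :=
  io g * ur w l hl i * (io g)⁻¹

theorem conj_rep (hc : c ∣ N) {l : ℕ} (hl : l.Prime) (hlN : ¬ l ∣ N) (g : SL(2, ℤ))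
    {α β ε : ℤ} (hαε : α * ε = l) {R : GQ} (hR : Ent R α β 0 ε)
    (h1 : (N : ℤ) ∣ g 1 0 * α * g 1 1 - (g 1 0 * β + g 1 1 * ε) * g 1 0)
    (h2 : θ ((g 0 0 * α * g 1 1 - (g 0 0 * β + g 0 1 * ε) * g 1 0 : ℤ) : ZMod c) = 1) :
    ∃ k : Ix l, ∃ δ ∈ Gamma0 N, io δ * rp l hl.ne_zero k = io g * R * (io g)⁻¹ ∧
      θ (δ 0 0 : ZMod c) = θ⁻¹ ((re l k : ℤ) : ZMod c) := by
  obtain ⟨m, hm⟩ := h1
  have hdet := det_SL g
  have hmQ : ((g 1 0 : ℤ) : ℚ) * α * (g 1 1 : ℤ) - ((g 1 0 : ℤ) * β + (g 1 1 : ℤ) * ε) *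
    (g 1 0 : ℤ) = N * m := by exact_mod_cast hm
  have e := (((ent_io g).mul hR).mul (ent_io_inv g))
  obtain ⟨k, δ, hδ, h3⟩ := exists_rep hl hlN
    (g 0 0 * α * g 1 1 - (g 0 0 * β + g 0 1 * ε) * g 1 0)
    (- (g 0 0 * α * g 0 1) + (g 0 0 * β + g 0 1 * ε) * g 0 0) m
    (- (g 1 0 * α * g 0 1) + (g 1 0 * β + g 1 1 * ε) * g 0 0)
    (by
      rw [← hm, ← hαε]
      linear_combination α * ε * (g 0 0 * g 1 1 - g 0 1 * g 1 0 + 1) * hdet)
    (e.congr (by push_cast; ring) (by push_cast; ring) (by rw [← hmQ]; ring) (by push_cast; ring))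
  refine ⟨k, δ, hδ, h3, ?_⟩
  obtain ⟨e1, -⟩ := ((ent_io δ).mul (ent_rp l hl.ne_zero k)).inj (by rw [h3]; exact e)
  have e2 : δ 0 0 * re l k = g 0 0 * α * g 1 1 - (g 0 0 * β + g 0 1 * ε) * g 1 0 := by
    have : ((δ 0 0 * re l k : ℤ) : ℚ) =
        ((g 0 0 * α * g 1 1 - (g 0 0 * β + g 0 1 * ε) * g 1 0 : ℤ) : ℚ) := by
      push_cast
      linear_combination e1
    exact_mod_cast this
  rw [← e2] at h2
  push_cast at h2
  rw [map_mul] at h2
  have e4 := mul_inv_char θ (isUnit_re hl hlN hc k)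
  calc θ (δ 0 0 : ZMod c) = θ (δ 0 0 : ZMod c) * (θ ((re l k : ℤ) : ZMod c) *
        θ⁻¹ ((re l k : ℤ) : ZMod c)) := by rw [e4, mul_one]
    _ = _ := by rw [← mul_assoc, h2, one_mul]

theorem hk_eq_br (hc : c ∣ N) (hθ1 : ∀ a : ZMod c, (a - 1) ^ 2 = 0 → θ a = 1)
    {l : ℕ} (hl : l.Prime) (hlN : ¬ l ∣ N) (hl1 : (N : ℤ) ∣ l - 1) {φ : X → X → A}
    (h : φ ∈ Sy θ N A X) {g : SL(2, ℤ)} {w : ℤ} (hw : (N : ℤ) ∣ g 1 0 ^ 2 * w)
    (hwl : ¬ (l : ℤ) ∣ w) (x y : X) :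
    hk θ A X N l hl.ne_zero φ x y =
      ∑ i, φ (br g w l hl.ne_zero i • x) (br g w l hl.ne_zero i • y) := by
  obtain ⟨m, hm⟩ := hl1
  obtain ⟨v, hv⟩ := hw
  have hdet := det_SL g
  have key : ∀ i : Ix l, ∃ k : Ix l, ∃ δ ∈ Gamma0 N, io δ * rp l hl.ne_zero k =
      br g w l hl.ne_zero i ∧ θ (δ 0 0 : ZMod c) = θ⁻¹ ((re l k : ℤ) : ZMod c) := by
    rintro (_ | j)
    · refine conj_rep hc hl hlN g (α := l) (β := 0) (ε := 1) (by ring)
        ((ent_Di l hl.ne_zero).congr (by simp) (by simp) rfl (by simp)) ?_ ?_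
      · exact ⟨m * g 1 0 * g 1 1, by linear_combination g 1 0 * g 1 1 * hm⟩
      · have h1 : ((g 0 0 * l * g 1 1 - (g 0 0 * 0 + g 0 1 * 1) * g 1 0 : ℤ) : ZMod c) =
            ((1 : ℤ) : ZMod c) := by
          refine cast_congr hc ⟨m * g 0 0 * g 1 1, ?_⟩
          linear_combination hdet + g 0 0 * g 1 1 * hm
        rw [h1, Int.cast_one, map_one]
    · refine conj_rep hc hl hlN g (α := 1) (β := w * (j : ℕ)) (ε := l) (by ring)
        ((ent_Up l hl.ne_zero (w * (j : ℕ))).congr (by simp) (by simp) rfl (by simp)) ?_ ?_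
      · exact ⟨-(m * g 1 0 * g 1 1) - v * (j : ℕ), by
          linear_combination -(g 1 0 * g 1 1) * hm - ((j : ℕ) : ℤ) * hv⟩
      · have h2 : (N : ℤ) ∣ g 1 0 ^ 2 * (w * (j : ℕ)) := ⟨v * (j : ℕ), by
          linear_combination ((j : ℕ) : ℤ) * hv⟩
        have h1 : ((g 0 0 * 1 * g 1 1 - (g 0 0 * (w * (j : ℕ)) + g 0 1 * l) * g 1 0 : ℤ) :
            ZMod c) = ((1 - g 0 0 * g 1 0 * (w * (j : ℕ)) : ℤ) : ZMod c) := by
          refine cast_congr hc ⟨-m * g 0 1 * g 1 0, ?_⟩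
          linear_combination hdet - g 0 1 * g 1 0 * hm
        rw [h1]
        exact char_pa hc hθ1 h2
  choose k δ hδ hk1 hk2 using key
  have hinj : Function.Injective k := by
    intro i j hij
    have hwl' : IsCoprime (l : ℤ) w := (Nat.prime_iff_prime_int.1 hl).coprime_iff_not_dvd.2 hwl
    have hg : io g * io g⁻¹ = 1 := by rw [← map_mul, mul_inv_cancel, map_one]
    refine rep_inj' hl (fun j : Fin l => w * ((j : ℕ) : ℤ)) ?_ (ur w l hl.ne_zero) ?_ ?_ i j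
      (g⁻¹ * (δ i * (δ j)⁻¹) * g) ?_
    · intro i j hij
      have h1 : ((i : ℕ) : ℤ) ≡ ((j : ℕ) : ℤ) [ZMOD l] := by
        have h2 := Int.modEq_iff_dvd.1 hij
        rw [Int.modEq_iff_dvd]
        rw [← mul_sub] at h2
        exact hwl'.dvd_of_dvd_mul_left h2
      exact Fin.ext (Nat.ModEq.eq_of_lt_of_lt (Int.natCast_modEq_iff.1 h1) i.2 j.2)
    · exact ent_Di l hl.ne_zero
    · intro j
      exact (ent_Up l hl.ne_zero _).congr rfl (by push_cast; rfl) rfl rfl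
    · have h1 := hk1 i
      have h2 := hk1 j
      rw [br] at h1 h2
      rw [← hij] at h2
      have h3 : ur w l hl.ne_zero i = (io g)⁻¹ * (io (δ i) * rp l hl.ne_zero (k i)) * io g := by
        rw [h1]; group
      have h4 : ur w l hl.ne_zero j = (io g)⁻¹ * (io (δ j) * rp l hl.ne_zero (k i)) * io g := by
        rw [h2]; group
      rw [h3, h4]
      simp only [map_mul, map_inv]
      group
  rw [hk_eq_sum hl.ne_zero hlN, ← Equiv.sum_comp (Equiv.ofBijective k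
    ((Finite.injective_iff_bijective).1 hinj))]
  refine Finset.sum_congr rfl fun i _ => ?_
  show θ⁻¹ ((re l (k i) : ℤ) : ZMod c) • φ (rp l hl.ne_zero (k i) • x)
    (rp l hl.ne_zero (k i) • y) = _
  rw [← hk2 i, ← Sy.equi h (hδ i), ← mul_smul, ← mul_smul, hk1]

/-- **Hecke operators on parabolic elements.** -/
theorem hk_pa (hc : c ∣ N) (hθ1 : ∀ a : ZMod c, (a - 1) ^ 2 = 0 → θ a = 1)
    {l : ℕ} (hl : l.Prime) (hl1 : (N : ℤ) ∣ l - 1) {φ : X → X → A}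
    (h : φ ∈ Sy θ N A X) {g : SL(2, ℤ)} {w : ℤ} (hw : (N : ℤ) ∣ g 1 0 ^ 2 * w) (x : X) :
    hk θ A X N l hl.ne_zero φ x (io (pa g w) • x) = (1 + l : ℤ) • φ x (io (pa g w) • x) := by
  have hlN : ¬ l ∣ N := by
    intro h1
    have h2 : (l : ℤ) ∣ l - 1 := dvd_trans (by exact_mod_cast h1) hl1
    have h3 : (l : ℤ) ∣ 1 := by
      have := dvd_sub (dvd_refl (l : ℤ)) h2
      simpa using this
    exact hl.one_lt.ne' (Nat.dvd_one.1 (by exact_mod_cast h3))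
  have hTθ := Sy.hk hc hl h
  -- the case of `w` prime to `l`
  have key : ∀ w : ℤ, (N : ℤ) ∣ g 1 0 ^ 2 * w → ¬ (l : ℤ) ∣ w →
      hk θ A X N l hl.ne_zero φ x (io (pa g w) • x) = (1 + l : ℤ) • φ x (io (pa g w) • x) := by
    intro w hw hwl
    have hπ : pa g w ∈ Gamma0 N := pa_mem.2 hw
    have hθπ : θ ((pa g w) 0 0 : ZMod c) = 1 := by
      rw [(pa_entries g w).1]; exact char_pa hc hθ1 hw
    have hio : io (pa g w) = io g * Tr w * (io g)⁻¹ := by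
      rw [pa, map_mul, map_mul, map_inv, io_T_zpow]
    rw [hk_eq_br hc hθ1 hl hlN hl1 h hw hwl, Fintype.sum_option]
    -- the diagonal matrix
    have hpow : ∀ n : ℕ, φ x (io (pa g (n * w)) • x) = n • φ x (io (pa g w) • x) := by
      intro n
      induction n with
      | zero => rw [Nat.cast_zero, zero_mul, zero_smul, pa, zpow_zero, mul_one, mul_inv_cancel,
          map_one, one_smul, Sy.self h]
      | succ n ih =>
        rw [Nat.cast_succ, add_mul, one_mul, add_comm, pa_add, Sy.ev_mul h hπ hθπ, ih, succ_nsmul,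
          add_comm]
    have h1 : φ (br g w l hl.ne_zero none • x) (br g w l hl.ne_zero none • io (pa g w) • x) =
        l • φ x (io (pa g w) • x) := by
      have e1 : br g w l hl.ne_zero none * io (pa g w) =
          io (pa g (l * w)) * br g w l hl.ne_zero none := by
        have e2 : io (pa g (l * w)) = io g * Tr ((l * w : ℤ) : ℚ) * (io g)⁻¹ := by
          rw [pa, map_mul, map_mul, map_inv, io_T_zpow]
        have e3 : Di l hl.ne_zero * Tr w = Tr ((l * w : ℤ) : ℚ) * Di l hl.ne_zero :=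
          (((ent_Di l hl.ne_zero).mul (ent_Tr w)).congr (by push_cast; ring) (by push_cast; ring)
            (by ring) (by ring)).ext ((ent_Tr _).mul (ent_Di l hl.ne_zero))
        rw [hio, e2, br, ur]
        calc io g * Di l hl.ne_zero * (io g)⁻¹ * (io g * Tr w * (io g)⁻¹)
            = io g * (Di l hl.ne_zero * Tr w) * (io g)⁻¹ := by group
          _ = _ := by rw [e3]; group
      have hπl : pa g (l * w) ∈ Gamma0 N := pa_mem.2 (by
        rw [mul_left_comm]; exact hw.mul_left _)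
      have hθl : θ ((pa g (l * w)) 0 0 : ZMod c) = 1 := by
        rw [(pa_entries g _).1]; exact char_pa hc hθ1 (by rw [mul_left_comm]; exact hw.mul_left _)
      rw [← mul_smul, e1, mul_smul, Sy.ev_indep h hπl hθl _ x, hpow]
    have h2 : ∑ j : Fin l, φ (br g w l hl.ne_zero (some j) • x)
        (br g w l hl.ne_zero (some j) • io (pa g w) • x) = φ x (io (pa g w) • x) := by
      let B : ℕ → GQ := fun j => io g * Up l hl.ne_zero (w * (j : ℕ)) * (io g)⁻¹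
      have e1 : ∀ j : ℕ, B j * io (pa g w) = B (j + 1) := by
        intro j
        have e3 : Up l hl.ne_zero (w * (j : ℕ)) * Tr w = Up l hl.ne_zero (w * ((j + 1 : ℕ) : ℤ)) := by
          rw [Up_mul_Tr]
          congr 1
          push_cast; ring
        show io g * Up l hl.ne_zero (w * (j : ℕ)) * (io g)⁻¹ * io (pa g w) = _
        rw [hio]
        calc io g * Up l hl.ne_zero (w * (j : ℕ)) * (io g)⁻¹ * (io g * Tr w * (io g)⁻¹)
            = io g * (Up l hl.ne_zero (w * (j : ℕ)) * Tr w) * (io g)⁻¹ := by group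
          _ = _ := by rw [e3]
      have e2 : B l = io (pa g w) * B 0 := by
        have e3 : Up l hl.ne_zero (w * (l : ℤ)) = Tr w * Up l hl.ne_zero (w * ((0 : ℕ) : ℤ)) := by
          rw [← Up_add_mul]
          congr 1
          push_cast; ring
        show io g * Up l hl.ne_zero (w * (l : ℤ)) * (io g)⁻¹ = _
        rw [e3, hio]
        show io g * (Tr w * Up l hl.ne_zero (w * ((0 : ℕ) : ℤ))) * (io g)⁻¹ =
          io g * Tr w * (io g)⁻¹ * (io g * Up l hl.ne_zero (w * ((0 : ℕ) : ℤ)) * (io g)⁻¹)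
        group
      have e3 : ∀ n : ℕ, ∑ j ∈ Finset.range n, φ (B j • x) (B (j + 1) • x) =
          φ (B 0 • x) (B n • x) := by
        intro n
        induction n with
        | zero => rw [Finset.sum_range_zero, Sy.self h]
        | succ n ih => rw [Finset.sum_range_succ, ih, Sy.add' h]
      have e4 : ∑ j : Fin l, φ (br g w l hl.ne_zero (some j) • x)
          (br g w l hl.ne_zero (some j) • io (pa g w) • x) =
          ∑ j ∈ Finset.range l, φ (B j • x) (B (j + 1) • x) := by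
        rw [Finset.sum_range]
        refine Finset.sum_congr rfl fun j _ => ?_
        rw [← mul_smul, ← e1]
        rfl
      rw [e4, e3, e2, mul_smul (io (pa g w)) (B 0) x]
      exact Sy.ev_indep h hπ hθπ _ _
    rw [h1, h2, add_smul, one_smul, natCast_zsmul, add_comm]
  by_cases hwl : (l : ℤ) ∣ w
  swap
  · exact key w hw hwl
  · have hNl : ¬ (l : ℤ) ∣ N := by exact_mod_cast hlN
    have hNN : (N : ℤ) ∣ g 1 0 ^ 2 * N := dvd_mul_left _ _
    have k1 := key N hNN hNl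
    have k2 := key (w + N) (by rw [mul_add]; exact dvd_add hw hNN) (by
      rwa [dvd_add_right hwl])
    have hπ : pa g w ∈ Gamma0 N := pa_mem.2 hw
    have hθπ : θ ((pa g w) 0 0 : ZMod c) = 1 := by
      rw [(pa_entries g w).1]; exact char_pa hc hθ1 hw
    rw [pa_add, Sy.ev_mul hTθ hπ hθπ, Sy.ev_mul h hπ hθπ, k1, smul_add] at k2
    exact add_right_cancel k2

/-! ### Functoriality -/

theorem Uop_comp (p : A →ₗ[Λ] A') {n : ℕ} (hn : n ≠ 0) (φ : X → X → A) (x y : X) :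
    Uop Λ A' X n hn (fun x y => p (φ x y)) x y = p (Uop Λ A X n hn φ x y) := by
  simp only [Uop_apply, map_sum]

theorem hk_comp (p : A →ₗ[Λ] A') {n : ℕ} (hn : n ≠ 0) (φ : X → X → A) (x y : X) :
    hk θ A' X N n hn (fun x y => p (φ x y)) x y = p (hk θ A X N n hn φ x y) := by
  simp only [hk, LinearMap.add_apply, Pi.add_apply, Uop_comp, LinearMap.smul_apply,
    Pi.smul_apply, map_add, map_smul, Bop_apply]

theorem Uop_pull {Y : Type*} [MulAction GQ Y] (j : Y → X) (hj : ∀ (g : GQ) y, j (g • y) = g • j y)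
    {n : ℕ} (hn : n ≠ 0) (φ : X → X → A) (x y : Y) :
    Uop Λ A Y n hn (fun x y => φ (j x) (j y)) x y = Uop Λ A X n hn φ (j x) (j y) := by
  simp only [Uop_apply, hj]

theorem hk_pull {Y : Type*} [MulAction GQ Y] (j : Y → X) (hj : ∀ (g : GQ) y, j (g • y) = g • j y)
    {n : ℕ} (hn : n ≠ 0) (φ : X → X → A) (x y : Y) :
    hk θ A Y N n hn (fun x y => φ (j x) (j y)) x y = hk θ A X N n hn φ (j x) (j y) := by
  simp only [hk, LinearMap.add_apply, Pi.add_apply, Uop_pull j hj, LinearMap.smul_apply,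
    Pi.smul_apply, Bop_apply, hj]

theorem Sy.comp (p : A →ₗ[Λ] A') {φ : X → X → A} (h : φ ∈ Sy θ N A X) :
    (fun x y => p (φ x y)) ∈ Sy θ N A' X :=
  ⟨fun x y z => by rw [← map_add, h.1], fun γ hγ x y => by
    show p (φ (io γ • x) (io γ • y)) = θ (γ 0 0 : ZMod c) • p (φ x y)
    rw [h.2 γ hγ, map_smul]⟩

theorem Sy.pull {Y : Type*} [MulAction GQ Y] (j : Y → X) (hj : ∀ (g : GQ) y, j (g • y) = g • j y)
    {φ : X → X → A} (h : φ ∈ Sy θ N A X) : (fun x y => φ (j x) (j y)) ∈ Sy θ N A Y :=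
  ⟨fun x y z => h.1 _ _ _, fun γ hγ x y => by
    show φ (j (io γ • x)) (j (io γ • y)) = _
    rw [hj, hj, h.2 γ hγ]⟩

/-- an element of `Sy` from a cocycle and a primitive. -/
theorem Sy.of_fun {f : X → A} {cc : SL(2, ℤ) → A}
    (hf : ∀ γ ∈ Gamma0 N, ∀ x, f (io γ • x) = θ (γ 0 0 : ZMod c) • f x + cc γ) :
    (fun x y => f y - f x) ∈ Sy θ N A X :=
  ⟨fun x y z => by
    show (f y - f x) + (f z - f y) = f z - f x
    abel, fun γ hγ x y => by
    show f (io γ • y) - f (io γ • x) = θ (γ 0 0 : ZMod c) • (f y - f x)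
    rw [hf γ hγ, hf γ hγ, smul_sub]; abel⟩

/-! ### Lifting -/

/-- the projective line -/
abbrev P1 := OnePoint ℚ

open OnePoint in
theorem upper_eq {t : SL(2, ℤ)} (ht : t 1 0 = 0) : ∃ k : ℤ, t = T ^ k ∨ t = (-1) * T ^ k := by
  have hdet := det_SL t
  rw [ht, mul_zero, sub_zero] at hdet
  rcases Int.eq_one_or_neg_one_of_mul_eq_one' hdet with ⟨h1, h2⟩ | ⟨h1, h2⟩
  · refine ⟨t 0 1, Or.inl ?_⟩
    ext i j
    fin_cases i <;> fin_cases j <;> simp [ModularGroup.coe_T_zpow, h1, h2, ht]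
  · refine ⟨- t 0 1, Or.inr ?_⟩
    rw [neg_one_mul]
    ext i j
    fin_cases i <;> fin_cases j <;> simp [ModularGroup.coe_T_zpow, h1, h2, ht]

open OnePoint in
theorem stab_P1 {γ : SL(2, ℤ)} {x : P1} (h : io γ • x = x) :
    ∃ (g : SL(2, ℤ)) (w : ℤ), γ = pa g w ∨ γ = (-1) * pa g w := by
  obtain ⟨g, hg⟩ := OnePoint.exists_mem_SL2 ℤ x
  have hg' : io g • (∞ : P1) = x := hg
  have h1 : io (g⁻¹ * γ * g) • (∞ : P1) = ∞ := by
    rw [map_mul, map_mul, map_inv, mul_smul, mul_smul, hg', h, ← hg', inv_smul_smul]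
  rw [OnePoint.smul_infty_eq_self_iff] at h1
  have h2 : (g⁻¹ * γ * g) 1 0 = 0 := by
    have h3 : ((io (g⁻¹ * γ * g) : GQ) : Matrix (Fin 2) (Fin 2) ℚ) 1 0 =
      (((g⁻¹ * γ * g) 1 0 : ℤ) : ℚ) := by rw [ent_io]; rfl
    have h4 := h3.symm.trans h1
    exact_mod_cast h4
  obtain ⟨k, hk | hk⟩ := upper_eq h2
  · refine ⟨g, k, Or.inl ?_⟩
    rw [pa, ← hk]; group
  · refine ⟨g, k, Or.inr ?_⟩
    have : γ = g * ((-1) * T ^ k) * g⁻¹ := by rw [← hk]; group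
    rw [this, pa, neg_one_mul, mul_neg, neg_mul, neg_one_mul]

/-- conditions on the character -/
structure Tame (θ : DirichletCharacter Λ c) : Prop where
  neg_one : θ (-1) = 1
  unip : ∀ a : ZMod c, (a - 1) ^ 2 = 0 → θ a = 1

theorem char_stab (hc : c ∣ N) (ht : Tame θ) {γ : SL(2, ℤ)} (hγ : γ ∈ Gamma0 N) {x : P1}
    (h : io γ • x = x) : θ (γ 0 0 : ZMod c) = 1 := by
  obtain ⟨g, w, rfl | rfl⟩ := stab_P1 h
  · rw [(pa_entries g w).1]
    exact char_pa hc ht.unip (pa_mem.1 hγ)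
  · have hπ : pa g w ∈ Gamma0 N := by
      have := mul_mem (neg_one_mem_Gamma0 N) hγ
      rwa [neg_one_mul, neg_one_mul, neg_neg] at this
    rw [char_mul hc hπ, (pa_entries g w).1, char_pa hc ht.unip (pa_mem.1 hπ), mul_one]
    simp [ht.neg_one]

open OnePoint in
/-- **Lifting of modular symbols up to Eisenstein operators.** -/
theorem exists_lift_eis (hc : c ∣ N) (ht : Tame θ) (h2 : IsUnit (2 : Λ)) {p : A →ₗ[Λ] A'}
    (hp : Function.Surjective p) (hV : LiftV θ N p) {l : ℕ} (hl : l.Prime)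
    (hl1 : (N : ℤ) ∣ l - 1) {φ : P1 → P1 → A'} (h : φ ∈ Sy θ N A' P1) :
    ∃ ψ ∈ Sy θ N A P1, ∀ x y, p (ψ x y) =
      hk θ A' P1 N l hl.ne_zero φ x y - (1 + l : ℤ) • φ x y := by
  -- the function on `SL₂(ℤ)`
  have hQE : QE θ N (fun g : SL(2, ℤ) => φ ∞ (io g • ∞)) := by
    intro γ hγ g k
    show φ ∞ (io (γ * g) • ∞) - φ ∞ (io (γ * k) • ∞) = _
    have e1 : φ ∞ (io (γ * g) • ∞) - φ ∞ (io (γ * k) • ∞) =
        φ (io (γ * k) • ∞) (io (γ * g) • ∞) := by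
      rw [sub_eq_iff_eq_add, add_comm, Sy.add' h]
    have e2 : φ ∞ (io g • ∞) - φ ∞ (io k • ∞) = φ (io k • ∞) (io g • ∞) := by
      rw [sub_eq_iff_eq_add, add_comm, Sy.add' h]
    rw [e1, e2, map_mul, map_mul, mul_smul, mul_smul, Sy.equi h hγ]
  obtain ⟨G, hG, hG'⟩ := hQE.lift hc ht.neg_one h2 hp hV
  set cc : SL(2, ℤ) → A := fun γ => G γ - θ (γ 0 0 : ZMod c) • G 1 with hcc
  have hGc : ∀ γ ∈ Gamma0 N, ∀ g, G (γ * g) = θ (γ 0 0 : ZMod c) • G g + cc γ := by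
    intro γ hγ g
    have := hG γ hγ g 1
    rw [mul_one, smul_sub] at this
    rw [hcc, sub_eq_iff_eq_add.1 this]
    show _ = θ (γ 0 0 : ZMod c) • G g + (G γ - θ (γ 0 0 : ZMod c) • G 1)
    abel
  have hccm : ∀ γ ∈ Gamma0 N, ∀ δ ∈ Gamma0 N, cc (γ * δ) = cc γ + θ (γ 0 0 : ZMod c) • cc δ := by
    intro γ hγ δ hδ
    show G (γ * δ) - θ ((γ * δ) 0 0 : ZMod c) • G 1 = cc γ +
      θ (γ 0 0 : ZMod c) • (G δ - θ (δ 0 0 : ZMod c) • G 1)
    rw [hGc γ hγ, char_mul hc hδ, mul_smul, smul_sub]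
    abel
  have hpc : ∀ γ, p (cc γ) = φ ∞ (io γ • ∞) := by
    intro γ
    show p (G γ - θ (γ 0 0 : ZMod c) • G 1) = _
    rw [map_sub, _root_.map_smul, hG', hG', map_one, one_smul, Sy.self h, smul_zero, sub_zero]
  have hcc1 : cc 1 = 0 := by
    show G 1 - θ (((1 : SL(2, ℤ)) 0 0 : ℤ) : ZMod c) • G 1 = 0
    rw [char_one, one_smul, sub_self]
  -- extension to `GL₂(ℚ)`
  obtain ⟨f, hf, hf'⟩ := integrate (X := GQ) hc hp cc hccm (fun x γ _ hx => by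
      have h1 : io γ = 1 := by simpa using hx
      have h2 : γ = 1 := io_injective (by rw [h1, map_one])
      subst h2
      exact ⟨char_one, hcc1⟩) (fun x => φ ∞ (x • ∞)) (fun γ hγ x => by
      show φ ∞ ((io γ * x) • ∞) = _
      rw [hpc, mul_smul, ← Sy.add' h ∞ (io γ • ∞), Sy.equi h hγ, add_comm])
  set Φ : GQ → GQ → A := fun x y => f y - f x with hΦ
  have hΦS : Φ ∈ Sy θ N A GQ := Sy.of_fun hf
  have hpΦ : (fun x y => p (Φ x y)) = fun x y : GQ => φ (x • ∞) (y • ∞) := by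
    ext x y
    show p (f y - f x) = _
    rw [map_sub, hf', hf', sub_eq_iff_eq_add, add_comm, Sy.add' h]
  -- apply the Hecke operator
  set Ψ : GQ → GQ → A := hk θ A GQ N l hl.ne_zero Φ - (1 + l : ℤ) • Φ with hΨ
  have hΨS : Ψ ∈ Sy θ N A GQ := Submodule.sub_mem _ (Sy.hk hc hl hΦS)
    (zsmul_mem hΦS _)
  have hΨv : ∀ x y, Ψ x y = hk θ A GQ N l hl.ne_zero Φ x y - (1 + l : ℤ) • Φ x y :=
    fun x y => rfl
  have hΨπ : ∀ g w, pa g w ∈ Gamma0 N → ∀ x, Ψ x (io (pa g w) • x) = 0 := by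
    intro g w hπ x
    rw [hΨv, hk_pa hc ht.unip hl hl1 hΦS (pa_mem.1 hπ), sub_self]
  set φ₁ : P1 → P1 → A' := hk θ A' P1 N l hl.ne_zero φ - (1 + l : ℤ) • φ with hφ₁
  have hφ₁S : φ₁ ∈ Sy θ N A' P1 := Submodule.sub_mem _ (Sy.hk hc hl h) (zsmul_mem h _)
  have hpΨ : ∀ x y, p (Ψ x y) = φ₁ (x • ∞) (y • ∞) := by
    intro x y
    rw [hΨv, map_sub, map_zsmul, ← hk_comp, hpΦ]
    show hk θ A' GQ N l hl.ne_zero (fun x y : GQ => φ (x • ∞) (y • ∞)) x y - _ =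
      hk θ A' P1 N l hl.ne_zero φ (x • ∞) (y • ∞) - (1 + l : ℤ) • φ (x • ∞) (y • ∞)
    rw [hk_pull (fun x : GQ => x • (∞ : P1)) (fun g y => mul_smul g y ∞), ← congrFun (congrFun hpΦ x) y]
  -- descend
  set c₁ : SL(2, ℤ) → A := fun γ => Ψ 1 (io γ) with hc₁
  have hc₁m : ∀ γ ∈ Gamma0 N, ∀ δ ∈ Gamma0 N, c₁ (γ * δ) = c₁ γ + θ (γ 0 0 : ZMod c) • c₁ δ := by
    intro γ hγ δ _
    show Ψ 1 (io (γ * δ)) = Ψ 1 (io γ) + θ (γ 0 0 : ZMod c) • Ψ 1 (io δ)
    rw [← Sy.equi hΨS hγ, smul_eq_mul, smul_eq_mul, mul_one, ← map_mul, Sy.add' hΨS]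
  have hc₁one : c₁ 1 = 0 := by
    show Ψ 1 (io 1) = 0
    rw [map_one, Sy.self hΨS]
  have hc₁π : ∀ g w, pa g w ∈ Gamma0 N → c₁ (pa g w) = 0 := by
    intro g w hπ
    have := hΨπ g w hπ 1
    rwa [smul_eq_mul, mul_one] at this
  have hc₁neg : c₁ (-1) = 0 := by
    obtain ⟨u2, hu2⟩ := h2
    have h3 := hc₁m _ (neg_one_mem_Gamma0 N) _ (neg_one_mem_Gamma0 N)
    have h4 : θ (((-1 : SL(2, ℤ)) 0 0 : ℤ) : ZMod c) = 1 := by simp [ht.neg_one]
    rw [neg_mul_neg, one_mul, hc₁one, h4, one_smul, ← two_smul Λ, ← hu2] at h3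
    have h5 := congrArg (fun f => (↑u2⁻¹ : Λ) • f) h3
    simp only [smul_zero, smul_smul, Units.inv_mul, one_smul] at h5
    exact h5.symm
  obtain ⟨g, hg, hg'⟩ := integrate (X := P1) hc hp c₁ hc₁m (fun x γ hγ hx => by
      refine ⟨char_stab hc ht hγ hx, ?_⟩
      obtain ⟨g, w, rfl | rfl⟩ := stab_P1 hx
      · exact hc₁π g w hγ
      · have hπ : pa g w ∈ Gamma0 N := by
          have := mul_mem (neg_one_mem_Gamma0 N) hγ
          rwa [neg_one_mul, neg_one_mul, neg_neg] at this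
        rw [hc₁m _ (neg_one_mem_Gamma0 N) _ hπ, hc₁neg, hc₁π g w hπ, smul_zero, add_zero])
    (fun x => φ₁ ∞ x) (fun γ hγ x => by
      show φ₁ ∞ (io γ • x) = _
      have e1 : p (c₁ γ) = φ₁ ∞ (io γ • ∞) := by
        show p (Ψ 1 (io γ)) = _
        rw [hpΨ, one_smul]
      rw [e1, ← Sy.add' hφ₁S ∞ (io γ • ∞), Sy.equi hφ₁S hγ, add_comm])
  refine ⟨fun x y => g y - g x, Sy.of_fun hg, fun x y => ?_⟩
  show p (g y - g x) = φ₁ x y
  rw [map_sub, hg', hg', sub_eq_iff_eq_add, add_comm, Sy.add' hφ₁S]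

end Fermat.Agent.TWCoh
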