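import Fermat.Agent.TWCoh.NonZero
import Fermat.Agent.AnJacH.HeckeG

/-!
# Classes on `Γ_H` from symbols with characters
-/

set_option autoImplicit false

noncomputable section

namespace Fermat.Agent.TWCoh

open Matrix CongruenceSubgroup MvPolynomial Fermat.Agent.AnJac Fermat.Agent.AnJacH
open P2MW.S_ModularForm_heckeT_slash_eq_self_of_mem_Gamma0.ModularForm.HeckeSlashInvariance
open ModularForm
open scoped MatrixGroups OnePoint

section Gen

variable {A : Type*} [AddCommGroup A]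

/-- symbols for a subgroup -/
structure GS (Γ : Subgroup SL(2, ℤ)) (φ : P1 → P1 → A) : Prop where
  add : ∀ x y z, φ x y + φ y z = φ x z
  inv : ∀ γ ∈ Γ, ∀ x y, φ (io γ • x) (io γ • y) = φ x y

variable {Γ : Subgroup SL(2, ℤ)} {φ : P1 → P1 → A}

theorem GS.self (h : GS Γ φ) (x : P1) : φ x x = 0 := by
  have := h.add x x x
  simpa using this

theorem GS.swap (h : GS Γ φ) (x y : P1) : φ x y = - φ y x := by
  rw [eq_neg_iff_add_eq_zero, h.add, h.self]

/-- the homomorphism attached to a symbol -/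
def hmG (h : GS Γ φ) : Additive Γ →+ A where
  toFun γ := φ ∞ (io ((Additive.toMul γ : Γ) : SL(2, ℤ)) • ∞)
  map_zero' := by
    show φ ∞ (io ((1 : Γ) : SL(2, ℤ)) • ∞) = 0
    rw [Subgroup.coe_one, map_one, one_smul, h.self]
  map_add' γ δ := by
    show φ ∞ (io ((Additive.toMul γ * Additive.toMul δ : Γ) : SL(2, ℤ)) • ∞) = _
    rw [Subgroup.coe_mul, map_mul, mul_smul, ← h.add ∞ (io ((Additive.toMul γ : Γ) : SL(2, ℤ)) • ∞),
      h.inv _ (Additive.toMul γ).2]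

theorem hmG_apply (h : GS Γ φ) (γ : Γ) :
    hmG h (Additive.ofMul γ) = φ ∞ (io (γ : SL(2, ℤ)) • ∞) := rfl

theorem hmG_mem_NHA [IsAddTorsionFree A] (h : GS Γ φ) : hmG h ∈ NHA Γ A := by
  intro γ hγ
  refine SL2Pres.eq_zero_of_trace_le (fun γ hγ => ?_) γ ((trace_sq_le_iff _).mpr hγ)
  obtain ⟨x, hx⟩ := exists_fixed hγ
  rw [hmG_apply, ← h.add ∞ x]
  have h1 := h.inv _ γ.2 x ∞
  rw [hx] at h1
  rw [h1, h.add, h.self]

/-- Hecke operators on the attached homomorphism -/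
theorem hmG_T {ι : Type*} [Fintype ι] (F : HF Γ ι) (B : ι → GQ) (hB : ∀ i, toR (B i) = F.A i)
    (h : GS Γ φ) (γ : Γ) : F.T (hmG h) (Additive.ofMul γ) =
      ∑ i, φ (B i • ∞) (B i • io (γ : SL(2, ℤ)) • ∞) := by
  rw [HF.T_apply]
  have key : ∀ i, B i * io (γ : SL(2, ℤ)) = io ((F.g γ i : Γ) : SL(2, ℤ)) * B (F.s γ i) := by
    intro i
    apply toR_injective
    rw [map_mul, map_mul, hB, hB, toR_io, toR_io]
    exact F.spec γ i
  have h1 : ∀ i, φ (B i • ∞) (B i • io (γ : SL(2, ℤ)) • ∞) =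
      hmG h (Additive.ofMul (F.g γ i)) + (φ ∞ (B (F.s γ i) • ∞) - φ ∞ (B i • ∞)) := by
    intro i
    rw [← mul_smul, key, mul_smul, ← h.add _ ∞, ← h.add ∞ (io ((F.g γ i : Γ) : SL(2, ℤ)) • ∞),
      h.inv _ (F.g γ i).2, hmG_apply, h.swap (B i • ∞) ∞]
    abel
  rw [Finset.sum_congr rfl fun i _ => h1 i, Finset.sum_add_distrib, Finset.sum_sub_distrib]
  have h2 : ∑ i, φ ∞ (B (F.s γ i) • ∞) = ∑ i, φ ∞ (B i • ∞) :=
    Equiv.sum_comp (F.sE γ) (fun i => φ ∞ (B i • ∞))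
  rw [h2, sub_self, add_zero]

end Gen

section Orbit

variable {M : ℕ}

/-- cusps and matrices which are congruent to `1` -/
theorem orbit_rep1 {l : ℕ} (hl : l.Prime) {α β ε : ℤ} (hαε : α * ε = l)
    (hl1 : (M : ℤ) ∣ l - 1) (hα : (M : ℤ) ∣ α - 1) (hβ : (M : ℤ) ∣ β) (hε : (M : ℤ) ∣ ε - 1)
    {R : GQ} (hR : Ent R α β 0 ε) (x : P1) :
    ∃ γ ∈ Gamma0 M, (M : ℤ) ∣ γ 1 1 - 1 ∧ R • x = io γ • x := by
  obtain ⟨g, rfl⟩ := exists_smul_infty x
  have hl0 : (l : ℤ) ≠ 0 := by exact_mod_cast hl.ne_zero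
  have hdg := det_SL g
  have toZ : ∀ {a b : ℤ}, (M : ℤ) ∣ a - b → (a : ZMod M) = b := fun {a b} h => by
    have := (ZMod.intCast_zmod_eq_zero_iff_dvd _ _).2 h
    push_cast at this
    exact sub_eq_zero.1 this
  have hlM : ((l : ℤ) : ZMod M) = 1 := by
    have := toZ hl1
    push_cast at this ⊢
    exact this
  have hre : ((α : ℤ) : ZMod M) = 1 := by
    have := toZ hα
    rwa [Int.cast_one] at this
  have hrd : ((ε : ℤ) : ZMod M) = 1 := by
    have := toZ hε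
    rwa [Int.cast_one] at this
  have hrb : ((β : ℤ) : ZMod M) = 0 := (ZMod.intCast_zmod_eq_zero_iff_dvd _ _).2 hβ
  set u : ℤ := α * g 0 0 + β * g 1 0 with hu
  set v : ℤ := ε * g 1 0 with hv
  have hdet : u * (ε * g 1 1) - v * (α * g 0 1 + β * g 1 1) = l := by
    rw [hu, hv, ← hαε]
    linear_combination (α * ε) * hdg
  obtain ⟨e, u', v', he0, hue, hve, hcop⟩ : ∃ e u' v' : ℤ, 0 < e ∧ u = e * u' ∧ v = e * v' ∧
      IsCoprime u' v' := by
    have hne : u ≠ 0 ∨ v ≠ 0 := by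
      by_contra h
      push Not at h
      rw [h.1, h.2, zero_mul, zero_mul, sub_zero] at hdet
      exact hl0 hdet.symm
    have hg0 : (Int.gcd u v : ℤ) ≠ 0 := by
      rw [Ne, Int.natCast_eq_zero, Int.gcd_eq_zero_iff]
      rintro ⟨h1, h2⟩
      rcases hne with h | h
      · exact h h1
      · exact h h2
    obtain ⟨u', hu'⟩ := Int.gcd_dvd_left (a := u) (b := v)
    obtain ⟨v', hv'⟩ := Int.gcd_dvd_right (a := u) (b := v)
    refine ⟨Int.gcd u v, u', v', lt_of_le_of_ne (Int.natCast_nonneg _) hg0.symm, hu', hv', ?_⟩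
    have hb := Int.gcd_eq_gcd_ab u v
    refine ⟨Int.gcdA u v, Int.gcdB u v, ?_⟩
    apply mul_left_cancel₀ hg0
    linear_combination -hb - Int.gcdA u v * hu' - Int.gcdB u v * hv'
  have hel : e ∣ l := by
    rw [← hdet, hue, hve]
    exact dvd_sub ((dvd_mul_right e u').mul_right _) ((dvd_mul_right e v').mul_right _)
  have heM : (e : ZMod M) = 1 := by
    obtain ⟨n, rfl⟩ := Int.eq_ofNat_of_zero_le he0.le
    rcases (Nat.dvd_prime hl).1 (Int.natCast_dvd_natCast.1 hel) with h | h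
    · rw [h]; simp
    · rw [h]; exact hlM
  obtain ⟨z, w, hzw⟩ := hcop
  obtain ⟨g', p1, p2, p3, p4⟩ := exists_SL u' (-w) v' z (by linear_combination hzw)
  have hfix : R • io g • (∞ : P1) = io g' • (∞ : P1) := by
    have h1 : ((io g')⁻¹ * (R * io g)) • (∞ : P1) = ∞ := by
      rw [OnePoint.smul_infty_eq_self_iff]
      have e1 := (ent_io_inv g').mul (hR.mul (ent_io g))
      have e2 := congrFun (congrFun e1 1) 0
      refine e2.trans ?_
      show (-(g' 1 0 : ℤ) : ℚ) * ((α : ℤ) * (g 0 0 : ℤ) + (β : ℤ) * (g 1 0 : ℤ)) +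
        (g' 0 0 : ℤ) * (0 * (g 0 0 : ℤ) + (ε : ℤ) * (g 1 0 : ℤ)) = 0
      rw [p1, p3]
      have hu1 : ((α : ℤ) : ℚ) * (g 0 0 : ℤ) + (β : ℤ) * (g 1 0 : ℤ) = e * u' := by
        exact_mod_cast hu.symm.trans hue
      have hv1 : ((ε : ℤ) : ℚ) * (g 1 0 : ℤ) = e * v' := by
        exact_mod_cast hv.symm.trans hve
      rw [hu1, zero_mul, zero_add, hv1]
      ring
    rw [← mul_smul]
    rw [mul_smul, inv_smul_eq_iff] at h1
    exact h1
  set k : ℤ := g 1 1 * w + g 0 1 * z with hk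
  have q3 : (g' * ModularGroup.T ^ k) 1 0 = v' := by
    rw [Matrix.SpecialLinearGroup.coe_mul, Matrix.mul_apply, Fin.sum_univ_two,
      ModularGroup.coe_T_zpow, p3]
    simp
  have q4 : (g' * ModularGroup.T ^ k) 1 1 = v' * k + z := by
    rw [Matrix.SpecialLinearGroup.coe_mul, Matrix.mul_apply, Fin.sum_univ_two,
      ModularGroup.coe_T_zpow, p3, p4]
    simp
  have e1 : (u' : ZMod M) = (g 0 0 : ℤ) := by
    have := congrArg (fun t : ℤ => (t : ZMod M)) (hu.symm.trans hue)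
    push_cast at this
    rw [hre, heM, hrb] at this
    linear_combination -this
  have e2 : (v' : ZMod M) = (g 1 0 : ℤ) := by
    have := congrArg (fun t : ℤ => (t : ZMod M)) (hv.symm.trans hve)
    push_cast at this
    rw [hrd, heM] at this
    linear_combination -this
  have e3 : (z : ZMod M) * u' + w * v' = 1 := by
    have := congrArg (fun t : ℤ => (t : ZMod M)) hzw
    push_cast at this
    exact this
  have e4 : ((g 0 0 : ℤ) : ZMod M) * (g 1 1 : ℤ) - (g 0 1 : ℤ) * (g 1 0 : ℤ) = 1 := by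
    have := congrArg (fun t : ℤ => (t : ZMod M)) hdg
    push_cast at this
    exact this
  rw [e1, e2] at e3
  refine ⟨g' * ModularGroup.T ^ k * g⁻¹, ?_, ?_, ?_⟩
  · rw [mem_Gamma0, mul_inv_10, ← ZMod.intCast_zmod_eq_zero_iff_dvd, q3, q4, hk]
    push_cast
    rw [e2]
    linear_combination (-(g 1 0 : ℤ) * (g 1 1 : ℤ) : ZMod M) * e3 +
      ((g 1 0 : ℤ) * z : ZMod M) * e4
  · rw [← ZMod.intCast_zmod_eq_zero_iff_dvd]
    have q5 : (g' * ModularGroup.T ^ k * g⁻¹) 1 1 =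
        -((g' * ModularGroup.T ^ k) 1 0 * g 0 1) + (g' * ModularGroup.T ^ k) 1 1 * g 0 0 := by
      obtain ⟨i1, i2, i3, i4⟩ := inv_entries g
      rw [Matrix.SpecialLinearGroup.coe_mul (g' * ModularGroup.T ^ k), Matrix.mul_apply,
        Fin.sum_univ_two, i2, i4]
      ring
    rw [q5, q3, q4, hk]
    push_cast
    rw [e2]
    linear_combination (((g 0 0 : ℤ) : ZMod M) * (g 1 1 : ℤ)) * e3 +
      (1 - (z : ZMod M) * (g 0 0 : ℤ)) * e4
  · rw [hfix, map_mul, map_mul, io_T_zpow, map_inv, mul_smul, inv_smul_smul, mul_smul]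
    congr 1
    exact ((OnePoint.smul_infty_eq_self_iff).2 rfl).symm

end Orbit

section Cls

variable {K : Type*} [CommRing K] {A : Type*} [AddCommGroup A] [Module K A] {M c : ℕ} {hc : c ∣ M}
  {θ : DirichletCharacter K c} {H₀ : Subgroup (ZMod c)ˣ}

theorem char_00_11 (hc : c ∣ M) {γ : SL(2, ℤ)} (hγ : γ ∈ Gamma0 M) :
    θ ((γ 0 0 : ℤ) : ZMod c) * θ ((γ 1 1 : ℤ) : ZMod c) = 1 := by
  have h3 : ((γ 1 0 : ℤ) : ZMod c) = 0 := (ZMod.intCast_zmod_eq_zero_iff_dvd _ _).2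
    (dvd_trans (by exact_mod_cast hc) (mem_Gamma0.1 hγ))
  have h4 := congrArg (fun t : ℤ => (t : ZMod c)) (det_SL γ)
  push_cast at h4
  rw [h3, mul_zero, sub_zero] at h4
  rw [← map_mul, h4, map_one]

theorem gs_of_sy (hH : ∀ u ∈ H₀, θ (u : ZMod c) = 1) {φ : P1 → P1 → A}
    (h : φ ∈ Sy θ M A P1) : GS (GH M c hc H₀) φ where
  add := h.1
  inv γ hγ x y := by
    obtain ⟨h1, h2⟩ := mem_GH.1 hγ
    have h3 := char_00_11 (θ := θ) hc h1
    have h4 := hH _ h2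
    rw [coe_dM] at h4
    rw [h4, mul_one] at h3
    rw [Sy.equi h h1, h3, one_smul]

theorem hmG_conj {φ : P1 → P1 → A} (h : φ ∈ Sy θ M A P1) {Γ : Subgroup SL(2, ℤ)} (hG : GS Γ φ)
    {g : SL(2, ℤ)} (hg : g ∈ Gamma0 M) {γ γ' : Γ} (e : (γ' : SL(2, ℤ)) = g * γ * g⁻¹) :
    hmG hG (Additive.ofMul γ') = θ ((g 0 0 : ℤ) : ZMod c) • hmG hG (Additive.ofMul γ) := by
  have h1 : ∀ x, io g • (io g)⁻¹ • x = (x : P1) := fun x => smul_inv_smul _ _
  rw [hmG_apply, hmG_apply, e, map_mul, map_mul, map_inv, ← h1 ∞, mul_smul, mul_smul,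
    inv_smul_smul, Sy.equi h hg]
  congr 1
  rw [h1, ← h.1 _ ∞, ← h.1 ∞ (io (γ : SL(2, ℤ)) • ∞), hG.inv _ γ.2, hG.swap ((io g)⁻¹ • ∞) ∞]
  abel

theorem T_hmG [NeZero M] {φ : P1 → P1 → A} (h : φ ∈ Sy θ M A P1) (hG : GS (GH M c hc H₀) φ) (l : ℕ)
    [hl : Fact l.Prime] (hlM : ¬ l ∣ M) (g : Gamma0 M)
    (hg : ((dM M c hc g : (ZMod c)ˣ) : ZMod c) = l) (γ : GH M c hc H₀) :
    (hfTG M c hc H₀ l hlM g hg).T (hmG hG) (Additive.ofMul γ) =
      hk θ A P1 M l hl.out.ne_zero φ ∞ (io (γ : SL(2, ℤ)) • ∞) := by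
  have hl0 : NeZero l := ⟨hl.out.ne_zero⟩
  rw [hmG_T (hfTG M c hc H₀ l hlM g hg)
    (fun i => io (sgT l g i : SL(2, ℤ)) * RR l hl.out.ne_zero i) (fun i => by
      rw [map_mul, toR_io, toR_RR]; rfl) hG γ]
  have h1 : ∀ x y : P1, ∑ i : OnePoint (ZMod l), φ ((io (sgT l g i : SL(2, ℤ)) *
      RR l hl.out.ne_zero i) • x) ((io (sgT l g i : SL(2, ℤ)) * RR l hl.out.ne_zero i) • y) =
      hk θ A P1 M l hl.out.ne_zero φ x y := by
    intro x y
    have h2 : ∑ i : OnePoint (ZMod l), φ ((io (sgT l g i : SL(2, ℤ)) *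
      RR l hl.out.ne_zero i) • x) ((io (sgT l g i : SL(2, ℤ)) * RR l hl.out.ne_zero i) • y) =
        φ ((io (g : SL(2, ℤ)) * Di l hl.out.ne_zero) • x)
          ((io (g : SL(2, ℤ)) * Di l hl.out.ne_zero) • y) +
        ∑ j : ZMod l, φ (Up l hl.out.ne_zero (j.val : ℤ) • x)
          (Up l hl.out.ne_zero (j.val : ℤ) • y) := by
      refine (Fintype.sum_option _).trans ?_
      congr 1
      · have : sgT l g (∞ : OnePoint (ZMod l)) = g := by rw [sgT, if_pos rfl]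
        show φ ((io (sgT l g (∞ : OnePoint (ZMod l)) : SL(2, ℤ)) * _) • x)
          ((io (sgT l g (∞ : OnePoint (ZMod l)) : SL(2, ℤ)) * _) • y) = _
        rw [this]
        rfl
      · refine Finset.sum_congr rfl fun j _ => ?_
        have : sgT l g (j : OnePoint (ZMod l)) = 1 := by
          rw [sgT, if_neg (OnePoint.coe_ne_infty j)]
        show φ ((io (sgT l g (j : OnePoint (ZMod l)) : SL(2, ℤ)) * _) • x)
          ((io (sgT l g (j : OnePoint (ZMod l)) : SL(2, ℤ)) * _) • y) = _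
        rw [this, Subgroup.coe_one, map_one, one_mul]
        rfl
    rw [h2, hk_of_not_dvd _ hlM, mul_smul, mul_smul, Sy.equi h g.2]
    show _ = Uop K A P1 l _ φ x y + θ⁻¹ (l : ZMod c) • Bop K A P1 l _ φ x y
    rw [add_comm, Uop_apply, Bop_apply, Finset.sum_range]
    congr 1
    · rw [← Equiv.sum_comp (ZMod.finEquiv l).toEquiv]
      refine Finset.sum_congr rfl fun j _ => ?_
      have h2 : ((ZMod.finEquiv l).toEquiv j).val = (j : ℕ) := by
        obtain ⟨n, hn⟩ := Nat.exists_eq_succ_of_ne_zero hl.out.ne_zero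
        subst hn
        rfl
      rw [h2]
    · congr 1
      rw [coe_dM] at hg
      have h3 := char_00_11 (θ := θ) hc g.2
      rw [hg] at h3
      have hu : IsUnit ((l : ℕ) : ZMod c) := char_q hl.out hlM hc
      have h4 := inv_mul_char θ hu
      calc θ ((((g : SL(2, ℤ)) 0 0 : ℤ)) : ZMod c)
          = (θ⁻¹ (l : ZMod c) * θ (l : ZMod c)) * θ ((((g : SL(2, ℤ)) 0 0 : ℤ)) : ZMod c) := by
            rw [h4, one_mul]
        _ = θ⁻¹ (l : ZMod c) * (θ ((((g : SL(2, ℤ)) 0 0 : ℤ)) : ZMod c) * θ (l : ZMod c)) := by ring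
        _ = _ := by rw [h3, mul_one]
  exact h1 _ _

theorem U_hmG [NeZero M] {φ : P1 → P1 → A} (hG : GS (GH M c hc H₀) φ) (q : ℕ) [hq : NeZero q] (hqM : q ∣ M)
    (γ : GH M c hc H₀) :
    (hfUG M c hc H₀ q hqM).T (hmG hG) (Additive.ofMul γ) =
      hk θ A P1 M q hq.out φ ∞ (io (γ : SL(2, ℤ)) • ∞) := by
  rw [hmG_T (hfUG M c hc H₀ q hqM) (fun i => Up q hq.out (i.val : ℤ)) (fun i => by
      have h1 := toR_RR q hq.out (i : OnePoint (ZMod q))
      rw [heckeRep_coe] at h1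
      refine h1.trans ?_
      show _ = gl ((1 : Gamma0 M) : SL(2, ℤ)) * heckeMatrix q i.val
      rw [Subgroup.coe_one]
      simp [gl]) hG γ, hk_of_dvd _ hqM, Uop_apply, Finset.sum_range]
  rw [← Equiv.sum_comp (ZMod.finEquiv q).toEquiv]
  refine Finset.sum_congr rfl fun j _ => ?_
  have h2 : ((ZMod.finEquiv q).toEquiv j).val = (j : ℕ) := by
    obtain ⟨n, hn⟩ := Nat.exists_eq_succ_of_ne_zero hq.out
    subst hn
    rfl
  rw [h2]

/-- symbols with trivial periods on `Γ_H` are Eisenstein -/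
theorem hk_of_hmG_zero {φ : P1 → P1 → A} (h : φ ∈ Sy θ M A P1) (hG : GS (GH M c hc H₀) φ)
    (h0 : hmG hG = 0) {l : ℕ} (hl : l.Prime) (hl1 : (M : ℤ) ∣ l - 1) :
    hk θ A P1 M l hl.ne_zero φ = (1 + l : K) • φ := by
  have hlM : ¬ l ∣ M := by
    intro h1
    have h2 : (l : ℤ) ∣ l - 1 := dvd_trans (by exact_mod_cast h1) hl1
    have h3 : (l : ℤ) ∣ 1 := by
      have := dvd_sub (dvd_refl (l : ℤ)) h2
      simpa using this
    exact hl.one_lt.ne' (Nat.dvd_one.1 (by exact_mod_cast h3))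
  have hc1 : ((l : ℕ) : ZMod c) = 1 := by
    have := (ZMod.intCast_zmod_eq_zero_iff_dvd _ c).2 ((Int.natCast_dvd_natCast.2 hc).trans hl1)
    push_cast at this
    exact sub_eq_zero.1 this
  -- periods vanish
  have hper : ∀ γ ∈ GH M c hc H₀, ∀ x, φ x (io γ • x) = 0 := by
    intro γ hγ x
    have h2 : φ ∞ (io γ • ∞) = 0 :=
      DFunLike.congr_fun h0 (Additive.ofMul (⟨γ, hγ⟩ : GH M c hc H₀))
    have h3 := hG.inv γ hγ ∞ x
    rw [← hG.add x ∞, ← hG.add ∞ (io γ • ∞), h2, h3, zero_add, hG.add, hG.self]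
  have horb : ∀ {α β ε : ℤ} {R : GQ}, α * ε = l → (M : ℤ) ∣ α - 1 → (M : ℤ) ∣ β →
      (M : ℤ) ∣ ε - 1 → Ent R α β 0 ε → ∀ x y : P1, φ (R • x) (R • y) = φ x y := by
    intro α β ε R h1 h2 h3 h4 h5 x y
    have key : ∀ x : P1, ∃ γ ∈ GH M c hc H₀, R • x = io γ • x := by
      intro x
      obtain ⟨γ, hγ, h6, h7⟩ := orbit_rep1 hl h1 hl1 h2 h3 h4 h5 x
      refine ⟨γ, mem_GH.2 ⟨hγ, ?_⟩, h7⟩
      have : dM M c hc ⟨γ, hγ⟩ = 1 := by
        apply Units.ext
        rw [coe_dM, Units.val_one]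
        have := (ZMod.intCast_zmod_eq_zero_iff_dvd _ c).2
          ((Int.natCast_dvd_natCast.2 hc).trans h6)
        push_cast at this
        exact sub_eq_zero.1 this
      rw [this]
      exact H₀.one_mem
    obtain ⟨γ, hγ, e1⟩ := key x
    obtain ⟨δ, hδ, e2⟩ := key y
    rw [e1, e2, ← hG.add _ x, ← hG.add x y, hper δ hδ y, hG.swap, hper γ hγ x, neg_zero,
      zero_add, add_zero]
  ext x y
  rw [hk_of_not_dvd _ hlM, hc1, map_one, one_smul]
  show Uop K A P1 l _ φ x y + Bop K A P1 l _ φ x y = (1 + l : K) • φ x y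
  have hT : TrInv φ := Sy.trInv h
  have e1 : Bop K A P1 l hl.ne_zero φ x y = φ x y := by
    rw [Bop_apply]
    refine horb (α := l) (β := 0) (ε := 1) (mul_one _) hl1 (dvd_zero _) (by simp)
      ((ent_Di l hl.ne_zero).congr (by simp) (by simp) rfl (by simp)) x y
  have e2 : Uop K A P1 l hl.ne_zero φ x y = (l : K) • φ x y := by
    rw [← hT.sum_eq (Λ := K) hl.ne_zero (Finset.range l) (fun j => (M : ℤ) * j) (by
      intro i hi j hj hij
      rw [Finset.mem_range] at hi hj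
      have h0 : M * i ≡ M * j [MOD l] := by
        rw [← Int.natCast_modEq_iff]
        push_cast
        exact hij
      exact Nat.ModEq.eq_of_lt_of_lt (Nat.ModEq.cancel_left_of_coprime
        ((Nat.Prime.coprime_iff_not_dvd hl).2 hlM) h0) hi hj) (Finset.card_range l) x y]
    rw [Finset.sum_congr rfl fun j _ => horb (α := 1) (β := (M : ℤ) * (j : ℕ)) (ε := l) (one_mul _)
      (by simp) (dvd_mul_right _ _) hl1 ((ent_Up l hl.ne_zero _).congr (by simp) (by simp) rfl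
        (by simp)) x y, Finset.sum_const, Finset.card_range, ← Nat.cast_smul_eq_nsmul K]
  rw [e1, e2, add_smul, one_smul, add_comm]

end Cls

end Fermat.Agent.TWCoh
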