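import Mathlib

/-!
# Characters of group algebras are jointly injective
-/

set_option autoImplicit false

noncomputable section

namespace Fermat.Agent.TWCoh

variable {O K : Type*} [CommRing O] [Field K] [CharZero K] [IsAlgClosed K] [Algebra O K]
  {G : Type*} [CommGroup G] [Finite G]

theorem hasEnough : HasEnoughRootsOfUnity K (Monoid.exponent G) := by
  haveI : NeZero (Monoid.exponent G) := ⟨Monoid.exponent_ne_zero_of_finite⟩
  haveI : NeZero ((Monoid.exponent G : ℕ) : K) :=
    ⟨Nat.cast_ne_zero.2 Monoid.exponent_ne_zero_of_finite⟩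
  infer_instance

theorem finite_dual : Finite (G →* Kˣ) := by
  haveI := hasEnough (K := K) (G := G)
  obtain ⟨e⟩ := CommGroup.monoidHom_mulEquiv_of_hasEnoughRootsOfUnity G K
  exact Finite.of_equiv G e.symm.toEquiv

theorem sum_dual [Fintype (G →* Kˣ)] {a : G} (ha : a ≠ 1) :
    ∑ χ : G →* Kˣ, ((χ a : Kˣ) : K) = 0 := by
  haveI := hasEnough (K := K) (G := G)
  obtain ⟨η, hη⟩ := CommGroup.exists_apply_ne_one_of_hasEnoughRootsOfUnity G K ha
  have h1 : ∑ χ : G →* Kˣ, ((χ a : Kˣ) : K) = (η a : K) * ∑ χ : G →* Kˣ, ((χ a : Kˣ) : K) := by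
    rw [Finset.mul_sum, ← Equiv.sum_comp (Equiv.mulLeft η)]
    refine Finset.sum_congr rfl fun χ _ => ?_
    rw [Equiv.coe_mulLeft, MonoidHom.mul_apply, Units.val_mul]
  have h2 : ((η a : K) - 1) * ∑ χ : G →* Kˣ, ((χ a : Kˣ) : K) = 0 := by
    rw [sub_mul, one_mul, ← h1, sub_self]
  rcases mul_eq_zero.1 h2 with h3 | h3
  · exact absurd (Units.ext (sub_eq_zero.1 h3)) hη
  · exact h3

variable (O K G) in
/-- the ring homomorphism attached to a character -/
def chHom (χ : G →* Kˣ) : MonoidAlgebra O G →+* K :=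
  (MonoidAlgebra.lift O K G ((Units.coeHom K).comp χ)).toRingHom

theorem chHom_single (χ : G →* Kˣ) (g : G) (a : O) :
    chHom O K G χ (MonoidAlgebra.single g a) = algebraMap O K a * χ g := by
  show MonoidAlgebra.lift O K G ((Units.coeHom K).comp χ) (MonoidAlgebra.single g a) = _
  rw [MonoidAlgebra.lift_single, Algebra.smul_def]
  rfl

theorem chHom_algebraMap (χ : G →* Kˣ) (a : O) :
    chHom O K G χ (algebraMap O _ a) = algebraMap O K a :=
  (MonoidAlgebra.lift O K G ((Units.coeHom K).comp χ)).commutes a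

theorem chHom_injective (hO : Function.Injective (algebraMap O K)) (x : MonoidAlgebra O G)
    (hx : ∀ χ : G →* Kˣ, chHom O K G χ x = 0) : x = 0 := by
  classical
  haveI : Fintype G := Fintype.ofFinite G
  haveI := finite_dual (K := K) (G := G)
  haveI : Fintype (G →* Kˣ) := Fintype.ofFinite _
  have h1 : ∀ χ : G →* Kˣ, chHom O K G χ x = ∑ g : G, algebraMap O K (x.coeff g) * χ g := by
    intro χ
    show MonoidAlgebra.lift O K G ((Units.coeHom K).comp χ) x = _
    rw [MonoidAlgebra.lift_apply', Finsupp.sum_fintype _ _ (fun g => by rw [map_zero, zero_mul])]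
    rfl
  have h2 : ∀ g : G, x.coeff g = 0 := by
    intro h
    apply hO
    rw [map_zero]
    have h3 : ∑ χ : G →* Kˣ, ((χ h⁻¹ : Kˣ) : K) * chHom O K G χ x =
        (Fintype.card (G →* Kˣ) : K) * algebraMap O K (x.coeff h) := by
      simp only [h1, Finset.mul_sum]
      rw [Finset.sum_comm]
      rw [Finset.sum_eq_single h]
      · rw [Finset.sum_congr rfl (g := fun _ => algebraMap O K (x.coeff h)) fun χ _ => by
          rw [map_inv, mul_left_comm, Units.inv_mul, mul_one], Finset.sum_const, Finset.card_univ,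
          nsmul_eq_mul]
      · intro g _ hg
        have h4 : ∀ χ : G →* Kˣ, ((χ h⁻¹ : Kˣ) : K) * (algebraMap O K (x.coeff g) * (χ g : K)) =
            algebraMap O K (x.coeff g) * ((χ (h⁻¹ * g) : Kˣ) : K) := by
          intro χ
          rw [map_mul, Units.val_mul]; ring
        simp only [h4]
        rw [← Finset.mul_sum, sum_dual (fun h5 => hg (inv_mul_eq_one.1 h5).symm), mul_zero]
      · exact fun h5 => absurd (Finset.mem_univ h) h5
    simp only [hx, mul_zero, Finset.sum_const_zero] at h3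
    have h5 : (Fintype.card (G →* Kˣ) : K) ≠ 0 := Nat.cast_ne_zero.2 Fintype.card_ne_zero
    exact (mul_eq_zero.1 h3.symm).resolve_left h5
  ext g
  exact h2 g

end Fermat.Agent.TWCoh
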