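import Fermat.Agent.TWCoh.BaseChange

/-!
# Iterated comparison of levels at Taylor-Wiles primes
-/

set_option autoImplicit false

noncomputable section

namespace Fermat.Agent.TWCoh

open Matrix CongruenceSubgroup MvPolynomial
open scoped MatrixGroups OnePoint

variable {Λ : Type} [CommRing Λ] [IsLocalRing Λ] [IsNoetherianRing Λ]
  [IsAdicComplete (IsLocalRing.maximalIdeal Λ) Λ] {k : Type} [Field k] [Algebra Λ k]
  {c N : ℕ} [NeZero N] {S : Set ℕ} {θ : DirichletCharacter Λ c} {A : Type*} [AddCommGroup A]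
  [Module Λ A] [Module.Finite Λ A]

/-- the modified system of eigenvalues -/
def modE (Q : Finset (PS S)) (τ α : PS S → k) (i : PS S) : k := by
  classical exact if i ∈ Q then α i else τ i

omit [NeZero N] in
theorem modE_of_mem {Q : Finset (PS S)} {τ α : PS S → k} {i : PS S} (h : i ∈ Q) :
    modE Q τ α i = α i := by
  classical
  rw [modE, if_pos h]

omit [NeZero N] in
theorem modE_of_notMem {Q : Finset (PS S)} {τ α : PS S → k} {i : PS S} (h : i ∉ Q) :
    modE Q τ α i = τ i := by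
  classical
  rw [modE, if_neg h]

/-- the conditions at the Taylor-Wiles primes -/
structure TWCond (θ : DirichletCharacter Λ c) (N : ℕ) (Q : Finset (PS S)) (τ α β : PS S → k) :
    Prop where
  not_dvd : ∀ q ∈ Q, ¬ q.1 ∣ N
  one : ∀ q ∈ Q, ((q.1 : ℕ) : k) = 1
  sum : ∀ q ∈ Q, τ q = α q + β q
  prod : ∀ q ∈ Q, α q * β q = algebraMap Λ k (((q.1 : ℕ) : Λ) * θ⁻¹ ((q.1 : ℕ) : ZMod c))
  distinct : ∀ q ∈ Q, α q ≠ β q
  alpha : ∀ q ∈ Q, α q ≠ 0

theorem iter_iso (hk : Function.Surjective (algebraMap Λ k)) (hc : c ∣ N) {τ α β : PS S → k}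
    {Q : Finset (PS S)} (h : TWCond θ N Q τ α β) : ∀ M : ℕ, M = N * ∏ q ∈ Q, q.1 →
    ∀ hcM : c ∣ M, ∃ e : loc (evI Λ τ) (MS hc θ A) ≃ₗ[Λ] loc (evI Λ (modE Q τ α)) (MS hcM θ A),
      ∀ i, i ∉ Q → ∀ x, e ((X i : HA Λ S) • x) = (X i : HA Λ S) • e x := by
  classical
  induction Q using Finset.induction_on with
  | empty =>
    intro M hM hcM
    rw [Finset.prod_empty, mul_one] at hM
    subst hM
    have e1 : modE ∅ τ α = τ := by
      funext i
      exact modE_of_notMem (Finset.notMem_empty i)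
    rw [e1]
    exact ⟨LinearEquiv.refl _ _, fun i _ x => rfl⟩
  | insert q Q hq ih =>
    intro M hM hcM
    rw [Finset.prod_insert hq, mul_comm q.1, ← mul_assoc] at hM
    subst hM
    have h' : TWCond θ N Q τ α β :=
      ⟨fun r hr => h.not_dvd r (Finset.mem_insert_of_mem hr),
        fun r hr => h.one r (Finset.mem_insert_of_mem hr),
        fun r hr => h.sum r (Finset.mem_insert_of_mem hr),
        fun r hr => h.prod r (Finset.mem_insert_of_mem hr),
        fun r hr => h.distinct r (Finset.mem_insert_of_mem hr),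
        fun r hr => h.alpha r (Finset.mem_insert_of_mem hr)⟩
    have hcM' : c ∣ N * ∏ q ∈ Q, q.1 := hc.mul_right _
    obtain ⟨e, he⟩ := ih h' _ rfl hcM'
    have hprod : ∏ r ∈ Q, r.1 ≠ 0 := Finset.prod_ne_zero_iff.2 fun r _ => r.2.1.ne_zero
    have : NeZero (N * ∏ r ∈ Q, r.1) := ⟨mul_ne_zero (NeZero.ne N) hprod⟩
    have hqi := Finset.mem_insert_self q Q
    have hnd : ¬ q.1 ∣ N * ∏ r ∈ Q, r.1 := by
      rw [Nat.Prime.dvd_mul q.2.1, not_or]
      refine ⟨h.not_dvd q hqi, ?_⟩
      rw [Prime.dvd_finsetProd_iff q.2.1.prime]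
      rintro ⟨r, hr, hqr⟩
      have := (Nat.prime_dvd_prime_iff_eq q.2.1 r.2.1).1 hqr
      exact hq ((Subtype.ext this : q = r) ▸ hr)
    obtain ⟨e', he'⟩ := level_iso (A := A) (θ := θ) (τ := modE Q τ α) (τ' := modE (insert q Q) τ α)
      (α := α q) (β := β q) hcM' q hcM hnd hk (by
        refine ⟨?_, ?_, ?_, ?_, ?_, ?_⟩
        · intro i hi
          by_cases hiQ : i ∈ Q
          · rw [modE_of_mem hiQ, modE_of_mem (Finset.mem_insert_of_mem hiQ)]
          · rw [modE_of_notMem hiQ, modE_of_notMem]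
            rw [Finset.mem_insert, not_or]
            exact ⟨hi, hiQ⟩
        · exact modE_of_mem hqi
        · rw [modE_of_notMem hq]; exact h.sum q hqi
        · exact h.prod q hqi
        · exact h.distinct q hqi
        · exact h.alpha q hqi) (h.one q hqi)
    refine ⟨e.trans e', fun i hi x => ?_⟩
    rw [Finset.mem_insert, not_or] at hi
    rw [LinearEquiv.trans_apply, LinearEquiv.trans_apply, he i hi.2, he' i hi.1]

end Fermat.Agent.TWCoh
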