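import Mathlib

/-!
# Joint eigenvectors
-/

set_option autoImplicit false

noncomputable section

universe u

namespace Fermat.Agent.TWCoh

open Polynomial

section Joint

variable {K R V : Type*} [Field K] [IsAlgClosed K] [CommRing R] [Algebra K R] [AddCommGroup V]
  [Module K V] [Module R V] [IsScalarTower K R V] [FiniteDimensional K V]

/-- the eigenspace of an element as a submodule -/
def eigS (r : R) (μ : K) : Submodule R V where
  carrier := {v | r • v = μ • v}
  add_mem' {v w} hv hw := by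
    show r • (v + w) = μ • (v + w)
    rw [smul_add, smul_add, show r • v = μ • v from hv, show r • w = μ • w from hw]
  zero_mem' := by
    show r • (0 : V) = μ • (0 : V)
    rw [smul_zero, smul_zero]
  smul_mem' s v hv := by
    show r • s • v = μ • s • v
    rw [smul_comm, show r • v = μ • v from hv, smul_comm]

omit [IsAlgClosed K] [FiniteDimensional K V] in
theorem mem_eigS {r : R} {μ : K} {v : V} : v ∈ eigS r μ ↔ r • v = μ • v := Iff.rfl

/-- a nonzero module has a joint eigenvector -/
theorem exists_joint [Nontrivial V] : ∃ v : V, v ≠ 0 ∧ ∃ x : R → K, ∀ r : R, r • v = x r • v := by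
  haveI : IsArtinian R V := isArtinian_of_tower K inferInstance
  obtain ⟨A, hA⟩ := IsAtomic.exists_atom (Submodule R V)
  obtain ⟨v, hvA, hv⟩ := Submodule.exists_mem_ne_zero_of_ne_bot hA.1
  refine ⟨v, hv, ?_⟩
  have h1 : ∀ r : R, ∃ x : K, r • v = x • v := by
    intro r
    -- restriction to `A`
    haveI : FiniteDimensional K A := FiniteDimensional.finiteDimensional_submodule
      (A.restrictScalars K)
    haveI : Nontrivial A := ⟨⟨⟨v, hvA⟩, 0, fun h => hv (congrArg Subtype.val h)⟩⟩
    obtain ⟨μ, hμ⟩ := Module.End.exists_eigenvalue (Algebra.lsmul K K A r : Module.End K A)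
    obtain ⟨w, hw⟩ := hμ.exists_hasEigenvector
    have hw1 : r • w = μ • w := hw.apply_eq_smul
    have h2 : A ⊓ eigS r μ = A := by
      rcases hA.le_iff.1 (inf_le_left : A ⊓ eigS r μ ≤ A) with h | h
      · exfalso
        have h3 : (w : V) ∈ A ⊓ eigS r μ := ⟨w.2, congrArg Subtype.val hw1⟩
        rw [h, Submodule.mem_bot] at h3
        exact hw.2 (Subtype.ext h3)
      · exact h
    have h4 : v ∈ A ⊓ eigS r μ := by rw [h2]; exact hvA
    exact ⟨μ, h4.2⟩
  choose x hx using h1
  exact ⟨x, hx⟩

/-- a joint eigenvector with nonzero eigenvalue -/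
theorem exists_joint_ne {r₀ : R} (hss : (Algebra.lsmul K K V r₀ : Module.End K V).IsSemisimple)
    (hne : ∃ v : V, r₀ • v ≠ 0) :
    ∃ v : V, v ≠ 0 ∧ ∃ x : R → K, (∀ r : R, r • v = x r • v) ∧ x r₀ ≠ 0 := by
  set T : Module.End K V := Algebra.lsmul K K V r₀ with hT
  have hTv : ∀ v, T v = r₀ • v := fun v => rfl
  obtain ⟨μ, hμ0, hμ⟩ : ∃ μ : K, μ ≠ 0 ∧ T.HasEigenvalue μ := by
    by_contra hcon
    push Not at hcon
    have h1 := Module.End.iSup_maxGenEigenspace_eq_top T
    have h2 : ∀ μ : K, T.maxGenEigenspace μ ≤ T.eigenspace 0 := by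
      intro μ
      rw [hss.isFinitelySemisimple.maxGenEigenspace_eq_eigenspace]
      by_cases hμ : μ = 0
      · rw [hμ]
      · have h3 := hcon μ hμ
        rw [Module.End.hasEigenvalue_iff, not_not] at h3
        rw [h3]
        exact bot_le
    have h3 : T.eigenspace 0 = ⊤ := eq_top_iff.2 (h1 ▸ iSup_le h2)
    obtain ⟨v, hv⟩ := hne
    apply hv
    have h4 : v ∈ T.eigenspace 0 := by rw [h3]; trivial
    rw [Module.End.mem_eigenspace_iff, zero_smul] at h4
    exact h4
  obtain ⟨w, hw⟩ := hμ.exists_hasEigenvector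
  have hw1 : r₀ • w = μ • w := hw.apply_eq_smul
  haveI : Nontrivial (eigS r₀ μ : Submodule R V) :=
    ⟨⟨⟨w, hw1⟩, 0, fun h => hw.2 (congrArg Subtype.val h)⟩⟩
  haveI : FiniteDimensional K (eigS r₀ μ : Submodule R V) :=
    FiniteDimensional.finiteDimensional_submodule
      ((eigS r₀ μ : Submodule R V).restrictScalars K)
  obtain ⟨v, hv, x, hx⟩ := exists_joint (K := K) (R := R) (V := (eigS r₀ μ : Submodule R V))
  have hv' : (v : V) ≠ 0 := fun h => hv (Subtype.ext h)
  refine ⟨v, hv', x, fun r => congrArg Subtype.val (hx r), ?_⟩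
  have h5 : x r₀ • (v : V) = μ • (v : V) := by
    have h8 : r₀ • (v : V) = x r₀ • (v : V) := congrArg Subtype.val (hx r₀)
    rw [← h8]
    exact v.2
  intro h6
  rw [h6, zero_smul] at h5
  rcases smul_eq_zero.1 h5.symm with h7 | h7
  · exact hμ0 h7
  · exact hv' h7

end Joint

/-- integral squarefree annihilators -/
theorem exists_sqfree {E : Type*} [Ring E] [Algebra ℚ E] {T : E} (hint : IsIntegral ℤ T)
    (hnil : ∀ R : ℚ[X], aeval T R * aeval T R = 0 → aeval T R = 0) :
    ∃ P : ℤ[X], aeval T P = 0 ∧ ∀ (K : Type u) [Field K] [CharZero K],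
      Squarefree (P.map (Int.castRingHom K)) := by
  have hint' : IsIntegral ℚ T := hint.tower_top
  set P := minpoly ℚ T with hP
  have hPT : aeval T P = 0 := minpoly.aeval ℚ T
  have hsq : Squarefree P := by
    intro Q hQ
    obtain ⟨R, hR⟩ := hQ
    have h1 : aeval T (Q * R) = 0 := by
      apply hnil
      rw [← map_mul, show Q * R * (Q * R) = P * R by rw [hR]; ring, map_mul, hPT, zero_mul]
    have h2 : P ∣ Q * R := minpoly.dvd ℚ T h1
    obtain ⟨A, hA⟩ := h2
    have hP0 : P ≠ 0 := minpoly.ne_zero hint'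
    have hQR : Q * R ≠ 0 := by
      intro h; rw [mul_assoc, h, mul_zero] at hR; exact hP0 hR
    have h3 : (Q * R) * 1 = (Q * R) * (Q * A) := by
      rw [mul_one]
      calc Q * R = P * A := hA
        _ = Q * Q * R * A := by rw [← hR]
        _ = _ := by ring
    have h4 := mul_left_cancel₀ hQR h3
    exact IsUnit.of_mul_eq_one A h4.symm
  obtain ⟨b, hb, hb'⟩ := IsLocalization.integerNormalization_spec (nonZeroDivisors ℤ) P
  have hb0 : (b : ℚ) ≠ 0 := Int.cast_ne_zero.2 (nonZeroDivisors.ne_zero hb)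
  refine ⟨IsLocalization.integerNormalization (nonZeroDivisors ℤ) P, ?_, fun K _ _ => ?_⟩
  · rw [← Polynomial.aeval_map_algebraMap ℚ, hb', map_zsmul, hPT, smul_zero]
  · have h6 : (IsLocalization.integerNormalization (nonZeroDivisors ℤ) P).map
        (Int.castRingHom K) = ((IsLocalization.integerNormalization (nonZeroDivisors ℤ) P).map
        (algebraMap ℤ ℚ)).map (algebraMap ℚ K) := by
      rw [Polynomial.map_map]
      congr 1
      exact RingHom.ext_int _ _
    have h7 : (b • P).map (algebraMap ℚ K) = C ((b : ℤ) : K) * P.map (algebraMap ℚ K) := by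
      rw [zsmul_eq_mul, Polynomial.map_mul, Polynomial.map_intCast]
      rfl
    rw [h6, hb', h7]
    have h8 : (P.map (algebraMap ℚ K)).Separable :=
      (PerfectField.separable_iff_squarefree.2 hsq).map
    have h9 : IsUnit (C ((b : ℤ) : K)) :=
      isUnit_C.2 (isUnit_iff_ne_zero.2 (Int.cast_ne_zero.2 (nonZeroDivisors.ne_zero hb)))
    exact (h8.unit_mul h9).squarefree

end Fermat.Agent.TWCoh
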