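import Mathlib

/-!
# Explicit 2x2 rational matrices, cosets for Hecke operators
-/

set_option autoImplicit false

noncomputable section

namespace Fermat.Agent.TWCoh

open Matrix
open scoped MatrixGroups

/-- the ambient group -/
abbrev GQ := GL (Fin 2) ℚ

/-- the entries of `g` are `a b c d`. -/
def Ent (g : GQ) (a b c d : ℚ) : Prop :=
  (g : Matrix (Fin 2) (Fin 2) ℚ) = !![a, b; c, d]

theorem Ent.mul {g h : GQ} {a b c d a' b' c' d' : ℚ} (hg : Ent g a b c d)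
    (hh : Ent h a' b' c' d') :
    Ent (g * h) (a * a' + b * c') (a * b' + b * d') (c * a' + d * c') (c * b' + d * d') := by
  rw [Ent, Units.val_mul, hg, hh, Matrix.mul_fin_two]

theorem Ent.congr {g : GQ} {a b c d a' b' c' d' : ℚ} (hg : Ent g a b c d)
    (h1 : a = a') (h2 : b = b') (h3 : c = c') (h4 : d = d') : Ent g a' b' c' d' := by
  subst h1 h2 h3 h4; exact hg

theorem Ent.ext {g h : GQ} {a b c d : ℚ} (hg : Ent g a b c d) (hh : Ent h a b c d) :
    g = h := Units.ext (hg.trans hh.symm)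

theorem Ent.inj {g : GQ} {a b c d a' b' c' d' : ℚ} (hg : Ent g a b c d)
    (hh : Ent g a' b' c' d') : a = a' ∧ b = b' ∧ c = c' ∧ d = d' := by
  have h : (!![a, b; c, d] : Matrix (Fin 2) (Fin 2) ℚ) = !![a', b'; c', d'] := hg.symm.trans hh
  exact ⟨congrFun (congrFun h 0) 0, congrFun (congrFun h 0) 1, congrFun (congrFun h 1) 0,
    congrFun (congrFun h 1) 1⟩

theorem ent_one : Ent 1 1 0 0 1 := by
  rw [Ent, Units.val_one, Matrix.one_fin_two]

theorem exists_ent (g : GQ) : ∃ a b c d, Ent g a b c d :=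
  ⟨_, _, _, _, Matrix.eta_fin_two _⟩

/-- a matrix from its entries -/
def mk (a b c d : ℚ) (h : a * d - b * c ≠ 0) : GQ :=
  Matrix.GeneralLinearGroup.mkOfDetNeZero !![a, b; c, d] (by rwa [Matrix.det_fin_two_of])

theorem ent_mk (a b c d : ℚ) (h : a * d - b * c ≠ 0) : Ent (mk a b c d h) a b c d := rfl

/-- `SL₂(ℤ)` inside `GL₂(ℚ)` -/
def io : SL(2, ℤ) →* GQ := Matrix.SpecialLinearGroup.mapGL ℚ

theorem ent_io (γ : SL(2, ℤ)) : Ent (io γ) (γ 0 0) (γ 0 1) (γ 1 0) (γ 1 1) := by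
  rw [Ent]
  ext i j
  fin_cases i <;> fin_cases j <;> simp [io]

theorem io_injective : Function.Injective io :=
  Matrix.SpecialLinearGroup.mapGL_injective (n := Fin 2) (R := ℤ) (S := ℚ)

theorem det_SL (γ : SL(2, ℤ)) : γ 0 0 * γ 1 1 - γ 0 1 * γ 1 0 = 1 := by
  have := Matrix.SpecialLinearGroup.det_coe γ
  rwa [Matrix.det_fin_two] at this

theorem exists_SL (a b c d : ℤ) (h : a * d - b * c = 1) :
    ∃ γ : SL(2, ℤ), γ 0 0 = a ∧ γ 0 1 = b ∧ γ 1 0 = c ∧ γ 1 1 = d :=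
  ⟨⟨!![a, b; c, d], by rw [Matrix.det_fin_two_of, h]⟩, rfl, rfl, rfl, rfl⟩

theorem mul_00 (γ δ : SL(2, ℤ)) : (γ * δ) 0 0 = γ 0 0 * δ 0 0 + γ 0 1 * δ 1 0 := by
  rw [Matrix.SpecialLinearGroup.coe_mul, Matrix.mul_apply, Fin.sum_univ_two]

theorem mem_Gamma0 {N : ℕ} {γ : SL(2, ℤ)} : γ ∈ CongruenceSubgroup.Gamma0 N ↔ (N : ℤ) ∣ γ 1 0 := by
  rw [CongruenceSubgroup.Gamma0_mem, ZMod.intCast_zmod_eq_zero_iff_dvd]

/-- translation by `x` -/
def Tr (x : ℚ) : GQ := mk 1 x 0 1 (by norm_num)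

theorem ent_Tr (x : ℚ) : Ent (Tr x) 1 x 0 1 := ent_mk _ _ _ _ _

theorem Tr_mul (x y : ℚ) : Tr x * Tr y = Tr (x + y) :=
  ((ent_Tr x).mul (ent_Tr y)).congr (by ring) (by ring) (by ring) (by ring) |>.ext (ent_Tr _)

theorem Tr_zero : Tr 0 = 1 := (ent_Tr 0).ext ent_one

/-- dilation by `n` -/
def Di (n : ℕ) (hn : n ≠ 0) : GQ := mk n 0 0 1 (by simpa using hn)

theorem ent_Di (n : ℕ) (hn : n ≠ 0) : Ent (Di n hn) n 0 0 1 := ent_mk _ _ _ _ _

/-- `(z + j) / n` -/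
def Up (n : ℕ) (hn : n ≠ 0) (j : ℤ) : GQ := mk 1 j 0 n (by simpa using hn)

theorem ent_Up (n : ℕ) (hn : n ≠ 0) (j : ℤ) : Ent (Up n hn j) 1 j 0 n := ent_mk _ _ _ _ _

theorem io_T_zpow (k : ℤ) : io (ModularGroup.T ^ k) = Tr k := by
  refine ((ent_io _).congr ?_ ?_ ?_ ?_).ext (ent_Tr _) <;>
    rw [ModularGroup.coe_T_zpow] <;> simp

theorem Up_add_mul (n : ℕ) (hn : n ≠ 0) (j k : ℤ) : Up n hn (j + n * k) = Tr k * Up n hn j := by
  refine ((ent_Up _ _ _).congr ?_ ?_ ?_ ?_).ext ((ent_Tr k).mul (ent_Up n hn j)) <;>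
    first | (push_cast; ring) | ring

theorem Up_mul_Up (n m : ℕ) (hn : n ≠ 0) (hm : m ≠ 0) (j k : ℤ) :
    Up n hn j * Up m hm k = Up (n * m) (mul_ne_zero hn hm) (k + j * m) := by
  refine (((ent_Up n hn j).mul (ent_Up m hm k)).congr ?_ ?_ ?_ ?_).ext (ent_Up _ _ _) <;>
    push_cast <;> ring

theorem Di_mul_Di (n m : ℕ) (hn : n ≠ 0) (hm : m ≠ 0) :
    Di n hn * Di m hm = Di (n * m) (mul_ne_zero hn hm) := by
  refine (((ent_Di n hn).mul (ent_Di m hm)).congr ?_ ?_ ?_ ?_).ext (ent_Di _ _) <;>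
    push_cast <;> ring

theorem Di_mul_Up (n m : ℕ) (hn : n ≠ 0) (hm : m ≠ 0) (j : ℤ) :
    Di n hn * Up m hm j = Up m hm (n * j) * Di n hn := by
  refine (((ent_Di n hn).mul (ent_Up m hm j)).congr ?_ ?_ ?_ ?_).ext
    ((ent_Up m hm (n * j)).mul (ent_Di n hn)) <;> push_cast <;> ring

/-- `Up` then `Di` for the same `n`. -/
theorem Di_mul_Up_self (n : ℕ) (hn : n ≠ 0) (j : ℤ) :
    Di n hn * Up n hn j = mk n 0 0 n (by simpa using hn) * Tr j := by
  refine (((ent_Di n hn).mul (ent_Up n hn j)).congr ?_ ?_ ?_ ?_).ext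
    ((ent_mk _ _ _ _ _).mul (ent_Tr j)) <;> push_cast <;> ring

/-! ### Cosets -/

/-- index set of the representatives -/
abbrev Ix (l : ℕ) := Option (Fin l)

/-- representatives for `T_l` -/
def rp (l : ℕ) (hl : l ≠ 0) : Ix l → GQ
  | none => Di l hl
  | some j => Up l hl (j : ℕ)

/-- the upper left entries -/
def re (l : ℕ) : Ix l → ℤ
  | none => l
  | some _ => 1

/-- the upper right entries -/
def rb (l : ℕ) : Ix l → ℤ
  | none => 0
  | some j => (j : ℕ)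

/-- the lower right entries -/
def rd (l : ℕ) : Ix l → ℤ
  | none => 1
  | some _ => l

theorem ent_rp (l : ℕ) (hl : l ≠ 0) (i : Ix l) : Ent (rp l hl i) (re l i) (rb l i) 0 (rd l i) := by
  rcases i with _ | j
  · exact (ent_Di l hl).congr (by simp [re]) (by simp [rb]) rfl (by simp [rd])
  · exact (ent_Up l hl _).congr (by simp [re]) (by simp [rb]) rfl (by simp [rd])

theorem re_mul_rd (l : ℕ) (i : Ix l) : re l i * rd l i = l := by
  rcases i with _ | j <;> simp [re, rd]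

/-- every integral matrix of determinant `l` is a product. -/
theorem exists_rep {N l : ℕ} (hl : l.Prime) (hlN : ¬ l ∣ N) (a b c d : ℤ)
    (hdet : a * d - b * (N * c) = l) {g : GQ} (hg : Ent g a b (N * c) d) :
    ∃ i : Ix l, ∃ γ ∈ CongruenceSubgroup.Gamma0 N, io γ * rp l hl.ne_zero i = g := by
  have hl0 : (l : ℤ) ≠ 0 := by exact_mod_cast hl.ne_zero
  by_cases h : (l : ℤ) ∣ a ∧ (l : ℤ) ∣ c
  · obtain ⟨⟨a', rfl⟩, ⟨c', rfl⟩⟩ := h
    have hdet' : a' * d - b * (N * c') = 1 := by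
      have h1 : (l : ℤ) * (a' * d - b * (N * c')) = l * 1 := by linear_combination hdet
      exact mul_left_cancel₀ hl0 h1
    obtain ⟨γ, h1, h2, h3, h4⟩ := exists_SL a' b (N * c') d (by linarith)
    refine ⟨none, γ, mem_Gamma0.2 (by rw [h3]; exact dvd_mul_right _ _), ?_⟩
    refine (((ent_io γ).mul (ent_rp l hl.ne_zero none)).congr ?_ ?_ ?_ ?_).ext hg
    · rw [h1, h2]; simp [re]; ring
    · rw [h1, h2]; simp [rb, rd]
    · rw [h3, h4]; simp [re]; ring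
    · rw [h3, h4]; simp [rb, rd]
  · obtain ⟨j, hj, h1, h2⟩ : ∃ j : ℕ, j < l ∧ (l : ℤ) ∣ b - j * a ∧ (l : ℤ) ∣ d - j * (N * c) := by
      have := Fact.mk hl
      have hd0 : (a : ZMod l) * d - b * (N * c) = 0 := by
        have := congrArg (fun x : ℤ => (x : ZMod l)) hdet
        push_cast at this
        simpa using this
      have hNp : (N : ZMod l) ≠ 0 := by
        rw [Ne, ZMod.natCast_eq_zero_iff]; exact hlN
      simp only [← ZMod.intCast_zmod_eq_zero_iff_dvd] at h ⊢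
      push_cast
      by_cases ha : (a : ZMod l) = 0
      · have hc : (c : ZMod l) ≠ 0 := fun hc => h ⟨ha, hc⟩
        refine ⟨((d : ZMod l) / (N * c)).val, ZMod.val_lt _, ?_, ?_⟩
        · rw [ZMod.natCast_zmod_val, ha, mul_zero, sub_zero]
          rw [ha, zero_mul, zero_sub, neg_eq_zero, mul_eq_zero, mul_eq_zero] at hd0
          rcases hd0 with h3 | h3 | h3
          · exact h3
          · exact absurd h3 hNp
          · exact absurd h3 hc
        · rw [ZMod.natCast_zmod_val, div_mul_cancel₀ _ (mul_ne_zero hNp hc), sub_self]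
      · refine ⟨((b : ZMod l) / a).val, ZMod.val_lt _, ?_, ?_⟩
        · rw [ZMod.natCast_zmod_val, div_mul_cancel₀ _ ha, sub_self]
        · rw [ZMod.natCast_zmod_val]
          have h3 : (a : ZMod l) * (d - b / a * (N * c)) = 0 := by
            field_simp
            linear_combination hd0
          exact (mul_eq_zero.1 h3).resolve_left ha
    obtain ⟨b', hb'⟩ := h1
    obtain ⟨d', hd'⟩ := h2
    have hdet' : a * d' - b' * (N * c) = 1 := by
      have h1 : (l : ℤ) * (a * d' - b' * (N * c)) = l * 1 := by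
        linear_combination hdet - a * hd' + N * c * hb'
      exact mul_left_cancel₀ hl0 h1
    obtain ⟨γ, h1, h2, h3, h4⟩ := exists_SL a b' (N * c) d' hdet'
    refine ⟨some ⟨j, hj⟩, γ, mem_Gamma0.2 (by rw [h3]; exact dvd_mul_right _ _), ?_⟩
    have hb2 : (b : ℚ) - j * a = l * b' := by exact_mod_cast hb'
    have hd2 : (d : ℚ) - j * (N * c) = l * d' := by exact_mod_cast hd'
    refine (((ent_io γ).mul (ent_rp l hl.ne_zero (some ⟨j, hj⟩))).congr ?_ ?_ ?_ ?_).ext hg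
    · rw [h1, h2]; simp [re]
    · rw [h1, h2]; simp only [rb, rd]; push_cast; linear_combination -hb2
    · rw [h3, h4]; simp [re]
    · rw [h3, h4]; simp only [rb, rd]; push_cast; linear_combination -hd2

theorem rep_inj {l : ℕ} (hl : l.Prime) (i j : Ix l) (γ : SL(2, ℤ))
    (h : io γ * rp l hl.ne_zero j = rp l hl.ne_zero i) : i = j := by
  have h1 := ((ent_io γ).mul (ent_rp l hl.ne_zero j)).inj (by rw [h]; exact ent_rp _ _ _)
  obtain ⟨h3, h4, h5, h6⟩ := h1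
  have hl1 : ¬ IsUnit (l : ℤ) := by
    rw [Int.isUnit_iff_natAbs_eq, Int.natAbs_natCast]; exact hl.one_lt.ne'
  have e1 : γ 0 0 * re l j = re l i := by
    have : ((γ 0 0 * re l j : ℤ) : ℚ) = (re l i : ℤ) := by push_cast; linarith
    exact_mod_cast this
  have e4 : γ 1 0 * rb l j + γ 1 1 * rd l j = rd l i := by
    have : ((γ 1 0 * rb l j + γ 1 1 * rd l j : ℤ) : ℚ) = (rd l i : ℤ) := by push_cast; linarith
    exact_mod_cast this
  have e3 : γ 1 0 * re l j = 0 := by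
    have : ((γ 1 0 * re l j : ℤ) : ℚ) = ((0 : ℤ) : ℚ) := by push_cast; linarith
    exact_mod_cast this
  have e2 : γ 0 0 * rb l j + γ 0 1 * rd l j = rb l i := by
    have : ((γ 0 0 * rb l j + γ 0 1 * rd l j : ℤ) : ℚ) = (rb l i : ℤ) := by push_cast; linarith
    exact_mod_cast this
  have hre : re l j ≠ 0 := by
    rcases j with _ | j
    · show (l : ℤ) ≠ 0
      exact_mod_cast hl.ne_zero
    · exact one_ne_zero
  have hc : γ 1 0 = 0 := (mul_eq_zero.1 e3).resolve_right hre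
  rcases i with _ | i <;> rcases j with _ | j
  · rfl
  · exfalso
    rw [hc, zero_mul, zero_add] at e4
    simp only [rd] at e4
    exact hl1 (IsUnit.of_mul_eq_one _ (by rw [mul_comm]; exact e4))
  · exfalso
    simp only [re] at e1
    exact hl1 (IsUnit.of_mul_eq_one _ (by rw [mul_comm]; exact e1))
  · simp only [re, mul_one] at e1
    simp only [rb, rd, e1, one_mul] at e2
    have h10 : ((i : ℕ) : ℤ) ≡ ((j : ℕ) : ℤ) [ZMOD l] := by
      rw [← e2]; exact (Int.modEq_iff_dvd.2 ⟨-γ 0 1, by ring⟩)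
    have h11 := Nat.ModEq.eq_of_lt_of_lt (Int.natCast_modEq_iff.1 h10) i.2 j.2
    rw [Fin.ext h11]

theorem rp_mul_io_eq {N l : ℕ} (hl : l.Prime) (hlN : ¬ l ∣ N) {γ : SL(2, ℤ)}
    (hγ : γ ∈ CongruenceSubgroup.Gamma0 N) (i : Ix l) :
    ∃ j : Ix l, ∃ δ ∈ CongruenceSubgroup.Gamma0 N, rp l hl.ne_zero i * io γ =
      io δ * rp l hl.ne_zero j := by
  obtain ⟨c, hc⟩ := mem_Gamma0.1 hγ
  have hdet := det_SL γ
  obtain ⟨j, δ, hδ, h⟩ := exists_rep hl hlN (re l i * γ 0 0 + rb l i * γ 1 0)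
    (re l i * γ 0 1 + rb l i * γ 1 1) (rd l i * c) (rd l i * γ 1 1) (by
      have := re_mul_rd l i
      rw [← this, mul_left_comm (N : ℤ), ← hc]
      linear_combination (re l i * rd l i) * hdet)
    (((ent_rp l hl.ne_zero i).mul (ent_io γ)).congr (by push_cast; ring) (by push_cast; ring)
      (by rw [hc]; push_cast; ring) (by push_cast; ring))
  exact ⟨j, δ, hδ, h.symm⟩

/-- the permutation of the cosets, with the relation between the entries. -/
theorem exists_perm {N l : ℕ} (hl : l.Prime) (hlN : ¬ l ∣ N) {γ : SL(2, ℤ)}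
    (hγ : γ ∈ CongruenceSubgroup.Gamma0 N) :
    ∃ (σ : Equiv.Perm (Ix l)) (δ : Ix l → SL(2, ℤ)), (∀ i, δ i ∈ CongruenceSubgroup.Gamma0 N) ∧
      (∀ i, rp l hl.ne_zero i * io γ = io (δ i) * rp l hl.ne_zero (σ i)) ∧
      ∀ i, ((re l i * γ 0 0 : ℤ) : ZMod N) = ((δ i 0 0 * re l (σ i) : ℤ) : ZMod N) := by
  choose σ δ hδ h using fun i => rp_mul_io_eq hl hlN hγ i
  have hinj : Function.Injective σ := by
    intro i j hij
    have h1 := h i
    have h2 := h j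
    rw [← hij] at h2
    refine (rep_inj hl j i (δ j * (δ i)⁻¹) ?_).symm
    rw [map_mul, map_inv, mul_assoc]
    have h3 : rp l hl.ne_zero i = io (δ i) * rp l hl.ne_zero (σ i) * (io γ)⁻¹ := by
      rw [← h1, mul_inv_cancel_right]
    have h4 : rp l hl.ne_zero j = io (δ j) * rp l hl.ne_zero (σ i) * (io γ)⁻¹ := by
      rw [← h2, mul_inv_cancel_right]
    rw [h3, h4]
    group
  refine ⟨Equiv.ofBijective σ ((Finite.injective_iff_bijective).1 hinj), δ, hδ, h, fun i => ?_⟩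
  have h1 := ((ent_rp l hl.ne_zero i).mul (ent_io γ)).inj
    (by rw [h i]; exact (ent_io (δ i)).mul (ent_rp l hl.ne_zero (σ i)))
  obtain ⟨h1, -⟩ := h1
  have h2 : re l i * γ 0 0 + rb l i * γ 1 0 = δ i 0 0 * re l (σ i) := by
    have : ((re l i * γ 0 0 + rb l i * γ 1 0 : ℤ) : ℚ) = ((δ i 0 0 * re l (σ i) : ℤ) : ℚ) := by
      push_cast; linarith
    exact_mod_cast this
  have h3 : ((γ 1 0 : ℤ) : ZMod N) = 0 :=
    (ZMod.intCast_zmod_eq_zero_iff_dvd _ _).2 (mem_Gamma0.1 hγ)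
  show ((re l i * γ 0 0 : ℤ) : ZMod N) = ((δ i 0 0 * re l (σ i) : ℤ) : ZMod N)
  rw [← h2]
  push_cast
  rw [h3]
  ring

/-- the case of `U_l`. -/
theorem exists_perm_U {N l : ℕ} (hl : l.Prime) (hlN : l ∣ N) {γ : SL(2, ℤ)}
    (hγ : γ ∈ CongruenceSubgroup.Gamma0 N) :
    ∃ (σ : Equiv.Perm (Fin l)) (δ : Fin l → SL(2, ℤ)), (∀ i, δ i ∈ CongruenceSubgroup.Gamma0 N) ∧
      (∀ i : Fin l, Up l hl.ne_zero (i : ℕ) * io γ = io (δ i) * Up l hl.ne_zero (σ i : ℕ)) ∧
      ∀ i, ((γ 0 0 : ℤ) : ZMod N) = ((δ i 0 0 : ℤ) : ZMod N) := by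
  obtain ⟨c, hc⟩ := mem_Gamma0.1 hγ
  have hdet := det_SL γ
  have hl0 : (l : ℤ) ≠ 0 := by exact_mod_cast hl.ne_zero
  obtain ⟨N', rfl⟩ := hlN
  have := Fact.mk hl
  have ha : (γ 0 0 : ZMod l) ≠ 0 := by
    intro h
    have h1 := congrArg (fun x : ℤ => (x : ZMod l)) hdet
    rw [hc] at h1
    push_cast at h1
    rw [h] at h1
    simp at h1
  have key : ∀ i : Fin l, ∃ j : Fin l, ∃ δ ∈ CongruenceSubgroup.Gamma0 (l * N'),
      Up l hl.ne_zero (i : ℕ) * io γ = io δ * Up l hl.ne_zero (j : ℕ) ∧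
      ((γ 0 0 : ℤ) : ZMod (l * N')) = ((δ 0 0 : ℤ) : ZMod (l * N')) := by
    intro i
    obtain ⟨j, hj, hj'⟩ : ∃ j : ℕ, j < l ∧
        (l : ℤ) ∣ (γ 0 1 + i * γ 1 1) - j * (γ 0 0 + i * γ 1 0) := by
      refine ⟨(((γ 0 1 + i * γ 1 1 : ℤ) : ZMod l) / (γ 0 0)).val, ZMod.val_lt _, ?_⟩
      rw [← ZMod.intCast_zmod_eq_zero_iff_dvd]
      push_cast
      rw [ZMod.natCast_zmod_val, hc]
      push_cast
      have h0 : ((l : ℕ) : ZMod l) = 0 := ZMod.natCast_self l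
      rw [h0]
      field_simp
      ring
    obtain ⟨b', hb'⟩ := hj'
    obtain ⟨δ, h1, h2, h3, h4⟩ := exists_SL (γ 0 0 + i * γ 1 0) b' (l * γ 1 0)
      (γ 1 1 - j * γ 1 0) (by
        have h1 : (l : ℤ) * ((γ 0 0 + i * γ 1 0) * (γ 1 1 - j * γ 1 0) - b' * (l * γ 1 0)) = l * 1 := by
          linear_combination (l : ℤ) * hdet + (l : ℤ) * γ 1 0 * hb'
        exact mul_left_cancel₀ hl0 h1)
    refine ⟨⟨j, hj⟩, δ, mem_Gamma0.2 ?_, ?_, ?_⟩
    · rw [h3, hc]; exact ⟨l * c, by push_cast; ring⟩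
    · have hb2 : ((γ 0 1 : ℤ) : ℚ) + i * (γ 1 1 : ℤ) - j * ((γ 0 0 : ℤ) + i * (γ 1 0 : ℤ)) =
          l * b' := by exact_mod_cast hb'
      refine ((ent_Up l hl.ne_zero (i : ℕ)).mul (ent_io γ)).ext
        (((ent_io δ).mul (ent_Up l hl.ne_zero (j : ℕ))).congr ?_ ?_ ?_ ?_)
      · rw [h1]; push_cast; ring
      · rw [h1, h2]; push_cast; linear_combination -hb2
      · rw [h3]; push_cast; ring
      · rw [h3, h4]; push_cast; ring
    · rw [h1, hc, Int.cast_add, Int.cast_mul, Int.cast_mul, Int.cast_natCast (l * N'),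
        ZMod.natCast_self]
      ring
  choose σ δ hδ h h' using key
  have hinj : Function.Injective σ := by
    intro i j hij
    have h1 := h i
    have h2 := h j
    rw [← hij] at h2
    have h5 := rep_inj hl (some j) (some i) (δ j * (δ i)⁻¹) ?_
    · exact (Option.some_injective _ h5).symm
    rw [map_mul, map_inv, mul_assoc]
    have h3 : rp l hl.ne_zero (some i) = io (δ i) * Up l hl.ne_zero (σ i : ℕ) * (io γ)⁻¹ := by
      rw [← h1, mul_inv_cancel_right]; rfl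
    have h4 : rp l hl.ne_zero (some j) = io (δ j) * Up l hl.ne_zero (σ i : ℕ) * (io γ)⁻¹ := by
      rw [← h2, mul_inv_cancel_right]; rfl
    rw [h3, h4]
    group
  exact ⟨Equiv.ofBijective σ ((Finite.injective_iff_bijective).1 hinj), δ, hδ, h, h'⟩

end Fermat.Agent.TWCoh
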