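import Fermat.Agent.TWCoh.Fin
import Fermat.Agent.TWCoh.Loc

/-!
# Modular symbols as modules over the formal Hecke algebra
-/

set_option autoImplicit false

noncomputable section

namespace Fermat.Agent.TWCoh

open Matrix CongruenceSubgroup ModularGroup
open scoped MatrixGroups

/-! ### Commuting operators -/

section Comm

variable {ι : Type*} {Λ : Type*} [CommRing Λ] {M : Type*} [AddCommGroup M] [Module Λ M]

open scoped IsMulCommutative in
/-- evaluation of polynomials at commuting endomorphisms -/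
def aevalComm (t : ι → Module.End Λ M) (h : ∀ i j, Commute (t i) (t j)) :
    MvPolynomial ι Λ →ₐ[Λ] Module.End Λ M :=
  haveI : IsMulCommutative (Algebra.adjoin Λ (Set.range t)) :=
    Algebra.isMulCommutative_adjoin Λ (by
      rintro _ ⟨i, rfl⟩ _ ⟨j, rfl⟩; exact h i j)
  (Algebra.adjoin Λ (Set.range t)).val.comp
    (MvPolynomial.aeval (R := Λ) fun i : ι =>
      (⟨t i, Algebra.subset_adjoin ⟨i, rfl⟩⟩ : Algebra.adjoin Λ (Set.range t)))

theorem aevalComm_X (t : ι → Module.End Λ M) (h : ∀ i j, Commute (t i) (t j)) (i : ι) :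
    aevalComm t h (MvPolynomial.X i) = t i := by
  simp [aevalComm]

end Comm

/-! ### The formal Hecke algebra -/

/-- primes outside `S` -/
abbrev PS (S : Set ℕ) : Type := {l : ℕ // l.Prime ∧ l ∉ S}

/-- the formal Hecke algebra -/
abbrev HA (Λ : Type) [CommRing Λ] (S : Set ℕ) : Type := MvPolynomial (PS S) Λ

variable {Λ : Type} [CommRing Λ] {c N : ℕ}

/-- the module of modular symbols -/
def MS (_hc : c ∣ N) (θ : DirichletCharacter Λ c) (A : Type*) [AddCommGroup A] [Module Λ A] :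
    Type _ := Sy θ N A P1

variable (hc : c ∣ N) (θ : DirichletCharacter Λ c) (A : Type*) [AddCommGroup A] [Module Λ A]

instance : AddCommGroup (MS hc θ A) := inferInstanceAs (AddCommGroup (Sy θ N A P1))
instance : Module Λ (MS hc θ A) := inferInstanceAs (Module Λ (Sy θ N A P1))

instance [NeZero N] [IsNoetherianRing Λ] [Module.Finite Λ A] : Module.Finite Λ (MS hc θ A) :=
  inferInstanceAs (Module.Finite Λ (Sy θ N A P1))

instance [NeZero N] [IsNoetherian Λ A] : IsNoetherian Λ (MS hc θ A) :=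
  inferInstanceAs (IsNoetherian Λ (Sy θ N A P1))

/-- the Hecke operators -/
def opr {l : ℕ} (hl : l.Prime) : Module.End Λ (MS hc θ A) := TT θ N A P1 hc hl

theorem opr_comm {l k : ℕ} (hl : l.Prime) (hk : k.Prime) :
    Commute (opr hc θ A hl) (opr hc θ A hk) := TT_comm hc hl hk

/-- the action -/
def act (S : Set ℕ) : HA Λ S →ₐ[Λ] Module.End Λ (MS hc θ A) :=
  aevalComm (fun l : PS S => opr hc θ A l.2.1) fun i j => opr_comm hc θ A i.2.1 j.2.1

instance instModuleHA (S : Set ℕ) : Module (HA Λ S) (MS hc θ A) :=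
  Module.compHom _ (act hc θ A S).toRingHom

variable {hc θ A} {S : Set ℕ}

theorem ha_smul (x : HA Λ S) (φ : MS hc θ A) : x • φ = act hc θ A S x φ := rfl

theorem X_smul (l : PS S) (φ : MS hc θ A) : (MvPolynomial.X l : HA Λ S) • φ = opr hc θ A l.2.1 φ := by
  exact LinearMap.congr_fun (aevalComm_X (fun l : PS S => opr hc θ A l.2.1)
    (fun i j => opr_comm hc θ A i.2.1 j.2.1) l) φ

theorem C_smul (r : Λ) (φ : MS hc θ A) : (MvPolynomial.C r : HA Λ S) • φ = r • φ := by
  rw [ha_smul]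
  have := (act hc θ A S).commutes r
  rw [MvPolynomial.algebraMap_eq] at this
  rw [this, Module.algebraMap_end_apply]

instance (S : Set ℕ) : IsScalarTower Λ (HA Λ S) (MS hc θ A) where
  smul_assoc r x φ := by
    rw [ha_smul, ha_smul, map_smul]; rfl

variable {A' : Type*} [AddCommGroup A'] [Module Λ A']

/-- a `Λ`-linear map commuting with the operators is linear over the Hecke algebra -/
def mkHALin {M M' : Type*} [AddCommGroup M] [AddCommGroup M'] [Module Λ M] [Module Λ M']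
    [Module (HA Λ S) M] [Module (HA Λ S) M'] [IsScalarTower Λ (HA Λ S) M]
    [IsScalarTower Λ (HA Λ S) M'] (f : M →ₗ[Λ] M')
    (h : ∀ (l : PS S) (x : M), f ((MvPolynomial.X l : HA Λ S) • x) =
      (MvPolynomial.X l : HA Λ S) • f x) : M →ₗ[HA Λ S] M' where
  toFun := f
  map_add' := map_add f
  map_smul' x := by
    induction x using MvPolynomial.induction_on with
    | C r =>
      intro y
      have h1 : (MvPolynomial.C r : HA Λ S) = r • (1 : HA Λ S) := by
        rw [MvPolynomial.smul_eq_C_mul, mul_one]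
      rw [h1, smul_assoc, one_smul, RingHom.id_apply, smul_assoc, one_smul, map_smul]
    | add p q hp hq =>
      intro y
      rw [add_smul, map_add, hp, hq, RingHom.id_apply, RingHom.id_apply, RingHom.id_apply,
        add_smul]
    | mul_X p l hp =>
      intro y
      rw [mul_smul, hp, h, RingHom.id_apply, RingHom.id_apply, mul_smul]

@[simp] theorem mkHALin_apply {M M' : Type*} [AddCommGroup M] [AddCommGroup M'] [Module Λ M]
    [Module Λ M'] [Module (HA Λ S) M] [Module (HA Λ S) M'] [IsScalarTower Λ (HA Λ S) M]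
    [IsScalarTower Λ (HA Λ S) M'] (f : M →ₗ[Λ] M')
    (h : ∀ (l : PS S) (x : M), f ((MvPolynomial.X l : HA Λ S) • x) =
      (MvPolynomial.X l : HA Λ S) • f x) (x : M) : mkHALin f h x = f x := rfl

variable (hc θ) in
/-- functoriality over `Λ` -/
def MS.mapΛ (p : A →ₗ[Λ] A') : MS hc θ A →ₗ[Λ] MS hc θ A' where
  toFun φ := ⟨fun x y => p (φ.1 x y), Sy.comp p φ.2⟩
  map_add' _ _ := Subtype.ext (funext fun _ => funext fun _ => map_add p _ _)
  map_smul' _ _ := Subtype.ext (funext fun _ => funext fun _ => _root_.map_smul p _ _)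

variable (hc θ) in
/-- functoriality -/
def MS.map (S : Set ℕ) (p : A →ₗ[Λ] A') : MS hc θ A →ₗ[HA Λ S] MS hc θ A' :=
  mkHALin (MS.mapΛ hc θ p) fun l φ => by
    rw [X_smul, X_smul]
    apply Subtype.ext
    funext x y
    exact (hk_comp p _ _ x y).symm

theorem MS.map_apply (p : A →ₗ[Λ] A') (φ : MS hc θ A) (x y : P1) :
    (MS.map hc θ S p φ).1 x y = p (φ.1 x y) := rfl

theorem MS.map_injective {p : A →ₗ[Λ] A'} (hp : Function.Injective p) :
    Function.Injective (MS.map hc θ S p) := by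
  intro φ ψ h
  apply Subtype.ext
  funext x y
  exact hp (congrFun (congrFun (congrArg Subtype.val h) x) y)

/-- left exactness -/
theorem MS.exists_of_map_eq_zero {A'' : Type*} [AddCommGroup A''] [Module Λ A'']
    {i : A'' →ₗ[Λ] A} {p : A →ₗ[Λ] A'} (hi : Function.Injective i)
    (hip : ∀ a, p a = 0 → ∃ b, i b = a) {φ : MS hc θ A} (h : MS.map hc θ S p φ = 0) :
    ∃ ψ : MS hc θ A'', MS.map hc θ S i ψ = φ := by
  have h1 : ∀ x y, ∃ b, i b = φ.1 x y := fun x y =>
    hip _ (congrFun (congrFun (congrArg Subtype.val h) x) y)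
  choose ψ hψ using h1
  refine ⟨⟨ψ, fun x y z => hi ?_, fun γ hγ x y => hi ?_⟩, ?_⟩
  · rw [map_add, hψ, hψ, hψ, Sy.add' φ.2]
  · rw [_root_.map_smul, hψ, hψ, Sy.equi φ.2 hγ]
  · apply Subtype.ext
    funext x y
    exact hψ x y

/-! ### The exactness theorem -/

/-- the conditions on the maximal ideal -/
structure NonEis (m : Ideal (HA Λ S)) (N : ℕ) : Prop where
  ex : ∃ l : PS S, (N : ℤ) ∣ (l.1 : ℤ) - 1 ∧
    (MvPolynomial.X l - MvPolynomial.C (1 + (l.1 : Λ)) : HA Λ S) ∉ m

theorem MS.exists_lift (ht : Tame θ) (h2 : IsUnit (2 : Λ)) (h3 : V3 Λ N) {p : A →ₗ[Λ] A'}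
    (hp : Function.Surjective p) (l : PS S) (hl : (N : ℤ) ∣ (l.1 : ℤ) - 1) (φ : MS hc θ A') :
    ∃ ψ : MS hc θ A, MS.map hc θ S p ψ =
      (MvPolynomial.X l - MvPolynomial.C (1 + (l.1 : Λ)) : HA Λ S) • φ := by
  obtain ⟨ψ, hψ, h⟩ := exists_lift_eis hc ht h2 hp (liftV hc ht.neg_one hp h3) l.2.1 hl φ.2
  refine ⟨⟨ψ, hψ⟩, ?_⟩
  rw [sub_smul, X_smul, C_smul]
  apply Subtype.ext
  funext x y
  show p (ψ x y) = hk θ A' P1 N l.1 l.2.1.ne_zero φ.1 x y - (1 + (l.1 : Λ)) • φ.1 x y
  rw [h x y]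
  congr 1
  rw [add_smul, add_smul, one_smul, one_smul, natCast_zsmul, Nat.cast_smul_eq_nsmul]

variable [NeZero N] [IsLocalRing Λ] [IsNoetherianRing Λ]
  [IsAdicComplete (IsLocalRing.maximalIdeal Λ) Λ] [Module.Finite Λ A] [Module.Finite Λ A']

/-- **Exactness.** -/
theorem MS.loc_surjective {m : Ideal (HA Λ S)} [m.IsMaximal] (hm : NonEis m N) (ht : Tame θ)
    (h2 : IsUnit (2 : Λ)) (h3 : V3 Λ N) {p : A →ₗ[Λ] A'} (hp : Function.Surjective p)
    {y : MS hc θ A'} (hy : y ∈ loc m (MS hc θ A')) :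
    ∃ x ∈ loc m (MS hc θ A), MS.map hc θ S p x = y := by
  obtain ⟨e, he⟩ := exists_locData (Λ := Λ) m (MS hc θ A × MS hc θ A')
  obtain ⟨l, hl, hlm⟩ := hm.ex
  exact exists_loc_preimage he.left he.right _ hy hlm (MS.exists_lift ht h2 h3 hp l hl y)

end Fermat.Agent.TWCoh
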