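import Fermat.Agent.TWCoh.RTw

/-!
# Newforms from symbols and from points
-/

set_option autoImplicit false

noncomputable section

namespace Fermat.Agent.TWCoh

open Matrix CongruenceSubgroup Fermat.Agent.AnJac MvPolynomial
open ModularCurve ModularCurve.Period Fermat.Agent.EichlerShimura
open Fermat.Agent.Newform (S2 GP Eig chi bset)
open ModularFormClass (qCoeff)
open scoped MatrixGroups OnePoint ModularForm

section Sym

variable {L : ℕ} [NeZero L]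

theorem periodHomPair_heckeOp {l : ℕ} (hl : l.Prime) (f g : CuspForm (Gamma0 L) 2) :
    periodHomPair L (DSLift.heckeOp L 2 hl f, DSLift.heckeOp L 2 hl g) =
      MT L ℂ l (periodHomPair L (f, g)) := by
  rw [periodHomPair_apply, periodHomPair_apply, map_add, map_add, map_sub, ← symb_heckeOp hl,
    ← symb_heckeOp hl, ← symb_conj_heckeOp hl, ← symb_conj_heckeOp hl]

theorem hm_smul {φ : P1 → P1 → ℂ} (h : CF (fun _ => (1 : ℂ)) L φ) (c : ℂ)
    (h' : CF (fun _ => (1 : ℂ)) L (c • φ)) : hm h' = c • hm h := rfl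

/-- `U_q` on the homomorphism -/
theorem MT_hm_of_dvd {φ : P1 → P1 → ℂ} (h : CF (fun _ => (1 : ℂ)) L φ) {q : ℕ} (hq : q.Prime)
    (hqL : q ∣ L) (h0 : Uop ℂ ℂ P1 q hq.ne_zero φ = 0) : MT L ℂ q (hm h) = 0 := by
  haveI : NeZero q := ⟨hq.ne_zero⟩
  have hG : GS (Gamma0 L) φ := ⟨h.add, fun γ hγ x y => by rw [h.equi γ hγ, one_smul]⟩
  rw [MT_of_dvd L ℂ q hq hqL]
  refine AddMonoidHom.ext fun γ => ?_
  have h1 := hmG_T (hfU L q hqL) (fun i => Up q hq.ne_zero (i.val : ℤ)) (fun i => by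
    have h1 := toR_RR q hq.ne_zero (i : OnePoint (ZMod q))
    rw [P2MW.S_ModularForm_heckeT_slash_eq_self_of_mem_Gamma0.ModularForm.HeckeSlashInvariance.heckeRep_coe] at h1
    exact h1) hG (Additive.toMul γ)
  refine h1.trans ?_
  have h2 : ∑ i : ZMod q, φ (Up q hq.ne_zero (i.val : ℤ) • ∞)
      (Up q hq.ne_zero (i.val : ℤ) • io ((Additive.toMul γ : Gamma0 L) : SL(2, ℤ)) • ∞) =
      Uop ℂ ℂ P1 q hq.ne_zero φ ∞ (io ((Additive.toMul γ : Gamma0 L) : SL(2, ℤ)) • ∞) := by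
    rw [Uop_apply, Finset.sum_range, ← Equiv.sum_comp (ZMod.finEquiv q).toEquiv]
    refine Finset.sum_congr rfl fun j _ => ?_
    have h2 : ((ZMod.finEquiv q).toEquiv j).val = (j : ℕ) := by
      obtain ⟨n, hn⟩ := Nat.exists_eq_succ_of_ne_zero hq.ne_zero
      subst hn
      rfl
    rw [h2]
  rw [h2, h0]
  rfl

theorem sq_dvd_of_symbol {N q : ℕ} [hq : Fact q.Prime] [NeZero (N * q)] [NeZero N] (hqN : q ∣ N)
    {φ : P1 → P1 → ℂ}
    (h : CF (fun _ => (1 : ℂ)) (N * q) φ) (hL : Ls N q φ = 0)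
    (hU : Uop ℂ ℂ P1 q hq.out.ne_zero φ = 0) {f g : S2 (N * q)}
    (hfg : periodHomPair (N * q) (f, g) = hm h) {F : S2 (N * q)} (hF : F = f ∨ F = g)
    (hF0 : F ≠ 0) {M D : ℕ} [NeZero M] (hM : M ∣ N * q) {G : S2 M}
    (hG : G.IsNewform) (hD : D ≠ 0) (hND : N * q ∣ D) (hFE : F ∈ Eig (N * q) D (chi G D)) :
    q ^ 2 ∣ M := by
  obtain ⟨N1, hN1⟩ := hqN
  have h1 := trCF_eq_zero (Dvd.intro _ hN1.symm) h hL hfg
  have hT0 : trCF (Dvd.intro _ hN1.symm) F = 0 := by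
    rcases hF with rfl | rfl
    · exact h1.1
    · exact h1.2
  have h2 : periodHomPair (N * q) (DSLift.heckeOp (N * q) 2 hq.out f,
      DSLift.heckeOp (N * q) 2 hq.out g) = 0 := by
    rw [periodHomPair_heckeOp, hfg, MT_hm_of_dvd h hq.out (dvd_mul_left _ _) hU]
  have h3 := periodHomPair_injective (h2.trans (map_zero _).symm)
  have hU0 : DSLift.heckeOp (N * q) 2 hq.out F = 0 := by
    rcases hF with rfl | rfl
    · exact congrArg Prod.fst h3
    · exact congrArg Prod.snd h3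
  refine Newform.sq_dvd_level hq.out hN1 hF0 hM hG hD hND hFE ?_ hU0
  have h4 : trF N q ⇑F = 0 := congrArg (fun G : S2 (N * q) => (⇑G : UpperHalfPlane → ℂ)) hT0
  rw [trF, ← Equiv.sum_comp (ZMod.finEquiv q).toEquiv] at h4
  rw [← h4]
  refine Finset.sum_congr rfl fun j _ => ?_
  have h5 : ((ZMod.finEquiv q).toEquiv j).val = (j : ℕ) := by
    obtain ⟨n, hn⟩ := Nat.exists_eq_succ_of_ne_zero hq.out.ne_zero
    subst hn
    rfl
  rw [h5, ModularForm.SL_slash]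
  congr 1
  refine (Newform.ent_Lo _).ext ((Newform.ent_mapGL _).congr ?_ ?_ ?_ ?_)
  · rw [lo_00]; simp
  · rw [lo_01]; simp
  · rw [lo_10]; push_cast; ring
  · rw [lo_11]; simp

/-- **Newforms from symbols.** -/
theorem exists_newform_of_symbol {D : ℕ} (hD : D ≠ 0) (hLD : L ∣ D) {Φ : P1 → P1 → ℂ}
    (h : CF (fun _ => (1 : ℂ)) L Φ) (hne : hm h ≠ 0) {a : GP D → ℂ}
    (ha : ∀ l : GP D, tk (1 : ℂ) 1 ℂ l.1 l.2.1.ne_zero Φ = a l • Φ) :
    ∃ (M : ℕ) (_ : NeZero M) (g : S2 M), M ∣ L ∧ g.IsNewform ∧ (∀ l : GP D, qCoeff g l.1 = a l) ∧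
      (∀ (l : ℕ) (hl : l.Prime) (c : ℂ), ¬ l ∣ L → tk (1 : ℂ) 1 ℂ l hl.ne_zero Φ = c • Φ →
        qCoeff g l = c) ∧
      ∀ (N q : ℕ) (hq : Fact q.Prime), L = N * q → q ∣ N → Ls N q Φ = 0 →
        Uop ℂ ℂ P1 q hq.out.ne_zero Φ = 0 → q ^ 2 ∣ M := by
  have hν : hm h ∈ NHA (Gamma0 L) ℂ := hm_mem_NHA h
  obtain ⟨⟨f₁, f₂⟩, hf⟩ : hm h ∈ LinearMap.range (periodHomPair L) := by
    rw [(S21.result L).2, mem_parabolicHoms_iff]
    intro γ hγ
    exact hν γ ((trace_sq_le_iff _).mp hγ.le)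
  -- eigenforms
  have heig : ∀ {l : ℕ} (hl : l.Prime), ¬ l ∣ L → ∀ c : ℂ, tk (1 : ℂ) 1 ℂ l hl.ne_zero Φ = c • Φ →
      DSLift.heckeOp L 2 hl f₁ = c • f₁ ∧ DSLift.heckeOp L 2 hl f₂ = c • f₂ := by
    intro l hl hlL c hc
    have h' : CF (fun _ => (1 : ℂ)) L (tk (1 : ℂ) 1 ℂ l hl.ne_zero Φ) := by
      rw [hc]; exact h.smul c
    have h1 := hm_tk hl hlL h h'
    have h2 : hm h' = c • hm h := by
      refine AddMonoidHom.ext fun γ => ?_
      show tk (1 : ℂ) 1 ℂ l hl.ne_zero Φ ∞ _ = _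
      rw [hc]; rfl
    have h3 : periodHomPair L (DSLift.heckeOp L 2 hl f₁, DSLift.heckeOp L 2 hl f₂) =
        periodHomPair L (c • f₁, c • f₂) := by
      rw [periodHomPair_heckeOp, hf, ← h1, h2, ← Prod.smul_mk, map_smul, hf]
    have h4 := periodHomPair_injective h3
    exact ⟨congrArg Prod.fst h4, congrArg Prod.snd h4⟩
  obtain ⟨F, hF, hF0⟩ : ∃ F : S2 L, (F = f₁ ∨ F = f₂) ∧ F ≠ 0 := by
    by_cases h1 : f₁ = 0
    · refine ⟨f₂, Or.inr rfl, fun h2 => hne ?_⟩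
      rw [← hf, h1, h2]
      exact map_zero _
    · exact ⟨f₁, Or.inl rfl, h1⟩
  have heigF : ∀ {l : ℕ} (hl : l.Prime), ¬ l ∣ L → ∀ c : ℂ,
      tk (1 : ℂ) 1 ℂ l hl.ne_zero Φ = c • Φ → DSLift.heckeOp L 2 hl F = c • F := by
    intro l hl hlL c hc
    have h1 := heig hl hlL c hc
    rcases hF with rfl | rfl
    · exact h1.1
    · exact h1.2
  have hFE : F ∈ Eig L D a := Newform.mem_Eig.2 fun l =>
    heigF l.2.1 (fun h' => l.2.2 (h'.trans hLD)) _ (ha l)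
  have hEne : Eig L D a ≠ ⊥ := fun h' => hF0 (by
    rw [h', Submodule.mem_bot] at hFE; exact hFE)
  obtain ⟨M, hM, g, hg, hga⟩ := Newform.exists_newform_of_Eig hLD hEne
  have hM0 : NeZero M := ⟨fun h' => NeZero.ne L (Nat.eq_zero_of_zero_dvd (h' ▸ hM))⟩
  have hchi : chi g D = a := funext fun l => hga l
  have hFE' : F ∈ Eig L D (chi g D) := by rw [hchi]; exact hFE
  refine ⟨M, hM0, g, hM, hg, hga, ?_, ?_⟩
  · intro l hl c hlL hc
    have h1 : F ∈ Submodule.span ℂ (bset L g) := by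
      rw [← Newform.Eig_eq_span hg hD hLD]; exact hFE'
    have h2 : Submodule.span ℂ (bset L g) ≤ Eig L L (chi g L) := by
      rw [Submodule.span_le]
      rintro _ ⟨d, hd, h', rfl⟩
      exact Newform.bL_mem_Eig hd h' dvd_rfl (Newform.mem_Eig_chi hg.1 L)
    have h3 := Newform.mem_Eig.1 (h2 h1) ⟨l, hl, hlL⟩
    have h4 := heigF hl hlL c hc
    have h5 : (qCoeff g l - c) • F = 0 := by
      rw [sub_smul, sub_eq_zero, ← h4]
      exact h3.symm
    rcases smul_eq_zero.1 h5 with h6 | h6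
    · exact sub_eq_zero.1 h6
    · exact absurd h6 hF0
  · intro N q hq hL hqN hLs hU
    subst hL
    haveI : NeZero N := ⟨fun h' => NeZero.ne (N * q) (by rw [h', zero_mul])⟩
    exact sq_dvd_of_symbol hqN h hLs hU hf hF hF0 hM hg hD hLD hFE'

end Sym

end Fermat.Agent.TWCoh
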