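import Fermat.Agent.TWCoh.NewPt

/-!
# Newforms from the points of the Hecke algebra
-/

set_option autoImplicit false

noncomputable section

namespace Fermat.Agent.TWCoh

open Matrix CongruenceSubgroup Fermat.Agent.AnJac MvPolynomial
open Fermat.Agent.Newform (S2 GP Eig chi bset)
open ModularFormClass (qCoeff)
open scoped MatrixGroups OnePoint ModularForm

section Gen

variable {N : ℕ} [NeZero N]

/-- **Newforms from symbols with characters.** -/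
theorem exists_newform_of_chars (ψ : ∀ q : ℕ, DirichletCharacter ℂ q) (P : Finset ℕ)
    (hpr : ∀ q ∈ P, q.Prime) (hex : ∀ q ∈ P, ∃ N1, N = q * N1 ∧ ¬ q ∣ N1)
    (hψ : ∀ q ∈ P, ψ q = 1 ∨ ψ q ^ 2 ≠ 1) {φ : P1 → P1 → ℂ} (h : CF (chs ψ P) N φ)
    (hφ : φ ≠ 0) {T : Set ℕ} (hT : ∀ l ∈ T, l.Prime) (hTN : ∀ l ∈ T, ¬ l ∣ N) {a : ℕ → ℂ}
    (ha : ∀ (l : ℕ) (hl : l ∈ T),
      tk (ws ψ P l) (ws' ψ P l) ℂ l (hT l hl).ne_zero φ = a l • φ)
    {l₀ : ℕ} (hl₀ : l₀ ∈ T) (hl₀1 : ((N * ∏ q ∈ P, q : ℕ) : ℤ) ∣ l₀ - 1) (hl₀a : a l₀ ≠ 1 + l₀)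
    {D : ℕ} (hD : D ≠ 0) (hDT : ∀ l : ℕ, l.Prime → ¬ l ∣ D → l ∈ T) :
    ∃ (M : ℕ) (_ : NeZero M) (g : S2 M), M ∣ N * ∏ q ∈ P, q ∧ g.IsNewform ∧
      (∀ l ∈ T, qCoeff g l = a l) ∧ (∀ q ∈ P, ψ q ≠ 1 → q ^ 2 ∣ M) ∧
      (∀ q ∈ P, ψ q = 1 → ¬ q ^ 2 ∣ M) := by
  classical
  set s : Finset ℕ := P.filter fun q => ψ q ≠ 1 with hs
  have hsP : ∀ q ∈ s, q ∈ P := fun q hq => (Finset.mem_filter.1 hq).1
  have hsψ : ∀ q ∈ s, ψ q ^ 2 ≠ 1 := fun q hq =>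
    (hψ q (hsP q hq)).resolve_left (Finset.mem_filter.1 hq).2
  have hns : ∀ q ∈ P, q ∉ s → ψ q = 1 := fun q hq hqs => by
    by_contra hne
    exact hqs (Finset.mem_filter.2 ⟨hq, hne⟩)
  have hdvdN : ∀ q ∈ P, q ∣ N := fun q hq => by
    obtain ⟨N1, h1, -⟩ := hex q hq
    exact ⟨N1, h1⟩
  have hprod : ∏ q ∈ s, q ∣ ∏ q ∈ P, q := Finset.prod_dvd_prod_of_subset _ _ _
    (Finset.filter_subset _ _)
  have hs0 : ∏ q ∈ s, q ≠ 0 := Finset.prod_ne_zero_iff.2 fun q hq => (hpr q (hsP q hq)).ne_zero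
  -- restriction of the set of characters
  have hchs : ∀ γ ∈ Gamma0 N, chs ψ P (γ 0 0) = chs ψ s (γ 0 0) := by
    intro γ hγ
    rw [chs, chs, hs, Finset.prod_filter]
    refine Finset.prod_congr rfl fun q hq => ?_
    by_cases h1 : ψ q = 1
    · rw [if_neg (by simpa using h1), h1, MulChar.one_apply (isUnit_00 hγ (hdvdN q hq)), one_pow]
    · rw [if_pos h1]
  have hs' : CF (chs ψ s) N φ := ⟨h.add, fun γ hγ x y => by rw [h.equi γ hγ, hchs γ hγ]⟩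
  have hunit : ∀ l ∈ T, ∀ q ∈ P, IsUnit (l : ZMod q) := fun l hl q hq =>
    char_q (hT l hl) (hTN l hl) (hdvdN q hq)
  have hws : ∀ l ∈ T, ws ψ s l = ws ψ P l := by
    intro l hl
    rw [ws, ws, hs, Finset.prod_filter]
    refine Finset.prod_congr rfl fun q hq => ?_
    by_cases h1 : ψ q = 1
    · rw [if_neg (by simpa using h1), h1, MulChar.one_apply (hunit l hl q hq)]
    · rw [if_pos h1]
  have hws' : ∀ l ∈ T, ws' ψ s l = ws' ψ P l := by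
    intro l hl
    rw [ws', ws', hs, Finset.prod_filter]
    refine Finset.prod_congr rfl fun q hq => ?_
    by_cases h1 : ψ q = 1
    · rw [if_neg (by simpa using h1), h1, inv_one, MulChar.one_apply (hunit l hl q hq)]
    · rw [if_pos h1]
  have hexs : ∀ q ∈ s, ∃ N1, N = q * N1 ∧ ¬ q ∣ N1 := fun q hq => hex q (hsP q hq)
  have hprs : ∀ q ∈ s, q.Prime := fun q hq => hpr q (hsP q hq)
  -- the twist
  obtain ⟨h1, h2⟩ := RT_cf (A := ℂ) (ψ := ψ) ∅ s (Finset.disjoint_empty_right _) N φ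
    (by rw [Finset.union_empty]; exact hprs) (by rw [Finset.union_empty]; exact hexs) hsψ
    (by rw [Finset.union_empty]; exact hs')
  have e0 : chs ψ ∅ = fun _ => (1 : ℂ) := by funext a; simp [chs]
  rw [e0] at h1
  set Φ := RT ℂ ψ s φ with hΦ
  set L := N * ∏ q ∈ s, q with hL
  haveI : NeZero L := ⟨mul_ne_zero (NeZero.ne N) hs0⟩
  have hΦ0 : Φ ≠ 0 := fun h' => hφ (h2 h')
  have hchF : ChF (chs ψ s) N := chF_chs fun q hq => hdvdN q (hsP q hq)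
  have hTr : TrInv φ := hs'.trInv hchF.map_one
  have heig : ∀ (l : ℕ) (hl : l ∈ T), tk (1 : ℂ) 1 ℂ l (hT l hl).ne_zero Φ = a l • Φ := by
    intro l hl
    rw [hΦ, RT_tk s 1 1 hTr (hT l hl).ne_zero (fun q hq => (hprs q hq).ne_zero)
      (fun q hq => hunit l hl q (hsP q hq)), one_mul, one_mul, hws l hl, hws' l hl, ha l hl,
      map_smul]
  have hTL : ∀ l ∈ T, ¬ l ∣ L := by
    intro l hl hlL
    rcases (hT l hl).dvd_mul.1 hlL with h3 | h3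
    · exact hTN l hl h3
    · rw [Prime.dvd_finsetProd_iff (hT l hl).prime] at h3
      obtain ⟨q, hq, h4⟩ := h3
      exact hTN l hl (h4.trans (hdvdN q (hsP q hq)))
  -- the homomorphism does not vanish
  have hne : hm h1 ≠ 0 := by
    intro h0
    have h3 : ∀ γ ∈ Gamma0 L, ∀ x, Φ x (io γ • x) = 0 := by
      intro γ hγ x
      have h4 : Φ ∞ (io γ • ∞) = 0 :=
        DFunLike.congr_fun h0 (Additive.ofMul (⟨γ, hγ⟩ : Gamma0 L))
      have h5 := h1.equi γ hγ ∞ x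
      rw [one_smul] at h5
      rw [← h1.add x ∞, ← h1.add ∞ (io γ • ∞), h4, h5, zero_add, h1.add, h1.self]
    have h4 := tk_one_of_trivial (hT l₀ hl₀) ((Int.natCast_dvd_natCast.2
      (mul_dvd_mul_left N hprod)).trans hl₀1) h1 h3
    rw [heig l₀ hl₀, ← sub_eq_zero, ← sub_smul, smul_eq_zero] at h4
    rcases h4 with h4 | h4
    · exact hl₀a (sub_eq_zero.1 h4)
    · exact hΦ0 h4
  have hDL : D * L ≠ 0 := mul_ne_zero hD (NeZero.ne L)
  obtain ⟨M, hM0, g, hML, hg, -, hga, hsq⟩ := exists_newform_of_symbol hDL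
    (dvd_mul_left L D) h1 hne (a := fun l : GP (D * L) => a l.1) (fun l => heig l.1
      (hDT l.1 l.2.1 fun h' => l.2.2 (h'.mul_right _)))
  refine ⟨M, hM0, g, hML.trans (mul_dvd_mul_left N hprod), hg, fun l hl =>
    hga l (hT l hl) _ (hTL l hl) (heig l hl), ?_, ?_⟩
  · intro q hq hne'
    have hqs : q ∈ s := Finset.mem_filter.2 ⟨hq, hne'⟩
    haveI : Fact q.Prime := ⟨hpr q hq⟩
    obtain ⟨h5, h6⟩ := Ls_RT (A := ℂ) (ψ := ψ) hprs hexs hsψ hs' hqs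
    refine hsq (N * ∏ r ∈ s.erase q, r) q ⟨hpr q hq⟩ ?_ ((hdvdN q hq).mul_right _) h5 h6
    rw [hL, mul_assoc, Finset.prod_erase_mul s _ hqs]
  · intro q hq h5 h6
    obtain ⟨N1, hN1, hqN1⟩ := hex q hq
    have h7 : q ^ 2 ∣ N * ∏ r ∈ s, r := h6.trans hML
    rw [hN1, sq, mul_assoc] at h7
    have h8 := Nat.dvd_of_mul_dvd_mul_left (hpr q hq).pos h7
    rcases (hpr q hq).dvd_mul.1 h8 with h9 | h9
    · exact hqN1 h9
    · rw [Prime.dvd_finsetProd_iff (hpr q hq).prime] at h9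
      obtain ⟨r, hr, h10⟩ := h9
      have h11 := (Nat.prime_dvd_prime_iff_eq (hpr q hq) (hprs r hr)).1 h10
      subst h11
      exact (Finset.mem_filter.1 hr).2 h5

end Gen

section Point

variable {O k Λ : Type} [CommRing O] [Field k] [Algebra O k] [CommRing Λ] [Algebra Λ k]
    {ε : Λ →+* O} {lam : Λ} {p N N'' : ℕ} {S : Set ℕ} {Q : Finset (PS S)} {I : Finset ℕ}
    {τ α β : PS S → k} {ψ₁ ψ₂ : ∀ q : ℕ, DirichletCharacter Λ q}
    [NeZero N] [IsLocalRing Λ] [IsNoetherianRing Λ]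
    [IsAdicComplete (IsLocalRing.maximalIdeal Λ) Λ]

theorem inv_ringHomComp {R R' : Type*} [CommRing R] [CommRing R'] {c : ℕ}
    (θ : DirichletCharacter R c) (κ : R →+* R') (a : ZMod c) :
    (θ.ringHomComp κ)⁻¹ a = κ (θ⁻¹ a) := by
  rw [MulChar.inv_apply, MulChar.inv_apply]
  rfl

/-- **Newforms from points.** -/
theorem EPt.exists_newform {h : PCond ε lam p N N'' Q I τ α β ψ₁ ψ₂}
    {ψ : ∀ q : ℕ, DirichletCharacter Λ q}
    (hd : Dat ψ (allP Q I) (cdr Q I) (lvl N Q) N'' (bad Q))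
    {K : Type} [Field K] {κ : Λ →+* K} (e : EPt h ψ K κ) (j : K →+* ℂ)
    {D : ℕ} (hD : D ≠ 0) (hDS : ∀ l : ℕ, l.Prime → ¬ l ∣ D → l ∉ bad Q) :
    ∃ (M : ℕ) (_ : NeZero M) (g : S2 M), M ∣ lvl N Q * cdr Q I ∧ g.IsNewform ∧
      (∀ l : PS (bad Q), qCoeff g l.1 = j (e.y (algebraMap Λ _ (ws ψ (allP Q I) l.1) *
        FN.X h ψ (inclPS (sub_bad Q) l)))) ∧
      (∀ q ∈ allP Q I, (∃ a : (ZMod q)ˣ, κ (ψ q a) ≠ 1) → q ^ 2 ∣ M) ∧
      (∀ q ∈ allP Q I, (∀ a : (ZMod q)ˣ, κ (ψ q a) = 1) → ¬ q ^ 2 ∣ M) := by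
  classical
  haveI : NeZero (lvl N Q) := ⟨by
    rw [lvl]
    exact mul_ne_zero (NeZero.ne N) (Finset.prod_ne_zero_iff.2 fun q _ => q.2.1.ne_zero)⟩
  set ψ' := cmp (j.comp κ) ψ with hψ'
  have hlN : ∀ l : PS (bad Q), ¬ l.1 ∣ lvl N Q := h.not_dvd
  have hlc : ∀ l : PS (bad Q), IsUnit ((l.1 : ℕ) : ZMod (cdr Q I)) := fun l =>
    char_q l.2.1 (hlN l) h.cdr_dvd
  -- the symbol
  have hCF : CF (chs ψ' (allP Q I)) (lvl N Q) (fun x y => j (e.φ.1 x y)) := by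
    refine ⟨fun x y z => by rw [← map_add, Sy.add' e.φ.2], fun γ hγ x y => ?_⟩
    rw [Sy.equi e.φ.2 hγ, hψ', chs_cmp, smul_eq_mul, smul_eq_mul, map_mul]
    congr 1
    show j (κ (dch ψ (allP Q I) (cdr Q I) _)) = j (κ _)
    rw [dch_apply hd.dvd_c (isUnit_00 hγ h.cdr_dvd)]
  have hφ0 : (fun x y => j (e.φ.1 x y)) ≠ (0 : P1 → P1 → ℂ) := by
    intro h0
    apply e.ne_zero
    apply MS.ext'
    intro x y
    apply j.injective
    exact (congrFun (congrFun h0 x) y).trans (map_zero j).symm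
  have heig : ∀ l : PS (bad Q), tk (ws ψ' (allP Q I) l.1) (ws' ψ' (allP Q I) l.1) ℂ l.1
      l.2.1.ne_zero (fun x y => j (e.φ.1 x y)) =
      j (e.y (algebraMap Λ _ (ws ψ (allP Q I) l.1) * FN.X h ψ (inclPS (sub_bad Q) l))) •
        (fun x y => j (e.φ.1 x y)) := by
    intro l
    have h2 : hk ((dch ψ (allP Q I) (cdr Q I)).ringHomComp κ) K P1 (lvl N Q) l.1
      l.2.1.ne_zero e.φ.1 = e.y (FN.X h ψ (inclPS (sub_bad Q) l)) • e.φ.1 := by
      have h1 := congrArg Subtype.val (e.eigen (inclPS (sub_bad Q) l))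
      rw [X_smul] at h1
      exact h1
    rw [hk_of_not_dvd _ (hlN l)] at h2
    have h3 := ws_mul_inv (ψ := ψ) hd.dvd_c (hlc l)
    have h4 : tk (κ (ws ψ (allP Q I) l.1)) (κ (ws' ψ (allP Q I) l.1)) K l.1 l.2.1.ne_zero
        e.φ.1 = (κ (ws ψ (allP Q I) l.1) * e.y (FN.X h ψ (inclPS (sub_bad Q) l))) • e.φ.1 := by
      rw [mul_smul, ← h2, tk_apply, smul_add, smul_smul, inv_ringHomComp, ← map_mul, h3]
    rw [hψ', ws_cmp, ws'_cmp]
    have h5 := tk_comp (κ := j) (κ (ws ψ (allP Q I) l.1)) (κ (ws' ψ (allP Q I) l.1))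
      l.2.1.ne_zero e.φ.1
    refine h5.trans ?_
    rw [h4, map_mul, e.y_algebraMap]
    funext x y
    exact map_mul j _ _
  -- the special prime
  obtain ⟨l₀, hl₀, hτ⟩ := h.noneis
  have hl₀N : ¬ l₀.1 ∣ N'' := by
    intro h1
    have h2 : (l₀.1 : ℤ) ∣ l₀.1 - 1 := dvd_trans (by exact_mod_cast h1) hl₀
    have h3 : (l₀.1 : ℤ) ∣ 1 := by
      have := dvd_sub (dvd_refl (l₀.1 : ℤ)) h2
      simpa using this
    exact l₀.2.1.one_lt.ne' (Nat.dvd_one.1 (by exact_mod_cast h3))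
  have hl₀b : l₀.1 ∉ bad Q := by
    rintro (h1 | ⟨q, hq, h1⟩)
    · exact l₀.2.2 h1
    · apply hl₀N
      rw [← h1]
      exact ((Finset.dvd_prod_of_mem (fun q : PS S => q.1) hq).trans (dvd_mul_left _ _)).trans
        h.lvl_dvd
  let l₁ : PS (bad Q) := ⟨l₀.1, l₀.2.1, hl₀b⟩
  have hws1 : ws ψ (allP Q I) l₀.1 = 1 := by
    rw [ws]
    refine Finset.prod_eq_one fun q hq => ?_
    have h1 : (q : ℤ) ∣ l₀.1 - 1 := (Int.natCast_dvd_natCast.2 (((dvd_cdr hq).trans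
      h.cdr_dvd).trans h.lvl_dvd)).trans hl₀
    have h2 := (ZMod.intCast_zmod_eq_zero_iff_dvd _ q).2 h1
    push_cast at h2
    rw [sub_eq_zero.1 h2, map_one]
  let a : ℕ → ℂ := fun l => if hl : l.Prime ∧ l ∉ bad Q then
    j (e.y (algebraMap Λ _ (ws ψ (allP Q I) l) *
        FN.X h ψ (inclPS (sub_bad Q) ⟨l, hl⟩))) else 0
  have haa : ∀ l : PS (bad Q), a l.1 = j (e.y (algebraMap Λ _ (ws ψ (allP Q I) l.1) *
      FN.X h ψ (inclPS (sub_bad Q) l))) := fun l => dif_pos l.2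
  obtain ⟨M, hM0, g, hM, hg, hga, h1, h2⟩ := exists_newform_of_chars ψ' (allP Q I)
    (fun q hq => h.pr hq) (fun q hq => h.ex hq)
    (fun q hq => by
      obtain ⟨n, hn, hψn⟩ := hd.odd q hq
      refine odd_char hn ?_
      rw [hψ', cmp, MulChar.ringHomComp_pow, hψn, MulChar.ringHomComp_one])
    hCF hφ0 (T := {l : ℕ | l.Prime ∧ l ∉ bad Q}) (fun l hl => hl.1)
    (fun l hl => hlN ⟨l, hl⟩) (a := a) (fun l hl => by
      rw [haa ⟨l, hl⟩]
      exact heig ⟨l, hl⟩) (l₀ := l₀.1) ⟨l₀.2.1, hl₀b⟩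
    ((Int.natCast_dvd_natCast.2 h.lev).trans hl₀) (by
      have h3 := haa l₁
      rw [h3]
      intro h4
      apply e.ne_eis hl₀ hτ
      apply j.injective
      have h5 : ws ψ (allP Q I) l₁.1 = 1 := hws1
      rw [h5, map_one, one_mul] at h4
      refine h4.trans ?_
      rw [map_add, map_one, map_natCast]) hD (fun l hl hlD => ⟨hl, hDS l hl hlD⟩)
  have hψ1 : ∀ q, ψ' q = 1 ↔ ∀ a : (ZMod q)ˣ, κ (ψ q a) = 1 := by
    intro q
    constructor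
    · intro h3 a
      have h4 := congrArg (fun χ : DirichletCharacter ℂ q => χ a) h3
      simp only [MulChar.one_apply_coe] at h4
      apply j.injective
      rw [map_one]
      exact h4
    · intro h3
      apply MulChar.ext
      intro a
      rw [MulChar.one_apply_coe]
      show j (κ (ψ q a)) = 1
      rw [h3, map_one]
  refine ⟨M, hM0, g, hM, hg, fun l => ?_, fun q hq ⟨b, hb⟩ => h1 q hq fun h3 =>
    hb ((hψ1 q).1 h3 b), fun q hq hb => h2 q hq ((hψ1 q).2 hb)⟩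
  rw [hga l.1 l.2, haa l]

end Point

end Fermat.Agent.TWCoh
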