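import Fermat.Agent.TWCoh.Rank
import Fermat.Agent.TWPatch.Level

/-!
# The modules of level `n` in the Taylor-Wiles method
-/

set_option autoImplicit false

noncomputable section

namespace Fermat.Agent.TWCoh

open Matrix CongruenceSubgroup MvPolynomial Fermat.Agent.AnJac
open scoped MatrixGroups OnePoint

section Setup

variable {S : Set ℕ}

/-- all primes with characters -/
def allP (Q : Finset (PS S)) (I : Finset ℕ) : Finset ℕ := Q.image (fun q => q.1) ∪ I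

/-- the conductor -/
def cdr (Q : Finset (PS S)) (I : Finset ℕ) : ℕ := ∏ q ∈ allP Q I, q

/-- the level -/
def lvl (N : ℕ) (Q : Finset (PS S)) : ℕ := N * ∏ q ∈ Q, q.1

/-- the enlarged set of bad primes -/
def bad (Q : Finset (PS S)) : Set ℕ := S ∪ {l | ∃ q ∈ Q, q.1 = l}

theorem sub_bad (Q : Finset (PS S)) : S ⊆ bad Q := Set.subset_union_left

/-- the conditions -/
structure PCond {O k Λ : Type} [CommRing O] [Field k] [Algebra O k] [CommRing Λ] [Algebra Λ k]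
    (ε : Λ →+* O) (lam : Λ) (p N N'' : ℕ) (Q : Finset (PS S)) (I : Finset ℕ)
    (τ α β : PS S → k) (ψ₁ ψ₂ : ∀ q : ℕ, DirichletCharacter Λ q) : Prop where
  hOk : Function.Surjective (algebraMap O k)
  hε : Function.Surjective ε
  hεk : ∀ r, algebraMap O k (ε r) = algebraMap Λ k r
  hlam : algebraMap Λ k lam = 0
  pp : p.Prime
  hp : (p : k) = 0
  hp2 : p ≠ 2
  v3 : (3 : k) ≠ 0 ∨ NoV N
  Ipr : ∀ q ∈ I, q.Prime
  Iex : ∀ q ∈ I, ∃ N1, N = q * N1 ∧ ¬ q ∣ N1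
  tw : TWCond (1 : DirichletCharacter O 1) N Q τ α β
  pow₁ : ∀ q ∈ allP Q I, ∃ e, ψ₁ q ^ p ^ e = 1
  pow₂ : ∀ q ∈ allP Q I, ∃ e, ψ₂ q ^ p ^ e = 1
  aug : ∀ q ∈ allP Q I, ∀ a : (ZMod q)ˣ, ε (ψ₁ q a) = 1
  cong : ∀ q ∈ allP Q I, ∀ a : (ZMod q)ˣ, lam ∣ ψ₁ q a - ψ₂ q a
  lev : lvl N Q * cdr Q I ∣ N''
  supp : ∀ l : ℕ, l.Prime → l ∣ N'' → l ∈ bad Q
  noneis : ∃ l₀ : PS S, (N'' : ℤ) ∣ l₀.1 - 1 ∧ τ l₀ ≠ 1 + (l₀.1 : k)

end Setup

section Lemmas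

variable {O k Λ : Type} [CommRing O] [Field k] [Algebra O k] [CommRing Λ] [Algebra Λ k]
    {ε : Λ →+* O} {lam : Λ} {p N N'' : ℕ} {S : Set ℕ} {Q : Finset (PS S)} {I : Finset ℕ}
    {τ α β : PS S → k} {ψ₁ ψ₂ : ∀ q : ℕ, DirichletCharacter Λ q}
    (h : PCond ε lam p N N'' Q I τ α β ψ₁ ψ₂)

include h

theorem PCond.hΛk : Function.Surjective (algebraMap Λ k) := by
  intro x
  obtain ⟨y, rfl⟩ := h.hOk x
  obtain ⟨r, rfl⟩ := h.hε y
  exact ⟨r, (h.hεk r).symm⟩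

theorem PCond.pr {q : ℕ} (hq : q ∈ allP Q I) : q.Prime := by
  rw [allP, Finset.mem_union, Finset.mem_image] at hq
  rcases hq with ⟨q, -, rfl⟩ | hq
  · exact q.2.1
  · exact h.Ipr q hq

omit h in
theorem dvd_cdr {q : ℕ} (hq : q ∈ allP Q I) : q ∣ cdr Q I := Finset.dvd_prod_of_mem _ hq

theorem PCond.ex {q : ℕ} (hq : q ∈ allP Q I) : ∃ N1, lvl N Q = q * N1 ∧ ¬ q ∣ N1 := by
  classical
  have hqp := h.pr hq
  by_cases hqQ : ∃ r ∈ Q, r.1 = q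
  · obtain ⟨r, hr, rfl⟩ := hqQ
    refine ⟨N * ∏ x ∈ Q.erase r, x.1, ?_, ?_⟩
    · rw [lvl, ← Finset.mul_prod_erase Q _ hr]; ring
    · rw [Nat.Prime.dvd_mul hqp, not_or]
      refine ⟨h.tw.not_dvd r hr, ?_⟩
      rw [Prime.dvd_finsetProd_iff hqp.prime]
      rintro ⟨x, hx, hrx⟩
      have h1 := (Nat.prime_dvd_prime_iff_eq hqp x.2.1).1 hrx
      exact (Finset.mem_erase.1 hx).1 (Subtype.ext h1).symm
  · have hqI : q ∈ I := by
      rw [allP, Finset.mem_union, Finset.mem_image] at hq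
      exact hq.resolve_left hqQ
    obtain ⟨N1, hN1, hqN1⟩ := h.Iex q hqI
    refine ⟨N1 * ∏ x ∈ Q, x.1, by rw [lvl, hN1, mul_assoc], ?_⟩
    rw [Nat.Prime.dvd_mul hqp, not_or]
    refine ⟨hqN1, ?_⟩
    rw [Prime.dvd_finsetProd_iff hqp.prime]
    rintro ⟨x, hx, hrx⟩
    have h1 := (Nat.prime_dvd_prime_iff_eq hqp x.2.1).1 hrx
    exact hqQ ⟨x, hx, h1.symm⟩

theorem PCond.cdr_dvd : cdr Q I ∣ lvl N Q := by
  refine Finset.prod_primes_dvd _ (fun q hq => (h.pr hq).prime) fun q hq => ?_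
  obtain ⟨N1, h1, -⟩ := h.ex hq
  exact ⟨N1, h1⟩

theorem PCond.squarefree : Squarefree (cdr Q I) := by
  rw [cdr]
  refine Finset.squarefree_prod_of_pairwise_isCoprime ?_ fun q hq => (h.pr hq).squarefree
  intro q hq r hr hqr
  show IsRelPrime q r
  exact Nat.coprime_iff_isRelPrime.1 ((Nat.coprime_primes (h.pr hq) (h.pr hr)).2 hqr)

theorem PCond.dat₁ : Dat ψ₁ (allP Q I) (cdr Q I) (lvl N Q) N'' (bad Q) where
  pr _ hq := h.pr hq
  dvd_c _ hq := dvd_cdr hq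
  exact' _ hq := h.ex hq
  odd q hq := by
    obtain ⟨e, he⟩ := h.pow₁ q hq
    exact ⟨_, (h.pp.odd_of_ne_two h.hp2).pow, he⟩
  level := h.lev
  avoid l hl := l.2.2 (h.supp _ l.2.1 hl)

theorem PCond.dat₂ : Dat ψ₂ (allP Q I) (cdr Q I) (lvl N Q) N'' (bad Q) where
  pr _ hq := h.pr hq
  dvd_c _ hq := dvd_cdr hq
  exact' _ hq := h.ex hq
  odd q hq := by
    obtain ⟨e, he⟩ := h.pow₂ q hq
    exact ⟨_, (h.pp.odd_of_ne_two h.hp2).pow, he⟩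
  level := h.lev
  avoid l hl := l.2.2 (h.supp _ l.2.1 hl)

theorem PCond.lvl_dvd : lvl N Q ∣ N'' := (Dvd.intro _ rfl).trans h.lev

theorem PCond.not_dvd (l : PS (bad Q)) : ¬ l.1 ∣ lvl N Q :=
  fun h' => h.dat₁.avoid l (h'.trans h.lvl_dvd)

theorem PCond.unit_of {l : ℕ} (hl : l.Prime) (hlN : ¬ l ∣ lvl N Q) {q : ℕ} (hq : q ∈ allP Q I) :
    IsUnit (l : ZMod q) :=
  char_q hl hlN ((dvd_cdr hq).trans h.cdr_dvd)

omit h in
theorem pow_char_eq_one {p : ℕ} (pp : p.Prime) (hp : (p : k) = 0) {e : ℕ} {x : k}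
    (hx : x ^ p ^ e = 1) : x = 1 := by
  haveI : Fact p.Prime := ⟨pp⟩
  haveI : CharP k p := (CharP.charP_iff_prime_eq_zero pp).2 hp
  have h1 : (x - 1) ^ p ^ e = 0 := by rw [sub_pow_char_pow, one_pow, hx, sub_self]
  exact sub_eq_zero.1 (pow_eq_zero_iff (pow_ne_zero _ pp.ne_zero) |>.1 h1)

theorem PCond.wk {ψ : ∀ q : ℕ, DirichletCharacter Λ q} (hψ : ∀ q ∈ allP Q I, ∃ e, ψ q ^ p ^ e = 1)
    (l : PS (bad Q)) : algebraMap Λ k (ws ψ (allP Q I) l.1) = 1 := by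
  rw [ws, map_prod]
  refine Finset.prod_eq_one fun q hq => ?_
  obtain ⟨e, he⟩ := hψ q hq
  obtain ⟨u, hu⟩ := h.unit_of l.2.1 (h.not_dvd l) hq
  refine pow_char_eq_one h.pp h.hp (e := e) ?_
  rw [← map_pow, ← hu, ← MulChar.pow_apply_coe, he, MulChar.one_apply_coe, map_one]

theorem PCond.ne_zero₂ : (2 : k) ≠ 0 := by
  intro h2
  haveI : Fact p.Prime := ⟨h.pp⟩
  haveI : CharP k p := (CharP.charP_iff_prime_eq_zero h.pp).2 h.hp
  have h1 : p ∣ 2 := (CharP.cast_eq_zero_iff k p 2).1 (by exact_mod_cast h2)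
  exact h.hp2 ((Nat.prime_dvd_prime_iff_eq h.pp Nat.prime_two).1 h1)

end Lemmas

end Fermat.Agent.TWCoh
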