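import Fermat.Agent.TWCoh.Package2

/-!
# The modules of level `n` in the Taylor-Wiles method, III
-/

set_option autoImplicit false

noncomputable section

namespace Fermat.Agent.TWCoh

open Matrix CongruenceSubgroup MvPolynomial Fermat.Agent.AnJac
open scoped MatrixGroups OnePoint

section Modules

variable {O k Λ : Type} [CommRing O] [Field k] [Algebra O k] [CommRing Λ] [Algebra Λ k]
    {ε : Λ →+* O} {lam : Λ} {p N N'' : ℕ} {S : Set ℕ} {Q : Finset (PS S)} {I : Finset ℕ}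
    {τ α β : PS S → k} {ψ₁ ψ₂ : ∀ q : ℕ, DirichletCharacter Λ q}

/-- the maximal ideal modulo `λ` -/
theorem map_mem_map_evI (h : PCond ε lam p N N'' Q I τ α β ψ₁ ψ₂) (σ : PS S → k)
    (t : HA Λ S) : MvPolynomial.map (Ideal.Quotient.mk (Ideal.span {lam})) t ∈
      (evI Λ σ).map (MvPolynomial.map (Ideal.Quotient.mk (Ideal.span {lam}))) ↔ t ∈ evI Λ σ := by
  constructor
  · intro ht
    rw [Ideal.mem_map_iff_of_surjective _
      (MvPolynomial.map_surjective _ Ideal.Quotient.mk_surjective)] at ht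
    obtain ⟨t', ht', he⟩ := ht
    let g : Λ ⧸ Ideal.span {lam} →+* k := Ideal.Quotient.lift _ (algebraMap Λ k) (by
      intro a ha
      obtain ⟨b, rfl⟩ := Ideal.mem_span_singleton.1 ha
      rw [map_mul, h.hlam, zero_mul])
    have h1 : ∀ u : HA Λ S, aeval (R := Λ) σ u =
        eval₂ g σ (MvPolynomial.map (Ideal.Quotient.mk (Ideal.span {lam})) u) := by
      intro u
      rw [eval₂_map, aeval_def]
      rfl
    rw [mem_evI] at ht' ⊢
    rw [h1, ← he, ← h1, ht']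
  · exact fun ht => Ideal.mem_map_of_mem _ ht

theorem compat_lam (h : PCond ε lam p N N'' Q I τ α β ψ₁ ψ₂) :
    Compat (Ideal.Quotient.mk (Ideal.span {lam})) (lvl N Q) (dch ψ₁ (allP Q I) (cdr Q I))
      (dch (cmp (Ideal.Quotient.mk (Ideal.span {lam})) ψ₁) (allP Q I) (cdr Q I)) := by
  intro a ha
  have ha' := isUnit_of_isCoprime (ha.of_isCoprime_of_dvd_right
    (by exact_mod_cast h.cdr_dvd : ((cdr Q I : ℕ) : ℤ) ∣ lvl N Q))
  rw [dch_apply (fun q hq => dvd_cdr hq) ha', dch_apply (fun q hq => dvd_cdr hq) ha', chs_cmp]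

theorem mk_eq (h : PCond ε lam p N N'' Q I τ α β ψ₁ ψ₂) {q : ℕ} (hq : q ∈ allP Q I)
    {a : ZMod q} (ha : IsUnit a) : Ideal.Quotient.mk (Ideal.span {lam}) (ψ₁ q a) =
      Ideal.Quotient.mk (Ideal.span {lam}) (ψ₂ q a) := by
  obtain ⟨u, rfl⟩ := ha
  rw [Ideal.Quotient.eq, Ideal.mem_span_singleton]
  exact h.cong q hq u

theorem compat_lam₂ (h : PCond ε lam p N N'' Q I τ α β ψ₁ ψ₂) :
    Compat (Ideal.Quotient.mk (Ideal.span {lam})) (lvl N Q) (dch ψ₂ (allP Q I) (cdr Q I))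
      (dch (cmp (Ideal.Quotient.mk (Ideal.span {lam})) ψ₁) (allP Q I) (cdr Q I)) := by
  intro a ha
  have ha' := isUnit_of_isCoprime (ha.of_isCoprime_of_dvd_right
    (by exact_mod_cast h.cdr_dvd : ((cdr Q I : ℕ) : ℤ) ∣ lvl N Q))
  rw [dch_apply (fun q hq => dvd_cdr hq) ha', dch_apply (fun q hq => dvd_cdr hq) ha', chs_cmp,
    chs, chs, map_prod, map_prod]
  refine Finset.prod_congr rfl fun q hq => ?_
  rw [map_pow, map_pow, mk_eq h hq (isUnit_of_isCoprime (ha.of_isCoprime_of_dvd_right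
    (by exact_mod_cast (dvd_cdr hq).trans h.cdr_dvd)))]

theorem map_twp_eq (h : PCond ε lam p N N'' Q I τ α β ψ₁ ψ₂) (t : HA Λ (bad Q)) :
    MvPolynomial.map (Ideal.Quotient.mk (Ideal.span {lam})) (twp ψ₁ (allP Q I) (sub_bad Q) t) =
    MvPolynomial.map (Ideal.Quotient.mk (Ideal.span {lam}))
      (twp ψ₂ (allP Q I) (sub_bad Q) t) := by
  induction t using MvPolynomial.induction_on with
  | C r =>
    rw [← MvPolynomial.algebraMap_eq, AlgHom.commutes, AlgHom.commutes]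
  | add p q hp hq => rw [map_add, map_add, map_add, map_add, hp, hq]
  | mul_X p l hp =>
    rw [map_mul, map_mul, map_mul, map_mul, hp, twp_X, twp_X, map_mul, map_mul, map_C, map_C]
    congr 3
    rw [ws, ws, map_prod, map_prod]
    exact Finset.prod_congr rfl fun q hq => mk_eq h hq (h.unit_of l.2.1 (h.not_dvd l) hq)

variable [NeZero N] [IsLocalRing Λ] [IsNoetherianRing Λ]
  [IsAdicComplete (IsLocalRing.maximalIdeal Λ) Λ] [IsLocalRing O] [IsNoetherianRing O]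
  [IsAdicComplete (IsLocalRing.maximalIdeal O) O]

theorem mem_max_of_map_eq_zero (h : PCond ε lam p N N'' Q I τ α β ψ₁ ψ₂) {x : Λ}
    (hx : algebraMap Λ k x = 0) : x ∈ IsLocalRing.maximalIdeal Λ := by
  have h1 : (RingHom.ker (algebraMap Λ k)).IsMaximal := RingHom.ker_isMaximal_of_surjective _ h.hΛk
  rw [← IsLocalRing.eq_maximalIdeal h1]
  exact hx

theorem exists_lam_aux (h : PCond ε lam p N N'' Q I τ α β ψ₁ ψ₂)
    {ψ : ∀ q : ℕ, DirichletCharacter Λ q}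
    (hcp : Compat (Ideal.Quotient.mk (Ideal.span {lam})) (lvl N Q) (dch ψ (allP Q I) (cdr Q I))
      (dch (cmp (Ideal.Quotient.mk (Ideal.span {lam})) ψ₁) (allP Q I) (cdr Q I)))
    (x : MQ (N := N) (I := I) τ α h.cdr_dvd ψ)
    (hx : red (map_mem_map_evI h _) Ideal.Quotient.mk_surjective h.cdr_dvd h.cdr_dvd hcp x = 0) :
    ∃ y, x = lam • y := by
  have := evI_isMaximal h.hΛk (modE Q τ α)
  have h1 := mem_smul_of_red_eq_zero (map_mem_map_evI h _) Ideal.Quotient.mk_surjective hcp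
    h.NonEis (h.tame ψ) h.isUnit₂ h.V3 x hx
  rw [Ideal.mk_ker, Submodule.ideal_span_singleton_smul] at h1
  obtain ⟨y, -, hy⟩ := h1
  exact ⟨y, hy.symm⟩

/-- **The structure at level `n`.** -/
theorem exists_matrices (h : PCond ε lam p N N'' Q I τ α β ψ₁ ψ₂) {d : ℕ}
    (b₀ : Module.Basis (Fin d) O (M0 O N τ)) :
    ∃ X₁ X₂ : TC (sub_bad Q) ψ₁ ψ₂ (allP Q I) (MQ (N := N) (I := I) τ α h.cdr_dvd ψ₁)
        (MQ (N := N) (I := I) τ α h.cdr_dvd ψ₂) →+* Matrix (Fin d) (Fin d) Λ,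
      (∀ t, X₁ t = 0 ↔ aC₁ (sub_bad Q) ψ₁ ψ₂ (allP Q I) _ _ t = 0) ∧
      (∀ t, X₂ t = 0 ↔ aC₂ (sub_bad Q) ψ₁ ψ₂ (allP Q I) _ _ t = 0) ∧
      (∀ r : Λ, X₁ (algebraMap Λ _ r) = Matrix.scalar (Fin d) r) ∧
      (∀ r : Λ, X₂ (algebraMap Λ _ r) = Matrix.scalar (Fin d) r) ∧
      (∀ t : HA Λ (bad Q), ε.mapMatrix (X₁ (Ideal.Quotient.mk _ t)) =
        LinearMap.toMatrix b₀ b₀
          (Algebra.lsmul O O (M0 O N τ) (rn O Q (MvPolynomial.map ε t)) : Module.End O _)) ∧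
      (∀ t i j, ∃ c, X₁ t i j - X₂ t i j = lam * c) := by
  have := evI_isMaximal h.hΛk (modE Q τ α)
  obtain ⟨π, hπ, hkerπ, hπt⟩ := exists_pi h
  have hnt : Nontrivial O := (algebraMap O k).domain_nontrivial
  haveI := free_MQ h ψ₁
  haveI := free_MQ h ψ₂
  have hd₁ : Module.finrank Λ (MQ (N := N) (I := I) τ α h.cdr_dvd ψ₁) = d := by
    rw [← finrank_red h.hε π hπ hkerπ, Module.finrank_eq_card_basis b₀, Fintype.card_fin]
  set f := Ideal.Quotient.mk (Ideal.span {lam}) with hf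
  have hfs : Function.Surjective f := Ideal.Quotient.mk_surjective
  have hlm : lam ∈ IsLocalRing.maximalIdeal Λ := mem_max_of_map_eq_zero h h.hlam
  haveI : Nontrivial (Λ ⧸ Ideal.span {lam}) := Ideal.Quotient.nontrivial_iff.2 (by
    intro h1
    rw [Ideal.eq_top_iff_one] at h1
    have h2 := (Ideal.span_singleton_le_iff_mem _).2 hlm h1
    exact (Ideal.ne_top_iff_one _).1 (IsLocalRing.maximalIdeal.isMaximal Λ).ne_top h2)
  set R₁ := red (map_mem_map_evI h (modE Q τ α)) hfs h.cdr_dvd h.cdr_dvd (compat_lam h) with hR₁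
  set R₂ := red (map_mem_map_evI h (modE Q τ α)) hfs h.cdr_dvd h.cdr_dvd (compat_lam₂ h) with hR₂
  have hR₁s : Function.Surjective R₁ := red_surjective _ hfs _ h.NonEis (h.tame ψ₁) h.isUnit₂ h.V3
  have hR₂s : Function.Surjective R₂ := red_surjective _ hfs _ h.NonEis (h.tame ψ₂) h.isUnit₂ h.V3
  have hd₂ : Module.finrank Λ (MQ (N := N) (I := I) τ α h.cdr_dvd ψ₂) = d := by
    rw [← hd₁, ← finrank_red hfs R₁ hR₁s (fun x hx => mem_smul_of_red_eq_zero _ hfs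
      (compat_lam h) h.NonEis (h.tame ψ₁) h.isUnit₂ h.V3 x hx),
      ← finrank_red hfs R₂ hR₂s (fun x hx => mem_smul_of_red_eq_zero _ hfs
      (compat_lam₂ h) h.NonEis (h.tame ψ₂) h.isUnit₂ h.V3 x hx)]
  -- the common quotient
  letI iN : Module Λ (loc ((evI Λ (modE Q τ α)).map (MvPolynomial.map f))
    (MS h.cdr_dvd (dch (cmp f ψ₁) (allP Q I) (cdr Q I)) (Λ ⧸ Ideal.span {lam}))) :=
    Module.compHom _ f
  let r₁ : MQ (N := N) (I := I) τ α h.cdr_dvd ψ₁ →ₗ[Λ]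
      (loc ((evI Λ (modE Q τ α)).map (MvPolynomial.map f))
      (MS h.cdr_dvd (dch (cmp f ψ₁) (allP Q I) (cdr Q I)) (Λ ⧸ Ideal.span {lam}))) :=
    { toFun := R₁
      map_add' := map_add R₁
      map_smul' := fun r x => LinearMap.map_smulₛₗ R₁ r x }
  let r₂ : MQ (N := N) (I := I) τ α h.cdr_dvd ψ₂ →ₗ[Λ]
      (loc ((evI Λ (modE Q τ α)).map (MvPolynomial.map f))
      (MS h.cdr_dvd (dch (cmp f ψ₁) (allP Q I) (cdr Q I)) (Λ ⧸ Ideal.span {lam}))) :=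
    { toFun := R₂
      map_add' := map_add R₂
      map_smul' := fun r x => LinearMap.map_smulₛₗ R₂ r x }
  -- the action on level zero
  let A₀ : HA Λ (bad Q) →+* Module.End O (M0 O N τ) :=
    ((Algebra.lsmul O O (M0 O N τ)).toRingHom.comp (rn O Q).toRingHom).comp (MvPolynomial.map ε)
  have hA₀ : ∀ t x, A₀ t x = rn O Q (MvPolynomial.map ε t) • x := fun t x => rfl
  let a₀ : TC (sub_bad Q) ψ₁ ψ₂ (allP Q I) (MQ (N := N) (I := I) τ α h.cdr_dvd ψ₁)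
        (MQ (N := N) (I := I) τ α h.cdr_dvd ψ₂) →+* Module.End O (M0 O N τ) :=
    Ideal.Quotient.lift _ A₀ (by
      intro t ht
      apply LinearMap.ext
      intro y
      obtain ⟨x, rfl⟩ := hπ y
      rw [hA₀, ← hπt, mem_annT.1 ht.1, map_zero]
      rfl)
  have ha₀ : ∀ t, a₀ (Ideal.Quotient.mk _ t) = A₀ t := fun t => rfl
  have hr₁a : ∀ (t : TC (sub_bad Q) ψ₁ ψ₂ (allP Q I) (MQ (N := N) (I := I) τ α h.cdr_dvd ψ₁)
        (MQ (N := N) (I := I) τ α h.cdr_dvd ψ₂)) x,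
      r₁ (aC₁ (sub_bad Q) ψ₁ ψ₂ (allP Q I) _ _ t x) =
      MvPolynomial.map f (twp ψ₁ (allP Q I) (sub_bad Q)
        (Function.surjInv Ideal.Quotient.mk_surjective t)) • r₁ x := by
    intro t x
    have ht : Ideal.Quotient.mk _ (Function.surjInv Ideal.Quotient.mk_surjective t) = t :=
      Function.surjInv_eq _ t
    conv_lhs => rw [← ht]
    rw [aC₁_mk]
    exact red_smul (map_mem_map_evI h _) hfs (compat_lam h) _ x
  have hr₂a : ∀ (t : TC (sub_bad Q) ψ₁ ψ₂ (allP Q I) (MQ (N := N) (I := I) τ α h.cdr_dvd ψ₁)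
        (MQ (N := N) (I := I) τ α h.cdr_dvd ψ₂)) x,
      r₂ (aC₂ (sub_bad Q) ψ₁ ψ₂ (allP Q I) _ _ t x) =
      MvPolynomial.map f (twp ψ₁ (allP Q I) (sub_bad Q)
        (Function.surjInv Ideal.Quotient.mk_surjective t)) • r₂ x := by
    intro t x
    have ht : Ideal.Quotient.mk _ (Function.surjInv Ideal.Quotient.mk_surjective t) = t :=
      Function.surjInv_eq _ t
    conv_lhs => rw [← ht]
    rw [aC₂_mk, map_twp_eq h]
    exact red_smul (map_mem_map_evI h _) hfs (compat_lam₂ h) _ x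
  have hk₁ : ∀ x, r₁ x = 0 → ∃ y, x = lam • y := fun x hx => exists_lam_aux h (compat_lam h) x hx
  have hk₂ : ∀ x, r₂ x = 0 → ∃ y, x = lam • y := fun x hx => exists_lam_aux h (compat_lam₂ h) x hx
  let aN : TC (sub_bad Q) ψ₁ ψ₂ (allP Q I) (MQ (N := N) (I := I) τ α h.cdr_dvd ψ₁)
        (MQ (N := N) (I := I) τ α h.cdr_dvd ψ₂) →
        (loc ((evI Λ (modE Q τ α)).map (MvPolynomial.map f))
        (MS h.cdr_dvd (dch (cmp f ψ₁) (allP Q I) (cdr Q I)) (Λ ⧸ Ideal.span {lam}))) →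
        (loc ((evI Λ (modE Q τ α)).map (MvPolynomial.map f))
        (MS h.cdr_dvd (dch (cmp f ψ₁) (allP Q I) (cdr Q I)) (Λ ⧸ Ideal.span {lam}))) :=
    fun t y => MvPolynomial.map f (twp ψ₁ (allP Q I) (sub_bad Q)
      (Function.surjInv Ideal.Quotient.mk_surjective t)) • y
  have hπa : ∀ (t : TC (sub_bad Q) ψ₁ ψ₂ (allP Q I) (MQ (N := N) (I := I) τ α h.cdr_dvd ψ₁)
        (MQ (N := N) (I := I) τ α h.cdr_dvd ψ₂)) x,
      π (aC₁ (sub_bad Q) ψ₁ ψ₂ (allP Q I) _ _ t x) = a₀ t (π x) := by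
    intro t x
    obtain ⟨t, rfl⟩ := Ideal.Quotient.mk_surjective t
    rw [ha₀, hA₀, aC₁_mk, hπt]
  have hr₁a' : ∀ (t : TC (sub_bad Q) ψ₁ ψ₂ (allP Q I) (MQ (N := N) (I := I) τ α h.cdr_dvd ψ₁)
        (MQ (N := N) (I := I) τ α h.cdr_dvd ψ₂)) x,
      r₁ (aC₁ (sub_bad Q) ψ₁ ψ₂ (allP Q I) _ _ t x) = aN t (r₁ x) := hr₁a
  have hr₂a' : ∀ (t : TC (sub_bad Q) ψ₁ ψ₂ (allP Q I) (MQ (N := N) (I := I) τ α h.cdr_dvd ψ₁)
        (MQ (N := N) (I := I) τ α h.cdr_dvd ψ₂)) x,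
      r₂ (aC₂ (sub_bad Q) ψ₁ ψ₂ (allP Q I) _ _ t x) = aN t (r₂ x) := hr₂a
  have hεl : RingHom.ker ε ≤ IsLocalRing.maximalIdeal Λ := fun x hx =>
    mem_max_of_map_eq_zero h (by rw [← h.hεk, RingHom.mem_ker.1 hx, map_zero])
  obtain ⟨X₁, X₂, h1, h2, h3, h4, h5, h6⟩ := TWPatch.exists_level hd₁ hd₂ ε h.hε hεl b₀
    (aC₁ (sub_bad Q) ψ₁ ψ₂ (allP Q I) (MQ (N := N) (I := I) τ α h.cdr_dvd ψ₁)
        (MQ (N := N) (I := I) τ α h.cdr_dvd ψ₂))
    (aC₂ (sub_bad Q) ψ₁ ψ₂ (allP Q I) (MQ (N := N) (I := I) τ α h.cdr_dvd ψ₁)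
        (MQ (N := N) (I := I) τ α h.cdr_dvd ψ₂)) a₀ aN
    π hπ hkerπ hπa hlm r₁ hR₁s hk₁ r₂ hR₂s hk₂ hr₁a' hr₂a'
  refine ⟨X₁, X₂, h1, h2, ?_, ?_, ?_, h6⟩
  · intro r
    refine h3 _ _ fun x => ?_
    show twp ψ₁ (allP Q I) (sub_bad Q) (algebraMap Λ _ r) • x = r • x
    rw [AlgHom.commutes, algebraMap_smul]
  · intro r
    refine h4 _ _ fun x => ?_
    show twp ψ₂ (allP Q I) (sub_bad Q) (algebraMap Λ _ r) • x = r • x
    rw [AlgHom.commutes, algebraMap_smul]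
  · intro t
    rw [h5]
    rfl

end Modules

end Fermat.Agent.TWCoh
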