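import Fermat.Agent.TWCoh.Package3
import Fermat.Agent.TWCoh.GroupRing

/-!
# The modules of level `n` in the Taylor-Wiles method, IV: the combined Hecke algebra
-/

set_option autoImplicit false

noncomputable section

namespace Fermat.Agent.TWCoh

open Matrix CongruenceSubgroup MvPolynomial Fermat.Agent.AnJac
open scoped MatrixGroups OnePoint

section Modules

variable {O k Λ : Type} [CommRing O] [Field k] [Algebra O k] [CommRing Λ] [Algebra Λ k]
    {ε : Λ →+* O} {lam : Λ} {p N N'' : ℕ} {S : Set ℕ} {Q : Finset (PS S)} {I : Finset ℕ}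
    {τ α β : PS S → k} {ψ₁ ψ₂ : ∀ q : ℕ, DirichletCharacter Λ q}

/-- the combined Hecke algebra at level `n` -/
abbrev TN (h : PCond ε lam p N N'' Q I τ α β ψ₁ ψ₂) : Type :=
  TC (sub_bad Q) ψ₁ ψ₂ (allP Q I) (MQ (N := N) (I := I) τ α h.cdr_dvd ψ₁)
    (MQ (N := N) (I := I) τ α h.cdr_dvd ψ₂)

/-- the Hecke operators -/
def TN.T (h : PCond ε lam p N N'' Q I τ α β ψ₁ ψ₂) (l : PS (bad Q)) : TN h :=
  Ideal.Quotient.mk _ (X l)

/-- generation -/
theorem TN.adjoin (h : PCond ε lam p N N'' Q I τ α β ψ₁ ψ₂) :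
    Algebra.adjoin Λ (Set.range (TN.T h)) = ⊤ := by
  rw [eq_top_iff]
  rintro x -
  obtain ⟨x, rfl⟩ := Ideal.Quotient.mk_surjective x
  induction x using MvPolynomial.induction_on with
  | C r => exact Subalgebra.algebraMap_mem _ r
  | add p q hp hq => rw [map_add]; exact add_mem hp hq
  | mul_X p l hp => rw [map_mul]; exact mul_mem hp (Algebra.subset_adjoin ⟨l, rfl⟩)

theorem fp_mem_annT {ψ : ∀ q : ℕ, DirichletCharacter Λ q}
    (h : PCond ε lam p N N'' Q I τ α β ψ₁ ψ₂)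
    (hd : Dat ψ (allP Q I) (cdr Q I) (lvl N Q) N'' (bad Q))
    {K : Type*} [Field K] [CharZero K] {J : Type*}
    (κ : J → Λ →+* K) (hκ : ∀ x, (∀ i, κ i x = 0) → x = 0) [NeZero N'']
    [IsLocalRing Λ] [IsNoetherianRing Λ] [IsAdicComplete (IsLocalRing.maximalIdeal Λ) Λ]
    {P : FreeAlgebra ℤ (PS (bad Q))}
    (hP : actS N'' (reP (fun l : PS (bad Q) => l.1) (fun l => l.2.1) P) = 0) :
    fp Λ (bad Q) P ∈ annT (sub_bad Q) ψ (allP Q I) (MQ (N := N) (I := I) τ α h.cdr_dvd ψ) := by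
  obtain ⟨l₀, h1, h2⟩ := h.nonEis
  refine mem_annT.2 fun x => Subtype.ext ?_
  exact rel_kill hd hκ hP h1 h2 x.2

/-- **The map from the Hecke algebra of level `N''`.** -/
theorem exists_heckeHom_TN (h : PCond ε lam p N N'' Q I τ α β ψ₁ ψ₂)
    {K : Type*} [Field K] [CharZero K] {J : Type*}
    (κ : J → Λ →+* K) (hκ : ∀ x, (∀ i, κ i x = 0) → x = 0) [NeZero N'']
    [IsLocalRing Λ] [IsNoetherianRing Λ] [IsAdicComplete (IsLocalRing.maximalIdeal Λ) Λ] :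
    ∃ g : CuspForm.heckeAlgebra N'' 2 (bad Q) →+* TN h,
      ∀ l : PS (bad Q), g (gT h.dat₁.avoid l) = TN.T h l := by
  refine exists_heckeHom h.dat₁.avoid h.supp (TN.T h) fun P hP => ?_
  refine (lift_eq_fp (Ideal.Quotient.mk _) (TN.T h) (fun l => rfl) P).trans ?_
  rw [Ideal.Quotient.eq_zero_iff_mem]
  exact ⟨fp_mem_annT h h.dat₁ κ hκ hP, fp_mem_annT h h.dat₂ κ hκ hP⟩

variable [NeZero N] [IsLocalRing Λ] [IsNoetherianRing Λ]
  [IsAdicComplete (IsLocalRing.maximalIdeal Λ) Λ] [IsLocalRing O] [IsNoetherianRing O]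
  [IsAdicComplete (IsLocalRing.maximalIdeal O) O]

theorem locCond (h : PCond ε lam p N N'' Q I τ α β ψ₁ ψ₂) [Nontrivial (M0 O N τ)] :
    LocCond (sub_bad Q) ψ₁ ψ₂ (allP Q I) (modE Q τ α)
      (MQ (N := N) (I := I) τ α h.cdr_dvd ψ₁) (MQ (N := N) (I := I) τ α h.cdr_dvd ψ₂) where
  w₁ := h.wk h.pow₁
  w₂ := h.wk h.pow₂
  b₁ t ht x := by
    have := evI_isMaximal h.hΛk (modE Q τ α)
    exact loc_exists Λ _ ht x
  b₂ t ht x := by
    have := evI_isMaximal h.hΛk (modE Q τ α)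
    exact loc_exists Λ _ ht x
  ne := by
    intro htop
    obtain ⟨π, hπ, -, -⟩ := exists_pi h
    obtain ⟨y, hy⟩ := exists_ne (0 : M0 O N τ)
    obtain ⟨x, rfl⟩ := hπ y
    apply hy
    have h1 : (1 : HA Λ (bad Q)) ∈ annT (sub_bad Q) ψ₁ (allP Q I)
        (MQ (N := N) (I := I) τ α h.cdr_dvd ψ₁) ⊓ annT (sub_bad Q) ψ₂ (allP Q I)
        (MQ (N := N) (I := I) τ α h.cdr_dvd ψ₂) := by rw [htop]; trivial
    have h2 := mem_annT.1 h1.1 x
    rw [map_one, one_smul] at h2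
    rw [h2, map_zero]

instance finite_TN (h : PCond ε lam p N N'' Q I τ α β ψ₁ ψ₂) : Module.Finite Λ (TN h) :=
  finite_TC

theorem isLocalRing_TN (h : PCond ε lam p N N'' Q I τ α β ψ₁ ψ₂) [Nontrivial (M0 O N τ)] :
    IsLocalRing (TN h) := isLocalRing_TC h.hΛk (locCond h)

/-- the residue map -/
def resN (h : PCond ε lam p N N'' Q I τ α β ψ₁ ψ₂) [Nontrivial (M0 O N τ)] : TN h →+* k :=
  resC h.hΛk (locCond h)

theorem resN_T (h : PCond ε lam p N N'' Q I τ α β ψ₁ ψ₂) [Nontrivial (M0 O N τ)]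
    (l : PS (bad Q)) : resN h (TN.T h l) = τ (inclPS (sub_bad Q) l) := by
  rw [resN, TN.T, resC_X, modE_incl]

theorem resN_algebraMap (h : PCond ε lam p N N'' Q I τ α β ψ₁ ψ₂) [Nontrivial (M0 O N τ)]
    (r : Λ) : resN h (algebraMap Λ _ r) = algebraMap Λ k r := resC_C _ _ _

end Modules

end Fermat.Agent.TWCoh
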