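import Fermat.Agent.TWCoh.Package4
import Fermat.Agent.TWCoh.JointEig
import Fermat.Agent.Newform.Conj

/-!
# Points of the Hecke algebra and eigenvectors
-/

set_option autoImplicit false

noncomputable section

universe u

namespace Fermat.Agent.TWCoh

open Matrix CongruenceSubgroup MvPolynomial Fermat.Agent.AnJac
open scoped MatrixGroups OnePoint

section Sqfree

open Newform in
theorem hecke_sqfree (N : ℕ) [NeZero N] {l : ℕ} (hl : l.Prime) (hlN : ¬ l ∣ N) :
    ∃ P : Polynomial ℤ, Polynomial.aeval (DSLift.heckeOp N 2 hl) P = 0 ∧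
      ∀ (K : Type u) [Field K] [CharZero K], Squarefree (P.map (Int.castRingHom K)) := by
  set T : Module.End ℂ (S2 N) := DSLift.heckeOp N 2 hl with hT
  letI : Algebra ℚ (Module.End ℂ (S2 N)) := Algebra.compHom _ (algebraMap ℚ ℂ)
  refine exists_sqfree (T := T) ?_ fun R hR => ?_
  · have h1 : IsIntegral ℤ (⟨T, heckeOp_mem_heckeAlgebra hl (Set.notMem_empty _)⟩ :
        CuspForm.heckeAlgebra N 2 ∅) := Algebra.IsIntegral.isIntegral _
    exact h1.map (CuspForm.heckeAlgebra N 2 ∅).val
  · have key : ∀ (χ : GP N → ℂ) (f : S2 N), f ∈ Eig N N χ → ∀ R : Polynomial ℚ,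
        Polynomial.aeval T R f = Polynomial.aeval (χ ⟨l, hl, hlN⟩) R • f := by
      intro χ f hf R
      have h1 : T f = χ ⟨l, hl, hlN⟩ • f := mem_Eig.1 hf ⟨l, hl, hlN⟩
      induction R using Polynomial.induction_on' with
      | add p q hp hq => rw [map_add, map_add, LinearMap.add_apply, hp, hq, add_smul]
      | monomial n a =>
        rw [Polynomial.aeval_monomial, Polynomial.aeval_monomial, Module.End.mul_apply]
        have h2 : ∀ n : ℕ, (T ^ n) f = (χ ⟨l, hl, hlN⟩ ^ n) • f := by
          intro n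
          induction n with
          | zero => rw [pow_zero, pow_zero, one_smul]; rfl
          | succ n ih => rw [pow_succ', Module.End.mul_apply, ih, map_smul, h1, smul_smul,
              pow_succ]
        rw [h2, mul_smul]
        have h3 : ∀ g : S2 N, (algebraMap ℚ (Module.End ℂ (S2 N)) a) g = (a : ℂ) • g := by
          intro g
          have : (algebraMap ℚ (Module.End ℂ (S2 N)) a) = algebraMap ℂ _ (a : ℂ) := rfl
          rw [this]
          rfl
        rw [h3]
        rfl
    have h1 : (⊤ : Submodule ℂ (S2 N)) ≤ LinearMap.ker (Polynomial.aeval T R) := by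
      rw [← iSup_Eig (M := N) (D := N) dvd_rfl, iSup_le_iff]
      intro χ f hf
      rw [LinearMap.mem_ker, key χ f hf]
      have h2 : (Polynomial.aeval T R * Polynomial.aeval T R) f = 0 := by rw [hR]; rfl
      rw [Module.End.mul_apply, key χ f hf, map_smul, key χ f hf, smul_smul] at h2
      rcases smul_eq_zero.1 h2 with h3 | h3
      · rw [mul_self_eq_zero.1 h3, zero_smul]
      · rw [h3, smul_zero]
    exact LinearMap.ext fun f => h1 trivial

end Sqfree

section Twp

variable {Λ K : Type} [CommRing Λ] [CommRing K] (κ : Λ →+* K)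
  {ψ : ∀ q : ℕ, DirichletCharacter Λ q} {s : Finset ℕ} {S S' : Set ℕ} {hSS : S ⊆ S'}

theorem map_twp' (u : HA Λ S') : MvPolynomial.map κ (twp ψ s hSS u) =
    twp (cmp κ ψ) s hSS (MvPolynomial.map κ u) := by
  induction u using MvPolynomial.induction_on with
  | C r =>
    rw [map_C, ← MvPolynomial.algebraMap_eq, ← MvPolynomial.algebraMap_eq, AlgHom.commutes,
      AlgHom.commutes, MvPolynomial.algebraMap_eq, MvPolynomial.algebraMap_eq, map_C]
  | add p q hp hq => rw [map_add, map_add, map_add, map_add, hp, hq]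
  | mul_X p l hp =>
    rw [map_mul, map_mul, map_mul, map_mul, hp, twp_X, map_mul, map_C, map_X, map_X, twp_X,
      ws_cmp]

theorem map_ev_int {A B : Type*} [CommRing A] [CommRing B] (f : A →+* B) (a : A)
    (P : Polynomial ℤ) : f (P.eval₂ (Int.castRingHom A) a) = P.eval₂ (Int.castRingHom B) (f a) := by
  rw [Polynomial.hom_eval₂]
  congr 1
  exact RingHom.ext_int _ _

theorem fp_aeval (l : PS S') (P : Polynomial ℤ) :
    fp Λ S' (Polynomial.aeval (FreeAlgebra.ι ℤ l) P) =
      P.eval₂ (Int.castRingHom (HA Λ S')) (X l : HA Λ S') := by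
  rw [← fp_ι, ← Polynomial.aeval_algHom_apply, Polynomial.aeval_def]
  congr 1

theorem actS_aeval {N' : ℕ} [NeZero N'] (l : PS S') (P : Polynomial ℤ) :
    actS N' (reP (fun l : PS S' => l.1) (fun l => l.2.1) (Polynomial.aeval (FreeAlgebra.ι ℤ l) P)) =
      Polynomial.aeval (DSLift.heckeOp N' 2 l.2.1) P := by
  rw [← Polynomial.aeval_algHom_apply, ← Polynomial.aeval_algHom_apply, reP_ι, actS_ι]

end Twp

section Main

variable {O k Λ : Type} [CommRing O] [Field k] [Algebra O k] [CommRing Λ] [Algebra Λ k]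
    {ε : Λ →+* O} {lam : Λ} {p N N'' : ℕ} {S : Set ℕ} {Q : Finset (PS S)} {I : Finset ℕ}
    {τ α β : PS S → k} {ψ₁ ψ₂ : ∀ q : ℕ, DirichletCharacter Λ q}

theorem compat_self {Λ K : Type} [CommRing Λ] [CommRing K] (κ : Λ →+* K) (N : ℕ) {c : ℕ}
    (θ : DirichletCharacter Λ c) : Compat κ N θ (θ.ringHomComp κ) := fun _ _ => rfl

/-- **Reducedness**: an operator which does not vanish is detected by an eigenvector. -/
theorem exists_eigen (h : PCond ε lam p N N'' Q I τ α β ψ₁ ψ₂)
    {ψ : ∀ q : ℕ, DirichletCharacter Λ q}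
    (hd : Dat ψ (allP Q I) (cdr Q I) (lvl N Q) N'' (bad Q))
    {K : Type} [Field K] [CharZero K] [IsAlgClosed K] {J : Type*}
    (κ : J → Λ →+* K) (hκ : ∀ x, (∀ i, κ i x = 0) → x = 0) [NeZero N''] [NeZero N]
    [IsLocalRing Λ] [IsNoetherianRing Λ] [IsAdicComplete (IsLocalRing.maximalIdeal Λ) Λ]
    {t : HA Λ (bad Q)}
    (ht : t ∉ annT (sub_bad Q) ψ (allP Q I) (MQ (N := N) (I := I) τ α h.cdr_dvd ψ)) :
    ∃ (j : J) (φ : MS h.cdr_dvd ((dch ψ (allP Q I) (cdr Q I)).ringHomComp (κ j)) K)
      (lm : PS S → K), φ ≠ 0 ∧ (∀ l : PS S, (X l : HA K S) • φ = lm l • φ) ∧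
      (∀ a ∈ Module.annihilator (HA Λ S) (MQ (N := N) (I := I) τ α h.cdr_dvd ψ),
        eval₂ (κ j) lm a = 0) ∧
      eval₂ (κ j) lm (twp ψ (allP Q I) (sub_bad Q) t) ≠ 0 := by
  set θ := dch ψ (allP Q I) (cdr Q I) with hθ
  obtain ⟨x, hx⟩ : ∃ x : MQ (N := N) (I := I) τ α h.cdr_dvd ψ,
      twp ψ (allP Q I) (sub_bad Q) t • x ≠ 0 := by
    by_contra hcon
    push Not at hcon
    exact ht (mem_annT.2 hcon)
  obtain ⟨a, b, hab⟩ : ∃ a b, (twp ψ (allP Q I) (sub_bad Q) t • x).1.1 a b ≠ 0 := by
    by_contra hcon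
    push Not at hcon
    exact hx (Subtype.ext (MS.ext' hcon))
  obtain ⟨j, hj⟩ : ∃ j, κ j ((twp ψ (allP Q I) (sub_bad Q) t • x).1.1 a b) ≠ 0 := by
    by_contra hcon
    push Not at hcon
    exact hab (hκ _ hcon)
  have hcp : Compat (κ j) (lvl N Q) θ (θ.ringHomComp (κ j)) := compat_self _ _ _
  set R : MS h.cdr_dvd θ Λ →ₛₗ[κ j] MS h.cdr_dvd (θ.ringHomComp (κ j)) K :=
    redS h.cdr_dvd h.cdr_dvd hcp with hR
  let W : Submodule (HA K S) (MS h.cdr_dvd (θ.ringHomComp (κ j)) K) :=
    Submodule.span (HA K S) (Set.range fun x : MQ (N := N) (I := I) τ α h.cdr_dvd ψ => R x.1)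
  have hRW : ∀ x : MQ (N := N) (I := I) τ α h.cdr_dvd ψ, R x.1 ∈ W := fun x =>
    Submodule.subset_span ⟨x, rfl⟩
  haveI : FiniteDimensional K W := FiniteDimensional.finiteDimensional_submodule
    (W.restrictScalars K)
  have hkill : ∀ u : HA K S, (∀ x : MQ (N := N) (I := I) τ α h.cdr_dvd ψ, u • R x.1 = 0) →
      ∀ w : W, u • w = 0 := by
    intro u hu w
    obtain ⟨w, hw⟩ := w
    apply Subtype.ext
    show u • w = 0
    induction hw using Submodule.span_induction with
    | mem y hy => obtain ⟨x, rfl⟩ := hy; exact hu x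
    | zero => rw [smul_zero]
    | add y z _ _ hy hz => rw [smul_add, hy, hz, add_zero]
    | smul c y _ hy => rw [smul_comm, hy, smul_zero]
  -- semisimplicity
  have hss : ∀ u : HA K (bad Q), (Algebra.lsmul K K W
      (twp (cmp (κ j) ψ) (allP Q I) (sub_bad Q) u) : Module.End K W).IsSemisimple := by
    have hcomm : ∀ u v : HA K S, Commute (Algebra.lsmul K K W u : Module.End K W)
        (Algebra.lsmul K K W v) := fun u v => (Commute.all u v).map (Algebra.lsmul K K W)
    have hC : ∀ r : K, (algebraMap K (Module.End K W) r).IsSemisimple := by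
      intro r
      exact Module.End.IsSemisimple_smul r (Module.End.isSemisimple_id (R := K) (M := W))
    have hX : ∀ l : PS (bad Q), (Algebra.lsmul K K W
        (twp (cmp (κ j) ψ) (allP Q I) (sub_bad Q) (X l)) : Module.End K W).IsSemisimple := by
      intro l
      obtain ⟨P, hP, hsq⟩ := hecke_sqfree.{0} N'' l.2.1 (hd.avoid l)
      refine Module.End.isSemisimple_of_squarefree_aeval_eq_zero (hsq K) ?_
      rw [Polynomial.aeval_algHom_apply]
      have h1 : Polynomial.aeval (R := K) (twp (cmp (κ j) ψ) (allP Q I) (sub_bad Q) (X l))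
          (P.map (Int.castRingHom K)) = P.eval₂ (Int.castRingHom (HA K S))
          (twp (cmp (κ j) ψ) (allP Q I) (sub_bad Q) (X l)) := by
        rw [Polynomial.aeval_def, Polynomial.eval₂_map]
        congr 1
      rw [h1]
      apply LinearMap.ext
      intro w
      refine hkill _ (fun x => ?_) w
      have h2 : P.eval₂ (Int.castRingHom (HA K S))
          (twp (cmp (κ j) ψ) (allP Q I) (sub_bad Q) (X l)) =
          MvPolynomial.map (κ j) (twp ψ (allP Q I) (sub_bad Q)
            (fp Λ (bad Q) (Polynomial.aeval (FreeAlgebra.ι ℤ l) P))) := by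
        rw [map_twp', fp_aeval, map_ev_int (MvPolynomial.map (κ j)), map_X]
        exact (map_ev_int (twp (cmp (κ j) ψ) (allP Q I) (sub_bad Q) :
          HA K (bad Q) →+* HA K S) (X l) P).symm
      rw [h2, hR, ← redS_smul]
      have h3 := mem_annT.1 (fp_mem_annT h hd κ hκ
        (P := Polynomial.aeval (FreeAlgebra.ι ℤ l) P) (by rw [actS_aeval, hP])) x
      have h4 : (twp ψ (allP Q I) (sub_bad Q) (fp Λ (bad Q)
        (Polynomial.aeval (FreeAlgebra.ι ℤ l) P))) • x.1 = 0 := congrArg Subtype.val h3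
      rw [h4, map_zero]
    intro u
    induction u using MvPolynomial.induction_on with
    | C r =>
      rw [← MvPolynomial.algebraMap_eq, AlgHom.commutes, AlgHom.commutes]
      exact hC r
    | add p q hp hq =>
      rw [map_add, map_add]
      exact Module.End.IsSemisimple.add_of_commute (hcomm _ _) hp hq
    | mul_X p l hp =>
      rw [map_mul, map_mul]
      exact Module.End.IsSemisimple.mul_of_commute (hcomm _ _) hp (hX l)
  -- the eigenvector
  have hne : ∃ w : W, (twp (cmp (κ j) ψ) (allP Q I) (sub_bad Q) (MvPolynomial.map (κ j) t)) • w ≠ 0 := by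
    refine ⟨⟨R x.1, hRW x⟩, fun h0 => hj ?_⟩
    have h1 : (twp (cmp (κ j) ψ) (allP Q I) (sub_bad Q) (MvPolynomial.map (κ j) t)) • R x.1 = 0 :=
      congrArg Subtype.val h0
    rw [← map_twp', hR, ← redS_smul] at h1
    exact congrArg (fun z : MS h.cdr_dvd (θ.ringHomComp (κ j)) K => z.1 a b) h1
  obtain ⟨v, hv, e, he, he0⟩ := exists_joint_ne (K := K) (hss _) hne
  have hv' : (v : MS h.cdr_dvd (θ.ringHomComp (κ j)) K) ≠ 0 := fun h => hv (Subtype.ext h)
  have hX : ∀ l : PS S, (X l : HA K S) • (v : MS h.cdr_dvd (θ.ringHomComp (κ j)) K) =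
      e (X l) • (v : MS h.cdr_dvd (θ.ringHomComp (κ j)) K) := fun l =>
    congrArg Subtype.val (he (X l))
  have hev : ∀ u : HA K S, u • (v : MS h.cdr_dvd (θ.ringHomComp (κ j)) K) =
      (eval (fun l => e (X l)) u) • (v : MS h.cdr_dvd (θ.ringHomComp (κ j)) K) := by
    intro u
    induction u using MvPolynomial.induction_on with
    | C r => rw [C_smul, eval_C]
    | add p q hp hq => rw [add_smul, hp, hq, map_add, add_smul]
    | mul_X p l hp =>
      rw [mul_smul, hX, map_mul, eval_X, mul_smul, poly_smul_comm, hp, smul_comm]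
  have hinj : ∀ r : K, r • (v : MS h.cdr_dvd (θ.ringHomComp (κ j)) K) = 0 → r = 0 := by
    intro r hr
    by_contra hr0
    apply hv'
    have := congrArg (fun z => r⁻¹ • z) hr
    simpa [smul_smul, inv_mul_cancel₀ hr0] using this
  have hmap : ∀ u : HA Λ S, eval₂ (κ j) (fun l => e (X l)) u =
      eval (fun l => e (X l)) (MvPolynomial.map (κ j) u) := fun u => by
    rw [eval_map]
  refine ⟨j, v, fun l => e (X l), hv', hX, fun u hu => ?_, ?_⟩
  · rw [hmap]
    apply hinj
    rw [← hev]
    have h1 := hkill (MvPolynomial.map (κ j) u) (fun x => by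
      rw [hR, ← redS_smul]
      have h4 : u • x.1 = 0 := congrArg Subtype.val (Module.mem_annihilator.1 hu x)
      rw [h4, map_zero]) v
    exact congrArg Subtype.val h1
  · intro h0
    rw [hmap] at h0
    apply he0
    apply hinj
    have h1 : (twp (cmp (κ j) ψ) (allP Q I) (sub_bad Q) (MvPolynomial.map (κ j) t)) •
        (v : MS h.cdr_dvd (θ.ringHomComp (κ j)) K) =
        e (twp (cmp (κ j) ψ) (allP Q I) (sub_bad Q) (MvPolynomial.map (κ j) t)) •
        (v : MS h.cdr_dvd (θ.ringHomComp (κ j)) K) := congrArg Subtype.val (he _)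
    rw [← h1, ← map_twp', hev, h0, zero_smul]

end Main

end Fermat.Agent.TWCoh
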