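import Fermat.Agent.TWCoh.ESTr

/-!
# Simultaneous twists
-/

set_option autoImplicit false

noncomputable section

namespace Fermat.Agent.TWCoh

open Matrix CongruenceSubgroup Fermat.Agent.AnJac
open scoped MatrixGroups OnePoint

section Def

variable {K : Type*} [CommRing K] (A : Type*) [AddCommGroup A] [Module K A]

theorem plL_comm (a b : ℚ) : Commute (plL K A (Tr a)) (plL K A (Tr b)) := by
  ext φ : 1
  show pl (Tr a) (pl (Tr b) φ) = pl (Tr b) (pl (Tr a) φ)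
  rw [pl_pl, pl_pl, Tr_mul, Tr_mul, add_comm]

theorem Rt_comm (q r : ℕ) [NeZero q] [NeZero r] (ψ : DirichletCharacter K q)
    (ψ' : DirichletCharacter K r) : Commute (Rt q ψ A) (Rt r ψ' A) := by
  refine Commute.sum_left _ _ _ fun u _ => Commute.sum_right _ _ _ fun v _ => ?_
  exact ((plL_comm A _ _).smul_left _).smul_right _

/-- the twist by the inverse character, `1` for `q = 0`. -/
def R1 (ψ : ∀ q : ℕ, DirichletCharacter K q) (q : ℕ) : Module.End K (P1 → P1 → A) :=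
  if h : q = 0 then 1 else haveI : NeZero q := ⟨h⟩; Rt q (ψ q)⁻¹ A

theorem R1_eq (ψ : ∀ q : ℕ, DirichletCharacter K q) (q : ℕ) [h : NeZero q] :
    R1 A ψ q = Rt q (ψ q)⁻¹ A := by
  rw [R1, dif_neg h.out]

theorem R1_comm (ψ : ∀ q : ℕ, DirichletCharacter K q) (q r : ℕ) :
    Commute (R1 A ψ q) (R1 A ψ r) := by
  by_cases hq : q = 0
  · rw [R1, dif_pos hq]; exact Commute.one_left _
  by_cases hr : r = 0
  · rw [R1, R1, dif_pos hr]; exact Commute.one_right _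
  haveI : NeZero q := ⟨hq⟩
  haveI : NeZero r := ⟨hr⟩
  rw [R1_eq, R1_eq]
  exact Rt_comm A q r _ _

/-- the simultaneous twist -/
def RT (ψ : ∀ q : ℕ, DirichletCharacter K q) (s : Finset ℕ) : Module.End K (P1 → P1 → A) :=
  s.noncommProd (R1 A ψ) (fun _ _ _ _ _ => R1_comm A ψ _ _)

theorem RT_empty (ψ : ∀ q : ℕ, DirichletCharacter K q) : RT A ψ ∅ = 1 :=
  Finset.noncommProd_empty _ _

theorem RT_insert (ψ : ∀ q : ℕ, DirichletCharacter K q) {s : Finset ℕ} {q : ℕ} (h : q ∉ s) :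
    RT A ψ (insert q s) = RT A ψ s * R1 A ψ q :=
  Finset.noncommProd_insert_of_notMem' _ _ _ _ h

theorem RT_erase (ψ : ∀ q : ℕ, DirichletCharacter K q) {s : Finset ℕ} {q : ℕ} (h : q ∈ s) :
    RT A ψ s = R1 A ψ q * RT A ψ (s.erase q) :=
  (Finset.mul_noncommProd_erase s h _ _ _).symm

end Def

section Props

variable {K : Type*} [Field K] [CharZero K] {A : Type*} [AddCommGroup A] [Module K A]
  {ψ : ∀ q : ℕ, DirichletCharacter K q}

theorem exists_sq_ne {q : ℕ} {χ : DirichletCharacter K q} (h : χ ^ 2 ≠ 1) :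
    ∃ a : (ZMod q)ˣ, χ a ^ 2 ≠ 1 := by
  by_contra h2
  push Not at h2
  apply h
  apply MulChar.ext
  intro a
  rw [MulChar.pow_apply_coe, h2 a, MulChar.one_apply_coe]

/-- equivariance and injectivity of the simultaneous twists -/
theorem RT_cf (u : Finset ℕ) (t : Finset ℕ) : Disjoint t u → ∀ (N : ℕ) (φ : P1 → P1 → A),
    (∀ q ∈ t ∪ u, q.Prime) → (∀ q ∈ t ∪ u, ∃ N1, N = q * N1 ∧ ¬ q ∣ N1) →
    (∀ q ∈ t, ψ q ^ 2 ≠ 1) → CF (chs ψ (t ∪ u)) N φ →
    CF (chs ψ u) (N * ∏ q ∈ t, q) (RT A ψ t φ) ∧ (RT A ψ t φ = 0 → φ = 0) := by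
  induction t using Finset.induction_on with
  | empty =>
    intro _ N φ _ _ _ h
    rw [Finset.empty_union] at h
    rw [Finset.prod_empty, mul_one, RT_empty]
    exact ⟨h, fun h => h⟩
  | insert q t hqt ih =>
    intro hdis N φ hpr hex hψ h
    rw [Finset.disjoint_insert_left] at hdis
    obtain ⟨hqu, hdis⟩ := hdis
    have hq : q.Prime := hpr q (by simp)
    have := Fact.mk hq
    obtain ⟨N1, hN1, hqN1⟩ := hex q (by simp)
    have hpr' : ∀ r ∈ t ∪ u, r.Prime := fun r hr => hpr r (by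
      rw [Finset.insert_union]; exact Finset.mem_insert_of_mem hr)
    have hrq : ∀ r ∈ t ∪ u, r ≠ q := fun r hr h => by
      rw [h, Finset.mem_union] at hr
      exact hr.elim hqt hqu
    have hex' : ∀ r ∈ t ∪ u, ∃ N2, N * q = r * N2 ∧ ¬ r ∣ N2 := by
      intro r hr
      obtain ⟨N2, hN2, hrN2⟩ := hex r (by rw [Finset.insert_union]; exact Finset.mem_insert_of_mem hr)
      refine ⟨N2 * q, by rw [hN2, mul_assoc], fun h => ?_⟩
      rcases (Nat.Prime.dvd_mul (hpr' r hr)).1 h with h | h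
      · exact hrN2 h
      · exact hrq r hr ((Nat.prime_dvd_prime_iff_eq (hpr' r hr) hq).1 h)
    have hsdvd : ∀ r ∈ insert q t ∪ u, r ∣ N := fun r hr => by
      obtain ⟨N2, hN2, -⟩ := hex r hr
      exact ⟨N2, hN2⟩
    have hχ : ChF (chs ψ (insert q t ∪ u)) N := chF_chs hsdvd
    have hqnot : q ∉ t ∪ u := by rw [Finset.mem_union, not_or]; exact ⟨hqt, hqu⟩
    have hunit : ∀ γ ∈ Gamma0 (N * q), IsUnit ((γ 0 0 : ℤ) : ZMod q) := fun γ hγ =>
      isUnit_00 hγ (Dvd.intro_left _ rfl)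
    have hφ' : CF (chs ψ (t ∪ u)) (N * q) (Rt q (ψ q)⁻¹ A φ) := by
      have h2 := h.rt hχ.per (Dvd.intro _ hN1.symm) (ψ q)⁻¹
      refine ⟨h2.add, fun γ hγ x y => ?_⟩
      rw [h2.equi γ hγ]
      congr 1
      rw [chs, Finset.insert_union, Finset.prod_insert hqnot, chs]
      have h3 := inv_mul_char (ψ q) (hunit γ hγ)
      calc _ = ((ψ q)⁻¹ ((γ 0 0 : ℤ) : ZMod q) * ψ q ((γ 0 0 : ℤ) : ZMod q)) ^ 2 *
          ∏ x ∈ t ∪ u, ψ x ((γ 0 0 : ℤ) : ZMod x) ^ 2 := by ring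
        _ = _ := by rw [h3, one_pow, one_mul]
    have hψq := hψ q (Finset.mem_insert_self _ _)
    obtain ⟨h4, h5⟩ := ih hdis (N * q) _ hpr' hex' (fun r hr => hψ r (Finset.mem_insert_of_mem hr))
      hφ'
    rw [RT_insert A ψ hqt, R1_eq, Finset.prod_insert hqt, ← mul_assoc]
    refine ⟨h4, fun h6 => ?_⟩
    have h7 := h5 h6
    -- injectivity
    obtain ⟨a, ha⟩ := exists_sq_ne hψq
    obtain ⟨j, hj⟩ : ∃ j : ℤ, ((1 + j * N1 : ℤ) : ZMod q) = a := by
      have hN1u : IsUnit (N1 : ZMod q) := by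
        rw [ZMod.isUnit_iff_coprime]
        exact ((Nat.Prime.coprime_iff_not_dvd hq).2 hqN1).symm
      obtain ⟨v, hv⟩ := hN1u
      refine ⟨(((a : ZMod q) - 1) * ((v⁻¹ : (ZMod q)ˣ) : ZMod q)).val, ?_⟩
      push_cast
      rw [ZMod.natCast_zmod_val, ← hv, mul_assoc, inv_mul_cancel₀ v.ne_zero]
      ring
    have hcop : IsCoprime (1 + j * N1) (q : ℤ) := by
      have hpr : Prime (q : ℤ) := Nat.prime_iff_prime_int.1 hq
      refine (hpr.coprime_iff_not_dvd.2 fun h => ?_).symm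
      rw [← ZMod.intCast_zmod_eq_zero_iff_dvd, hj] at h
      exact a.ne_zero h
    have hne : ψ q ≠ 1 := fun h => hψq (by rw [h, one_pow])
    refine Rt_injective h hχ.map_one hN1 hcop ?_ (inv_ne_one.2 hne) h7
    rw [chs, Finset.insert_union, Finset.prod_insert hqnot, hj]
    have h5 : ∏ r ∈ t ∪ u, ψ r ((1 + j * N1 : ℤ) : ZMod r) ^ 2 = 1 := by
      refine Finset.prod_eq_one fun r hr => ?_
      have hrN1 : r ∣ N1 := by
        have h6 := hsdvd r (by rw [Finset.insert_union]; exact Finset.mem_insert_of_mem hr)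
        rw [hN1] at h6
        exact ((Nat.Prime.dvd_mul (hpr' r hr)).1 h6).resolve_left
          (fun h => hrq r hr ((Nat.prime_dvd_prime_iff_eq (hpr' r hr) hq).1 h))
      have h7 : ((N1 : ℕ) : ZMod r) = 0 := (ZMod.natCast_eq_zero_iff _ _).2 hrN1
      push_cast
      rw [h7, mul_zero, add_zero, map_one, one_pow]
    rw [h5, mul_one]
    exact ha

theorem TrInv.rt {φ : P1 → P1 → A} (h : TrInv φ) {q : ℕ} [NeZero q] (χ : DirichletCharacter K q) :
    TrInv (Rt q χ A φ) := by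
  intro k x y
  have hT : ∀ r : ℚ, pl (Tr (k : ℤ)) (pl (Tr r) φ) = pl (Tr r) φ := by
    intro r
    rw [pl_pl, Tr_mul, add_comm, ← Tr_mul, ← pl_pl]
    have : pl (Tr (k : ℤ)) φ = φ := by ext x y; exact h k x y
    rw [this]
  rw [Rt_apply]
  simp only [Finset.sum_apply, Pi.smul_apply]
  refine Finset.sum_congr rfl fun u _ => ?_
  congr 1
  exact congrFun (congrFun (hT _) x) y

/-- Hecke operators and simultaneous twists -/
theorem RT_tk (s : Finset ℕ) : ∀ (w w' : K) {φ : P1 → P1 → A} (_ : TrInv φ) {l : ℕ} (hl : l ≠ 0),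
    (∀ q ∈ s, q ≠ 0) → (∀ q ∈ s, IsUnit (l : ZMod q)) →
    tk w w' A l hl (RT A ψ s φ) = RT A ψ s (tk (w * ws ψ s l) (w' * ws' ψ s l) A l hl φ) := by
  induction s using Finset.induction_on with
  | empty =>
    intro w w' φ _ l hl _ _
    rw [RT_empty, ws, ws', Finset.prod_empty, mul_one, Finset.prod_empty, mul_one]
    rfl
  | insert q s hqs ih =>
    intro w w' φ hφ l hl hs hu
    haveI : NeZero q := ⟨hs q (Finset.mem_insert_self _ _)⟩
    rw [RT_insert A ψ hqs, R1_eq, Module.End.mul_apply,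
      ih w w' (hφ.rt _) hl (fun r hr => hs r (Finset.mem_insert_of_mem hr))
        (fun r hr => hu r (Finset.mem_insert_of_mem hr)),
      Rt_tk hφ hl (hu q (Finset.mem_insert_self _ _)), Module.End.mul_apply]
    congr 3
    · congr 1
      · rw [ws, ws, Finset.prod_insert hqs, inv_inv]; ring
      · rw [ws', ws', Finset.prod_insert hqs]; ring

/-- vanishing of traces -/
theorem Ls_RT {s : Finset ℕ} {N : ℕ} {φ : P1 → P1 → A} (hpr : ∀ q ∈ s, q.Prime)
    (hex : ∀ q ∈ s, ∃ N1, N = q * N1 ∧ ¬ q ∣ N1) (hψ : ∀ q ∈ s, ψ q ^ 2 ≠ 1)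
    (h : CF (chs ψ s) N φ) {q : ℕ} [hq : Fact q.Prime] (hqs : q ∈ s) :
    Ls (N * ∏ r ∈ s.erase q, r) q (RT A ψ s φ) = 0 ∧
      Uop K A P1 q hq.out.ne_zero (RT A ψ s φ) = 0 := by
  have hu : (s.erase q) ∪ {q} = s := by
    rw [Finset.union_comm, ← Finset.insert_eq, Finset.insert_erase hqs]
  have hdis : Disjoint (s.erase q) {q} := by simp
  obtain ⟨h1, -⟩ := RT_cf (A := A) (ψ := ψ) {q} (s.erase q) hdis N φ (by rw [hu]; exact hpr)
    (by rw [hu]; exact hex) (fun r hr => hψ r (Finset.mem_of_mem_erase hr)) (by rw [hu]; exact h)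
  obtain ⟨N1, hN1, hqN1⟩ := hex q hqs
  have hN : N * ∏ r ∈ s.erase q, r = q * (N1 * ∏ r ∈ s.erase q, r) := by rw [hN1]; ring
  have hqN : ¬ q ∣ N1 * ∏ r ∈ s.erase q, r := by
    rw [hq.out.dvd_mul, not_or]
    refine ⟨hqN1, ?_⟩
    rw [Prime.dvd_finsetProd_iff hq.out.prime]
    rintro ⟨r, hr, hqr⟩
    exact (Finset.mem_erase.1 hr).1
      ((Nat.prime_dvd_prime_iff_eq hq.out (hpr r (Finset.mem_of_mem_erase hr))).1 hqr).symm
  have hψq : ψ q ≠ 1 := fun h => hψ q hqs (by rw [h, one_pow])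
  have hch : ∀ a : ℤ, chs ψ {q} a = ψ q (a : ZMod q) ^ 2 := fun a => by
    rw [chs, Finset.prod_singleton]
  have hχ1 : chs ψ {q} 1 = 1 := by rw [hch]; simp
  rw [RT_erase A ψ hqs, R1_eq, Module.End.mul_apply]
  exact ⟨Ls_Rt h1 hN hqN hψq (fun a _ _ => hch a) hχ1,
    Uop_Rt (h1.trInv hχ1) (inv_ne_one.2 hψq)⟩

end Props

end Fermat.Agent.TWCoh
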