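import Fermat.Agent.TWCoh.Comb

/-!
# Ranks under reduction
-/

set_option autoImplicit false

noncomputable section

namespace Fermat.Agent.TWCoh

theorem exists_basis_red {Λ Λ' : Type*} [CommRing Λ] [CommRing Λ'] {M M' : Type*}
    [AddCommGroup M] [Module Λ M] [AddCommGroup M'] [Module Λ' M'] {f : Λ →+* Λ'}
    (hf : Function.Surjective f) (π : M →ₛₗ[f] M') (hπ : Function.Surjective π)
    (hker : ∀ x, π x = 0 → x ∈ RingHom.ker f • (⊤ : Submodule Λ M))
    {ι : Type*} [Fintype ι] (b : Module.Basis ι Λ M) :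
    ∃ b' : Module.Basis ι Λ' M', ∀ i, b' i = π (b i) := by
  have hli : LinearIndependent Λ' (fun i => π (b i)) := by
    rw [Fintype.linearIndependent_iff]
    intro g hg i
    choose r hr using fun i => hf (g i)
    have h1 : π (∑ i, r i • b i) = 0 := by
      rw [map_sum, ← hg]
      exact Finset.sum_congr rfl fun i _ => by rw [LinearMap.map_smulₛₗ, hr]
    have h2 := hker _ h1
    have h3 : ∀ x ∈ RingHom.ker f • (⊤ : Submodule Λ M), ∀ i, b.repr x i ∈ RingHom.ker f := by
      intro x hx i
      induction hx using Submodule.smul_induction_on' with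
      | smul r hr n hn =>
        rw [map_smul, Finsupp.smul_apply, smul_eq_mul]
        exact Ideal.mul_mem_right _ _ hr
      | add x _ y _ hx hy =>
        rw [map_add, Finsupp.add_apply]
        exact Ideal.add_mem _ hx hy
    have h4 := h3 _ h2 i
    rw [b.repr_sum_self] at h4
    rw [← hr i]
    exact h4
  have hsp : ⊤ ≤ Submodule.span Λ' (Set.range fun i => π (b i)) := by
    intro y _
    obtain ⟨x, rfl⟩ := hπ y
    rw [← b.sum_repr x, map_sum]
    refine Submodule.sum_mem _ fun i _ => ?_
    rw [LinearMap.map_smulₛₗ]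
    exact Submodule.smul_mem _ _ (Submodule.subset_span ⟨i, rfl⟩)
  exact ⟨Module.Basis.mk hli hsp, fun i => by rw [Module.Basis.mk_apply]⟩

theorem finrank_red {Λ Λ' : Type*} [CommRing Λ] [CommRing Λ'] [Nontrivial Λ'] {M M' : Type*}
    [AddCommGroup M] [Module Λ M] [AddCommGroup M'] [Module Λ' M'] [Module.Free Λ M]
    [Module.Finite Λ M] {f : Λ →+* Λ'}
    (hf : Function.Surjective f) (π : M →ₛₗ[f] M') (hπ : Function.Surjective π)
    (hker : ∀ x, π x = 0 → x ∈ RingHom.ker f • (⊤ : Submodule Λ M)) :
    Module.finrank Λ' M' = Module.finrank Λ M := by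
  haveI : Nontrivial Λ := f.domain_nontrivial
  obtain ⟨b', -⟩ := exists_basis_red hf π hπ hker (Module.Free.chooseBasis Λ M)
  rw [Module.finrank_eq_card_basis b',
    Module.finrank_eq_card_basis (Module.Free.chooseBasis Λ M)]

end Fermat.Agent.TWCoh
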