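import Fermat.Agent.TWCoh.ESym

/-!
# Relations between Hecke operators on symbols with characters
-/

set_option autoImplicit false

noncomputable section

namespace Fermat.Agent.TWCoh

open Matrix CongruenceSubgroup Fermat.Agent.AnJac
open scoped MatrixGroups OnePoint

section

variable {K : Type*} [CommRing K] {A : Type*} [AddCommGroup A] [Module K A] {N : ℕ}
  {φ : P1 → P1 → A} {J : Type*} {t : J → ℕ} {ht : ∀ j, (t j).Prime} {w w' : J → K}

theorem TrInv.add {ψ : P1 → P1 → A} (h : TrInv φ) (h' : TrInv ψ) : TrInv (φ + ψ) := by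
  intro k x y
  show φ _ _ + ψ _ _ = φ x y + ψ x y
  rw [h, h']

theorem TrInv.opF (h : TrInv φ) (P : FreeAlgebra ℤ J) : TrInv (opF A t ht w w' P φ) := by
  induction P using FreeAlgebra.induction generalizing φ with
  | grade0 c =>
    rw [AlgHom.commutes, eq_intCast]
    intro k x y
    show (c : ℤ) • φ _ _ = (c : ℤ) • φ _ _
    rw [h]
  | grade1 j =>
    rw [opF_ι]
    exact h.tk _ _ _
  | mul P Q hP hQ =>
    rw [map_mul]
    exact hP (hQ h)
  | add P Q hP hQ =>
    rw [map_add]
    exact (hP h).add (hQ h)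

theorem Rt_opF {q : ℕ} [NeZero q] (h : TrInv φ) (hq : ∀ j, IsUnit (t j : ZMod q))
    (ψ : DirichletCharacter K q) (P : FreeAlgebra ℤ J) :
    opF A t ht w w' P (Rt q ψ A φ) = Rt q ψ A
      (opF A t ht (fun j => w j * ψ⁻¹ (t j : ZMod q)) (fun j => w' j * ψ (t j : ZMod q)) P φ) := by
  induction P using FreeAlgebra.induction generalizing φ with
  | grade0 c =>
    rw [AlgHom.commutes, AlgHom.commutes, eq_intCast]
    exact (map_zsmul (Rt q ψ A) c φ).symm
  | grade1 j =>
    rw [opF_ι, opF_ι]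
    exact Rt_tk h _ (hq j) ψ _ _
  | mul P Q hP hQ =>
    rw [map_mul, map_mul, Module.End.mul_apply, Module.End.mul_apply, hQ h, hP (h.opF Q)]
  | add P Q hP hQ =>
    rw [map_add, map_add, LinearMap.add_apply, LinearMap.add_apply, map_add, hP h, hQ h]

end

/-! ### Products of characters -/

section Chars

variable {K : Type*} [CommRing K] (ψ : ∀ q : ℕ, DirichletCharacter K q)

/-- the product of the squares -/
def chs (s : Finset ℕ) (a : ℤ) : K := ∏ q ∈ s, ψ q (a : ZMod q) ^ 2

/-- weights -/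
def ws (s : Finset ℕ) (n : ℕ) : K := ∏ q ∈ s, ψ q (n : ZMod q)

/-- inverse weights -/
def ws' (s : Finset ℕ) (n : ℕ) : K := ∏ q ∈ s, (ψ q)⁻¹ (n : ZMod q)

variable {ψ}

theorem isUnit_of_isCoprime {q : ℕ} {a : ℤ} (h : IsCoprime a (q : ℤ)) : IsUnit (a : ZMod q) := by
  obtain ⟨x, y, hxy⟩ := h
  refine IsUnit.of_mul_eq_one (x : ZMod q) ?_
  have := congrArg (fun t : ℤ => (t : ZMod q)) hxy
  push_cast at this
  rw [ZMod.natCast_self, mul_zero, add_zero] at this
  rw [mul_comm]; exact this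

theorem chF_chs {s : Finset ℕ} {N : ℕ} (hs : ∀ q ∈ s, q ∣ N) : ChF (chs ψ s) N where
  map_one := by simp [chs]
  map_mul a b := by
    rw [chs, chs, chs, ← Finset.prod_mul_distrib]
    refine Finset.prod_congr rfl fun q _ => ?_
    push_cast
    rw [map_mul, mul_pow]
  per a b hab := by
    rw [chs, chs]
    refine Finset.prod_congr rfl fun q hq => ?_
    have : (a : ZMod q) = (b : ZMod q) := by
      rw [← sub_eq_zero, ← Int.cast_sub, ZMod.intCast_zmod_eq_zero_iff_dvd]
      exact (Int.natCast_dvd_natCast.2 (hs q hq)).trans hab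
    rw [this]
  unit a ha := by
    rw [chs, IsUnit.prod_iff]
    intro q hq
    refine (IsUnit.map (ψ q) (isUnit_of_isCoprime ?_)).pow 2
    obtain ⟨M, rfl⟩ := hs q hq
    push_cast at ha
    exact ha.of_mul_right_left

theorem ws_eq {s : Finset ℕ} {n : ℕ} (h : ∀ q ∈ s, IsUnit (n : ZMod q)) :
    ws ψ s n = ws' ψ s n * chs ψ s n := by
  rw [ws, ws', chs, ← Finset.prod_mul_distrib]
  refine Finset.prod_congr rfl fun q hq => ?_
  have := inv_mul_char (ψ q) (h q hq)
  rw [Int.cast_natCast, pow_two, ← mul_assoc, this, one_mul]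

end Chars

/-! ### The induction -/

section Main

variable {K : Type*} [Field K] [CharZero K] {A : Type*} [AddCommGroup A] [Module K A]
  [IsAddTorsionFree A] {J : Type*} {t : J → ℕ} {ht : ∀ j, (t j).Prime}

/-- **Relations.** -/
theorem relation {N' : ℕ} [NeZero N'] (hN' : ∀ j, ¬ t j ∣ N') {P : FreeAlgebra ℤ J}
    (hP : actS N' (reP t ht P) = 0) {l : ℕ} (hl : l.Prime) (hl1 : (N' : ℤ) ∣ l - 1)
    (ψ : ∀ q : ℕ, DirichletCharacter K q) (s : Finset ℕ) : ∀ (N : ℕ) (φ : P1 → P1 → A),
    (∀ q ∈ s, q.Prime) → (∀ q ∈ s, ∃ N1, N = q * N1 ∧ ¬ q ∣ N1) →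
    (∀ q ∈ s, ψ q = 1 ∨ ψ q ^ 2 ≠ 1) → N * ∏ q ∈ s, q ∣ N' → CF (chs ψ s) N φ →
    tk (1 : K) 1 A l hl.ne_zero
      (opF A t ht (fun j => ws ψ s (t j)) (fun j => ws' ψ s (t j)) P φ) =
      (1 + l : K) • opF A t ht (fun j => ws ψ s (t j)) (fun j => ws' ψ s (t j)) P φ := by
  induction s using Finset.induction_on with
  | empty =>
    intro N φ _ _ _ hNN h
    rw [Finset.prod_empty, mul_one] at hNN
    have e0 : chs ψ ∅ = fun _ => (1 : K) := by funext a; simp [chs]
    have h' : CF (fun _ => (1 : K)) N' φ := by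
      rw [e0] at h
      exact ⟨h.add, fun γ hγ => h.equi γ (Gamma0_le hNN hγ)⟩
    have e1 : (fun j => ws ψ ∅ (t j)) = (1 : J → K) := by funext j; simp [ws]
    have e2 : (fun j => ws' ψ ∅ (t j)) = (1 : J → K) := by funext j; simp [ws']
    rw [e1, e2]
    exact base_relation hN' hP h' hl hl1
  | insert q s hqs ih =>
    intro N φ hpr hex hψ hNN h
    have hq : q.Prime := hpr q (Finset.mem_insert_self _ _)
    have := Fact.mk hq
    obtain ⟨N1, hN1, hqN1⟩ := hex q (Finset.mem_insert_self _ _)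
    have hNdvd : N ∣ N' := (Dvd.intro _ rfl).trans hNN
    have hqN' : q ∣ N' := (Dvd.intro _ hN1.symm).trans hNdvd
    rw [Finset.prod_insert hqs, ← mul_assoc] at hNN
    have hpr' : ∀ r ∈ s, r.Prime := fun r hr => hpr r (Finset.mem_insert_of_mem hr)
    have hrq : ∀ r ∈ s, r ≠ q := fun r hr h => hqs (h ▸ hr)
    have hex' : ∀ r ∈ s, ∃ N2, N * q = r * N2 ∧ ¬ r ∣ N2 := by
      intro r hr
      obtain ⟨N2, hN2, hrN2⟩ := hex r (Finset.mem_insert_of_mem hr)
      refine ⟨N2 * q, by rw [hN2, mul_assoc], fun h => ?_⟩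
      rcases (Nat.Prime.dvd_mul (hpr' r hr)).1 h with h | h
      · exact hrN2 h
      · exact hrq r hr ((Nat.prime_dvd_prime_iff_eq (hpr' r hr) hq).1 h)
    have hψ' : ∀ r ∈ s, ψ r = 1 ∨ ψ r ^ 2 ≠ 1 := fun r hr => hψ r (Finset.mem_insert_of_mem hr)
    have htq : ∀ j, IsUnit (t j : ZMod q) := fun j => char_q (ht j) (fun h => hN' j (h.trans hqN'))
      dvd_rfl
    have hunit : ∀ γ ∈ Gamma0 (N * q), IsUnit ((γ 0 0 : ℤ) : ZMod q) := fun γ hγ =>
      isUnit_00 hγ (Dvd.intro_left _ rfl)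
    have hsdvd : ∀ r ∈ insert q s, r ∣ N := fun r hr => by
      obtain ⟨N2, hN2, -⟩ := hex r hr
      exact ⟨N2, hN2⟩
    rcases hψ q (Finset.mem_insert_self _ _) with h1 | h1
    · -- trivial character
      have h' : CF (chs ψ s) (N * q) φ := by
        refine ⟨h.add, fun γ hγ x y => ?_⟩
        rw [h.equi γ (Gamma0_le (Dvd.intro _ rfl) hγ), chs, Finset.prod_insert hqs, h1,
          MulChar.one_apply (hunit γ hγ), one_pow, one_mul]
        rfl
      have e1 : (fun j => ws ψ (insert q s) (t j)) = fun j => ws ψ s (t j) := by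
        funext j
        rw [ws, Finset.prod_insert hqs, h1, MulChar.one_apply (htq j), one_mul]; rfl
      have e2 : (fun j => ws' ψ (insert q s) (t j)) = fun j => ws' ψ s (t j) := by
        funext j
        rw [ws', Finset.prod_insert hqs, h1, inv_one, MulChar.one_apply (htq j), one_mul]; rfl
      rw [e1, e2]
      exact ih (N * q) φ hpr' hex' hψ' hNN h'
    · -- twist
      have hχ : ChF (chs ψ (insert q s)) N := chF_chs hsdvd
      have hT : TrInv φ := h.trInv hχ.map_one
      set Y := opF A t ht (fun j => ws ψ (insert q s) (t j)) (fun j => ws' ψ (insert q s) (t j)) P φ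
        with hY
      have hNj : ∀ j, ¬ t j ∣ N := fun j h => hN' j (h.trans hNdvd)
      have hYC : CF (chs ψ (insert q s)) N Y := by
        refine CF.opF hχ hNj (fun j => ?_) P h
        refine ws_eq fun r hr => char_q (ht j) (fun h => hNj j (h.trans (hsdvd r hr))) dvd_rfl
      have hlN : ¬ l ∣ N := by
        intro h0
        have h2 : (l : ℤ) ∣ l - 1 := dvd_trans (by exact_mod_cast h0.trans hNdvd) hl1
        have h3 : (l : ℤ) ∣ 1 := by
          have := dvd_sub (dvd_refl (l : ℤ)) h2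
          simpa using this
        exact hl.one_lt.ne' (Nat.dvd_one.1 (by exact_mod_cast h3))
      have hNl1 : (N : ℤ) ∣ l - 1 := (Int.natCast_dvd_natCast.2 hNdvd).trans hl1
      have hχl : chs ψ (insert q s) l = 1 := by
        rw [← hχ.map_one]; exact hχ.per _ _ hNl1
      set Z := tk (1 : K) 1 A l hl.ne_zero Y - (1 + l : K) • Y with hZ
      have hZC : CF (chs ψ (insert q s)) N Z := by
        rw [hZ, sub_eq_add_neg, ← neg_smul]
        exact (hYC.tk hχ hl hlN (by rw [hχl, one_mul])).add' (hYC.smul _)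
      suffices hZ0 : Z = 0 from sub_eq_zero.1 hZ0
      -- twist the equation
      have hφ' : CF (chs ψ s) (N * q) (Rt q (ψ q)⁻¹ A φ) := by
        have h2 := h.rt hχ.per (Dvd.intro _ hN1.symm) (ψ q)⁻¹
        refine ⟨h2.add, fun γ hγ x y => ?_⟩
        rw [h2.equi γ hγ]
        congr 1
        rw [chs, Finset.prod_insert hqs, chs]
        have h3 := inv_mul_char (ψ q) (hunit γ hγ)
        calc _ = ((ψ q)⁻¹ ((γ 0 0 : ℤ) : ZMod q) * ψ q ((γ 0 0 : ℤ) : ZMod q)) ^ 2 *
            ∏ x ∈ s, ψ x ((γ 0 0 : ℤ) : ZMod x) ^ 2 := by ring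
          _ = _ := by rw [h3, one_pow, one_mul]
      have hYT : TrInv Y := hYC.trInv hχ.map_one
      have hRY : opF A t ht (fun j => ws ψ s (t j)) (fun j => ws' ψ s (t j)) P
          (Rt q (ψ q)⁻¹ A φ) = Rt q (ψ q)⁻¹ A Y := by
        rw [Rt_opF hT htq, hY]
        congr 3
        · congr 1
          · funext j
            rw [ws, ws, Finset.prod_insert hqs, inv_inv, mul_comm]
          · funext j
            rw [ws', ws', Finset.prod_insert hqs, mul_comm]
      have hlq : IsUnit (l : ZMod q) := char_q hl (fun h => hlN (h.trans (Dvd.intro _ hN1.symm)))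
        dvd_rfl
      have hql1 : ((l : ℕ) : ZMod q) = 1 := by
        have := (ZMod.intCast_zmod_eq_zero_iff_dvd _ q).2
          ((Int.natCast_dvd_natCast.2 hqN').trans hl1)
        push_cast at this
        exact sub_eq_zero.1 this
      have hRZ : Rt q (ψ q)⁻¹ A Z = 0 := by
        have h2 := ih (N * q) _ hpr' hex' hψ' hNN hφ'
        rw [hRY, Rt_tk hYT hl.ne_zero hlq, hql1, map_one, map_one, mul_one, ← map_smul] at h2
        rw [hZ, map_sub, h2, sub_self]
      -- injectivity
      obtain ⟨a, ha⟩ : ∃ a : (ZMod q)ˣ, ψ q a ^ 2 ≠ 1 := by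
        by_contra h2
        push Not at h2
        apply h1
        apply MulChar.ext
        intro a
        rw [MulChar.pow_apply_coe, h2 a, MulChar.one_apply_coe]
      obtain ⟨j, hj⟩ : ∃ j : ℤ, ((1 + j * N1 : ℤ) : ZMod q) = a := by
        have hN1u : IsUnit (N1 : ZMod q) := by
          rw [ZMod.isUnit_iff_coprime]
          exact ((Nat.Prime.coprime_iff_not_dvd hq).2 hqN1).symm
        obtain ⟨v, hv⟩ := hN1u
        refine ⟨(((a : ZMod q) - 1) * ((v⁻¹ : (ZMod q)ˣ) : ZMod q)).val, ?_⟩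
        push_cast
        rw [ZMod.natCast_zmod_val, ← hv, mul_assoc, inv_mul_cancel₀ v.ne_zero]
        ring
      have hcop : IsCoprime (1 + j * N1) (q : ℤ) := by
        have hpr : Prime (q : ℤ) := Nat.prime_iff_prime_int.1 hq
        refine (hpr.coprime_iff_not_dvd.2 fun h => ?_).symm
        rw [← ZMod.intCast_zmod_eq_zero_iff_dvd, hj] at h
        exact a.ne_zero h
      have hne : ψ q ≠ 1 := fun h => h1 (by rw [h, one_pow])
      refine Rt_injective hZC hχ.map_one hN1 hcop ?_ (inv_ne_one.2 hne) hRZ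
      rw [chs, Finset.prod_insert hqs, hj]
      have h5 : ∏ r ∈ s, ψ r ((1 + j * N1 : ℤ) : ZMod r) ^ 2 = 1 := by
        refine Finset.prod_eq_one fun r hr => ?_
        have hrN1 : r ∣ N1 := by
          have h6 := hsdvd r (Finset.mem_insert_of_mem hr)
          rw [hN1] at h6
          exact ((Nat.Prime.dvd_mul (hpr' r hr)).1 h6).resolve_left
            (fun h => hrq r hr ((Nat.prime_dvd_prime_iff_eq (hpr' r hr) hq).1 h))
        have h7 : ((N1 : ℕ) : ZMod r) = 0 := (ZMod.natCast_eq_zero_iff _ _).2 hrN1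
        push_cast
        rw [h7, mul_zero, add_zero, map_one, one_pow]
      rw [h5, mul_one]
      exact ha

end Main

end Fermat.Agent.TWCoh
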