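import Fermat.Agent.TWCoh.Mat

/-!
# Equivariant additive functions of two variables, Hecke operators
-/

set_option autoImplicit false

noncomputable section

namespace Fermat.Agent.TWCoh

open Matrix CongruenceSubgroup
open scoped MatrixGroups

variable {Λ : Type*} [CommRing Λ] {c : ℕ}

theorem inv_mul_char (θ : DirichletCharacter Λ c) {u : ZMod c} (hu : IsUnit u) :
    θ⁻¹ u * θ u = 1 := by
  rw [← MulChar.mul_apply, inv_mul_cancel, MulChar.one_apply hu]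

theorem mul_inv_char (θ : DirichletCharacter Λ c) {u : ZMod c} (hu : IsUnit u) :
    θ u * θ⁻¹ u = 1 := by rw [mul_comm, inv_mul_char θ hu]

variable (θ : DirichletCharacter Λ c) (N : ℕ) (A X : Type*) [AddCommGroup A] [Module Λ A]
  [MulAction GQ X]

/-- additive functions of two variables which are `(Γ₀(N), θ)`-equivariant. -/
def Sy : Submodule Λ (X → X → A) where
  carrier := {φ | (∀ x y z, φ x y + φ y z = φ x z) ∧ ∀ γ ∈ Gamma0 N, ∀ x y,
    φ (io γ • x) (io γ • y) = θ (γ 0 0 : ZMod c) • φ x y}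
  add_mem' := by
    rintro φ ψ ⟨h1, h2⟩ ⟨h3, h4⟩
    refine ⟨fun x y z => ?_, fun γ hγ x y => ?_⟩
    · simp only [Pi.add_apply]
      rw [← h1 x y z, ← h3 x y z]; abel
    · simp only [Pi.add_apply]
      rw [h2 γ hγ, h4 γ hγ, smul_add]
  zero_mem' := ⟨fun x y z => by simp, fun γ hγ x y => by simp⟩
  smul_mem' := by
    rintro r φ ⟨h1, h2⟩
    refine ⟨fun x y z => ?_, fun γ hγ x y => ?_⟩
    · simp only [Pi.smul_apply]
      rw [← h1 x y z, smul_add]
    · simp only [Pi.smul_apply]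
      rw [h2 γ hγ, smul_comm]

variable {θ N A X}

theorem Sy.add' {φ : X → X → A} (h : φ ∈ Sy θ N A X) (x y z : X) : φ x y + φ y z = φ x z :=
  h.1 x y z

theorem Sy.equi {φ : X → X → A} (h : φ ∈ Sy θ N A X) {γ : SL(2, ℤ)} (hγ : γ ∈ Gamma0 N) (x y : X) :
    φ (io γ • x) (io γ • y) = θ (γ 0 0 : ZMod c) • φ x y := h.2 γ hγ x y

theorem Sy.self {φ : X → X → A} (h : φ ∈ Sy θ N A X) (x : X) : φ x x = 0 := by
  have := h.1 x x x
  simpa using this

theorem Sy.swap {φ : X → X → A} (h : φ ∈ Sy θ N A X) (x y : X) : φ x y = - φ y x := by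
  rw [eq_neg_iff_add_eq_zero, h.1, Sy.self h]

theorem Sy.tr {φ : X → X → A} (h : φ ∈ Sy θ N A X) (k : ℤ) (x y : X) :
    φ (Tr k • x) (Tr k • y) = φ x y := by
  rw [← io_T_zpow]
  have hT : ModularGroup.T ^ k ∈ Gamma0 N := by
    rw [mem_Gamma0, ModularGroup.coe_T_zpow]; simp
  rw [Sy.equi h hT, ModularGroup.coe_T_zpow]
  simp

variable (A X) in
/-- the operator `U_n` -/
def Uop (Λ : Type*) [CommRing Λ] (A X : Type*) [AddCommGroup A] [Module Λ A] [MulAction GQ X]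
    (n : ℕ) (hn : n ≠ 0) : (X → X → A) →ₗ[Λ] (X → X → A) where
  toFun φ x y := ∑ j ∈ Finset.range n, φ (Up n hn (j : ℕ) • x) (Up n hn (j : ℕ) • y)
  map_add' φ ψ := by ext x y; simp [Finset.sum_add_distrib]
  map_smul' r φ := by ext x y; simp [Finset.smul_sum]

/-- the operator `B_n` -/
def Bop (Λ : Type*) [CommRing Λ] (A X : Type*) [AddCommGroup A] [Module Λ A] [MulAction GQ X]
    (n : ℕ) (hn : n ≠ 0) : (X → X → A) →ₗ[Λ] (X → X → A) where
  toFun φ x y := φ (Di n hn • x) (Di n hn • y)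
  map_add' _ _ := rfl
  map_smul' _ _ := rfl

theorem Uop_apply {n : ℕ} (hn : n ≠ 0) (φ : X → X → A) (x y : X) : Uop Λ A X n hn φ x y =
    ∑ j ∈ Finset.range n, φ (Up n hn (j : ℕ) • x) (Up n hn (j : ℕ) • y) := rfl

theorem Bop_apply {n : ℕ} (hn : n ≠ 0) (φ : X → X → A) (x y : X) : Bop Λ A X n hn φ x y =
    φ (Di n hn • x) (Di n hn • y) := rfl

/-- invariance under integral translations -/
def TrInv (φ : X → X → A) : Prop := ∀ (k : ℤ) x y, φ (Tr k • x) (Tr k • y) = φ x y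

theorem Sy.trInv {φ : X → X → A} (h : φ ∈ Sy θ N A X) : TrInv φ := Sy.tr h

omit [AddCommGroup A] in
theorem TrInv.up {φ : X → X → A} (h : TrInv φ) {n : ℕ} (hn : n ≠ 0) {j k : ℤ}
    (hjk : j ≡ k [ZMOD n]) (x y : X) :
    φ (Up n hn j • x) (Up n hn j • y) = φ (Up n hn k • x) (Up n hn k • y) := by
  obtain ⟨m, hm⟩ := (Int.modEq_iff_dvd.1 hjk)
  obtain rfl : k = j + n * m := by linarith
  rw [Up_add_mul, mul_smul, mul_smul, h]

/-- sums over residue classes -/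
theorem TrInv.sum_eq {φ : X → X → A} (h : TrInv φ) {n : ℕ} (hn : n ≠ 0) {ι : Type*} (s : Finset ι)
    (f : ι → ℤ) (hf : ∀ i ∈ s, ∀ j ∈ s, f i ≡ f j [ZMOD n] → i = j) (hs : s.card = n) (x y : X) :
    ∑ i ∈ s, φ (Up n hn (f i) • x) (Up n hn (f i) • y) = Uop Λ A X n hn φ x y := by
  rw [Uop_apply]
  have hn' : (0 : ℤ) < n := by exact_mod_cast Nat.pos_of_ne_zero hn
  have himg : ∀ i ∈ s, (f i % n).toNat ∈ Finset.range n := by
    intro i _
    rw [Finset.mem_range]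
    have h1 := Int.emod_lt_of_pos (f i) hn'
    have h2 := Int.emod_nonneg (f i) hn'.ne'
    omega
  have hcast : ∀ i, (((f i % n).toNat : ℕ) : ℤ) = f i % n := fun i =>
    Int.toNat_of_nonneg (Int.emod_nonneg _ hn'.ne')
  have hinj : Set.InjOn (fun i => (f i % n).toNat) s := by
    intro i hi j hj hij
    refine hf i hi j hj ?_
    have : (((f i % n).toNat : ℕ) : ℤ) = ((f j % n).toNat : ℕ) := by exact_mod_cast hij
    rw [hcast, hcast] at this
    exact this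
  have h1 : s.image (fun i => (f i % n).toNat) = Finset.range n := by
    refine Finset.eq_of_subset_of_card_le ?_ ?_
    · intro j hj
      obtain ⟨i, hi, rfl⟩ := Finset.mem_image.1 hj
      exact himg i hi
    · rw [Finset.card_image_of_injOn hinj, hs, Finset.card_range]
  rw [← h1, Finset.sum_image hinj]
  refine Finset.sum_congr rfl fun i _ => ?_
  refine h.up hn ?_ x y
  rw [hcast]
  exact (Int.mod_modEq _ _).symm

theorem Uop_Uop {n m : ℕ} (hn : n ≠ 0) (hm : m ≠ 0) (φ : X → X → A) :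
    Uop Λ A X n hn (Uop Λ A X m hm φ) = Uop Λ A X (m * n) (mul_ne_zero hm hn) φ := by
  ext x y
  simp only [Uop_apply, ← mul_smul, Up_mul_Up]
  rw [← Finset.sum_product']
  refine Finset.sum_bij (fun (p : ℕ × ℕ) _ => p.1 + p.2 * n) ?_ ?_ ?_ ?_
  · rintro ⟨j, k⟩ h
    rw [Finset.mem_product, Finset.mem_range, Finset.mem_range] at h
    rw [Finset.mem_range]
    obtain ⟨h1, h2⟩ := h
    simp only at h1 h2 ⊢
    calc j + k * n < n + k * n := by omega
      _ = (k + 1) * n := by ring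
      _ ≤ m * n := Nat.mul_le_mul_right _ h2
  · rintro ⟨j, k⟩ h ⟨j', k'⟩ h' hjk
    rw [Finset.mem_product, Finset.mem_range, Finset.mem_range] at h h'
    simp only at h h' hjk
    have h1 : j = j' := by
      have := congrArg (· % n) hjk
      simpa [Nat.add_mul_mod_self_right, Nat.mod_eq_of_lt h.1, Nat.mod_eq_of_lt h'.1] using this
    subst h1
    have h2 : k * n = k' * n := by omega
    rw [Nat.eq_of_mul_eq_mul_right (Nat.pos_of_ne_zero hn) h2]
  · intro i hi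
    rw [Finset.mem_range] at hi
    refine ⟨(i % n, i / n), ?_, ?_⟩
    · rw [Finset.mem_product, Finset.mem_range, Finset.mem_range]
      exact ⟨Nat.mod_lt _ (Nat.pos_of_ne_zero hn), Nat.div_lt_of_lt_mul (by rwa [mul_comm] at hi)⟩
    · simp only
      rw [mul_comm]; exact Nat.mod_add_div i n
  · rintro ⟨j, k⟩ _
    simp only
    push_cast
    rfl

theorem Uop_comm {n m : ℕ} (hn : n ≠ 0) (hm : m ≠ 0) (φ : X → X → A) :
    Uop Λ A X n hn (Uop Λ A X m hm φ) = Uop Λ A X m hm (Uop Λ A X n hn φ) := by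
  rw [Uop_Uop, Uop_Uop]
  congr 2
  all_goals exact mul_comm _ _

theorem Bop_Bop {n m : ℕ} (hn : n ≠ 0) (hm : m ≠ 0) (φ : X → X → A) :
    Bop Λ A X n hn (Bop Λ A X m hm φ) = Bop Λ A X (m * n) (mul_ne_zero hm hn) φ := by
  ext x y
  simp only [Bop_apply, ← mul_smul, Di_mul_Di]

theorem Bop_comm {n m : ℕ} (hn : n ≠ 0) (hm : m ≠ 0) (φ : X → X → A) :
    Bop Λ A X n hn (Bop Λ A X m hm φ) = Bop Λ A X m hm (Bop Λ A X n hn φ) := by
  rw [Bop_Bop, Bop_Bop]
  congr 2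
  all_goals exact mul_comm _ _

theorem TrInv.bop {φ : X → X → A} (h : TrInv φ) {n : ℕ} (hn : n ≠ 0) :
    TrInv (Bop Λ A X n hn φ) := by
  intro k x y
  have h1 : Di n hn * Tr k = Tr ((n * k : ℤ) : ℚ) * Di n hn :=
    (((ent_Di n hn).mul (ent_Tr k)).congr (by push_cast; ring) (by push_cast; ring)
      (by ring) (by ring)).ext ((ent_Tr ((n * k : ℤ) : ℚ)).mul (ent_Di n hn))
  rw [Bop_apply, Bop_apply, ← mul_smul, ← mul_smul, h1, mul_smul, mul_smul, h]

theorem Up_mul_Tr {n : ℕ} (hn : n ≠ 0) (j k : ℤ) : Up n hn j * Tr k = Up n hn (j + k) := by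
  refine (((ent_Up n hn j).mul (ent_Tr k)).congr ?_ ?_ ?_ ?_).ext (ent_Up _ _ _) <;>
    push_cast <;> ring

theorem TrInv.uop {φ : X → X → A} (h : TrInv φ) {n : ℕ} (hn : n ≠ 0) :
    TrInv (Uop Λ A X n hn φ) := by
  intro k x y
  rw [Uop_apply]
  simp only [← mul_smul, Up_mul_Tr]
  refine h.sum_eq hn (Finset.range n) (fun j => (j : ℤ) + k) ?_ (Finset.card_range n) x y
  intro i hi j hj hij
  rw [Finset.mem_range] at hi hj
  have h1 : (i : ℤ) ≡ j [ZMOD n] := by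
    have := hij.sub_right k
    simpa using this
  exact Nat.ModEq.eq_of_lt_of_lt (Int.natCast_modEq_iff.1 h1) hi hj

theorem TrInv.uop_bop {φ : X → X → A} (h : TrInv φ) {n m : ℕ} (hn : n ≠ 0) (hm : m ≠ 0)
    (hco : n.Coprime m) :
    Uop Λ A X n hn (Bop Λ A X m hm φ) = Bop Λ A X m hm (Uop Λ A X n hn φ) := by
  ext x y
  rw [Uop_apply, Bop_apply]
  simp only [Bop_apply, ← mul_smul, Di_mul_Up]
  simp only [mul_smul]
  refine h.sum_eq hn (Finset.range n) (fun j => (m : ℤ) * j) ?_ (Finset.card_range n) _ _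
  intro i hi j hj hij
  rw [Finset.mem_range] at hi hj
  have h0 : m * i ≡ m * j [MOD n] := by
    rw [← Int.natCast_modEq_iff]
    push_cast
    exact hij
  exact Nat.ModEq.eq_of_lt_of_lt (Nat.ModEq.cancel_left_of_coprime hco h0) hi hj

/-! ### Equivariance -/

theorem Sy.uop (hc : c ∣ N) {l : ℕ} (hl : l.Prime) (hlN : l ∣ N) {φ : X → X → A}
    (h : φ ∈ Sy θ N A X) : Uop Λ A X l hl.ne_zero φ ∈ Sy θ N A X := by
  refine ⟨fun x y z => ?_, fun γ hγ x y => ?_⟩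
  · simp only [Uop_apply]
    rw [← Finset.sum_add_distrib]
    exact Finset.sum_congr rfl fun j _ => h.1 _ _ _
  · obtain ⟨σ, δ, hδ, h1, h2⟩ := exists_perm_U hl hlN hγ
    simp only [Uop_apply]
    rw [Finset.sum_range, Finset.sum_range, Finset.smul_sum]
    conv_rhs => rw [← Equiv.sum_comp σ]
    refine Finset.sum_congr rfl fun i _ => ?_
    have h3 : ((γ 0 0 : ℤ) : ZMod c) = ((δ i 0 0 : ℤ) : ZMod c) := by
      have := congrArg (ZMod.castHom hc (ZMod c)) (h2 i)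
      simpa using this
    have h4 := h1 i
    rw [← mul_smul, ← mul_smul, h4, mul_smul, mul_smul, Sy.equi h (hδ i), h3]

theorem isUnit_re {l : ℕ} (hl : l.Prime) (hlN : ¬ l ∣ N) (hc : c ∣ N) (i : Ix l) :
    IsUnit ((re l i : ℤ) : ZMod c) := by
  rcases i with _ | j
  · simp only [re]
    rw [Int.cast_natCast, ZMod.isUnit_iff_coprime]
    exact (Nat.Prime.coprime_iff_not_dvd hl).2 fun h => hlN (h.trans hc)
  · simp [re]

variable (θ A X) in
/-- the operator `T_l`, `l ∤ N`, or `U_l`, `l ∣ N`. -/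
def hk (N : ℕ) (l : ℕ) (hl : l ≠ 0) : (X → X → A) →ₗ[Λ] (X → X → A) :=
  Uop Λ A X l hl + (if l ∣ N then 0 else θ⁻¹ (l : ZMod c)) • Bop Λ A X l hl

theorem hk_of_dvd {l : ℕ} (hl : l ≠ 0) (hlN : l ∣ N) (φ : X → X → A) :
    hk θ A X N l hl φ = Uop Λ A X l hl φ := by
  rw [hk, if_pos hlN, zero_smul, add_zero]

theorem hk_of_not_dvd {l : ℕ} (hl : l ≠ 0) (hlN : ¬ l ∣ N) (φ : X → X → A) :
    hk θ A X N l hl φ = Uop Λ A X l hl φ + θ⁻¹ (l : ZMod c) • Bop Λ A X l hl φ := by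
  rw [hk, if_neg hlN]; rfl

theorem hk_eq_sum {l : ℕ} (hl : l ≠ 0) (hlN : ¬ l ∣ N) (φ : X → X → A) (x y : X) :
    hk θ A X N l hl φ x y = ∑ i : Ix l, θ⁻¹ ((re l i : ℤ) : ZMod c) •
      φ (rp l hl i • x) (rp l hl i • y) := by
  rw [hk_of_not_dvd hl hlN, Fintype.sum_option]
  simp only [Pi.add_apply, Uop_apply, Pi.smul_apply, Bop_apply, re, rp, Int.cast_natCast,
    Int.cast_one, map_one, one_smul]
  rw [add_comm, Finset.sum_range]

theorem Sy.hk (hc : c ∣ N) {l : ℕ} (hl : l.Prime) {φ : X → X → A}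
    (h : φ ∈ Sy θ N A X) : hk θ A X N l hl.ne_zero φ ∈ Sy θ N A X := by
  by_cases hlN : l ∣ N
  · rw [hk_of_dvd _ hlN]
    exact Sy.uop hc hl hlN h
  refine ⟨fun x y z => ?_, fun γ hγ x y => ?_⟩
  · simp only [hk_eq_sum hl.ne_zero hlN]
    rw [← Finset.sum_add_distrib]
    exact Finset.sum_congr rfl fun j _ => by rw [← smul_add, h.1]
  · obtain ⟨σ, δ, hδ, h1, h2⟩ := exists_perm hl hlN hγ
    simp only [hk_eq_sum hl.ne_zero hlN]
    rw [Finset.smul_sum]
    conv_rhs => rw [← Equiv.sum_comp σ]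
    refine Finset.sum_congr rfl fun i _ => ?_
    have h3 : ((re l i : ℤ) : ZMod c) * (γ 0 0 : ℤ) = (δ i 0 0 : ℤ) * (re l (σ i) : ℤ) := by
      have := congrArg (ZMod.castHom hc (ZMod c)) (h2 i)
      rw [map_intCast, map_intCast] at this
      push_cast at this
      exact this
    have h5 := congrArg θ h3
    rw [map_mul, map_mul] at h5
    have h6 : θ⁻¹ ((re l i : ℤ) : ZMod c) * θ ((δ i 0 0 : ℤ) : ZMod c) =
        θ ((γ 0 0 : ℤ) : ZMod c) * θ⁻¹ ((re l (σ i) : ℤ) : ZMod c) := by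
      have e1 := inv_mul_char θ (isUnit_re hl hlN hc i)
      have e2 := mul_inv_char θ (isUnit_re hl hlN hc (σ i))
      calc θ⁻¹ ((re l i : ℤ) : ZMod c) * θ ((δ i 0 0 : ℤ) : ZMod c)
          = θ⁻¹ ((re l i : ℤ) : ZMod c) * (θ ((δ i 0 0 : ℤ) : ZMod c) *
              (θ ((re l (σ i) : ℤ) : ZMod c) * θ⁻¹ ((re l (σ i) : ℤ) : ZMod c))) := by
            rw [e2, mul_one]
        _ = θ⁻¹ ((re l i : ℤ) : ZMod c) * (θ ((δ i 0 0 : ℤ) : ZMod c) *
              θ ((re l (σ i) : ℤ) : ZMod c)) * θ⁻¹ ((re l (σ i) : ℤ) : ZMod c) := by ring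
        _ = θ⁻¹ ((re l i : ℤ) : ZMod c) * (θ ((re l i : ℤ) : ZMod c) *
              θ ((γ 0 0 : ℤ) : ZMod c)) * θ⁻¹ ((re l (σ i) : ℤ) : ZMod c) := by rw [h5]
        _ = (θ⁻¹ ((re l i : ℤ) : ZMod c) * θ ((re l i : ℤ) : ZMod c)) *
              (θ ((γ 0 0 : ℤ) : ZMod c) * θ⁻¹ ((re l (σ i) : ℤ) : ZMod c)) := by ring
        _ = _ := by rw [e1, one_mul]
    rw [← mul_smul, ← mul_smul, h1 i, mul_smul, mul_smul, Sy.equi h (hδ i), smul_smul, smul_smul,
      h6]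

theorem hk_comm {l m : ℕ} (hl : l.Prime) (hm : m.Prime) {φ : X → X → A} (h : TrInv φ) :
    hk θ A X N l hl.ne_zero (hk θ A X N m hm.ne_zero φ) =
      hk θ A X N m hm.ne_zero (hk θ A X N l hl.ne_zero φ) := by
  by_cases hlm : l = m
  · subst hlm; rfl
  have hco : l.Coprime m := (Nat.coprime_primes hl hm).2 hlm
  simp only [hk, LinearMap.add_apply, LinearMap.smul_apply, map_add, map_smul]
  rw [Uop_comm hl.ne_zero hm.ne_zero, Bop_comm hl.ne_zero hm.ne_zero,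
    h.uop_bop hl.ne_zero hm.ne_zero hco, h.uop_bop hm.ne_zero hl.ne_zero hco.symm,
    smul_add, smul_add, smul_comm]
  abel

variable (θ N A X) in
/-- the Hecke operators on `Sy` -/
def TT (hc : c ∣ N) {l : ℕ} (hl : l.Prime) : Module.End Λ (Sy θ N A X) :=
  (hk θ A X N l hl.ne_zero).restrict fun _ h => Sy.hk hc hl h

theorem coe_TT (hc : c ∣ N) {l : ℕ} (hl : l.Prime) (φ : Sy θ N A X) :
    ((TT θ N A X hc hl φ : Sy θ N A X) : X → X → A) = hk θ A X N l hl.ne_zero φ := rfl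

theorem TT_comm (hc : c ∣ N) {l m : ℕ} (hl : l.Prime) (hm : m.Prime) :
    Commute (TT θ N A X hc hl) (TT θ N A X hc hm) := by
  ext φ : 1
  apply Subtype.ext
  exact hk_comm hl hm (Sy.trInv φ.2)

end Fermat.Agent.TWCoh
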