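import Fermat.Agent.TWCoh.Mod

/-!
# Commutative algebra for levels at Taylor-Wiles primes
-/

set_option autoImplicit false

noncomputable section

namespace Fermat.Agent.TWCoh

open MvPolynomial

/-! ### Nakayama -/

theorem nak {R : Type} [CommRing R] {M : Type*} [AddCommGroup M] [Module R M] {m : Ideal R}
    [m.IsMaximal] {e : R} (he : LocData m M e) {K : Submodule R M} (hK : K ≤ loc m M)
    (hfg : K.FG) {P : Submodule R M} (h : K ≤ P ⊔ m • K) : K ≤ P := by
  have h1 : K.map P.mkQ ≤ m • K.map P.mkQ := by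
    calc K.map P.mkQ ≤ (P ⊔ m • K).map P.mkQ := Submodule.map_mono h
      _ = m • K.map P.mkQ := by
        rw [Submodule.map_sup, Submodule.mkQ_map_self, bot_sup_eq, Submodule.map_smul'']
  obtain ⟨r, hr, hr0⟩ := Submodule.exists_sub_one_mem_and_smul_eq_zero_of_fg_of_le_smul m
    (K.map P.mkQ) (hfg.map _) h1
  have hrm : r ∉ m := fun h => (Ideal.ne_top_iff_one m).1 (Ideal.IsMaximal.ne_top ‹_›) (by
    have := m.sub_mem h hr
    rwa [sub_sub_cancel] at this)
  obtain ⟨u, hu⟩ := he.unit r hrm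
  intro x hx
  have h2 : r • x ∈ P := by
    have := hr0 (P.mkQ x) (Submodule.mem_map_of_mem hx)
    rwa [← map_smul, Submodule.mkQ_apply, Submodule.Quotient.mk_eq_zero] at this
  have h3 := P.smul_mem u h2
  rwa [hu, he.mem_iff.1 (hK hx)] at h3

/-! ### Evaluation ideals -/

section Ev

variable {ι : Type} {k : Type} [Field k]

/-- the maximal ideal of an eigensystem -/
def evI (Λ : Type) [CommRing Λ] [Algebra Λ k] (τ : ι → k) : Ideal (MvPolynomial ι Λ) := RingHom.ker (aeval τ : MvPolynomial ι Λ →ₐ[Λ] k)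

variable {Λ : Type} [CommRing Λ] [Algebra Λ k]

theorem mem_evI {τ : ι → k} {s : MvPolynomial ι Λ} : s ∈ evI Λ τ ↔ aeval τ s = 0 := Iff.rfl

theorem evI_isMaximal (hk : Function.Surjective (algebraMap Λ k)) (τ : ι → k) :
    (evI Λ τ).IsMaximal :=
  RingHom.ker_isMaximal_of_surjective _ fun x => by
    obtain ⟨r, rfl⟩ := hk x
    exact ⟨C r, by simp⟩

theorem algebraMap_eval {τ : ι → k} (a : ι → Λ) (ha : ∀ i, algebraMap Λ k (a i) = τ i)
    (s : MvPolynomial ι Λ) : algebraMap Λ k (eval a s) = aeval τ s := by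
  induction s using MvPolynomial.induction_on with
  | C r => simp
  | add p q hp hq => rw [map_add, map_add, map_add, hp, hq]
  | mul_X p i hp => rw [map_mul, map_mul, map_mul, hp, eval_X, aeval_X, ha]

theorem sub_C_eval_mem {I : Ideal (MvPolynomial ι Λ)} (a : ι → Λ)
    (h2 : ∀ i, X i - C (a i) ∈ I) (s : MvPolynomial ι Λ) : s - C (eval a s) ∈ I := by
  induction s using MvPolynomial.induction_on with
  | C r => simp
  | add p q hp hq =>
    rw [map_add, map_add]
    have := I.add_mem hp hq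
    convert this using 1
    ring
  | mul_X p i hp =>
    rw [map_mul, eval_X, map_mul]
    have : p * X i - C (eval a p) * C (a i) = (p - C (eval a p)) * X i +
        C (eval a p) * (X i - C (a i)) := by ring
    rw [this]
    exact I.add_mem (I.mul_mem_right _ hp) (I.mul_mem_left _ (h2 i))

theorem evI_le {τ : ι → k} {I : Ideal (MvPolynomial ι Λ)} (a : ι → Λ)
    (ha : ∀ i, algebraMap Λ k (a i) = τ i) (h1 : ∀ r, algebraMap Λ k r = 0 → C r ∈ I)
    (h2 : ∀ i, X i - C (a i) ∈ I) : evI Λ τ ≤ I := by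
  intro s hs
  have h3 : algebraMap Λ k (eval a s) = 0 := by
    rw [algebraMap_eval a ha]; exact hs
  have := I.add_mem (sub_C_eval_mem a h2 s) (h1 _ h3)
  rwa [sub_add_cancel] at this

theorem C_mem_evI {τ : ι → k} {r : Λ} : C r ∈ evI Λ τ ↔
    algebraMap Λ k r = 0 := by
  rw [mem_evI]; simp

theorem X_sub_mem_evI {τ : ι → k} {i : ι} {r : Λ} (h : algebraMap Λ k r = τ i) :
    X i - C r ∈ evI Λ τ := by
  rw [mem_evI]; simp [h]

end Ev

/-! ### Linear maps over polynomial rings -/

section Lin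

variable {ι : Type} {Λ : Type} [CommRing Λ] {M M' : Type*} [AddCommGroup M] [AddCommGroup M']
  [Module Λ M] [Module Λ M'] [Module (MvPolynomial ι Λ) M] [Module (MvPolynomial ι Λ) M']
  [IsScalarTower Λ (MvPolynomial ι Λ) M] [IsScalarTower Λ (MvPolynomial ι Λ) M']

theorem poly_C_smul (r : Λ) (x : M) : (C r : MvPolynomial ι Λ) • x = r • x := by
  have h1 : (C r : MvPolynomial ι Λ) = r • (1 : MvPolynomial ι Λ) := by
    rw [MvPolynomial.smul_eq_C_mul, mul_one]
  rw [h1, smul_assoc, one_smul]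

theorem poly_smul_comm (s : MvPolynomial ι Λ) (r : Λ) (x : M) : s • (r • x) = r • (s • x) := by
  have h := poly_C_smul (ι := ι) r x
  have h' := poly_C_smul (ι := ι) r (s • x)
  rw [← h, ← h', smul_comm]

/-- a `Λ`-linear map commuting with the operators is linear over the polynomial ring -/
def mkPLin (f : M →ₗ[Λ] M')
    (h : ∀ (l : ι) (x : M), f ((X l : MvPolynomial ι Λ) • x) =
      (X l : MvPolynomial ι Λ) • f x) : M →ₗ[MvPolynomial ι Λ] M' where
  toFun := f
  map_add' := map_add f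
  map_smul' x := by
    induction x using MvPolynomial.induction_on with
    | C r =>
      intro y
      rw [poly_C_smul, RingHom.id_apply, poly_C_smul, map_smul]
    | add p q hp hq =>
      intro y
      rw [add_smul, map_add, hp, hq, RingHom.id_apply, RingHom.id_apply, RingHom.id_apply,
        add_smul]
    | mul_X p l hp =>
      intro y
      rw [mul_smul, hp, h, RingHom.id_apply, RingHom.id_apply, mul_smul]

@[simp] theorem mkPLin_apply (f : M →ₗ[Λ] M')
    (h : ∀ (l : ι) (x : M), f ((X l : MvPolynomial ι Λ) • x) =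
      (X l : MvPolynomial ι Λ) • f x) (x : M) : mkPLin f h x = f x := rfl

end Lin

/-! ### The doubled module -/

section Two

variable {ι : Type} [DecidableEq ι] {Λ : Type} [CommRing Λ]

/-- two copies of a module with the operator `X_q` replaced by `U` -/
def TwoM (_q : ι) (_a _v : Λ) (M : Type*) : Type _ := M × M

variable (q : ι) (a v : Λ) (M : Type*) [AddCommGroup M] [Module Λ M]

instance : AddCommGroup (TwoM q a v M) := inferInstanceAs (AddCommGroup (M × M))
instance : Module Λ (TwoM q a v M) := inferInstanceAs (Module Λ (M × M))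
instance [Module.Finite Λ M] : Module.Finite Λ (TwoM q a v M) :=
  inferInstanceAs (Module.Finite Λ (M × M))

variable {M} in
/-- the constructor -/
def tw (x y : M) : TwoM q a v M := (x, y)

variable [Module (MvPolynomial ι Λ) M] [IsScalarTower Λ (MvPolynomial ι Λ) M]

/-- the operator of `X_i` on a module -/
def xop (Λ : Type) [CommRing Λ] (M : Type*) [AddCommGroup M] [Module Λ M]
    [Module (MvPolynomial ι Λ) M] [IsScalarTower Λ (MvPolynomial ι Λ) M] (i : ι) :
    Module.End Λ M where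
  toFun x := (X i : MvPolynomial ι Λ) • x
  map_add' := smul_add _
  map_smul' r x := poly_smul_comm _ r x

/-- the operator `U` on two copies -/
def twoU : Module.End Λ (TwoM q a v M) where
  toFun z := ((xop Λ M q z.1 + a • z.2, -(v • z.1)) : M × M)
  map_add' z w := by
    refine Prod.ext ?_ ?_
    · show xop Λ M q (z.1 + w.1) + a • (z.2 + w.2) =
        (xop Λ M q z.1 + a • z.2) + (xop Λ M q w.1 + a • w.2)
      rw [map_add, smul_add]; abel
    · show -(v • (z.1 + w.1)) = -(v • z.1) + -(v • w.1)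
      rw [smul_add]; abel
  map_smul' r z := by
    refine Prod.ext ?_ ?_
    · show xop Λ M q (r • z.1) + a • (r • z.2) = r • (xop Λ M q z.1 + a • z.2)
      rw [map_smul, smul_add, smul_comm a r]
    · show -(v • (r • z.1)) = r • -(v • z.1)
      rw [smul_neg, smul_comm v r]

/-- the diagonal operators on two copies -/
def twoD (i : ι) : Module.End Λ (TwoM q a v M) where
  toFun z := ((xop Λ M i z.1, xop Λ M i z.2) : M × M)
  map_add' z w := Prod.ext (map_add (xop Λ M i) z.1 w.1) (map_add (xop Λ M i) z.2 w.2)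
  map_smul' r z := Prod.ext (map_smul (xop Λ M i) r z.1) (map_smul (xop Λ M i) r z.2)

/-- the operators on two copies -/
def twoOp (i : ι) : Module.End Λ (TwoM q a v M) :=
  if i = q then twoU q a v M else twoD q a v M i

theorem twoOp_self (z : TwoM q a v M) :
    twoOp q a v M q z = ((xop Λ M q z.1 + a • z.2, -(v • z.1)) : M × M) := by
  rw [twoOp, if_pos rfl]; rfl

theorem twoOp_of_ne {i : ι} (h : i ≠ q) (z : TwoM q a v M) :
    twoOp q a v M i z = ((xop Λ M i z.1, xop Λ M i z.2) : M × M) := by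
  rw [twoOp, if_neg h]; rfl

/-- diagonal operators -/
def dgL (s : MvPolynomial ι Λ) : Module.End Λ (TwoM q a v M) where
  toFun z := ((s • z.1, s • z.2) : M × M)
  map_add' _ _ := Prod.ext (smul_add _ _ _) (smul_add _ _ _)
  map_smul' r z := Prod.ext (poly_smul_comm s r z.1) (poly_smul_comm s r z.2)

theorem dgL_twoOp (s : MvPolynomial ι Λ) (i : ι) (z : TwoM q a v M) :
    dgL q a v M s (twoOp q a v M i z) = twoOp q a v M i (dgL q a v M s z) := by
  have hs : ∀ (r : Λ) (x : M), s • (r • x) = r • (s • x) := poly_smul_comm s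
  by_cases h : i = q
  · subst h
    rw [twoOp_self, twoOp_self]
    refine Prod.ext ?_ ?_
    · show s • ((X i : MvPolynomial ι Λ) • z.1 + a • z.2) =
        (X i : MvPolynomial ι Λ) • (s • z.1) + a • (s • z.2)
      rw [smul_add, hs, smul_comm s]
    · show s • -(v • z.1) = -(v • (s • z.1))
      rw [smul_neg, hs]
  · rw [twoOp_of_ne _ _ _ _ h, twoOp_of_ne _ _ _ _ h]
    refine Prod.ext ?_ ?_
    · show s • ((X i : MvPolynomial ι Λ) • z.1) = (X i : MvPolynomial ι Λ) • (s • z.1)
      rw [smul_comm]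
    · show s • ((X i : MvPolynomial ι Λ) • z.2) = (X i : MvPolynomial ι Λ) • (s • z.2)
      rw [smul_comm]

theorem twoOp_comm (i j : ι) : Commute (twoOp q a v M i) (twoOp q a v M j) := by
  have key : ∀ i j : ι, j ≠ q → ∀ z, twoOp q a v M j (twoOp q a v M i z) =
      twoOp q a v M i (twoOp q a v M j z) := by
    intro i j hj z
    have h1 : ∀ z, twoOp q a v M j z = dgL q a v M (X j) z := fun z => twoOp_of_ne _ _ _ _ hj z
    rw [h1, h1, dgL_twoOp]
  by_cases hj : j = q
  · by_cases hi : i = q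
    · subst hi hj; exact Commute.refl _
    · subst hj
      exact LinearMap.ext fun z => key j i hi z
  · exact LinearMap.ext fun z => (key i j hj z).symm

instance instModuleTwo : Module (MvPolynomial ι Λ) (TwoM q a v M) :=
  Module.compHom _ (aevalComm (twoOp q a v M) (twoOp_comm q a v M)).toRingHom

instance : IsScalarTower Λ (MvPolynomial ι Λ) (TwoM q a v M) where
  smul_assoc r x φ := by
    show aevalComm (twoOp q a v M) (twoOp_comm q a v M) (r • x) φ = _
    rw [map_smul]; rfl

variable {q a v M}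

theorem two_X_smul (i : ι) (z : TwoM q a v M) :
    (X i : MvPolynomial ι Λ) • z = twoOp q a v M i z :=
  LinearMap.congr_fun (aevalComm_X (twoOp q a v M) (twoOp_comm q a v M) i) z

variable (q a v M) in
/-- diagonal operators are linear -/
def dg (s : MvPolynomial ι Λ) : TwoM q a v M →ₗ[MvPolynomial ι Λ] TwoM q a v M :=
  mkPLin (dgL q a v M s) fun i x => by rw [two_X_smul, two_X_smul, dgL_twoOp]

theorem dg_apply (s : MvPolynomial ι Λ) (z : TwoM q a v M) :
    dg q a v M s z = ((s • z.1, s • z.2) : M × M) := rfl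

theorem two_C_smul (r : Λ) (z : TwoM q a v M) :
    (C r : MvPolynomial ι Λ) • z = ((r • z.1, r • z.2) : M × M) := poly_C_smul r z

theorem dg_X_of_ne {i : ι} (h : i ≠ q) (z : TwoM q a v M) :
    dg q a v M (X i) z = (X i : MvPolynomial ι Λ) • z := by
  rw [two_X_smul, twoOp_of_ne _ _ _ _ h]; rfl

/-- the quadratic relation -/
theorem two_rel (z : TwoM q a v M) :
    (X q : MvPolynomial ι Λ) • dg q a v M (X q) z = (X q ^ 2 + C (a * v) : MvPolynomial ι Λ) • z := by
  rw [add_smul, pow_two, mul_smul, two_X_smul, two_X_smul, two_X_smul, two_C_smul, twoOp_self,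
    twoOp_self, twoOp_self]
  have hs : ∀ (r : Λ) (x : M), (X q : MvPolynomial ι Λ) • (r • x) =
      r • ((X q : MvPolynomial ι Λ) • x) := poly_smul_comm _
  refine Prod.ext ?_ ?_
  · show (X q : MvPolynomial ι Λ) • ((X q : MvPolynomial ι Λ) • z.1) +
      a • ((X q : MvPolynomial ι Λ) • z.2) =
      ((X q : MvPolynomial ι Λ) • ((X q : MvPolynomial ι Λ) • z.1 + a • z.2) +
        a • -(v • z.1)) + (a * v) • z.1
    rw [smul_add, hs, smul_neg, mul_smul]; abel
  · show -(v • ((X q : MvPolynomial ι Λ) • z.1)) = -(v • ((X q : MvPolynomial ι Λ) • z.1 + a • z.2))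
      + (a * v) • z.2
    rw [smul_add, mul_comm a v, mul_smul]; abel

variable {k : Type} [Field k] [Algebra Λ k]

/-- the numerical conditions -/
structure TwoEig (q : ι) (a v : Λ) (τ τ' : ι → k) (α β : k) : Prop where
  ne : ∀ i, i ≠ q → τ' i = τ i
  eq' : τ' q = α
  sum : τ q = α + β
  prod : α * β = algebraMap Λ k (a * v)
  distinct : α ≠ β
  alpha : α ≠ 0

variable {τ τ' : ι → k} {α β : k}

theorem exists_frac (h : TwoEig q a v τ τ' α β) (s : MvPolynomial ι Λ) :
    ∃ w r : MvPolynomial ι Λ, aeval τ' w ≠ 0 ∧ aeval τ' r = aeval τ' w * aeval τ s ∧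
      ∀ z : TwoM q a v M, w • dg q a v M s z = r • z := by
  induction s using MvPolynomial.induction_on with
  | C r =>
    refine ⟨1, C r, by simp, by simp, fun z => ?_⟩
    rw [one_smul, two_C_smul, dg_apply, poly_C_smul, poly_C_smul]
  | add p p' hp hp' =>
    obtain ⟨w, r, h1, h2, h3⟩ := hp
    obtain ⟨w', r', h1', h2', h3'⟩ := hp'
    refine ⟨w * w', w' * r + w * r', by rw [map_mul]; exact mul_ne_zero h1 h1', ?_, fun z => ?_⟩
    · rw [map_add, map_mul, map_mul, map_mul, map_add, h2, h2']; ring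
    · have : dg q a v M (p + p') z = dg q a v M p z + dg q a v M p' z :=
        Prod.ext (add_smul _ _ _) (add_smul _ _ _)
      rw [this, smul_add, add_smul, mul_comm w w', mul_smul, h3, mul_comm w' w, mul_smul, h3',
        mul_smul, mul_smul]
  | mul_X p i hp =>
    obtain ⟨w, r, h1, h2, h3⟩ := hp
    have hX : ∃ w r : MvPolynomial ι Λ, aeval τ' w ≠ 0 ∧ aeval τ' r = aeval τ' w * τ i ∧
        ∀ z : TwoM q a v M, w • dg q a v M (X i) z = r • z := by
      by_cases hi : i = q
      · subst hi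
        refine ⟨X i, X i ^ 2 + C (a * v), ?_, ?_, two_rel⟩
        · rw [aeval_X, h.eq']; exact h.alpha
        · rw [map_add, map_pow, aeval_X, h.eq', aeval_C, ← h.prod, h.sum]; ring
      · refine ⟨1, X i, by simp, by simp [h.ne i hi], fun z => ?_⟩
        rw [one_smul, dg_X_of_ne hi]
    obtain ⟨w', r', h1', h2', h3'⟩ := hX
    refine ⟨w * w', r * r', by rw [map_mul]; exact mul_ne_zero h1 h1', ?_, fun z => ?_⟩
    · rw [map_mul, map_mul, map_mul, aeval_X, h2, h2']; ring
    · have : dg q a v M (p * X i) z = dg q a v M p (dg q a v M (X i) z) :=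
        Prod.ext (mul_smul _ _ _) (mul_smul _ _ _)
      rw [this, mul_comm w w', mul_smul, h3, smul_comm, h3', mul_smul]

/-- **Components of the localised double.** -/
theorem two_mem_loc (h : TwoEig q a v τ τ' α β) {z : TwoM q a v M}
    (hz : z ∈ loc (evI Λ τ') (TwoM q a v M)) : z.1 ∈ loc (evI Λ τ) M ∧ z.2 ∈ loc (evI Λ τ) M := by
  have key : ∀ s : MvPolynomial ι Λ, s ∉ evI Λ τ →
      ∃ z', dg q a v M s z' = z := by
    intro s hs
    obtain ⟨w, r, h1, h2, h3⟩ := exists_frac (M := M) h s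
    have hr : r ∉ (evI Λ τ') := by
      rw [mem_evI, h2]
      exact mul_ne_zero h1 hs
    obtain ⟨z', hz'⟩ := mem_loc.1 hz r hr
    exact ⟨w • z', by rw [map_smul, h3, hz']⟩
  constructor
  · rw [mem_loc]
    intro s hs
    obtain ⟨z', hz'⟩ := key s hs
    exact ⟨z'.1, congrArg Prod.fst hz'⟩
  · rw [mem_loc]
    intro s hs
    obtain ⟨z', hz'⟩ := key s hs
    exact ⟨z'.2, congrArg Prod.snd hz'⟩

/-- pairs with both components in a submodule -/
def pairS (D : Submodule (MvPolynomial ι Λ) M) : Submodule (MvPolynomial ι Λ) (TwoM q a v M) where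
  carrier := {z | z.1 ∈ D ∧ z.2 ∈ D}
  add_mem' h h' := ⟨D.add_mem h.1 h'.1, D.add_mem h.2 h'.2⟩
  zero_mem' := ⟨D.zero_mem, D.zero_mem⟩
  smul_mem' s := by
    have hr : ∀ (r : Λ) (x : M), x ∈ D → r • x ∈ D := fun r x hx => by
      rw [← poly_C_smul (ι := ι)]; exact D.smul_mem _ hx
    induction s using MvPolynomial.induction_on with
    | C r =>
      intro z hz
      rw [two_C_smul]
      exact ⟨hr _ _ hz.1, hr _ _ hz.2⟩
    | add p p' hp hp' =>
      intro z hz
      rw [add_smul]
      exact ⟨D.add_mem (hp hz).1 (hp' hz).1, D.add_mem (hp hz).2 (hp' hz).2⟩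
    | mul_X p i hp =>
      intro z hz
      rw [mul_smul]
      refine hp ?_
      rw [two_X_smul]
      by_cases hi : i = q
      · subst hi
        rw [twoOp_self]
        exact ⟨D.add_mem (D.smul_mem _ hz.1) (hr _ _ hz.2), D.neg_mem (hr _ _ hz.1)⟩
      · rw [twoOp_of_ne _ _ _ _ hi]
        exact ⟨D.smul_mem _ hz.1, D.smul_mem _ hz.2⟩

theorem mem_pairS {D : Submodule (MvPolynomial ι Λ) M} {z : TwoM q a v M} :
    z ∈ (pairS D : Submodule (MvPolynomial ι Λ) (TwoM q a v M)) ↔ z.1 ∈ D ∧ z.2 ∈ D := Iff.rfl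

/-- the basic computation: `(U - a₁)(U - b₁)` -/
theorem two_quad (x y : M) (a₁ b₁ : Λ) :
    (X q - C b₁ : MvPolynomial ι Λ) • (X q - C a₁ : MvPolynomial ι Λ) • (tw q a v x y) =
    dg q a v M (X q - C (a₁ + b₁)) ((X q : MvPolynomial ι Λ) • (tw q a v x y)) +
      dg q a v M (C (a₁ * b₁ - a * v)) (tw q a v x y) := by
  have h1 := two_rel (tw q a v x y)
  have h2 : dg q a v M (X q - C (a₁ + b₁)) ((X q : MvPolynomial ι Λ) • (tw q a v x y)) =
      (X q ^ 2 + C (a * v) : MvPolynomial ι Λ) • (tw q a v x y) -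
        (C (a₁ + b₁) * X q : MvPolynomial ι Λ) • (tw q a v x y) := by
    rw [← h1]
    have : ∀ w : TwoM q a v M, dg q a v M (X q - C (a₁ + b₁)) w = dg q a v M (X q) w -
        (C (a₁ + b₁) : MvPolynomial ι Λ) • w := by
      intro w
      rw [two_C_smul]
      refine Prod.ext ?_ ?_
      · show (X q - C (a₁ + b₁) : MvPolynomial ι Λ) • w.1 = (X q : MvPolynomial ι Λ) • w.1 -
          (a₁ + b₁) • w.1
        rw [sub_smul, poly_C_smul]
      · show (X q - C (a₁ + b₁) : MvPolynomial ι Λ) • w.2 = (X q : MvPolynomial ι Λ) • w.2 -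
          (a₁ + b₁) • w.2
        rw [sub_smul, poly_C_smul]
    rw [this, map_smul]
    congr 1
    exact (mul_smul _ _ _).symm
  have h3 : dg q a v M (C (a₁ * b₁ - a * v)) (tw q a v x y) =
      (C (a₁ * b₁ - a * v) : MvPolynomial ι Λ) • (tw q a v x y) := by
    rw [two_C_smul, dg_apply, poly_C_smul, poly_C_smul]
  rw [h2, h3, smul_smul, ← sub_smul, ← add_smul]
  congr 1
  simp only [map_add, map_sub, map_mul]
  ring

omit [DecidableEq ι] in
theorem fg_of_finite [IsNoetherianRing Λ] [Module.Finite Λ M]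
    (K : Submodule (MvPolynomial ι Λ) M) : K.FG := by
  have h1 : IsNoetherian Λ M := isNoetherian_of_isNoetherianRing_of_finite Λ M
  have h2 : IsNoetherian (MvPolynomial ι Λ) M := isNoetherian_of_tower Λ h1
  exact IsNoetherian.noetherian K

variable [IsNoetherianRing Λ] [Module.Finite Λ M]

section LD

theorem two_inj (hk : Function.Surjective (algebraMap Λ k)) (ha : IsUnit a)
    (h : TwoEig q a v τ τ' α β) {e e' : MvPolynomial ι Λ} (he : LocData (evI Λ τ) M e)
    (he' : LocData (evI Λ τ') (TwoM q a v M) e') {z : TwoM q a v M}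
    (hz : z ∈ loc (evI Λ τ') (TwoM q a v M)) (hz1 : z.1 = 0) : z = 0 := by
  have := evI_isMaximal hk τ
  have := evI_isMaximal hk τ'
  obtain ⟨α', hα'⟩ := hk α
  obtain ⟨β', hβ'⟩ := hk β
  set P' := loc (evI Λ τ') (TwoM q a v M) with hP'
  -- the submodule `K`
  let K : Submodule (MvPolynomial ι Λ) M :=
    { carrier := {b | tw q a v (0 : M) b ∈ P'}
      add_mem' := by
        intro b b' hb hb'
        have := P'.add_mem hb hb'
        have e1 : (tw q a v (0 : M) (b)) + (tw q a v (0 : M) (b')) =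
            (tw q a v (0 : M) (b + b')) := Prod.ext (add_zero (0 : M)) rfl
        rwa [e1] at this
      zero_mem' := P'.zero_mem
      smul_mem' := by
        intro s b hb
        have : dg q a v M s (tw q a v (0 : M) (b)) ∈ P' := loc_le_comap _ hb
        have e1 : dg q a v M s (tw q a v (0 : M) (b)) = (tw q a v (0 : M) (s • b)) :=
          Prod.ext (smul_zero s) rfl
        rw [e1] at this
        exact this }
  have hK : K ≤ loc (evI Λ τ) M := fun b hb => (two_mem_loc h hb).2
  have ha' : ∀ b ∈ K, a • b ∈ K := fun b hb => by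
    rw [← poly_C_smul (ι := ι)]; exact K.smul_mem _ hb
  have hKm : K ≤ evI Λ τ • K := by
    intro b hb
    have hXm : (X q - C β' : MvPolynomial ι Λ) ∉ (evI Λ τ') := by
      rw [mem_evI, map_sub, aeval_X, aeval_C, h.eq', hβ', sub_eq_zero]
      exact h.distinct
    obtain ⟨u, hu⟩ := he'.unit _ hXm
    set D : Submodule (MvPolynomial ι Λ) (TwoM q a v M) :=
      pairS (evI Λ τ • K) with hD
    set w : TwoM q a v M := (X q - C α' : MvPolynomial ι Λ) • (tw q a v (0 : M) (b)) with hw
    have hwP : w ∈ P' := P'.smul_mem _ hb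
    have h1 : (X q - C β' : MvPolynomial ι Λ) • w ∈ D := by
      rw [hw, two_quad]
      refine D.add_mem ?_ ?_
      · have e1 : (X q : MvPolynomial ι Λ) • (tw q a v (0 : M) (b)) =
            (tw q a v (a • b) (0 : M)) := by
          rw [two_X_smul, twoOp_self]
          refine Prod.ext ?_ ?_
          · show (X q : MvPolynomial ι Λ) • (0 : M) + a • b = a • b
            rw [smul_zero, zero_add]
          · show -(v • (0 : M)) = 0
            rw [smul_zero, neg_zero]
        rw [e1]
        refine ⟨Submodule.smul_mem_smul (X_sub_mem_evI ?_) (ha' b hb), ?_⟩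
        · rw [map_add, hα', hβ', h.sum]
        · show (X q - C (α' + β') : MvPolynomial ι Λ) • (0 : M) ∈ _
          rw [smul_zero]; exact Submodule.zero_mem _
      · have h5 : (C (α' * β' - a * v) : MvPolynomial ι Λ) ∈ evI Λ τ := by
          rw [C_mem_evI, map_sub, map_mul, hα', hβ', h.prod, sub_self]
        refine ⟨?_, Submodule.smul_mem_smul h5 hb⟩
        show (C (α' * β' - a * v) : MvPolynomial ι Λ) • (0 : M) ∈ _
        rw [smul_zero]; exact Submodule.zero_mem _
    have h2 : w ∈ D := by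
      have := D.smul_mem u h1
      rwa [hu, he'.mem_iff.1 hwP] at this
    have h3 : a • b ∈ evI Λ τ • K := by
      have h4 := h2.1
      have e1 : w.1 = a • b := by
        rw [hw, sub_smul, two_X_smul, twoOp_self, two_C_smul]
        show (X q : MvPolynomial ι Λ) • (0 : M) + a • b - α' • (0 : M) = a • b
        rw [smul_zero, smul_zero, zero_add, sub_zero]
      rwa [e1] at h4
    obtain ⟨a', ha'⟩ := ha
    have h4 := Submodule.smul_mem _ (C (↑a'⁻¹ : Λ) : MvPolynomial ι Λ) h3
    rwa [poly_C_smul, smul_smul, ← ha', Units.inv_mul, one_smul] at h4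
  have hK0 : K ≤ ⊥ := nak he hK (fg_of_finite K) (le_trans hKm le_sup_right)
  have hzK : z.2 ∈ K := by
    have : (tw q a v (0 : M) (z.2)) = z := Prod.ext hz1.symm rfl
    show (tw q a v (0 : M) (z.2)) ∈ P'
    rw [this]; exact hz
  have := hK0 hzK
  rw [Submodule.mem_bot] at this
  exact Prod.ext hz1 this

theorem two_surj (hk : Function.Surjective (algebraMap Λ k))
    (h : TwoEig q a v τ τ' α β) {e e' : MvPolynomial ι Λ} (he : LocData (evI Λ τ) M e)
    (he' : LocData (evI Λ τ') (TwoM q a v M) e') {x : M} (hx : x ∈ loc (evI Λ τ) M) :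
    ∃ z ∈ loc (evI Λ τ') (TwoM q a v M), z.1 = x := by
  have := evI_isMaximal hk τ
  have := evI_isMaximal hk τ'
  choose lift hlift using hk
  set m : Ideal (MvPolynomial ι Λ) := evI Λ τ with hm
  set P' := loc (evI Λ τ') (TwoM q a v M) with hP'
  set E := loc (evI Λ τ) M with hE
  let P : Submodule (MvPolynomial ι Λ) M :=
    { carrier := {x | ∃ z ∈ P', z.1 = x}
      add_mem' := by
        rintro x y ⟨z, hz, rfl⟩ ⟨w, hw, rfl⟩
        exact ⟨z + w, P'.add_mem hz hw, rfl⟩
      zero_mem' := ⟨0, P'.zero_mem, rfl⟩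
      smul_mem' := by
        rintro s _ ⟨z, hz, rfl⟩
        exact ⟨dg q a v M s z, loc_le_comap _ hz, rfl⟩ }
  suffices hEP : E ≤ P from hEP hx
  have hsup : ∀ y, y ∈ m • E → y ∈ P ⊔ m • E := fun y hy =>
    (le_sup_right : m • E ≤ P ⊔ m • E) hy
  refine nak he le_rfl (fg_of_finite E) fun φ hφ => ?_
  set D : Submodule (MvPolynomial ι Λ) (TwoM q a v M) := pairS (m • E) with hD
  set α' := lift α with hα'
  set β' := lift β with hβ'
  set y : TwoM q a v M := (X q - C β' : MvPolynomial ι Λ) • (tw q a v φ (0 : M)) with hy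
  have hyE : y.1 ∈ E ∧ y.2 ∈ E := by
    have : y ∈ (pairS E : Submodule _ (TwoM q a v M)) :=
      Submodule.smul_mem _ _ ⟨hφ, E.zero_mem⟩
    exact this
  -- the ideal
  let I : Ideal (MvPolynomial ι Λ) :=
    { carrier := {s | s • y ∈ D}
      add_mem' := by
        intro s t hs ht
        show (s + t) • y ∈ D
        rw [add_smul]; exact D.add_mem hs ht
      zero_mem' := by
        show (0 : MvPolynomial ι Λ) • y ∈ D
        rw [zero_smul]; exact D.zero_mem
      smul_mem' := by
        intro s t ht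
        show (s • t) • y ∈ D
        rw [smul_eq_mul, mul_smul]; exact D.smul_mem _ ht }
  have hI : ∀ i, X i - C (lift (τ' i)) ∈ I := by
    intro i
    show (X i - C (lift (τ' i)) : MvPolynomial ι Λ) • y ∈ D
    by_cases hi : i = q
    · subst hi
      rw [h.eq', hy, two_quad]
      refine D.add_mem ?_ ?_
      · have hXE : (X i : MvPolynomial ι Λ) • (tw i a v φ (0 : M)) ∈
            (pairS E : Submodule _ (TwoM i a v M)) :=
          Submodule.smul_mem _ _ ⟨hφ, E.zero_mem⟩
        have h5 : (X i - C (β' + lift α) : MvPolynomial ι Λ) ∈ m := X_sub_mem_evI (by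
          rw [map_add, hlift, hlift, h.sum, add_comm])
        exact ⟨Submodule.smul_mem_smul h5 hXE.1, Submodule.smul_mem_smul h5 hXE.2⟩
      · have h5 : (C (β' * lift α - a * v) : MvPolynomial ι Λ) ∈ m := by
          rw [hm, C_mem_evI, map_sub, map_mul, hlift, hlift, mul_comm β α, h.prod, sub_self]
        exact ⟨Submodule.smul_mem_smul h5 hφ, Submodule.smul_mem_smul h5 E.zero_mem⟩
    · have h5 : (X i - C (lift (τ' i)) : MvPolynomial ι Λ) ∈ m := X_sub_mem_evI (by
        rw [hlift, h.ne i hi])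
      have e1 : (X i - C (lift (τ' i)) : MvPolynomial ι Λ) • y =
          dg q a v M (X i - C (lift (τ' i))) y := by
        rw [sub_smul, two_X_smul, twoOp_of_ne _ _ _ _ hi, two_C_smul]
        refine Prod.ext ?_ ?_
        · show (X i : MvPolynomial ι Λ) • y.1 - lift (τ' i) • y.1 = (X i - C _ : MvPolynomial ι Λ) •
            y.1
          rw [sub_smul, poly_C_smul]
        · show (X i : MvPolynomial ι Λ) • y.2 - lift (τ' i) • y.2 = (X i - C _ : MvPolynomial ι Λ) •
            y.2
          rw [sub_smul, poly_C_smul]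
      rw [e1]
      exact ⟨Submodule.smul_mem_smul h5 hyE.1, Submodule.smul_mem_smul h5 hyE.2⟩
  have h1 := sub_C_eval_mem (I := I) (fun i => lift (τ' i)) hI e'
  set ε := eval (fun i => lift (τ' i)) e' with hε
  have h2 : e' • y - (C ε : MvPolynomial ι Λ) • y ∈ D := by
    rw [← sub_smul]; exact h1
  have hεk : algebraMap Λ k ε ≠ 0 := by
    rw [hε, algebraMap_eval (τ := τ') _ (fun i => hlift _)]
    exact he'.not_mem
  -- the first component
  have h3 : (e' • y).1 ∈ P := ⟨e' • y, he'.smul_mem y, rfl⟩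
  have h4 : ε • y.1 ∈ P ⊔ m • E := by
    have h5 : (e' • y).1 - ε • y.1 ∈ m • E := by
      have := h2.1
      rwa [two_C_smul] at this
    have h6 := (P ⊔ m • E).sub_mem ((le_sup_left : P ≤ P ⊔ m • E) h3) (hsup _ h5)
    rwa [sub_sub_cancel] at h6
  have h5 : y.1 = (X q - C (α' + β') : MvPolynomial ι Λ) • φ + α' • φ := by
    rw [hy, sub_smul, two_X_smul, twoOp_self, two_C_smul, sub_smul, poly_C_smul, add_smul]
    show (X q : MvPolynomial ι Λ) • φ + a • (0 : M) - β' • φ = _
    rw [smul_zero]; abel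
  have h6 : (ε * α') • φ ∈ P ⊔ m • E := by
    have h7 : (X q - C (α' + β') : MvPolynomial ι Λ) ∈ m := X_sub_mem_evI (by
      rw [map_add, hα', hlift, hβ', hlift, h.sum])
    have h8 : ε • ((X q - C (α' + β') : MvPolynomial ι Λ) • φ) ∈ m • E := by
      rw [← poly_C_smul (ι := ι)]
      exact Submodule.smul_mem _ _ (Submodule.smul_mem_smul h7 hφ)
    rw [h5, smul_add] at h4
    have := (P ⊔ m • E).sub_mem h4 (hsup _ h8)
    rwa [add_sub_cancel_left, smul_smul] at this
  have hne : algebraMap Λ k (ε * α') ≠ 0 := by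
    rw [map_mul, hα', hlift]; exact mul_ne_zero hεk h.alpha
  set δ := lift (algebraMap Λ k (ε * α'))⁻¹ with hδ
  have h9 : (C (1 - δ * (ε * α')) : MvPolynomial ι Λ) ∈ m := by
    rw [hm, C_mem_evI, map_sub, map_one, map_mul, hδ, hlift, inv_mul_cancel₀ hne, sub_self]
  have h10 : φ = (C δ : MvPolynomial ι Λ) • ((ε * α') • φ) +
      (C (1 - δ * (ε * α')) : MvPolynomial ι Λ) • φ := by
    rw [poly_C_smul, poly_C_smul, sub_smul, one_smul, smul_smul]; abel
  rw [h10]
  exact (P ⊔ m • E).add_mem (Submodule.smul_mem _ _ h6) (hsup _ (Submodule.smul_mem_smul h9 hφ))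

end LD

variable [IsLocalRing Λ] [IsAdicComplete (IsLocalRing.maximalIdeal Λ) Λ]

/-- **Comparison of levels.** -/
theorem tw_compare {M' : Type*} [AddCommGroup M'] [Module Λ M'] [Module (MvPolynomial ι Λ) M']
    [IsScalarTower Λ (MvPolynomial ι Λ) M'] [Module.Finite Λ M']
    (hk : Function.Surjective (algebraMap Λ k)) (ha : IsUnit a)
    (h : TwoEig q a v τ τ' α β) (i1 i2 : M →ₗ[Λ] M')
    (h1 : ∀ i, i ≠ q → ∀ x, (X i : MvPolynomial ι Λ) • i1 x = i1 ((X i : MvPolynomial ι Λ) • x))
    (h2 : ∀ i, i ≠ q → ∀ x, (X i : MvPolynomial ι Λ) • i2 x = i2 ((X i : MvPolynomial ι Λ) • x))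
    (h1q : ∀ x, (X q : MvPolynomial ι Λ) • i1 x = i1 ((X q : MvPolynomial ι Λ) • x) - v • i2 x)
    (h2q : ∀ x, (X q : MvPolynomial ι Λ) • i2 x = a • i1 x)
    (hcok : ∃ d : MvPolynomial ι Λ, d ∉ evI Λ τ' ∧ ∀ y, ∃ x1 x2, i1 x1 + i2 x2 = d • y)
    (hker : ∃ d : MvPolynomial ι Λ, d ∉ evI Λ τ ∧ ∀ x1 x2, i1 x1 + i2 x2 = 0 →
      d • x1 = 0 ∧ d • x2 = 0) :
    ∃ e : loc (evI Λ τ) M ≃ₗ[Λ] loc (evI Λ τ') M', ∀ i, i ≠ q → ∀ x,
      e ((X i : MvPolynomial ι Λ) • x) = (X i : MvPolynomial ι Λ) • e x := by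
  have := evI_isMaximal hk τ
  have := evI_isMaximal hk τ'
  obtain ⟨e, he⟩ := exists_locData (Λ := Λ) (evI Λ τ) M
  obtain ⟨e', he'⟩ := exists_locData (Λ := Λ) (evI Λ τ') (TwoM q a v M × M')
  -- the degeneracy map
  let J0 : TwoM q a v M →ₗ[Λ] M' :=
    { toFun := fun z => i1 z.1 + i2 z.2
      map_add' := fun z w => by
        show i1 (z.1 + w.1) + i2 (z.2 + w.2) = _
        rw [map_add, map_add]; abel
      map_smul' := fun r z => by
        show i1 (r • z.1) + i2 (r • z.2) = r • (i1 z.1 + i2 z.2)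
        rw [map_smul, map_smul, smul_add] }
  have hJ0 : ∀ (i : ι) (z : TwoM q a v M), J0 ((X i : MvPolynomial ι Λ) • z) =
      (X i : MvPolynomial ι Λ) • J0 z := by
    intro i z
    rw [two_X_smul]
    show i1 (twoOp q a v M i z).1 + i2 (twoOp q a v M i z).2 =
      (X i : MvPolynomial ι Λ) • (i1 z.1 + i2 z.2)
    by_cases hi : i = q
    · subst hi
      rw [twoOp_self, smul_add, h1q, h2q]
      show i1 ((X i : MvPolynomial ι Λ) • z.1 + a • z.2) + i2 (-(v • z.1)) = _
      rw [map_add, map_neg, map_smul i1 a z.2, map_smul i2 v z.1]; abel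
    · rw [twoOp_of_ne _ _ _ _ hi, smul_add, h1 i hi, h2 i hi]
      rfl
  let J : TwoM q a v M →ₗ[MvPolynomial ι Λ] M' := mkPLin J0 hJ0
  -- first projection
  let f1 : loc (evI Λ τ') (TwoM q a v M) →ₗ[Λ] loc (evI Λ τ) M :=
    { toFun := fun z => ⟨z.1.1, (two_mem_loc h z.2).1⟩
      map_add' := fun z w => rfl
      map_smul' := fun r z => rfl }
  have hf1 : Function.Bijective f1 := by
    constructor
    · rw [injective_iff_map_eq_zero]
      intro z hz
      exact Subtype.ext (two_inj hk ha h he he'.left z.2 (congrArg Subtype.val hz))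
    · rintro ⟨x, hx⟩
      obtain ⟨z, hz, hzx⟩ := two_surj hk h he he'.left hx
      exact ⟨⟨z, hz⟩, Subtype.ext hzx⟩
  let f2 : loc (evI Λ τ') (TwoM q a v M) →ₗ[Λ] loc (evI Λ τ') M' :=
    { toFun := fun z => ⟨J z.1, loc_le_comap J z.2⟩
      map_add' := fun z w => Subtype.ext (map_add J z.1 w.1)
      map_smul' := fun r z => Subtype.ext (map_smul J0 r z.1) }
  have hf2 : Function.Bijective f2 := by
    constructor
    · rw [injective_iff_map_eq_zero]
      intro z hz
      obtain ⟨d, hd, hd'⟩ := hker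
      have h3 := hd' z.1.1 z.1.2 (congrArg Subtype.val hz)
      obtain ⟨u, hu⟩ := he.unit d hd
      obtain ⟨h4, h5⟩ := two_mem_loc h z.2
      have h6 : z.1.1 = 0 := by
        rw [← he.mem_iff.1 h4, ← hu, h3.1, smul_zero]
      have h7 : z.1.2 = 0 := by
        rw [← he.mem_iff.1 h5, ← hu, h3.2, smul_zero]
      exact Subtype.ext (Prod.ext h6 h7)
    · rintro ⟨y, hy⟩
      obtain ⟨d, hd, hd'⟩ := hcok
      obtain ⟨x1, x2, hx⟩ := hd' y
      obtain ⟨z, hz, hzy⟩ := exists_loc_preimage he'.left he'.right J hy hd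
        ⟨tw q a v x1 x2, hx⟩
      exact ⟨⟨z, hz⟩, Subtype.ext hzy⟩
  refine ⟨(LinearEquiv.ofBijective f1 hf1).symm.trans (LinearEquiv.ofBijective f2 hf2),
    fun i hi x => ?_⟩
  obtain ⟨z, rfl⟩ := hf1.2 x
  have h8 : (X i : MvPolynomial ι Λ) • f1 z = f1 ((X i : MvPolynomial ι Λ) • z) := by
    apply Subtype.ext
    show (X i : MvPolynomial ι Λ) • z.1.1 = ((X i : MvPolynomial ι Λ) • z.1).1
    rw [two_X_smul, twoOp_of_ne _ _ _ _ hi]
    rfl
  have h9 : ∀ z, (LinearEquiv.ofBijective f1 hf1).symm (f1 z) = z := fun z =>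
    (LinearEquiv.ofBijective f1 hf1).symm_apply_apply z
  rw [h8, LinearEquiv.trans_apply, LinearEquiv.trans_apply, h9, h9]
  apply Subtype.ext
  exact map_smul J (X i) z.1

end Two

end Fermat.Agent.TWCoh
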