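import Fermat.Agent.TWCoh.Class

/-!
# The trace of a twisted symbol vanishes
-/

set_option autoImplicit false

noncomputable section

namespace Fermat.Agent.TWCoh

open Matrix CongruenceSubgroup
open scoped MatrixGroups OnePoint

/-- lower triangular unipotent matrices -/
def lo (c : ℤ) : SL(2, ℤ) := ⟨!![1, 0; c, 1], by rw [Matrix.det_fin_two_of]; ring⟩

theorem lo_00 (c : ℤ) : lo c 0 0 = 1 := rfl
theorem lo_01 (c : ℤ) : lo c 0 1 = 0 := rfl
theorem lo_10 (c : ℤ) : lo c 1 0 = c := rfl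
theorem lo_11 (c : ℤ) : lo c 1 1 = 1 := rfl

theorem ent_lo (c : ℤ) : Ent (io (lo c)) 1 0 c 1 :=
  (ent_io (lo c)).congr (by rw [lo_00]; simp) (by rw [lo_01]; simp) (by rw [lo_10])
    (by rw [lo_11]; simp)

theorem lo_mem {N : ℕ} {c : ℤ} (h : (N : ℤ) ∣ c) : lo c ∈ Gamma0 N := mem_Gamma0.2 (by rwa [lo_10])

theorem sum_units {q : ℕ} [Fact q.Prime] {A : Type*} [AddCommGroup A] (f : ZMod q → A) :
    ∑ x, f x = f 0 + ∑ u : (ZMod q)ˣ, f u := by
  classical
  rw [Fintype.sum_eq_add_sum_subtype_ne f 0]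
  congr 1
  exact (Equiv.sum_comp (unitsEquivNeZero : (ZMod q)ˣ ≃ {a : ZMod q // a ≠ 0})
    (fun x => f x.1)).symm

theorem sum_char_units {q : ℕ} [Fact q.Prime] {K : Type*} [CommRing K] [IsDomain K]
    {ψ : DirichletCharacter K q} (hψ : ψ ≠ 1) : ∑ u : (ZMod q)ˣ, ψ u = 0 := by
  have h1 := MulChar.sum_eq_zero_of_ne_one hψ
  rw [sum_units, MulChar.map_zero, zero_add] at h1
  exact h1

section Trace

variable {K : Type*} [CommRing K] [IsDomain K] {A : Type*} [AddCommGroup A] [Module K A]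
  {χ : ℤ → K} {N : ℕ} {φ : P1 → P1 → A}

/-- the trace from level `N * q` to level `N`, `q ∣ N`. -/
def Ls (N q : ℕ) [NeZero q] (φ : P1 → P1 → A) : P1 → P1 → A :=
  ∑ i : ZMod q, pl (io (lo ((N : ℤ) * (i.val : ℤ)))) φ

theorem Ls_apply (N q : ℕ) [NeZero q] (φ : P1 → P1 → A) (x y : P1) :
    Ls N q φ x y = ∑ i : ZMod q, φ (io (lo ((N : ℤ) * (i.val : ℤ))) • x)
      (io (lo ((N : ℤ) * (i.val : ℤ))) • y) := by
  simp [Ls, pl]

/-- **The trace of a twist.** -/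
theorem Ls_Rt (h : CF χ N φ) {q : ℕ} [hq : Fact q.Prime] {N1 : ℕ} (hN1 : N = q * N1)
    (hqN1 : ¬ q ∣ N1) {ψ : DirichletCharacter K q} (hψ : ψ ≠ 1)
    (hχ : ∀ a : ℤ, (N1 : ℤ) ∣ a - 1 → IsUnit (a : ZMod q) → χ a = ψ (a : ZMod q) ^ 2)
    (hχ1 : χ 1 = 1) : Ls N q (Rt q ψ⁻¹ A φ) = 0 := by
  subst hN1
  have hq0 : q ≠ 0 := hq.out.ne_zero
  have hqQ : (q : ℚ) ≠ 0 := by exact_mod_cast hq0
  have hT := h.trInv hχ1
  have hN1u : (N1 : ZMod q) ≠ 0 := by rwa [Ne, ZMod.natCast_eq_zero_iff]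
  -- the terms
  let X : ZMod q → ZMod q → P1 → P1 → A := fun u i =>
    pl (Tr ((u.val : ℚ) / q) * io (lo (((q * N1 : ℕ) : ℤ) * (i.val : ℤ)))) φ
  have h1 : Ls (q * N1) q (Rt q ψ⁻¹ A φ) = ∑ u : ZMod q, ψ⁻¹ u • ∑ i : ZMod q, X u i := by
    rw [Ls]
    have : ∀ i : ZMod q, pl (io (lo (((q * N1 : ℕ) : ℤ) * (i.val : ℤ)))) (Rt q ψ⁻¹ A φ) =
        ∑ u : ZMod q, ψ⁻¹ u • X u i := by
      intro i
      rw [Rt_apply, ← plL_apply (K := K), map_sum]
      refine Finset.sum_congr rfl fun u _ => ?_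
      rw [map_smul, plL_apply, pl_pl]
    rw [Finset.sum_congr rfl fun i _ => this i, Finset.sum_comm]
    exact Finset.sum_congr rfl fun u _ => by rw [Finset.smul_sum]
  -- first family
  have hA : ∀ (u s : (ZMod q)ˣ) (i : ZMod q), (u : ZMod q) * N1 * i = s - 1 →
      X u i = (ψ (s : ZMod q) ^ 2) • pl (Tr ((((u / s : (ZMod q)ˣ) : ZMod q).val : ℚ) / q)) φ := by
    intro u s i hi
    set v : (ZMod q)ˣ := u / s with hv
    have huv : (u : ZMod q) = s * v := by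
      have : u = s * v := by rw [hv, mul_div_cancel]
      rw [this, Units.val_mul]
    set a : ℤ := 1 + (u : ZMod q).val * (N1 * i.val) with ha
    have has : (a : ZMod q) = s := by
      rw [ha]; push_cast
      rw [ZMod.natCast_zmod_val, ZMod.natCast_zmod_val]
      linear_combination hi
    have hdiv : (q : ℤ) ∣ (u : ZMod q).val - a * (v : ZMod q).val := by
      rw [← ZMod.intCast_zmod_eq_zero_iff_dvd]; push_cast
      rw [ZMod.natCast_zmod_val, ZMod.natCast_zmod_val, has, huv]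
      ring
    obtain ⟨b, hb⟩ := hdiv
    obtain ⟨γ, h1, h2, h3, h4⟩ := exists_SL a b ((q * N1 : ℕ) * i.val)
      (1 - N1 * i.val * (v : ZMod q).val) (by
        push_cast
        linear_combination (a - 1 : ℤ) * 1 - a * (N1 * i.val * (v : ZMod q).val : ℤ) -
          (N1 * i.val : ℤ) * (-hb) - ha + (1 : ℤ) * 1 - 1)
    have hγ : γ ∈ Gamma0 (q * N1) := mem_Gamma0.2 (by rw [h3]; exact dvd_mul_right _ _)
    have hbQ : (((u : ZMod q).val : ℚ)) - a * (v : ZMod q).val = q * b := by exact_mod_cast hb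
    have haQ : (a : ℚ) = 1 + (u : ZMod q).val * (N1 * i.val) := by exact_mod_cast ha
    have e1 : Tr (((u : ZMod q).val : ℚ) / q) * io (lo (((q * N1 : ℕ) : ℤ) * (i.val : ℤ))) =
        io γ * Tr (((v : ZMod q).val : ℚ) / q) := by
      refine (((ent_Tr _).mul (ent_lo _)).congr ?_ ?_ ?_ ?_).ext ((ent_io γ).mul (ent_Tr _))
      · rw [h1, haQ]; push_cast; field_simp; ring
      · rw [h1, h2]; push_cast; field_simp
        linear_combination hbQ
      · rw [h3]; push_cast; ring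
      · rw [h3, h4]; push_cast; field_simp; ring
    show pl (Tr (((u : ZMod q).val : ℚ) / q) * io (lo (((q * N1 : ℕ) : ℤ) * (i.val : ℤ)))) φ = _
    rw [e1, ← pl_pl, h.pl_io hγ, ← plL_apply (K := K), map_smul, plL_apply, h1]
    congr 1
    rw [hχ a ⟨(u : ZMod q).val * i.val, by rw [ha]; ring⟩ (by rw [has]; exact s.isUnit), has]
  -- second family
  have hB : ∀ (u : (ZMod q)ˣ) (i i₁ : ZMod q), (u : ZMod q) * N1 * i = -1 → (N1 : ZMod q) * i₁ = -1 →
      X u i = (ψ (u : ZMod q) ^ 2) • X 1 i₁ := by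
    intro u i i₁ hi hi₁
    have h1v : (1 : ZMod q).val = 1 := by
      have : Fact (1 < q) := ⟨hq.out.one_lt⟩
      exact ZMod.val_one q
    set α : ℤ := 1 + (u : ZMod q).val * (N1 * i.val) with hα
    set α₁ : ℤ := 1 + N1 * i₁.val with hα₁
    obtain ⟨e, he⟩ : (q : ℤ) ∣ α := by
      rw [← ZMod.intCast_zmod_eq_zero_iff_dvd, hα]; push_cast
      rw [ZMod.natCast_zmod_val, ZMod.natCast_zmod_val]
      linear_combination hi
    obtain ⟨e₁, he₁⟩ : (q : ℤ) ∣ α₁ := by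
      rw [← ZMod.intCast_zmod_eq_zero_iff_dvd, hα₁]; push_cast
      rw [ZMod.natCast_zmod_val]
      linear_combination hi₁
    set a : ℤ := α - (u : ZMod q).val * (N1 * i₁.val) with ha
    have hau : (a : ZMod q) = u := by
      rw [ha, hα]; push_cast
      rw [ZMod.natCast_zmod_val, ZMod.natCast_zmod_val, ZMod.natCast_zmod_val]
      linear_combination hi - (u : ZMod q) * hi₁
    obtain ⟨γ, h1, h2, h3, h4⟩ := exists_SL a ((u : ZMod q).val * e₁ - e)
      ((q * N1 : ℕ) * (i.val - i₁.val)) (α₁ - N1 * i.val) (by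
        push_cast
        linear_combination (N1 * (i.val - i₁.val) : ℤ) * ((u : ZMod q).val * he₁ - he) +
          (α₁ - N1 * i.val : ℤ) * (ha + hα) - (N1 * (i.val - i₁.val) : ℤ) * ((u : ZMod q).val * hα₁ - hα) +
          (1 : ℤ) * hα₁)
    have hγ : γ ∈ Gamma0 (q * N1) := mem_Gamma0.2 (by rw [h3]; exact dvd_mul_right _ _)
    have heQ : (1 : ℚ) + (u : ZMod q).val * (N1 * i.val) = q * e := by
      exact_mod_cast hα.symm.trans he
    have he₁Q : (1 : ℚ) + N1 * i₁.val = q * e₁ := by exact_mod_cast hα₁.symm.trans he₁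
    have haQ : (a : ℚ) = 1 + (u : ZMod q).val * (N1 * i.val) - (u : ZMod q).val * (N1 * i₁.val) := by
      rw [ha, hα]; push_cast; ring
    have hα₁Q : (α₁ : ℚ) = 1 + N1 * i₁.val := by rw [hα₁]; push_cast; ring
    have e1 : Tr (((u : ZMod q).val : ℚ) / q) * io (lo (((q * N1 : ℕ) : ℤ) * (i.val : ℤ))) =
        io γ * (Tr (((1 : ZMod q).val : ℚ) / q) * io (lo (((q * N1 : ℕ) : ℤ) * (i₁.val : ℤ)))) := by
      refine (((ent_Tr _).mul (ent_lo _)).congr ?_ ?_ ?_ ?_).ext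
        ((ent_io γ).mul ((ent_Tr _).mul (ent_lo _)))
      · rw [h1, h2, haQ, h1v]; push_cast; field_simp
        linear_combination (N1 * i₁.val : ℚ) * ((u : ZMod q).val * he₁Q - heQ)
      · rw [h1, h2, haQ, h1v]; push_cast; field_simp
        linear_combination (u : ZMod q).val * he₁Q - heQ
      · rw [h3, h4, h1v]; push_cast; rw [hα₁Q]; field_simp; ring
      · rw [h3, h4, h1v]; push_cast; rw [hα₁Q]; field_simp; ring
    show pl (Tr (((u : ZMod q).val : ℚ) / q) * io (lo (((q * N1 : ℕ) : ℤ) * (i.val : ℤ)))) φ = _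
    rw [e1, ← pl_pl, h.pl_io hγ, ← plL_apply (K := K), map_smul, plL_apply, h1]
    congr 1
    rw [hχ a ⟨(u : ZMod q).val * i.val - (u : ZMod q).val * i₁.val, by rw [ha, hα]; ring⟩
      (by rw [hau]; exact u.isUnit), hau]
  -- reindexing
  set i₁ : ZMod q := -(N1 : ZMod q)⁻¹ with hi₁
  have hi₁' : (N1 : ZMod q) * i₁ = -1 := by rw [hi₁, mul_neg, mul_inv_cancel₀ hN1u]
  have h2 : ∀ u : (ZMod q)ˣ, ∑ i : ZMod q, X u i = ψ (u : ZMod q) ^ 2 • X 1 i₁ +
      ∑ s : (ZMod q)ˣ, (ψ (s : ZMod q) ^ 2) •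
        pl (Tr ((((u / s : (ZMod q)ˣ) : ZMod q).val : ℚ) / q)) φ := by
    intro u
    have hc0 : (u : ZMod q) * N1 ≠ 0 := mul_ne_zero u.ne_zero hN1u
    let E : ZMod q ≃ ZMod q :=
      { toFun := fun s => ((u : ZMod q) * N1)⁻¹ * (s - 1)
        invFun := fun i => (u : ZMod q) * N1 * i + 1
        left_inv := fun s => by
          show (u : ZMod q) * N1 * (((u : ZMod q) * N1)⁻¹ * (s - 1)) + 1 = s
          rw [mul_inv_cancel_left₀ hc0]; ring
        right_inv := fun i => by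
          show ((u : ZMod q) * N1)⁻¹ * ((u : ZMod q) * N1 * i + 1 - 1) = i
          rw [add_sub_cancel_right, inv_mul_cancel_left₀ hc0] }
    have hE : ∀ s, (u : ZMod q) * N1 * E s = s - 1 := fun s => by
      show (u : ZMod q) * N1 * (((u : ZMod q) * N1)⁻¹ * (s - 1)) = _
      rw [mul_inv_cancel_left₀ hc0]
    rw [← Equiv.sum_comp E, sum_units]
    congr 1
    · exact hB u _ i₁ (by rw [hE]; ring) hi₁'
    · exact Finset.sum_congr rfl fun s _ => hA u s _ (hE _)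
  rw [h1, sum_units, MulChar.map_zero, zero_smul, zero_add,
    Finset.sum_congr rfl fun u _ => by rw [h2 u]]
  simp only [smul_add, Finset.sum_add_distrib, Finset.smul_sum]
  have h3 : ∑ u : (ZMod q)ˣ, ψ⁻¹ (u : ZMod q) • ψ (u : ZMod q) ^ 2 • X 1 i₁ = 0 := by
    have : ∀ u : (ZMod q)ˣ, ψ⁻¹ (u : ZMod q) • ψ (u : ZMod q) ^ 2 • X 1 i₁ =
        ψ (u : ZMod q) • X 1 i₁ := by
      intro u
      rw [smul_smul, sq, ← mul_assoc, inv_mul_char ψ u.isUnit, one_mul]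
    rw [Finset.sum_congr rfl fun u _ => this u, ← Finset.sum_smul, sum_char_units hψ, zero_smul]
  rw [h3, zero_add, Finset.sum_comm]
  have h4 : ∀ s : (ZMod q)ˣ, ∑ u : (ZMod q)ˣ, ψ⁻¹ (u : ZMod q) • ψ (s : ZMod q) ^ 2 •
      pl (Tr ((((u / s : (ZMod q)ˣ) : ZMod q).val : ℚ) / q)) φ =
      ψ (s : ZMod q) • ∑ v : (ZMod q)ˣ, ψ⁻¹ (v : ZMod q) •
        pl (Tr (((v : ZMod q).val : ℚ) / q)) φ := by
    intro s
    rw [Finset.smul_sum, ← Equiv.sum_comp (Equiv.mulRight s)]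
    refine Finset.sum_congr rfl fun v _ => ?_
    show ψ⁻¹ ((v * s : (ZMod q)ˣ) : ZMod q) • ψ (s : ZMod q) ^ 2 •
      pl (Tr ((((v * s / s : (ZMod q)ˣ) : ZMod q).val : ℚ) / q)) φ = _
    rw [mul_div_cancel_right, smul_smul, smul_smul, Units.val_mul, map_mul]
    congr 1
    have := inv_mul_char ψ s.isUnit
    linear_combination (ψ⁻¹ (v : ZMod q) * ψ (s : ZMod q)) * this
  rw [Finset.sum_congr rfl fun s _ => h4 s, ← Finset.sum_smul, sum_char_units hψ, zero_smul]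

/-- `U_q` of a twist by a character of conductor `q`. -/
theorem Uop_Rt (hT : TrInv φ) {q : ℕ} [hq : Fact q.Prime] {ψ : DirichletCharacter K q}
    (hψ : ψ ≠ 1) : Uop K A P1 q hq.out.ne_zero (Rt q ψ A φ) = 0 := by
  have hq0 := hq.out.ne_zero
  have hqQ : (q : ℚ) ≠ 0 := by exact_mod_cast hq0
  have hmat : ∀ (u : ZMod q) (j : ℕ), Tr ((u.val : ℚ) / q) * Up q hq0 (j : ℤ) =
      Up q hq0 ((j : ℤ) + (u.val : ℤ)) := fun u j =>
    (((ent_Tr _).mul (ent_Up q hq0 _)).congr (by push_cast; ring)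
      (by push_cast; field_simp) (by ring) (by push_cast; ring)).ext (ent_Up _ _ _)
  ext x y
  rw [Uop_apply, Rt_apply]
  simp only [Finset.sum_apply, Pi.smul_apply]
  rw [Finset.sum_comm]
  have h1 : ∀ u : ZMod q, ∑ j ∈ Finset.range q, ψ u • pl (Tr ((u.val : ℚ) / q)) φ
      (Up q hq0 (j : ℕ) • x) (Up q hq0 (j : ℕ) • y) = ψ u • Uop K A P1 q hq0 φ x y := by
    intro u
    rw [← Finset.smul_sum]
    congr 1
    have h2 : ∀ j ∈ Finset.range q, pl (Tr ((u.val : ℚ) / q)) φ (Up q hq0 (j : ℕ) • x)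
        (Up q hq0 (j : ℕ) • y) = φ (Up q hq0 ((j : ℤ) + (u.val : ℤ)) • x)
          (Up q hq0 ((j : ℤ) + (u.val : ℤ)) • y) := by
      intro j _
      rw [pl, ← mul_smul, ← mul_smul, hmat]
    rw [Finset.sum_congr rfl h2]
    refine hT.sum_eq (Λ := K) hq0 (Finset.range q) (fun j => (j : ℤ) + (u.val : ℤ)) ?_
      (Finset.card_range q) x y
    intro i hi j hj hij
    rw [Finset.mem_range] at hi hj
    have h3 : (i : ℤ) ≡ j [ZMOD q] := by simpa using hij.sub_right (u.val : ℤ)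
    exact Nat.ModEq.eq_of_lt_of_lt (Int.natCast_modEq_iff.1 h3) hi hj
  rw [Finset.sum_congr rfl fun u _ => h1 u, ← Finset.sum_smul, MulChar.sum_eq_zero_of_ne_one hψ,
    zero_smul]
  rfl

end Trace

end Fermat.Agent.TWCoh
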