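import Fermat.Agent.TWCoh.TWLevel

/-!
# Twisting modular symbols by characters
-/

set_option autoImplicit false

noncomputable section

namespace Fermat.Agent.TWCoh

open Matrix CongruenceSubgroup
open scoped MatrixGroups OnePoint

section Def

variable {K : Type*} [CommRing K] {A : Type*} [AddCommGroup A] [Module K A]

/-- equivariance with respect to a character function -/
structure CF (χ : ℤ → K) (N : ℕ) (φ : P1 → P1 → A) : Prop where
  add : ∀ x y z, φ x y + φ y z = φ x z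
  equi : ∀ γ ∈ Gamma0 N, ∀ x y, φ (io γ • x) (io γ • y) = χ (γ 0 0) • φ x y

variable {χ : ℤ → K} {N : ℕ} {φ : P1 → P1 → A}

theorem CF.trInv (h : CF χ N φ) (h1 : χ 1 = 1) : TrInv φ := by
  intro k x y
  rw [← io_T_zpow]
  have hT : ModularGroup.T ^ k ∈ Gamma0 N := by
    rw [mem_Gamma0, ModularGroup.coe_T_zpow]; simp
  rw [h.equi _ hT, ModularGroup.coe_T_zpow]
  simp [h1]

theorem CF.pl_io (h : CF χ N φ) {γ : SL(2, ℤ)} (hγ : γ ∈ Gamma0 N) :
    pl (io γ) φ = χ (γ 0 0) • φ := by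
  ext x y
  exact h.equi _ hγ x y

/-- the operators -/
def tk (w w' : K) (A : Type*) [AddCommGroup A] [Module K A] (l : ℕ) (hl : l ≠ 0) :
    Module.End K (P1 → P1 → A) :=
  w • Uop K A P1 l hl + w' • Bop K A P1 l hl

theorem tk_apply (w w' : K) {l : ℕ} (hl : l ≠ 0) (φ : P1 → P1 → A) :
    tk w w' A l hl φ = w • Uop K A P1 l hl φ + w' • Bop K A P1 l hl φ := rfl

/-- pull back is linear -/
def plL (K : Type*) [CommRing K] (A : Type*) [AddCommGroup A] [Module K A] (g : GQ) :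
    Module.End K (P1 → P1 → A) where
  toFun := pl g
  map_add' _ _ := rfl
  map_smul' _ _ := rfl

theorem plL_apply (g : GQ) (φ : P1 → P1 → A) : plL K A g φ = pl g φ := rfl

/-- the twisting operator -/
def Rt (q : ℕ) [NeZero q] (ψ : DirichletCharacter K q) (A : Type*) [AddCommGroup A] [Module K A] :
    Module.End K (P1 → P1 → A) :=
  ∑ u : ZMod q, ψ u • plL K A (Tr ((u.val : ℚ) / q))

theorem Rt_apply (q : ℕ) [NeZero q] (ψ : DirichletCharacter K q) (φ : P1 → P1 → A) :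
    Rt q ψ A φ = ∑ u : ZMod q, ψ u • pl (Tr ((u.val : ℚ) / q)) φ := by
  simp [Rt, plL_apply]

end Def

variable {K : Type*} [CommRing K] {A : Type*} [AddCommGroup A] [Module K A]
  {χ : ℤ → K} {N : ℕ} {φ : P1 → P1 → A}

omit [AddCommGroup A] in
/-- periodicity of translates -/
theorem TrInv.pl_congr (h : TrInv φ) {q : ℕ} (hq : q ≠ 0) {a b : ℤ} (hab : (q : ℤ) ∣ a - b) :
    pl (Tr ((a : ℚ) / q)) φ = pl (Tr ((b : ℚ) / q)) φ := by
  obtain ⟨m, hm⟩ := hab
  have hq' : (q : ℚ) ≠ 0 := by exact_mod_cast hq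
  have h1 : ((a : ℤ) : ℚ) / q = (m : ℤ) + (b : ℚ) / q := by
    have : (a : ℚ) - b = q * m := by exact_mod_cast hm
    field_simp
    linear_combination this
  rw [h1, ← Tr_mul, ← pl_pl]
  congr 1
  ext x y
  exact h m x y

omit [AddCommGroup A] in
theorem TrInv.pl_val (h : TrInv φ) {q : ℕ} [NeZero q] {a : ℤ} {u : ZMod q} (hu : (a : ZMod q) = u) :
    pl (Tr ((a : ℚ) / q)) φ = pl (Tr ((u.val : ℚ) / q)) φ := by
  have := h.pl_congr (NeZero.ne q) (a := a) (b := (u.val : ℕ)) (by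
    rw [← ZMod.intCast_zmod_eq_zero_iff_dvd]; push_cast; rw [ZMod.natCast_zmod_val, hu, sub_self])
  rw [this]
  norm_num

/-! ### Equivariance of the twist -/

theorem CF.rt (h : CF χ N φ) (hN : ∀ a b : ℤ, (N : ℤ) ∣ a - b → χ a = χ b) {q : ℕ} [NeZero q]
    (hqN : q ∣ N) (ψ : DirichletCharacter K q) :
    CF (fun a => χ a * ψ (a : ZMod q) ^ 2) (N * q) (Rt q ψ A φ) := by
  obtain ⟨N1, rfl⟩ := hqN
  have hq' : (q : ℚ) ≠ 0 := by exact_mod_cast (NeZero.ne q)
  constructor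
  · intro x y z
    rw [Rt_apply]
    simp only [Finset.sum_apply, Pi.smul_apply]
    rw [← Finset.sum_add_distrib]
    exact Finset.sum_congr rfl fun u _ => by
      rw [← smul_add]; congr 1; exact h.add _ _ _
  · intro γ hγ x y
    obtain ⟨e, he⟩ := mem_Gamma0.1 hγ
    push_cast at he
    have hdet := det_SL γ
    have hu : IsUnit ((γ 0 0 : ℤ) : ZMod q) := by
      refine IsUnit.of_mul_eq_one ((γ 1 1 : ℤ) : ZMod q) ?_
      have h1 := congrArg (fun t : ℤ => (t : ZMod q)) hdet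
      simp only [he] at h1
      push_cast at h1
      rw [ZMod.natCast_self] at h1
      linear_combination h1
    obtain ⟨a, ha⟩ := hu
    rw [Rt_apply]
    simp only [Finset.sum_apply, Pi.smul_apply]
    rw [Finset.smul_sum, ← Equiv.sum_comp (Units.mulLeft (a ^ 2))]
    refine Finset.sum_congr rfl fun u' _ => ?_
    -- the matrix identity
    set u : ZMod q := (Units.mulLeft (a ^ 2)) u' with hudef
    have hu1 : u = a ^ 2 * u' := rfl
    have hψ : ψ u = ψ ((γ 0 0 : ℤ) : ZMod q) ^ 2 * ψ u' := by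
      rw [hu1, map_mul, map_pow, ha]
    have hdiv : (q : ℤ) ∣ (u.val : ℤ) * γ 1 1 - (u'.val : ℤ) * γ 0 0 := by
      rw [← ZMod.intCast_zmod_eq_zero_iff_dvd]
      push_cast
      rw [ZMod.natCast_zmod_val, ZMod.natCast_zmod_val, hu1, ha]
      have h1 := congrArg (fun t : ℤ => (t : ZMod q)) hdet
      simp only [he] at h1
      push_cast at h1
      rw [ZMod.natCast_self] at h1
      linear_combination (γ 0 0 : ℤ) * u' * h1
    obtain ⟨m, hm⟩ := hdiv
    obtain ⟨δ, h1, h2, h3, h4⟩ := exists_SL (γ 0 0 + u.val * (q * N1 * e))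
      (γ 0 1 + m - u.val * u'.val * (N1 * e)) (q * N1 * q * e) (γ 1 1 - u'.val * (q * N1 * e)) (by
        rw [he] at hdet
        linear_combination hdet + (q * N1 * e : ℤ) * hm)
    have hδ : δ ∈ Gamma0 (q * N1) := mem_Gamma0.2 (by
      rw [h3]; exact ⟨q * e, by push_cast; ring⟩)
    have hmQ : (u.val : ℚ) * (γ 1 1 : ℤ) - (u'.val : ℚ) * (γ 0 0 : ℤ) = q * m := by
      exact_mod_cast hm
    have heQ : ((γ 1 0 : ℤ) : ℚ) = q * N1 * q * e := by exact_mod_cast he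
    have e1 : Tr ((u.val : ℚ) / q) * io γ = io δ * Tr ((u'.val : ℚ) / q) := by
      refine (((ent_Tr _).mul (ent_io γ)).congr ?_ ?_ ?_ ?_).ext ((ent_io δ).mul (ent_Tr _))
      · rw [h1, heQ]; push_cast; field_simp; ring
      · rw [h1, h2]; push_cast; field_simp
        linear_combination hmQ
      · rw [h3, heQ]; push_cast; ring
      · rw [h3, h4]; push_cast; field_simp; ring
    show ψ u • φ (Tr ((u.val : ℚ) / q) • io γ • x) (Tr ((u.val : ℚ) / q) • io γ • y) =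
      (χ (γ 0 0) * ψ ((γ 0 0 : ℤ) : ZMod q) ^ 2) • ψ u' •
        φ (Tr ((u'.val : ℚ) / q) • x) (Tr ((u'.val : ℚ) / q) • y)
    rw [← mul_smul, ← mul_smul, e1, mul_smul, mul_smul, h.equi _ hδ, hψ, smul_smul, smul_smul]
    have h5 : χ (δ 0 0) = χ (γ 0 0) := by
      apply hN
      rw [h1]
      exact ⟨u.val * e, by push_cast; ring⟩
    rw [h5]
    congr 1
    ring

/-! ### Hecke operators and twists -/

theorem Uop_pl_Tr (h : TrInv φ) {l : ℕ} (hl : l ≠ 0) {q : ℕ} [NeZero q] (u : ZMod q) :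
    Uop K A P1 l hl (pl (Tr ((u.val : ℚ) / q)) φ) =
      pl (Tr ((((l : ZMod q) * u).val : ℚ) / q)) (Uop K A P1 l hl φ) := by
  have hq' : (q : ℚ) ≠ 0 := by exact_mod_cast (NeZero.ne q)
  have hl' : (l : ℚ) ≠ 0 := by exact_mod_cast hl
  set u'' : ZMod q := (l : ZMod q) * u with hu''
  obtain ⟨m, hm⟩ : (q : ℤ) ∣ (l : ℤ) * u.val - u''.val := by
    rw [← ZMod.intCast_zmod_eq_zero_iff_dvd]
    push_cast
    rw [ZMod.natCast_zmod_val, ZMod.natCast_zmod_val, hu'', sub_self]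
  have hmQ : (l : ℚ) * u.val - u''.val = q * m := by exact_mod_cast hm
  ext x y
  rw [Uop_apply]
  show _ = Uop K A P1 l hl φ (Tr ((u''.val : ℚ) / q) • x) (Tr ((u''.val : ℚ) / q) • y)
  rw [← h.sum_eq hl (Finset.range l) (fun j => (j : ℤ) + m) (by
    intro i hi j hj hij
    rw [Finset.mem_range] at hi hj
    have h1 : (i : ℤ) ≡ j [ZMOD l] := by
      have := hij.sub_right m
      simpa using this
    exact Nat.ModEq.eq_of_lt_of_lt (Int.natCast_modEq_iff.1 h1) hi hj) (Finset.card_range l)]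
  refine Finset.sum_congr rfl fun j _ => ?_
  have e1 : Tr ((u.val : ℚ) / q) * Up l hl (j : ℕ) =
      Up l hl ((j : ℤ) + m) * Tr ((u''.val : ℚ) / q) := by
    refine (((ent_Tr _).mul (ent_Up l hl _)).congr ?_ ?_ ?_ ?_).ext
      ((ent_Up l hl _).mul (ent_Tr _))
    · ring
    · push_cast; field_simp; linear_combination hmQ
    · ring
    · ring
  show φ (Tr ((u.val : ℚ) / q) • Up l hl (j : ℕ) • x) (Tr ((u.val : ℚ) / q) • Up l hl (j : ℕ) • y) = _
  rw [← mul_smul, ← mul_smul, e1, mul_smul, mul_smul]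

theorem Bop_pl_Tr (h : TrInv φ) {l : ℕ} (hl : l ≠ 0) {q : ℕ} [NeZero q] (u : ZMod q) :
    Bop K A P1 l hl (pl (Tr ((((l : ZMod q) * u).val : ℚ) / q)) φ) =
      pl (Tr ((u.val : ℚ) / q)) (Bop K A P1 l hl φ) := by
  have hq' : (q : ℚ) ≠ 0 := by exact_mod_cast (NeZero.ne q)
  set u'' : ZMod q := (l : ZMod q) * u with hu''
  obtain ⟨m, hm⟩ : (q : ℤ) ∣ (l : ℤ) * u.val - u''.val := by
    rw [← ZMod.intCast_zmod_eq_zero_iff_dvd]
    push_cast
    rw [ZMod.natCast_zmod_val, ZMod.natCast_zmod_val, hu'', sub_self]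
  have hmQ : (l : ℚ) * u.val - u''.val = q * m := by exact_mod_cast hm
  have e1 : Tr ((u''.val : ℚ) / q) * Di l hl = Tr ((-m : ℤ) : ℚ) * (Di l hl * Tr ((u.val : ℚ) / q)) := by
    refine (((ent_Tr _).mul (ent_Di l hl)).congr ?_ ?_ ?_ ?_).ext
      ((ent_Tr _).mul ((ent_Di l hl).mul (ent_Tr _)))
    · push_cast; ring
    · push_cast; field_simp; linear_combination -hmQ
    · ring
    · push_cast; ring
  rw [← pl_Di (Λ := K), ← pl_Di (Λ := K), pl_pl, pl_pl, e1, ← pl_pl]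
  congr 1
  ext x y
  exact h _ x y

/-- a unit for reindexing -/
theorem Rt_uop (h : TrInv φ) {l : ℕ} (hl : l ≠ 0) {q : ℕ} [NeZero q] (hlq : IsUnit (l : ZMod q))
    (ψ : DirichletCharacter K q) :
    Uop K A P1 l hl (Rt q ψ A φ) = ψ⁻¹ (l : ZMod q) • Rt q ψ A (Uop K A P1 l hl φ) := by
  obtain ⟨a, ha⟩ := hlq
  rw [Rt_apply, Rt_apply, map_sum, Finset.smul_sum,
    ← Equiv.sum_comp (Units.mulLeft a) (fun u => ψ⁻¹ (l : ZMod q) • ψ u •
      pl (Tr ((u.val : ℚ) / q)) (Uop K A P1 l hl φ))]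
  refine Finset.sum_congr rfl fun u _ => ?_
  have e1 : ψ⁻¹ (l : ZMod q) * ψ (Units.mulLeft a u) = ψ u := by
    show ψ⁻¹ (l : ZMod q) * ψ (a * u) = ψ u
    rw [← ha, map_mul, ← mul_assoc, inv_mul_char ψ a.isUnit, one_mul]
  rw [smul_smul, e1, map_smul, Uop_pl_Tr h hl]
  congr 1
  show _ = pl (Tr ((((a : ZMod q) * u).val : ℚ) / q)) _
  rw [ha]

theorem Rt_bop (h : TrInv φ) {l : ℕ} (hl : l ≠ 0) {q : ℕ} [NeZero q] (hlq : IsUnit (l : ZMod q))
    (ψ : DirichletCharacter K q) :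
    Bop K A P1 l hl (Rt q ψ A φ) = ψ (l : ZMod q) • Rt q ψ A (Bop K A P1 l hl φ) := by
  obtain ⟨a, ha⟩ := hlq
  rw [Rt_apply, Rt_apply, map_sum, Finset.smul_sum, ← Equiv.sum_comp (Units.mulLeft a)]
  refine Finset.sum_congr rfl fun u _ => ?_
  show Bop K A P1 l hl (ψ (a * u) • pl (Tr ((((a : ZMod q) * u).val : ℚ) / q)) φ) = _
  rw [ha, map_mul, map_smul, Bop_pl_Tr h hl, smul_smul]

theorem Rt_tk (h : TrInv φ) {l : ℕ} (hl : l ≠ 0) {q : ℕ} [NeZero q] (hlq : IsUnit (l : ZMod q))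
    (ψ : DirichletCharacter K q) (w w' : K) :
    tk w w' A l hl (Rt q ψ A φ) =
      Rt q ψ A (tk (w * ψ⁻¹ (l : ZMod q)) (w' * ψ (l : ZMod q)) A l hl φ) := by
  rw [tk_apply, tk_apply, Rt_uop h hl hlq, Rt_bop h hl hlq, map_add, map_smul, map_smul,
    smul_smul, smul_smul]

theorem TrInv.tk (h : TrInv φ) {l : ℕ} (hl : l ≠ 0) (w w' : K) : TrInv (tk w w' A l hl φ) := by
  intro k x y
  have h1 := (h.uop (Λ := K) hl) k x y
  have h2 := (h.bop (Λ := K) hl) k x y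
  rw [tk_apply]
  show w • Uop K A P1 l hl φ _ _ + w' • Bop K A P1 l hl φ _ _ = w • Uop K A P1 l hl φ x y +
    w' • Bop K A P1 l hl φ x y
  rw [h1, h2]

/-! ### Injectivity of the twist -/

theorem sum_char_conv [IsDomain K] {q : ℕ} [Fact q.Prime] {ψ : DirichletCharacter K q} (hψ : ψ ≠ 1)
    (w : ZMod q) : ∑ u : ZMod q, ψ u * ψ⁻¹ (w - u) =
      ψ (-1) * ((if w = 0 then (q : K) else 0) - 1) := by
  by_cases hw : w = 0
  · rw [if_pos hw, hw]
    have h1 : ∀ u : ZMod q, ψ u * ψ⁻¹ (0 - u) = if u = 0 then 0 else ψ (-1) := by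
      intro u
      by_cases hu : u = 0
      · rw [if_pos hu, hu, MulChar.map_zero, zero_mul]
      · have h2 : IsUnit (-u) := (IsUnit.mk0 _ hu).neg
        rw [if_neg hu, zero_sub]
        have h3 : ψ u = ψ (-1) * ψ (-u) := by rw [← map_mul]; congr 1; ring
        rw [h3, mul_assoc, mul_inv_char ψ h2, mul_one]
    rw [Finset.sum_congr rfl fun u _ => h1 u, Finset.sum_ite, Finset.sum_const_zero, zero_add,
      Finset.sum_const, nsmul_eq_mul]
    have h4 : (Finset.univ.filter fun u : ZMod q => ¬ u = 0).card = q - 1 := by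
      rw [Finset.filter_ne', Finset.card_erase_of_mem (Finset.mem_univ _), Finset.card_univ,
        ZMod.card]
    rw [h4, Nat.cast_sub (Fact.out : q.Prime).one_lt.le, Nat.cast_one, mul_comm]
  · rw [if_neg hw, zero_sub, mul_neg, mul_one, ← jacobiSum_nontrivial_inv hψ, jacobiSum,
      ← Equiv.sum_comp (Units.mulLeft (Units.mk0 w hw))]
    refine Finset.sum_congr rfl fun t _ => ?_
    show ψ (w * t) * ψ⁻¹ (w - w * t) = _
    have h1 : w - w * t = w * (1 - t) := by ring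
    rw [h1, map_mul, map_mul]
    have h2 := mul_inv_char ψ (IsUnit.mk0 w hw)
    calc _ = (ψ w * ψ⁻¹ w) * (ψ t * ψ⁻¹ (1 - t)) := by ring
      _ = _ := by rw [h2, one_mul]

theorem Rt_Rt [IsDomain K] (h : TrInv φ) {q : ℕ} [Fact q.Prime] {ψ : DirichletCharacter K q}
    (hψ : ψ ≠ 1) : Rt q ψ⁻¹ A (Rt q ψ A φ) =
      ψ (-1) • ((q : K) • φ - ∑ w : ZMod q, pl (Tr ((w.val : ℚ) / q)) φ) := by
  have hq' : (q : ℚ) ≠ 0 := by exact_mod_cast (Fact.out : q.Prime).ne_zero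
  have h1 : ∀ u v : ZMod q, pl (Tr ((v.val : ℚ) / q)) (pl (Tr ((u.val : ℚ) / q)) φ) =
      pl (Tr (((u + v).val : ℚ) / q)) φ := by
    intro u v
    rw [pl_pl, Tr_mul]
    have h2 : (u.val : ℚ) / q + (v.val : ℚ) / q = (((u.val : ℤ) + v.val : ℤ) : ℚ) / q := by
      push_cast; field_simp
    rw [h2]
    exact h.pl_val (by push_cast; rw [ZMod.natCast_zmod_val, ZMod.natCast_zmod_val])
  rw [Rt_apply, Rt_apply]
  have h3 : ∀ v : ZMod q, ψ⁻¹ v • pl (Tr ((v.val : ℚ) / q))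
      (∑ u : ZMod q, ψ u • pl (Tr ((u.val : ℚ) / q)) φ) =
      ∑ w : ZMod q, (ψ⁻¹ v * ψ (w - v)) • pl (Tr ((w.val : ℚ) / q)) φ := by
    intro v
    rw [← plL_apply (K := K), map_sum, Finset.smul_sum, ← Equiv.sum_comp (Equiv.subRight v)]
    refine Finset.sum_congr rfl fun w _ => ?_
    rw [map_smul, plL_apply]
    show _ • ψ (w - v) • pl _ (pl (Tr (((w - v).val : ℚ) / q)) φ) = _
    rw [h1, sub_add_cancel, smul_smul]
  rw [Finset.sum_congr rfl fun v _ => h3 v, Finset.sum_comm]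
  have h4 : ∀ w : ZMod q, ∑ v : ZMod q, (ψ⁻¹ v * ψ (w - v)) • pl (Tr ((w.val : ℚ) / q)) φ =
      (ψ (-1) * ((if w = 0 then (q : K) else 0) - 1)) • pl (Tr ((w.val : ℚ) / q)) φ := by
    intro w
    rw [← Finset.sum_smul, ← sum_char_conv hψ, ← Equiv.sum_comp (Equiv.subLeft w)]
    congr 1
    refine Finset.sum_congr rfl fun v _ => ?_
    show ψ⁻¹ (w - v) * ψ (w - (w - v)) = _
    rw [sub_sub_cancel, mul_comm]
  rw [Finset.sum_congr rfl fun w _ => h4 w]
  simp only [mul_smul]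
  rw [← Finset.smul_sum]
  congr 1
  simp only [sub_smul, one_smul]
  rw [Finset.sum_sub_distrib]
  congr 1
  rw [Finset.sum_eq_single (0 : ZMod q)]
  · rw [if_pos rfl, ZMod.val_zero]
    have : Tr (((0 : ℕ) : ℚ) / q) = 1 := by rw [Nat.cast_zero, zero_div, Tr_zero]
    rw [this]
    congr 1
    ext x y
    simp only [pl, one_smul]
  · intro w _ hw
    rw [if_neg hw, zero_smul]
  · intro h; exact absurd (Finset.mem_univ _) h

end Fermat.Agent.TWCoh

namespace Fermat.Agent.TWCoh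

open Matrix CongruenceSubgroup
open scoped MatrixGroups OnePoint

variable {K : Type*} [Field K] [CharZero K] {A : Type*} [AddCommGroup A] [Module K A]
  {χ : ℤ → K} {N : ℕ} {φ : P1 → P1 → A}

/-- **Depletion.** -/
theorem eq_zero_of_depleted (h : CF χ N φ) (hχ1 : χ 1 = 1) {q : ℕ} [Fact q.Prime] {N1 : ℕ}
    (hN1 : N = q * N1) {j : ℤ} (hj : IsCoprime (1 + j * N1) (q : ℤ)) (hχj : χ (1 + j * N1) ≠ 1)
    (hdep : (q : K) • φ = ∑ w : ZMod q, pl (Tr ((w.val : ℚ) / q)) φ) : φ = 0 := by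
  have hq0 : (q : K) ≠ 0 := Nat.cast_ne_zero.2 (Fact.out : q.Prime).ne_zero
  have hq' : (q : ℚ) ≠ 0 := by exact_mod_cast (Fact.out : q.Prime).ne_zero
  have hT := h.trInv hχ1
  -- invariance
  have hinv : ∀ m : ℤ, pl (Tr ((m : ℚ) / q)) φ = φ := by
    intro m
    have h1 : (q : K) • pl (Tr ((m : ℚ) / q)) φ = (q : K) • φ := by
      rw [← plL_apply (K := K), ← map_smul, hdep, map_sum,
        ← Equiv.sum_comp (Equiv.addRight (m : ZMod q)) (fun w : ZMod q =>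
          pl (Tr ((w.val : ℚ) / q)) φ)]
      refine Finset.sum_congr rfl fun w _ => ?_
      show pl (Tr ((m : ℚ) / q)) (pl (Tr ((w.val : ℚ) / q)) φ) =
        pl (Tr (((w + (m : ZMod q)).val : ℚ) / q)) φ
      rw [pl_pl, Tr_mul]
      have h2 : (w.val : ℚ) / q + (m : ℚ) / q = (((w.val : ℤ) + m : ℤ) : ℚ) / q := by
        push_cast; field_simp
      rw [h2]
      exact hT.pl_val (by push_cast; rw [ZMod.natCast_zmod_val])
    have h2 := congrArg (fun z => (q : K)⁻¹ • z) h1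
    simpa only [smul_smul, inv_mul_cancel₀ hq0, one_smul] using h2
  -- the matrices
  obtain ⟨a, b, hab⟩ := hj
  -- `k = j a`
  obtain ⟨γ, g1, g2, g3, g4⟩ := exists_SL 1 0 (q * N1) 1 (by ring)
  obtain ⟨δ, h1, h2, h3, h4⟩ := exists_SL (1 + j * N1) (j * b) (q * N1) (1 - j * a * N1) (by
    linear_combination (-j * N1) * hab)
  have hγ : γ ∈ Gamma0 N := mem_Gamma0.2 (by rw [g3, hN1]; push_cast; exact dvd_rfl)
  have hδ : δ ∈ Gamma0 N := mem_Gamma0.2 (by rw [h3, hN1]; push_cast; exact dvd_rfl)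
  have habQ : (a : ℚ) * (1 + j * N1) + b * q = 1 := by exact_mod_cast hab
  have e1 : Tr ((j : ℚ) / q) * io γ = io δ * Tr (((j * a : ℤ) : ℚ) / q) := by
    refine (((ent_Tr _).mul (ent_io γ)).congr ?_ ?_ ?_ ?_).ext ((ent_io δ).mul (ent_Tr _))
    · rw [g1, g3, h1]; push_cast; field_simp; ring
    · rw [g2, g4, h1, h2]; push_cast; field_simp
      linear_combination (-(j : ℚ)) * habQ
    · rw [g1, g3, h3]; push_cast; ring
    · rw [g2, g4, h3, h4]; push_cast; field_simp; ring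
  have h5 : pl (io γ) (pl (Tr ((j : ℚ) / q)) φ) =
      pl (Tr (((j * a : ℤ) : ℚ) / q)) (pl (io δ) φ) := by rw [pl_pl, pl_pl, e1]
  rw [hinv, h.pl_io hγ, h.pl_io hδ, g1, h1, hχ1, one_smul, ← plL_apply (K := K), map_smul,
    plL_apply, hinv] at h5
  have h6 : (χ (1 + j * N1) - 1) • φ = 0 := by rw [sub_smul, one_smul, ← h5, sub_self]
  exact (smul_eq_zero.1 h6).resolve_left (sub_ne_zero.2 hχj)

/-- **Injectivity of the twist.** -/
theorem Rt_injective (h : CF χ N φ) (hχ1 : χ 1 = 1) {q : ℕ} [Fact q.Prime] {N1 : ℕ}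
    (hN1 : N = q * N1) {j : ℤ} (hj : IsCoprime (1 + j * N1) (q : ℤ)) (hχj : χ (1 + j * N1) ≠ 1)
    {ψ : DirichletCharacter K q} (hψ : ψ ≠ 1) (h0 : Rt q ψ A φ = 0) : φ = 0 := by
  have h1 := Rt_Rt (A := A) (h.trInv hχ1) hψ
  rw [h0, map_zero] at h1
  have h2 : IsUnit (ψ (-1)) := by
    exact IsUnit.map ψ (isUnit_one.neg)
  have h3 := (smul_eq_zero.1 h1.symm).resolve_left h2.ne_zero
  exact eq_zero_of_depleted h hχ1 hN1 hj hχj (sub_eq_zero.1 h3)

end Fermat.Agent.TWCoh
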